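import Mathlib
import Fermat.Prelude.Thm_IsAdicComplete_of_module_finite
import Fermat.Prelude.Thm_IsLocalRing_isAdicComplete_of_module_finite

/-!
# The integral closure of a complete DVR in a finite extension of its fraction field

For a complete discrete valuation ring `R` of characteristic zero with finite residue field and
a finite extension `L` of its fraction field `K`, the integral closure `integralClosure R L` is
again a complete discrete valuation ring with finite residue field, finite over `R`, with
fraction field `L`.  (Phase B of wave 5: the coefficient ring `𝒪''` of the statements S30/S36.)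

The only non-formal point is that the integral closure is *local*: it is a domain, finite over
the complete ring `R`, hence Henselian along `𝔪_R`; an idempotent power of any element modulo
`𝔪_R` lifts to an idempotent, which is `0` or `1`.
-/

set_option autoImplicit false

open IsLocalRing Polynomial

namespace Fermat.Agent.S30.IntClosureDVR

/-- In a finite monoid some positive power of any element is idempotent. -/
theorem exists_pow_isIdempotentElem {A : Type*} [Monoid A] [Finite A] (a : A) :
    ∃ n : ℕ, 0 < n ∧ IsIdempotentElem (a ^ n) := by
  have key : ∃ i d : ℕ, 0 < d ∧ a ^ (i + d) = a ^ i := by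
    obtain ⟨i, j, hij, h⟩ := Finite.exists_ne_map_eq_of_infinite (fun k : ℕ => a ^ k)
    rcases lt_or_gt_of_ne hij with hlt | hlt
    · exact ⟨i, j - i, by omega, by rw [show i + (j - i) = j by omega]; exact h.symm⟩
    · exact ⟨j, i - j, by omega, by rw [show j + (i - j) = i by omega]; exact h⟩
  obtain ⟨i, d, hd, h⟩ := key
  have hstep : ∀ k, i ≤ k → a ^ (k + d) = a ^ k := by
    intro k hk
    obtain ⟨c, rfl⟩ : ∃ c, k = i + c := ⟨k - i, by omega⟩
    rw [show i + c + d = (i + d) + c by ring, pow_add, h, ← pow_add]
  have hmul : ∀ t k, i ≤ k → a ^ (k + t * d) = a ^ k := by
    intro t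
    induction t with
    | zero => intro k _; simp
    | succ t ih =>
      intro k hk
      rw [show k + (t + 1) * d = (k + t * d) + d by ring, hstep _ (by omega), ih k hk]
  refine ⟨(i + 1) * d, Nat.mul_pos (Nat.succ_pos i) hd, ?_⟩
  have hge : i ≤ (i + 1) * d := by nlinarith
  show a ^ ((i + 1) * d) * a ^ ((i + 1) * d) = a ^ ((i + 1) * d)
  rw [← pow_add]
  exact hmul (i + 1) _ hge

/-- A domain which is Henselian along an ideal with finite quotient is a local ring. -/
theorem isLocalRing_of_henselian_of_finite_quotient {B : Type*} [CommRing B] [IsDomain B]
    (J : Ideal B) [HenselianRing B J] [Finite (B ⧸ J)] : IsLocalRing B := by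
  have hjac : J ≤ Ideal.jacobson ⊥ := HenselianRing.jac
  refine IsLocalRing.of_isUnit_or_isUnit_one_sub_self fun b => ?_
  obtain ⟨n, hn, hidem⟩ := exists_pow_isIdempotentElem (Ideal.Quotient.mk J b)
  have hmonic : (X ^ 2 - X : B[X]).Monic :=
    monic_X_pow_sub (by rw [degree_X]; norm_num)
  have heval : (X ^ 2 - X : B[X]).eval (b ^ n) ∈ J := by
    rw [← Ideal.Quotient.eq_zero_iff_mem]
    simp only [eval_sub, eval_pow, eval_X, map_sub, map_pow]
    have h := hidem.eq
    rw [sub_eq_zero, sq]
    exact h
  have hder : IsUnit (Ideal.Quotient.mk J ((X ^ 2 - X : B[X]).derivative.eval (b ^ n))) := by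
    have h2 : (Ideal.Quotient.mk J b ^ n) * (Ideal.Quotient.mk J b ^ n)
        = Ideal.Quotient.mk J b ^ n := hidem.eq
    have hx : Ideal.Quotient.mk J ((X ^ 2 - X : B[X]).derivative.eval (b ^ n))
        = 2 * Ideal.Quotient.mk J b ^ n - 1 := by
      simp
      ring
    rw [hx]
    refine IsUnit.of_mul_eq_one (2 * Ideal.Quotient.mk J b ^ n - 1) ?_
    linear_combination 4 * h2
  obtain ⟨e, he, hea⟩ := HenselianRing.is_henselian (I := J) (X ^ 2 - X : B[X]) hmonic (b ^ n)
    heval hder
  have he' : IsIdempotentElem e := by
    have : e ^ 2 - e = 0 := by simpa [IsRoot] using he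
    show e * e = e
    linear_combination this
  rcases IsIdempotentElem.iff_eq_zero_or_one.mp he' with rfl | rfl
  · -- `b ^ n ∈ J`, so `b` lies in the Jacobson radical
    right
    have hbn : b ^ n ∈ Ideal.jacobson (⊥ : Ideal B) := by
      apply hjac
      have : -(0 - b ^ n) ∈ J := J.neg_mem hea
      simpa using this
    have hunit : IsUnit (1 - b ^ n) := by
      have := Ideal.mem_jacobson_bot.mp hbn (-1)
      have e1 : b ^ n * -1 + 1 = 1 - b ^ n := by ring
      rwa [e1] at this
    have hdvd : (1 - b) ∣ (1 - b ^ n) := by
      have := sub_dvd_pow_sub_pow (1 : B) b n
      rwa [one_pow] at this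
    exact isUnit_of_dvd_unit hdvd hunit
  · -- `b ^ n ≡ 1` modulo the Jacobson radical, so `b` is a unit
    left
    have hbn : 1 - b ^ n ∈ Ideal.jacobson (⊥ : Ideal B) := hjac hea
    have hunit : IsUnit (b ^ n) := by
      have := Ideal.mem_jacobson_bot.mp hbn (-1)
      have e1 : (1 - b ^ n) * -1 + 1 = b ^ n := by ring
      rwa [e1] at this
    exact (isUnit_pow_iff hn.ne').mp hunit

section Main

variable (R : Type) [CommRing R] [IsDomain R] [IsDiscreteValuationRing R]
  [IsAdicComplete (maximalIdeal R) R] [Finite (ResidueField R)] [CharZero R]
  (K : Type) [Field K] [Algebra R K] [IsFractionRing R K]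
  (L : Type) [Field L] [Algebra K L] [FiniteDimensional K L] [Algebra R L] [IsScalarTower R K L]

include K in
theorem injective_algebraMap_top : Function.Injective (algebraMap R L) := by
  rw [IsScalarTower.algebraMap_eq R K L]
  exact (algebraMap K L).injective.comp (IsFractionRing.injective R K)

include K in
theorem injective_algebraMap_integralClosure :
    Function.Injective (algebraMap R (integralClosure R L)) := by
  intro x y h
  apply injective_algebraMap_top R K L
  have := congrArg (algebraMap (integralClosure R L) L) h
  rwa [← IsScalarTower.algebraMap_apply, ← IsScalarTower.algebraMap_apply] at this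

include K in
theorem moduleFinite_integralClosure : Module.Finite R (integralClosure R L) := by
  have : CharZero K := charZero_of_injective_algebraMap (IsFractionRing.injective R K)
  exact IsIntegralClosure.finite R K L (integralClosure R L)

include K in
theorem isDedekindDomain_integralClosure : IsDedekindDomain (integralClosure R L) := by
  have : CharZero K := charZero_of_injective_algebraMap (IsFractionRing.injective R K)
  exact IsIntegralClosure.isDedekindDomain R K L (integralClosure R L)

include K in
theorem isFractionRing_integralClosure : IsFractionRing (integralClosure R L) L :=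
  IsIntegralClosure.isFractionRing_of_finite_extension R K L (integralClosure R L)

include K in
theorem isLocalRing_integralClosure : IsLocalRing (integralClosure R L) := by
  have := moduleFinite_integralClosure R K L
  set J : Ideal (integralClosure R L) :=
    (maximalIdeal R).map (algebraMap R (integralClosure R L)) with hJ
  have hcomp : IsAdicComplete J (integralClosure R L) :=
    (IsAdicComplete.map_algebraMap_iff _ _).mpr
      (IsAdicComplete.of_module_finite (maximalIdeal R) (integralClosure R L))
  have : Finite (integralClosure R L ⧸ J) := by
    have : Module.Finite (R ⧸ maximalIdeal R) (integralClosure R L ⧸ J) :=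
      Module.Finite.of_restrictScalars_finite R _ _
    have : Finite (R ⧸ maximalIdeal R) := ‹Finite (ResidueField R)›
    exact Module.finite_of_finite (R ⧸ maximalIdeal R)
  exact isLocalRing_of_henselian_of_finite_quotient J

include K in
theorem isLocalHom_algebraMap_integralClosure :
    IsLocalHom (algebraMap R (integralClosure R L)) := by
  have : FaithfulSMul R (integralClosure R L) :=
    (faithfulSMul_iff_algebraMap_injective R (integralClosure R L)).mpr
      (injective_algebraMap_integralClosure R K L)
  exact Algebra.IsIntegral.isLocalHom R (integralClosure R L)

include K in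
theorem not_isField_integralClosure : ¬ IsField (integralClosure R L) := by
  intro hF
  exact IsDiscreteValuationRing.not_isField R
    (isField_of_isIntegral_of_isField (injective_algebraMap_integralClosure R K L) hF)

include K in
theorem isDiscreteValuationRing_integralClosure :
    IsDiscreteValuationRing (integralClosure R L) := by
  have := isLocalRing_integralClosure R K L
  have hded := isDedekindDomain_integralClosure R K L
  exact ((IsDiscreteValuationRing.TFAE (integralClosure R L)
    (not_isField_integralClosure R K L)).out 2 0).mp hded

include K in
theorem isAdicComplete_integralClosure :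
    letI := isLocalRing_integralClosure R K L
    IsAdicComplete (maximalIdeal (integralClosure R L)) (integralClosure R L) := by
  have hloc := isLocalRing_integralClosure R K L
  have := moduleFinite_integralClosure R K L
  have := isLocalHom_algebraMap_integralClosure R K L
  exact IsLocalRing.isAdicComplete_of_module_finite (𝒪 := R)

include K in
theorem finite_residueField_integralClosure :
    letI := isLocalRing_integralClosure R K L
    Finite (ResidueField (integralClosure R L)) := by
  have hloc := isLocalRing_integralClosure R K L
  have := moduleFinite_integralClosure R K L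
  have := isLocalHom_algebraMap_integralClosure R K L
  exact IsLocalRing.ResidueField.finite_of_finite (R := R) ‹_›

include K in
theorem charZero_integralClosure : CharZero (integralClosure R L) :=
  charZero_of_injective_algebraMap (injective_algebraMap_integralClosure R K L)

include K in
/-- Every element of `L` is a fraction with numerator in the integral closure and nonzero
denominator in `R`. -/
theorem exists_smul_mem_integralClosure (x : L) :
    ∃ r : R, r ≠ 0 ∧ algebraMap R L r * x ∈ integralClosure R L := by
  have halg : IsAlgebraic R x := by
    have h1 : IsAlgebraic K x := Algebra.IsAlgebraic.isAlgebraic x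
    exact (IsFractionRing.isAlgebraic_iff R K L).mpr h1
  obtain ⟨r, hr, h⟩ := halg.exists_integral_multiple
  refine ⟨r, hr, ?_⟩
  rw [← Algebra.smul_def]
  exact h

include K in
/-- **The coefficient ring of a finite extension.** For a complete DVR `R` of characteristic zero
with finite residue field and a finite extension `L` of its fraction field, there is a ring
`𝒪''` of the shape demanded by the frozen statements S30/S36, with fraction field `L`. -/
theorem exists_finite_extension :
    ∃ (𝒪'' : Type) (_ : CommRing 𝒪'') (_ : IsDomain 𝒪'') (_ : IsDiscreteValuationRing 𝒪'')
      (_ : IsAdicComplete (IsLocalRing.maximalIdeal 𝒪'') 𝒪'')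
      (_ : Finite (IsLocalRing.ResidueField 𝒪'')) (_ : CharZero 𝒪'')
      (_ : Algebra R 𝒪'') (_ : Module.Finite R 𝒪'') (_ : IsLocalHom (algebraMap R 𝒪''))
      (_ : Algebra 𝒪'' L) (_ : IsFractionRing 𝒪'' L) (_ : IsScalarTower R 𝒪'' L),
      Function.Injective (algebraMap R 𝒪'') := by
  have hloc := isLocalRing_integralClosure R K L
  have hdvr := isDiscreteValuationRing_integralClosure R K L
  exact ⟨integralClosure R L, inferInstance, inferInstance, hdvr,
    isAdicComplete_integralClosure R K L, finite_residueField_integralClosure R K L,
    charZero_integralClosure R K L, inferInstance, moduleFinite_integralClosure R K L,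
    isLocalHom_algebraMap_integralClosure R K L, inferInstance,
    isFractionRing_integralClosure R K L, inferInstance,
    injective_algebraMap_integralClosure R K L⟩

end Main

end Fermat.Agent.S30.IntClosureDVR
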