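import Mathlib
import Fermat.Agent.S30.IntClosureDVR

/-!
# Finite DVR extensions inside an algebraic extension (phase B of MODGAL, slice B7)

`O` a complete discrete valuation ring of characteristic zero with finite residue field, `K` a
field algebraic over `O`.  For every finite set `s ⊆ K` there is an `O`-subalgebra `B ⊆ K` which
is a complete discrete valuation ring with finite residue field, finite over `O`, and whose
fraction field contains `s`: the integral closure of `O` in `Frac(O)(s)`.
-/

set_option autoImplicit false

namespace Fermat.Agent.S30.DVRExt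

theorem exists_finite_dvr (O : Type) [CommRing O] [IsDomain O]
    [IsDiscreteValuationRing O] [IsAdicComplete (IsLocalRing.maximalIdeal O) O]
    [Finite (IsLocalRing.ResidueField O)] [CharZero O]
    (K : Type) [Field K] [Algebra O K] (hinj : Function.Injective (algebraMap O K))
    (halg : ∀ x : K, IsAlgebraic O x) (s : Finset K) :
    ∃ B : Subalgebra O K, ∃ (_ : IsDiscreteValuationRing B)
      (_ : IsAdicComplete (IsLocalRing.maximalIdeal B) B)
      (_ : Finite (IsLocalRing.ResidueField B)) (_ : Module.Finite O B)
      (_ : IsLocalHom (algebraMap O B)),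
      ∀ x ∈ s, ∃ a b : B, b ≠ 0 ∧ x * (b : K) = (a : K) := by
  classical
  let F := FractionRing O
  letI : Algebra F K := (IsFractionRing.lift hinj).toAlgebra
  haveI : IsScalarTower O F K :=
    IsScalarTower.of_algebraMap_eq (fun x => (IsFractionRing.lift_algebraMap hinj x).symm)
  let L : IntermediateField F K := IntermediateField.adjoin F (s : Set K)
  haveI : FiniteDimensional F L :=
    IntermediateField.finiteDimensional_adjoin (fun x _ =>
      isAlgebraic_iff_isIntegral.mp ((IsFractionRing.isAlgebraic_iff O F K).mp (halg x)))
  have hdvr := IntClosureDVR.isDiscreteValuationRing_integralClosure O F L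
  have hfin := IntClosureDVR.moduleFinite_integralClosure O F L
  let f : L →ₐ[O] K := L.val.restrictScalars O
  have hf : Function.Injective f := fun x y h => Subtype.ext h
  let B : Subalgebra O K := (integralClosure O L).map f
  let e : integralClosure O L ≃ₐ[O] B := Subalgebra.equivMapOfInjective _ f hf
  haveI hBdvr : IsDiscreteValuationRing B := IsDiscreteValuationRing.RingEquivClass.isDiscreteValuationRing e
  haveI hBfin : Module.Finite O B := Module.Finite.equiv e.toLinearEquiv
  have hBinj : Function.Injective (algebraMap O B) := by
    intro x y h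
    apply hinj
    exact congrArg (Subtype.val) h
  haveI : FaithfulSMul O B := (faithfulSMul_iff_algebraMap_injective O B).mpr hBinj
  haveI hBloc : IsLocalHom (algebraMap O B) := Algebra.IsIntegral.isLocalHom O B
  refine ⟨B, hBdvr, IsLocalRing.isAdicComplete_of_module_finite (𝒪 := O),
    IsLocalRing.ResidueField.finite_of_finite (R := O) ‹_›, hBfin, hBloc, ?_⟩
  intro x hx
  have hxL : x ∈ L := IntermediateField.subset_adjoin F _ hx
  obtain ⟨r, hr, h⟩ := IntClosureDVR.exists_smul_mem_integralClosure O F L ⟨x, hxL⟩
  refine ⟨⟨f (algebraMap O L r * ⟨x, hxL⟩), ⟨_, h, rfl⟩⟩, algebraMap O B r, ?_, ?_⟩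
  · intro h0
    exact hr (hBinj (by rw [h0, map_zero]))
  · show x * algebraMap O K r = algebraMap O K r * x
    exact mul_comm _ _

end Fermat.Agent.S30.DVRExt
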