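import Mathlib
import Fermat.Prelude.Def_CuspForm_HeckeGaloisRepDatum

/-!
# Phase B (S30 / S31): the abstract inputs

* `WeakCheb` : the weak Chebotarev statement (package C of phase A);
* `CycPadic p` : existence of the `p`-adic cyclotomic character with its three properties
  (finite levels, trivial on inertia away from `p`, value `ℓ` at Frobenius lifts);
* `GeomInput p N S` : everything the `p`-adic layer needs from the geometry of `J₀(N)`:
  a Galois module `X` (in practice `J₀(N)(ℚ̄)`) with Hecke operators `T ℓ`, Eichler–Shimura and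
  triviality of inertia on `p`-power torsion, open stabilisers, and a lattice `Λ` with a
  *faithful* action of the prelude Hecke algebra together with Hecke-equivariant maps
  `θ n : Λ → X[p ^ n]` with kernel `p ^ n Λ` (the Kummer maps restricted to the period lattice);
* `TateInput p N S` : the `p`-adic Tate module: a finite free `ℤ_p`-module with commuting
  Galois and Hecke actions, continuity, Eichler–Shimura, triviality of inertia, and an
  eigenvector for every character of the Hecke algebra.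
-/

set_option autoImplicit false

open scoped TensorProduct

namespace Fermat.Agent.S30

/-- `ℚ̄`. -/
abbrev Qb : Type := AlgebraicClosure ℚ

/-- The absolute Galois group of `ℚ`. -/
abbrev GQ : Type := Qb ≃ₐ[ℚ] Qb

/-- Weak Chebotarev: every element of `Gal(ℚ̄/ℚ)` agrees, on any given finite level, with a power
of a Frobenius lift at a prime outside any given finite set. -/
def WeakCheb : Prop :=
  ∀ (L : IntermediateField ℚ Qb) [FiniteDimensional ℚ L] (S : Finset ℕ) (σ : GQ),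
    ∃ (ℓ : ℕ) (A : ValuationSubring Qb) (φ : GQ) (i : ℕ),
      ℓ.Prime ∧ ℓ ∉ S ∧ A.LiesOverPrime ℓ ∧ A.IsFrobeniusAt φ ℓ ∧ ∀ x ∈ L, σ x = (φ ^ i) x

/-- The `p`-adic cyclotomic character exists, with finite levels, trivial on inertia away from
`p` and with value `ℓ` at Frobenius lifts at `ℓ ≠ p`. -/
def CycPadic (p : ℕ) [Fact p.Prime] : Prop :=
  ∃ ε : GQ →* ℤ_[p]ˣ,
    (∀ n : ℕ, ∃ L : IntermediateField ℚ Qb, FiniteDimensional ℚ L ∧
      ∀ σ : GQ, (∀ x ∈ L, σ x = x) →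
        ∃ w : ℤ_[p], ((ε σ : ℤ_[p]ˣ) : ℤ_[p]) = 1 + (p : ℤ_[p]) ^ n * w) ∧
    ∀ ℓ : ℕ, ℓ.Prime → ℓ ≠ p → ∀ A : ValuationSubring Qb, A.LiesOverPrime ℓ →
      (∀ σ ∈ A.inertiaSubgroupIn ℚ, ε σ = 1) ∧
      ∀ s : GQ, A.IsFrobeniusAt s ℓ → ((ε s : ℤ_[p]ˣ) : ℤ_[p]) = (ℓ : ℤ_[p])

/-- The abstract geometric input for S30 / S31. -/
structure GeomInput (p : ℕ) (N : ℕ) [NeZero N] (S : Finset ℕ) : Type 1 where
  /-- the Galois module (`J₀(N)(ℚ̄)`) -/
  X : Type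
  [instAddCommGroup : AddCommGroup X]
  [instAction : DistribMulAction GQ X]
  /-- the Hecke operators -/
  T : Nat.Primes → X →+ X
  comm : ∀ (ℓ : Nat.Primes) (σ : GQ) (x : X), σ • T ℓ x = T ℓ (σ • x)
  stab : ∀ x : X, ∃ L : IntermediateField ℚ Qb, FiniteDimensional ℚ L ∧
    ∀ σ : GQ, (∀ y ∈ L, σ y = y) → σ • x = x
  inertia : ∀ q : ℕ, q.Prime → ¬ q ∣ N → q ≠ p → ∀ A : ValuationSubring Qb,
    A.LiesOverPrime q → ∀ σ ∈ A.inertiaSubgroupIn ℚ, ∀ (n : ℕ) (x : X), p ^ n • x = 0 →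
      σ • x = x
  frob : ∀ (ℓ : ℕ) (hℓ : ℓ.Prime), ¬ ℓ ∣ N → ℓ ≠ p → ∀ A : ValuationSubring Qb,
    A.LiesOverPrime ℓ → ∀ s : GQ, A.IsFrobeniusAt s ℓ → ∀ (n : ℕ) (x : X), p ^ n • x = 0 →
      s • s • x - T ⟨ℓ, hℓ⟩ (s • x) + ℓ • x = 0
  /-- the lattice (dual of the period lattice) -/
  Λ : Type
  [instLat : AddCommGroup Λ]
  [instFree : Module.Free ℤ Λ]
  [instFinite : Module.Finite ℤ Λ]
  /-- the Hecke action on the lattice -/
  hecke : CuspForm.heckeAlgebra N 2 (↑S : Set ℕ) →+* Module.End ℤ Λ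
  hecke_injective : Function.Injective hecke
  /-- the Kummer maps `Λ → X[p ^ n]` -/
  θ : ℕ → Λ →+ X
  θ_tors : ∀ (n : ℕ) (v : Λ), p ^ n • θ n v = 0
  θ_ker : ∀ (n : ℕ) (v : Λ), θ n v = 0 → ∃ w : Λ, v = p ^ n • w
  θ_hecke : ∀ (n : ℕ) (ℓ : ℕ) (hℓ : ℓ.Prime) (hℓN : ¬ ℓ ∣ N) (hℓS : ℓ ∉ (↑S : Set ℕ)) (v : Λ),
    θ n (hecke (CuspForm.heckeAlgebra.T hℓ hℓN hℓS) v) = T ⟨ℓ, hℓ⟩ (θ n v)

attribute [instance] GeomInput.instAddCommGroup GeomInput.instAction GeomInput.instLat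
  GeomInput.instFree GeomInput.instFinite

/-- compatibility of the Kummer maps between consecutive levels -/
def GeomInput.Compat {p : ℕ} {N : ℕ} [NeZero N] {S : Finset ℕ} (I : GeomInput p N S) : Prop :=
  ∀ (n : ℕ) (v : I.Λ), p • I.θ (n + 1) v = I.θ n v

/-- finiteness of the `p`-torsion -/
def GeomInput.FiniteTors {p : ℕ} {N : ℕ} [NeZero N] {S : Finset ℕ} (I : GeomInput p N S) :
    Prop :=
  Finite {x : I.X // p • x = 0}

/-- The abstract `p`-adic Tate module input for S30. -/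
structure TateInput (p : ℕ) [Fact p.Prime] (N : ℕ) [NeZero N] (S : Finset ℕ) : Type 1 where
  /-- the Tate module -/
  M : Type
  [instAddCommGroup : AddCommGroup M]
  [instModule : Module ℤ_[p] M]
  [instFree : Module.Free ℤ_[p] M]
  [instFinite : Module.Finite ℤ_[p] M]
  /-- the Galois action -/
  ρ : GQ →* Module.End ℤ_[p] M
  /-- the Hecke operators -/
  T : Nat.Primes → Module.End ℤ_[p] M
  commute : ∀ (ℓ : Nat.Primes) (σ : GQ), Commute (T ℓ) (ρ σ)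
  cont : ∀ n : ℕ, ∃ L : IntermediateField ℚ Qb, FiniteDimensional ℚ L ∧
    ∀ σ : GQ, (∀ x ∈ L, σ x = x) → ∀ v : M, ∃ w : M, ρ σ v - v = (p : ℤ_[p]) ^ n • w
  frob : ∀ (ℓ : ℕ) (hℓ : ℓ.Prime), ¬ ℓ ∣ N → ℓ ≠ p → ∀ A : ValuationSubring Qb,
    A.LiesOverPrime ℓ → ∀ σ : GQ, A.IsFrobeniusAt σ ℓ →
      ρ σ * ρ σ - T ⟨ℓ, hℓ⟩ * ρ σ + (ℓ : Module.End ℤ_[p] M) = 0
  inertia : ∀ q : ℕ, q.Prime → ¬ q ∣ N → q ≠ p → ∀ A : ValuationSubring Qb,
    A.LiesOverPrime q → ∀ σ ∈ A.inertiaSubgroupIn ℚ, ρ σ = 1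
  eigen : ∀ (K : Type) [Field K] [CharZero K] [Algebra ℤ_[p] K]
    (χ : CuspForm.heckeAlgebra N 2 (↑S : Set ℕ) →+* K),
    ∃ v : K ⊗[ℤ_[p]] M, v ≠ 0 ∧ ∀ (ℓ : ℕ) (hℓ : ℓ.Prime) (hℓN : ¬ ℓ ∣ N)
      (hℓS : ℓ ∉ (↑S : Set ℕ)),
      (T ⟨ℓ, hℓ⟩).baseChange K v = χ (CuspForm.heckeAlgebra.T hℓ hℓN hℓS) • v

attribute [instance] TateInput.instAddCommGroup TateInput.instModule TateInput.instFree
  TateInput.instFinite

end Fermat.Agent.S30
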