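import Mathlib
import Fermat.Agent.S29.Defs

/-!
# Reduction of PE characters modulo a divisor

`redPE N h : peHoms N (ZMod m') →+ peHoms N (ZMod m)` for `h : m ∣ m'` (composition with
`ZMod.castHom`).  Shared definition of phase B (levels `p ^ n` of the Kummer maps).
-/

set_option autoImplicit false

namespace Fermat.Agent.S30

/-- reduction of PE characters modulo a divisor -/
noncomputable def redPE (N : ℕ) {m m' : ℕ} (h : m ∣ m') :
    S29.peHoms N (ZMod m') →+ S29.peHoms N (ZMod m) where
  toFun ψ := ⟨(ZMod.castHom h (ZMod m)).toAddMonoidHom.comp ψ.1, fun γ hγ => by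
    show (ZMod.castHom h (ZMod m)) (ψ.1 (Additive.ofMul γ)) = 0
    rw [ψ.2 γ hγ, map_zero]⟩
  map_zero' := by
    apply Subtype.ext
    apply AddMonoidHom.ext
    intro γ
    show (ZMod.castHom h (ZMod m)) ((0 : Additive (S22.Gam N) →+ ZMod m') γ) = 0
    rw [AddMonoidHom.zero_apply, map_zero]
  map_add' := by
    intro a b
    apply Subtype.ext
    apply AddMonoidHom.ext
    intro γ
    show (ZMod.castHom h (ZMod m)) ((a.1 + b.1) γ) =
      (ZMod.castHom h (ZMod m)) (a.1 γ) + (ZMod.castHom h (ZMod m)) (b.1 γ)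
    rw [AddMonoidHom.add_apply, map_add]

theorem redPE_apply (N : ℕ) {m m' : ℕ} (h : m ∣ m') (ψ : S29.peHoms N (ZMod m'))
    (γ : S22.Gam N) :
    ((redPE N h ψ : S29.peHoms N (ZMod m)) : Additive (S22.Gam N) →+ ZMod m)
        (Additive.ofMul γ) =
      ZMod.castHom h (ZMod m)
        ((ψ : Additive (S22.Gam N) →+ ZMod m') (Additive.ofMul γ)) := rfl

end Fermat.Agent.S30
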