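/-
S30 / S31 (wave 5, phase B), helper20: the concrete geometric input for `J₀(N)(ℚ̄)`.

`exists_geomInput_of`: from the Kummer maps in family form (`ThetaFam.exists_family`) and the
dual period lattice (`PerLatJ.exists_lattice`), both taken as hypotheses in their interface
shapes, build a `GeomInput p N S` with `X := JZero N`, `T ℓ := heckeOperatorBar N ℓ`,
`θ n v := Θ (p ^ n) (incl v mod p ^ n)`, which is level-compatible (`Compat`) and has finite
`p`-torsion (`FiniteTors`).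

Inputs from phase A: `GalHeckeComm.galois_smul_heckeOperatorBar` (Galois commutes with Hecke),
`OpenStab.exists_finiteDimensional_fixing` (open stabilisers), `GalES.inertia_smul_eq` /
`GalES.frobenius_quadratic` (inertia and Eichler–Shimura on prime-to-`ℓ` torsion),
`KFin.finite_Jtors` (finiteness of torsion).
-/
import Mathlib
import Fermat.Agent.S30.Defs
import Fermat.Agent.S30.RedPE
import Fermat.Agent.S29.GalES
import Fermat.Agent.S29.GalHeckeComm
import Fermat.Agent.S29.OpenStab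
import Fermat.Agent.S29.KFinTop

set_option autoImplicit false

namespace Fermat.Agent.S30.GeomJac

open ModularCurve AlgebraicCurve

noncomputable section

/-- reduction modulo `m` of integral PE characters -/
def modPE (N m : ℕ) : S29.peHoms N ℤ →+ S29.peHoms N (ZMod m) where
  toFun ψ := ⟨(Int.castAddHom (ZMod m)).comp ψ.1, fun γ hγ => by
    show ((ψ.1 (Additive.ofMul γ) : ℤ) : ZMod m) = 0
    rw [ψ.2 γ hγ, Int.cast_zero]⟩
  map_zero' := by
    apply Subtype.ext
    apply AddMonoidHom.ext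
    intro γ
    show (((0 : Additive (S22.Gam N) →+ ℤ) γ : ℤ) : ZMod m) = 0
    rw [AddMonoidHom.zero_apply, Int.cast_zero]
  map_add' := by
    intro a b
    apply Subtype.ext
    apply AddMonoidHom.ext
    intro γ
    show (((a.1 + b.1) γ : ℤ) : ZMod m) = ((a.1 γ : ℤ) : ZMod m) + ((b.1 γ : ℤ) : ZMod m)
    rw [AddMonoidHom.add_apply, Int.cast_add]

theorem modPE_apply (N m : ℕ) (ψ : S29.peHoms N ℤ) (γ : S22.Gam N) :
    ((modPE N m ψ : S29.peHoms N (ZMod m)) : Additive (S22.Gam N) →+ ZMod m)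
        (Additive.ofMul γ) =
      (((ψ : Additive (S22.Gam N) →+ ℤ) (Additive.ofMul γ) : ℤ) : ZMod m) := rfl

/-- reduction is compatible with the transition maps -/
theorem redPE_modPE (N : ℕ) {m m' : ℕ} (h : m ∣ m') (ψ : S29.peHoms N ℤ) :
    redPE N h (modPE N m' ψ) = modPE N m ψ := by
  apply Subtype.ext
  apply AddMonoidHom.ext
  intro γ
  show ZMod.castHom h (ZMod m) ((((ψ : Additive (S22.Gam N) →+ ℤ) γ : ℤ) : ZMod m')) =
    ((((ψ : Additive (S22.Gam N) →+ ℤ) γ : ℤ) : ZMod m))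
  rw [map_intCast]

/-- a PE character mod `m` is killed by `m` -/
theorem nsmul_peHoms_eq_zero (N m : ℕ) (χ : S29.peHoms N (ZMod m)) : m • χ = 0 := by
  apply Subtype.ext
  apply AddMonoidHom.ext
  intro γ
  show (m • (χ : Additive (S22.Gam N) →+ ZMod m)) γ = (0 : Additive (S22.Gam N) →+ ZMod m) γ
  rw [AddMonoidHom.smul_apply, AddMonoidHom.zero_apply, nsmul_eq_mul, ZMod.natCast_self,
    zero_mul]

/-- the kernel of reduction mod `m`: pointwise divisibility -/
theorem dvd_of_modPE_eq_zero (N m : ℕ) (ψ : S29.peHoms N ℤ) (h : modPE N m ψ = 0)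
    (γ : S22.Gam N) : (m : ℤ) ∣ (ψ : Additive (S22.Gam N) →+ ℤ) (Additive.ofMul γ) := by
  have h1 : ((modPE N m ψ : S29.peHoms N (ZMod m)) : Additive (S22.Gam N) →+ ZMod m)
      (Additive.ofMul γ) = 0 := by
    rw [h]; rfl
  rw [modPE_apply] at h1
  exact (ZMod.intCast_zmod_eq_zero_iff_dvd _ m).mp h1

/-- an integral character all of whose values are divisible by `m ≠ 0` is `m` times a
character -/
theorem exists_eq_nsmul_of_dvd (N m : ℕ) (hm : m ≠ 0) (ψ : Additive (S22.Gam N) →+ ℤ)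
    (h : ∀ γ : S22.Gam N, (m : ℤ) ∣ ψ (Additive.ofMul γ)) :
    ∃ φ : Additive (S22.Gam N) →+ ℤ, ψ = m • φ := by
  have hm' : (m : ℤ) ≠ 0 := Int.natCast_ne_zero.mpr hm
  refine ⟨{ toFun := fun γ => ψ γ / (m : ℤ)
            map_zero' := by rw [map_zero, Int.zero_ediv]
            map_add' := fun a b => by
              rw [map_add]
              exact Int.add_ediv_of_dvd_left (h (Additive.toMul a)) }, ?_⟩
  apply AddMonoidHom.ext
  intro γ
  rw [AddMonoidHom.smul_apply]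
  show ψ γ = m • (ψ γ / (m : ℤ))
  rw [nsmul_eq_mul]
  exact (Int.mul_ediv_cancel' (h (Additive.toMul γ))).symm

/-- `Θ m ∘ modPE N m` only depends on the value of `m` -/
theorem theta_congr (N : ℕ) (Θ : ∀ m : ℕ, S29.peHoms N (ZMod m) →+ JZero N) {m m' : ℕ}
    (h : m = m') (ψ : S29.peHoms N ℤ) : Θ m (modPE N m ψ) = Θ m' (modPE N m' ψ) := by
  subst h
  rfl

/-- **The concrete geometric input for `J₀(N)(ℚ̄)`**, from the Kummer maps in family form and the
dual period lattice (both in their interface shapes). -/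
theorem exists_geomInput_of (p : ℕ) [Fact p.Prime] (N : ℕ) [NeZero N] (S : Finset ℕ)
    (hΘ : ∃ Θ : ∀ m : ℕ, S29.peHoms N (ZMod m) →+ ModularCurve.JZero N,
      (∀ m : ℕ, 0 < m → Function.Injective (Θ m)) ∧
      (∀ (m : ℕ), 0 < m → ∀ (ℓ : ℕ) [Fact ℓ.Prime] (hℓN : ¬ ℓ ∣ N)
        (χ χ' : S29.peHoms N (ZMod m)),
        (∀ γ : S22.Gam N, (χ' : Additive (S22.Gam N) →+ ZMod m) (Additive.ofMul γ) =
          ∑ x : OnePoint (ZMod ℓ),
            (χ : Additive (S22.Gam N) →+ ZMod m) (Additive.ofMul (S22.gamT hℓN γ x))) →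
        Θ m χ' = ModularCurve.heckeOperatorBar N ⟨ℓ, Fact.out⟩ (Θ m χ)) ∧
      ∀ (m d : ℕ), 0 < m → 0 < d → ∀ ψ : S29.peHoms N (ZMod (m * d)),
        Θ m (redPE N (Dvd.intro d rfl) ψ) = d • Θ (m * d) ψ)
    (hΛ : ∃ (Λ : Type) (_ : AddCommGroup Λ) (_ : Module.Free ℤ Λ) (_ : Module.Finite ℤ Λ)
      (hecke : CuspForm.heckeAlgebra N 2 (↑S : Set ℕ) →+* Module.End ℤ Λ)
      (incl : Λ →+ (Additive (S22.Gam N) →+ ℤ)),
      Function.Injective hecke ∧ Function.Injective incl ∧ (∀ v : Λ, S29.IsPE (incl v)) ∧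
      (∀ (ψ : Additive (S22.Gam N) →+ ℤ) (k : ℕ), k ≠ 0 → (∃ v : Λ, incl v = k • ψ) →
        ∃ v : Λ, incl v = ψ) ∧
      ∀ (ℓ : ℕ) [Fact ℓ.Prime] (hℓN : ¬ ℓ ∣ N) (hℓS : ℓ ∉ (↑S : Set ℕ)) (v : Λ)
        (γ : S22.Gam N),
        incl (hecke (CuspForm.heckeAlgebra.T Fact.out hℓN hℓS) v) (Additive.ofMul γ) =
          ∑ x : OnePoint (ZMod ℓ), incl v (Additive.ofMul (S22.gamT hℓN γ x))) :
    ∃ I : GeomInput p N S, I.Compat ∧ I.FiniteTors := by
  classical
  have hp : p.Prime := Fact.out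
  obtain ⟨Θ, hΘinj, hΘhecke, hΘfam⟩ := hΘ
  obtain ⟨Λ, iΛ1, iΛ2, iΛ3, hecke, incl, hhecke_inj, hincl_inj, hPE, hsat, hincl_hecke⟩ := hΛ
  -- the inclusion into integral PE characters
  let inclPE : Λ →+ S29.peHoms N ℤ := incl.codRestrict (S29.peHoms N ℤ) hPE
  have hinclPE : ∀ v : Λ, ((inclPE v : S29.peHoms N ℤ) : Additive (S22.Gam N) →+ ℤ) = incl v :=
    fun v => rfl
  let θ : ℕ → Λ →+ JZero N := fun n => (Θ (p ^ n)).comp ((modPE N (p ^ n)).comp inclPE)
  have hθ : ∀ n v, θ n v = Θ (p ^ n) (modPE N (p ^ n) (inclPE v)) := fun n v => rfl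
  have hpn : ∀ n : ℕ, 0 < p ^ n := fun n => pow_pos hp.pos n
  have hnd : ∀ {q : ℕ}, q.Prime → q ≠ p → ∀ n : ℕ, ¬ q ∣ p ^ n := by
    intro q hq hqp n hdvd
    exact hqp ((Nat.prime_dvd_prime_iff_eq hq hp).mp (hq.dvd_of_dvd_pow hdvd))
  let I : GeomInput p N S :=
    { X := JZero N
      T := fun ℓ => (heckeOperatorBar N ℓ).toAddMonoidHom
      comm := fun ℓ σ x =>
        Fermat.Agent.S29.GalHeckeComm.galois_smul_heckeOperatorBar N ℓ σ x
      stab := fun x => Fermat.Agent.S29.OpenStab.exists_finiteDimensional_fixing N x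
      inertia := fun q hq hqN hqp A hA σ hσ n x hx =>
        Fermat.Agent.S29.GalES.inertia_smul_eq N hq hqN A hA hσ (hnd hq hqp n) hx
      frob := fun ℓ hℓ hℓN hℓp A hA s hs n x hx =>
        Fermat.Agent.S29.GalES.frobenius_quadratic N hℓ hℓN A hA hs (hnd hℓ hℓp n) hx
      Λ := Λ
      hecke := hecke
      hecke_injective := hhecke_inj
      θ := θ
      θ_tors := fun n v => by
        rw [hθ, ← map_nsmul, nsmul_peHoms_eq_zero, map_zero]
      θ_ker := fun n v hv => by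
        rw [hθ] at hv
        have h0 : modPE N (p ^ n) (inclPE v) = 0 :=
          hΘinj (p ^ n) (hpn n) (hv.trans (map_zero _).symm)
        obtain ⟨φ, hφ⟩ := exists_eq_nsmul_of_dvd N (p ^ n) (hpn n).ne' (incl v)
          (fun γ => dvd_of_modPE_eq_zero N (p ^ n) (inclPE v) h0 γ)
        obtain ⟨w, hw⟩ := hsat φ (p ^ n) (hpn n).ne' ⟨v, hφ⟩
        refine ⟨w, hincl_inj ?_⟩
        rw [map_nsmul, hw, hφ]
      θ_hecke := fun n ℓ hℓ hℓN hℓS v => by
        have : Fact ℓ.Prime := ⟨hℓ⟩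
        rw [hθ, hθ]
        refine hΘhecke (p ^ n) (hpn n) ℓ hℓN _ _ (fun γ => ?_)
        rw [modPE_apply, hinclPE]
        have h1 := hincl_hecke ℓ hℓN hℓS v γ
        rw [h1, Int.cast_sum]
        rfl }
  refine ⟨I, ?_, ?_⟩
  · intro n v
    show p • θ (n + 1) v = θ n v
    rw [hθ, hθ, theta_congr N Θ (pow_succ p n) (inclPE v),
      ← hΘfam (p ^ n) p (hpn n) hp.pos, redPE_modPE]
  · show Finite {x : JZero N // p • x = 0}
    have : NeZero p := ⟨hp.ne_zero⟩
    have : Finite (S29.Jtors N p) := Fermat.Agent.S29.KFin.finite_Jtors N p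
    refine Finite.of_injective
      (fun x : {x : JZero N // p • x = 0} =>
        (⟨x.1, Pic0.mem_torsion.mpr (by rw [natCast_zsmul]; exact x.2)⟩ : S29.Jtors N p)) ?_
    intro x y hxy
    exact Subtype.ext (congrArg (fun z : S29.Jtors N p => (z : JZero N)) hxy)

end

end Fermat.Agent.S30.GeomJac
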