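import Mathlib
import Fermat.Agent.S29.CycloChar

/-!
# The canonical ring homomorphism `ℤ_[p] →+* R` into an adically complete ring, and the
cyclotomic character with values in `R`

* `padicHom p I hp : ℤ_[p] →+* R` for `R` `I`-adically complete with `(p : R) ∈ I`;
* `ringHom_padicInt_ext` : two ring homomorphisms `ℤ_[p] →+* R` agree as soon as `R` is
  `I`-adically separated and `(p : R) ∈ I`;
* `map_mem_pow` : any ring hom `ℤ_[p] →+* R` maps `p ^ n ℤ_[p]` into `I ^ n` (`(p : R) ∈ I`);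
* `injective_of_isDomain`, `isLocalHom_of_ne_top`;
* `cycloVia ι : GQ →* Rˣ` for any ring hom `ι : ℤ_[p] →+* R`: value `ℓ` at Frobenius lifts at
  `ℓ ≠ p`, trivial on inertia at `ℓ ≠ p`, congruent to `1` modulo `p ^ n` on a finite level;
* `cycloComplete p I hp : GQ →* Rˣ` : the same for the canonical `padicHom`, with the
  congruence modulo `I ^ n` and naturality in `R`.
-/

set_option autoImplicit false

namespace Fermat.Agent.S30.PadicHom

noncomputable section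

open Fermat.Agent.S29

local notation "Qb" => AlgebraicClosure ℚ
local notation "GQ" => (AlgebraicClosure ℚ ≃ₐ[ℚ] AlgebraicClosure ℚ)

variable (p : ℕ) [Fact p.Prime] {R : Type*} [CommRing R] (I : Ideal R)

/-! ### Ring homomorphisms out of `ℤ_[p]` -/

/-- Any ring hom `ℤ_[p] →+* R` maps `p ^ n ℤ_[p]` into `I ^ n` when `(p : R) ∈ I`. -/
theorem map_mem_pow {I : Ideal R} (hp : (p : R) ∈ I) (ι : ℤ_[p] →+* R) {n : ℕ} {x : ℤ_[p]}
    (hx : x ∈ Ideal.span {(p : ℤ_[p]) ^ n}) : ι x ∈ I ^ n := by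
  obtain ⟨y, rfl⟩ := Ideal.mem_span_singleton.mp hx
  rw [map_mul, map_pow, map_natCast]
  exact Ideal.mul_mem_right _ _ (Ideal.pow_mem_pow hp n)

/-- Any ring hom `ℤ_[p] →+* R` maps `p ^ n ℤ_[p]` into `p ^ n R`. -/
theorem map_mem_span_pow (ι : ℤ_[p] →+* R) {n : ℕ} {x : ℤ_[p]}
    (hx : x ∈ Ideal.span {(p : ℤ_[p]) ^ n}) : ι x ∈ Ideal.span {(p : R) ^ n} := by
  obtain ⟨y, rfl⟩ := Ideal.mem_span_singleton.mp hx
  rw [map_mul, map_pow, map_natCast]
  exact Ideal.mul_mem_right _ _ (Ideal.subset_span rfl)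

/-- **Uniqueness**: two ring homomorphisms `ℤ_[p] →+* R` agree when `R` is `I`-adically
separated and `(p : R) ∈ I`. -/
theorem ringHom_padicInt_ext [IsHausdorff I R] (hp : (p : R) ∈ I) (f g : ℤ_[p] →+* R) : f = g := by
  ext x
  rw [← sub_eq_zero]
  refine IsHausdorff.haus' (I := I) _ (fun n => ?_)
  rw [SModEq.zero, smul_eq_mul, Ideal.mul_top]
  have h1 : x - (x.appr n : ℤ_[p]) ∈ Ideal.span {(p : ℤ_[p]) ^ n} := PadicInt.appr_spec n x
  have h2 : f x - g x = f (x - (x.appr n : ℤ_[p])) - g (x - (x.appr n : ℤ_[p])) := by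
    rw [map_sub, map_sub, map_natCast, map_natCast]
    ring
  rw [h2]
  exact sub_mem (map_mem_pow p hp f h1) (map_mem_pow p hp g h1)

/-- A ring hom `ℤ_[p] →+* R` into a domain in which `p ≠ 0` is injective. -/
theorem injective_of_isDomain [IsDomain R] (hp0 : (p : R) ≠ 0) (ι : ℤ_[p] →+* R) :
    Function.Injective ι := by
  rw [injective_iff_map_eq_zero]
  intro x hx
  by_contra hne
  have h1 := PadicInt.unitCoeff_spec hne
  rw [h1, map_mul, map_pow, map_natCast] at hx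
  rcases mul_eq_zero.mp hx with h2 | h2
  · have hu : IsUnit (ι (PadicInt.unitCoeff hne : ℤ_[p])) :=
      (PadicInt.unitCoeff hne).isUnit.map ι
    exact hu.ne_zero h2
  · exact hp0 (pow_eq_zero_iff (n := x.valuation) (by
      intro h0
      rw [h0, pow_zero] at h2
      exact one_ne_zero h2) |>.mp h2)

/-- A ring hom `ℤ_[p] →+* R` is local as soon as `(p : R)` lies in a proper ideal. -/
theorem isLocalHom_of_ne_top {I : Ideal R} (hp : (p : R) ∈ I) (hI : I ≠ ⊤) (ι : ℤ_[p] →+* R) :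
    IsLocalHom ι := by
  constructor
  intro x hx
  by_contra hnu
  have h1 : x ∈ IsLocalRing.maximalIdeal ℤ_[p] := (IsLocalRing.mem_maximalIdeal x).mpr hnu
  rw [PadicInt.maximalIdeal_eq_span_p, Ideal.mem_span_singleton] at h1
  obtain ⟨y, rfl⟩ := h1
  rw [map_mul, map_natCast] at hx
  exact hI (Ideal.eq_top_of_isUnit_mem I (Ideal.mul_mem_right _ _ hp) hx)

/-! ### Existence for adically complete rings -/

/-- the ring hom `ZMod (p ^ n) →+* R ⧸ I ^ n` when `(p : R) ∈ I` -/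
def zmodHom {I : Ideal R} (hp : (p : R) ∈ I) (n : ℕ) : ZMod (p ^ n) →+* R ⧸ I ^ n :=
  (Ideal.Quotient.lift (Ideal.span {((p ^ n : ℕ) : ℤ)}) (Int.castRingHom (R ⧸ I ^ n)) (by
    intro a ha
    obtain ⟨b, rfl⟩ := Ideal.mem_span_singleton.mp ha
    have h0 : (((p ^ n : ℕ) : ℤ) : R ⧸ I ^ n) = 0 := by
      have : (((p ^ n : ℕ) : ℤ) : R ⧸ I ^ n) = Ideal.Quotient.mk (I ^ n) ((p : R) ^ n) := by
        push_cast
        rfl
      rw [this, Ideal.Quotient.eq_zero_iff_mem]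
      exact Ideal.pow_mem_pow hp n
    rw [map_mul, eq_intCast, eq_intCast, h0, zero_mul])).comp
  ((Int.quotientSpanNatEquivZMod (p ^ n)).symm : ZMod (p ^ n) →+* ℤ ⧸ Ideal.span {((p ^ n : ℕ) : ℤ)})

/-- the compatible family `ℤ_[p] →+* R ⧸ I ^ n` -/
def levelHom {I : Ideal R} (hp : (p : R) ∈ I) (n : ℕ) : ℤ_[p] →+* R ⧸ I ^ n :=
  (zmodHom p hp n).comp (PadicInt.toZModPow n)

theorem levelHom_compat {I : Ideal R} (hp : (p : R) ∈ I) {m n : ℕ} (hle : m ≤ n) :
    (Ideal.Quotient.factorPow I hle).comp (levelHom p hp n) = levelHom p hp m := by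
  unfold levelHom
  rw [← PadicInt.zmod_cast_comp_toZModPow m n hle, ← RingHom.comp_assoc, ← RingHom.comp_assoc]
  congr 1
  exact RingHom.ext_zmod _ _

/-- **The canonical ring homomorphism `ℤ_[p] →+* R`** into an `I`-adically complete ring with
`(p : R) ∈ I`. -/
def padicHom [IsAdicComplete I R] (hp : (p : R) ∈ I) : ℤ_[p] →+* R :=
  IsAdicComplete.liftRingHom I (levelHom p hp) (fun hle => levelHom_compat p hp hle)

theorem mk_padicHom [IsAdicComplete I R] (hp : (p : R) ∈ I) (n : ℕ) (x : ℤ_[p]) :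
    Ideal.Quotient.mk (I ^ n) (padicHom p I hp x) = zmodHom p hp n (PadicInt.toZModPow n x) :=
  IsAdicComplete.mk_liftRingHom I (levelHom p hp) (fun hle => levelHom_compat p hp hle) n x

/-- Existence and uniqueness of the ring hom `ℤ_[p] →+* R`. -/
theorem existsUnique_padicHom [IsAdicComplete I R] (hp : (p : R) ∈ I) :
    ∃! _ι : ℤ_[p] →+* R, True :=
  ⟨padicHom p I hp, trivial, fun f _ => ringHom_padicInt_ext p I hp f _⟩

/-- Naturality of `padicHom`. -/
theorem comp_padicHom [IsAdicComplete I R] (hp : (p : R) ∈ I) {R' : Type*} [CommRing R']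
    (I' : Ideal R') [IsAdicComplete I' R'] (hp' : (p : R') ∈ I') (φ : R →+* R') :
    φ.comp (padicHom p I hp) = padicHom p I' hp' :=
  ringHom_padicInt_ext p I' hp' _ _

/-- Instance-free package for a complete local domain of characteristic zero and residue
characteristic `p` (e.g. the rings `𝒪'`, `𝒪''` of S30): there is an injective local ring
homomorphism `ℤ_[p] →+* 𝒪`. -/
theorem exists_padicHom_local (𝒪 : Type*) [CommRing 𝒪] [IsDomain 𝒪] [IsLocalRing 𝒪]
    [IsAdicComplete (IsLocalRing.maximalIdeal 𝒪) 𝒪] [CharZero 𝒪]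
    (hp : (p : 𝒪) ∈ IsLocalRing.maximalIdeal 𝒪) :
    ∃ ι : ℤ_[p] →+* 𝒪, Function.Injective ι ∧ IsLocalHom ι ∧
      ∀ (n : ℕ) (x : ℤ_[p]), x ∈ Ideal.span {(p : ℤ_[p]) ^ n} →
        ι x ∈ IsLocalRing.maximalIdeal 𝒪 ^ n :=
  ⟨padicHom p (IsLocalRing.maximalIdeal 𝒪) hp,
    injective_of_isDomain p (Nat.cast_ne_zero.mpr (Fact.out : p.Prime).ne_zero) _,
    isLocalHom_of_ne_top p hp (Ideal.IsMaximal.ne_top inferInstance) _,
    fun _ _ hx => map_mem_pow p hp _ hx⟩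

/-! ### The cyclotomic character with values in `R` -/

/-- The `p`-adic cyclotomic character pushed to `R` along a ring hom `ι : ℤ_[p] →+* R`. -/
def cycloVia (ι : ℤ_[p] →+* R) : GQ →* Rˣ :=
  (Units.map (ι : ℤ_[p] →* R)).comp (CycloChar.cycloAdic p)

theorem cycloVia_apply (ι : ℤ_[p] →+* R) (σ : GQ) :
    ((cycloVia p ι σ : Rˣ) : R) = ι ((CycloChar.cycloAdic p σ : ℤ_[p]ˣ) : ℤ_[p]) := rfl

/-- `cycloVia` takes the value `ℓ` at every Frobenius lift at `ℓ ≠ p`. -/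
theorem cycloVia_frobenius (ι : ℤ_[p] →+* R) {ℓ : ℕ} (hℓ : ℓ.Prime) (hℓp : ℓ ≠ p)
    (A : ValuationSubring Qb) (hA : A.LiesOverPrime ℓ) {s : GQ} (hs : A.IsFrobeniusAt s ℓ) :
    ((cycloVia p ι s : Rˣ) : R) = (ℓ : R) := by
  rw [cycloVia_apply, CycloChar.cycloAdic_frobenius p hℓ hℓp A hA hs, map_natCast]

/-- `cycloVia` is trivial on inertia at `ℓ ≠ p`. -/
theorem cycloVia_inertia (ι : ℤ_[p] →+* R) {ℓ : ℕ} (hℓ : ℓ.Prime) (hℓp : ℓ ≠ p)
    (A : ValuationSubring Qb) (hA : A.LiesOverPrime ℓ) {σ : GQ}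
    (hσ : σ ∈ A.inertiaSubgroupIn ℚ) : cycloVia p ι σ = 1 := by
  unfold cycloVia
  rw [MonoidHom.comp_apply, CycloChar.cycloAdic_inertia p hℓ hℓp A hA hσ, map_one]

/-- Continuity of `cycloVia`: it is congruent to `1` modulo `p ^ n` on a finite level. -/
theorem cycloVia_finite_level (ι : ℤ_[p] →+* R) (n : ℕ) :
    ∃ L : IntermediateField ℚ Qb, FiniteDimensional ℚ L ∧
      ∀ σ : GQ, (∀ x ∈ L, σ x = x) →
        ((cycloVia p ι σ : Rˣ) : R) - 1 ∈ Ideal.span {(p : R) ^ n} := by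
  obtain ⟨L, hL, h⟩ := CycloChar.cycloAdic_finite_level' p n
  refine ⟨L, hL, fun σ hσ => ?_⟩
  have := map_mem_span_pow p ι (h σ hσ)
  rwa [map_sub, map_one] at this

/-- Continuity of `cycloVia`, modulo the powers of an ideal containing `p`. -/
theorem cycloVia_finite_level_ideal {I : Ideal R} (hp : (p : R) ∈ I) (ι : ℤ_[p] →+* R) (n : ℕ) :
    ∃ L : IntermediateField ℚ Qb, FiniteDimensional ℚ L ∧
      ∀ σ : GQ, (∀ x ∈ L, σ x = x) → ((cycloVia p ι σ : Rˣ) : R) - 1 ∈ I ^ n := by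
  obtain ⟨L, hL, h⟩ := CycloChar.cycloAdic_finite_level' p n
  refine ⟨L, hL, fun σ hσ => ?_⟩
  have := map_mem_pow p hp ι (h σ hσ)
  rwa [map_sub, map_one] at this

/-- Functoriality of `cycloVia` in the coefficient ring. -/
theorem map_cycloVia {R' : Type*} [CommRing R'] (ι : ℤ_[p] →+* R) (φ : R →+* R') (σ : GQ) :
    Units.map (φ : R →* R') (cycloVia p ι σ) = cycloVia p (φ.comp ι) σ := by
  apply Units.ext
  rfl

/-- **The cyclotomic character with values in an `I`-adically complete ring with `p ∈ I`.** -/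
def cycloComplete [IsAdicComplete I R] (hp : (p : R) ∈ I) : GQ →* Rˣ :=
  cycloVia p (padicHom p I hp)

theorem cycloComplete_frobenius [IsAdicComplete I R] (hp : (p : R) ∈ I) {ℓ : ℕ} (hℓ : ℓ.Prime)
    (hℓp : ℓ ≠ p) (A : ValuationSubring Qb) (hA : A.LiesOverPrime ℓ) {s : GQ}
    (hs : A.IsFrobeniusAt s ℓ) : ((cycloComplete p I hp s : Rˣ) : R) = (ℓ : R) :=
  cycloVia_frobenius p _ hℓ hℓp A hA hs

theorem cycloComplete_inertia [IsAdicComplete I R] (hp : (p : R) ∈ I) {ℓ : ℕ} (hℓ : ℓ.Prime)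
    (hℓp : ℓ ≠ p) (A : ValuationSubring Qb) (hA : A.LiesOverPrime ℓ) {σ : GQ}
    (hσ : σ ∈ A.inertiaSubgroupIn ℚ) : cycloComplete p I hp σ = 1 :=
  cycloVia_inertia p _ hℓ hℓp A hA hσ

theorem cycloComplete_finite_level [IsAdicComplete I R] (hp : (p : R) ∈ I) (n : ℕ) :
    ∃ L : IntermediateField ℚ Qb, FiniteDimensional ℚ L ∧
      ∀ σ : GQ, (∀ x ∈ L, σ x = x) → ((cycloComplete p I hp σ : Rˣ) : R) - 1 ∈ I ^ n :=
  cycloVia_finite_level_ideal p hp _ n

/-- Naturality of `cycloComplete` in the complete ring. -/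
theorem map_cycloComplete [IsAdicComplete I R] (hp : (p : R) ∈ I) {R' : Type*} [CommRing R']
    (I' : Ideal R') [IsAdicComplete I' R'] (hp' : (p : R') ∈ I') (φ : R →+* R') (σ : GQ) :
    Units.map (φ : R →* R') (cycloComplete p I hp σ) = cycloComplete p I' hp' σ := by
  unfold cycloComplete
  rw [map_cycloVia, comp_padicHom p I hp I' hp' φ]

/-- Package for the assembly: an `I`-adically complete ring with `p ∈ I` carries a character
`ε : GQ →* Rˣ` with `ε s = ℓ` at Frobenius lifts at `ℓ ≠ p`, trivial on inertia at `ℓ ≠ p`,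
and congruent to `1` modulo `I ^ n` on a finite level, for every `n`. -/
theorem exists_cyclotomic_complete [IsAdicComplete I R] (hp : (p : R) ∈ I) :
    ∃ ε : GQ →* Rˣ,
      (∀ ℓ : ℕ, ℓ.Prime → ℓ ≠ p → ∀ A : ValuationSubring Qb, A.LiesOverPrime ℓ →
        (∀ σ ∈ A.inertiaSubgroupIn ℚ, ε σ = 1) ∧
        ∀ s : GQ, A.IsFrobeniusAt s ℓ → ((ε s : Rˣ) : R) = (ℓ : R)) ∧
      ∀ n : ℕ, ∃ L : IntermediateField ℚ Qb, FiniteDimensional ℚ L ∧
        ∀ σ : GQ, (∀ x ∈ L, σ x = x) → ((ε σ : Rˣ) : R) - 1 ∈ I ^ n :=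
  ⟨cycloComplete p I hp,
    fun _ hℓ hℓp A hA => ⟨fun _ hσ => cycloComplete_inertia p I hp hℓ hℓp A hA hσ,
      fun _ hs => cycloComplete_frobenius p I hp hℓ hℓp A hA hs⟩,
    fun n => cycloComplete_finite_level p I hp n⟩

end

end Fermat.Agent.S30.PadicHom
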