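import Mathlib
import Fermat.Agent.S30.Defs
import Fermat.Agent.S30.PadicHom

/-!
# Interface wrappers: `ℤ_p → 𝒪` and the `p`-adic cyclotomic character

* `Fermat.Agent.S30.PadicLift.exists_ringHom` : statement B6 of the phase-B interface;
* `Fermat.Agent.S30.PadicLift.cycPadic` : the abstract input `CycPadic p` of `S30/Defs.lean`.
-/

set_option autoImplicit false

namespace Fermat.Agent.S30

namespace PadicLift

/-- **(B6)** `ℤ_p` maps to every complete local ring of residue characteristic `p`. -/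
theorem exists_ringHom (p : ℕ) [Fact p.Prime] (O : Type*) [CommRing O] [IsLocalRing O]
    [IsAdicComplete (IsLocalRing.maximalIdeal O) O]
    (hp : (p : O) ∈ IsLocalRing.maximalIdeal O) : Nonempty (ℤ_[p] →+* O) :=
  ⟨PadicHom.padicHom p (IsLocalRing.maximalIdeal O) hp⟩

/-- The abstract input `CycPadic p` holds: the `p`-adic cyclotomic character. -/
theorem cycPadic (p : ℕ) [Fact p.Prime] : CycPadic p := by
  refine ⟨S29.CycloChar.cycloAdic p, fun n => ?_, fun ℓ hℓ hℓp A hA => ⟨fun σ hσ => ?_, fun s hs => ?_⟩⟩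
  · obtain ⟨L, hL, h⟩ := S29.CycloChar.cycloAdic_finite_level' p n
    refine ⟨L, hL, fun σ hσ => ?_⟩
    obtain ⟨w, hw⟩ := Ideal.mem_span_singleton.mp (h σ hσ)
    exact ⟨w, by rw [← hw]; ring⟩
  · exact S29.CycloChar.cycloAdic_inertia p hℓ hℓp A hA hσ
  · exact S29.CycloChar.cycloAdic_frobenius p hℓ hℓp A hA hs

end PadicLift

end Fermat.Agent.S30
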