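import Fermat.Agent.S30.PerLat
import Fermat.Agent.S29.BettiPeriod

/-!
# The period lattice of `Γ₀(N)` and the Hecke algebra (phase B)

Instantiation of `Fermat.Agent.S30.PerLat` at `𝕋 := CuspForm.heckeAlgebra N 2 S` acting on weight
two cusp forms, with the prelude period map and the transfer operators of S22.

* `exists_eigenHom_of_char`: EVERY ring homomorphism `χ : heckeAlgebra N 2 S →+* K` into a field
  has a nonzero eigen-homomorphism `ψ : Γ₀(N) → K` killing parabolic and finite-order elements.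
* `exists_hecke_lattice`: the period lattice as a finite free `ℤ`-module with faithful action of
  the Hecke algebra.
-/

set_option autoImplicit false
set_option linter.unusedSectionVars false

open scoped MatrixGroups
open CongruenceSubgroup ModularCurve

namespace Fermat.Agent.S30.PerLatHecke

open Fermat.Agent.S22 Fermat.Agent.S29 Fermat.Agent.S29.Betti

variable (N : ℕ) [NeZero N] (S : Set ℕ)

/-- additivity of the period map in the form -/
theorem periodMap_add (f g : CuspForm (Gamma0 N) 2) :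
    periodMap N (f + g) = periodMap N f + periodMap N g := by
  obtain ⟨pml, hpml⟩ := Fermat.Agent.S21.existsPeriodMapLinear (N := N)
  rw [← hpml, ← hpml, ← hpml, map_add]

/-- the index type of the good primes -/
abbrev GoodPrime : Type := {ℓ : ℕ // ℓ.Prime ∧ ¬ ℓ ∣ N ∧ ℓ ∉ S}

instance instFactGoodPrime (i : GoodPrime N S) : Fact (i : ℕ).Prime := ⟨i.2.1⟩

/-- the action of the Hecke algebra on cusp forms -/
noncomputable def hact (t : CuspForm.heckeAlgebra N 2 S) (f : CuspForm (Gamma0 N) 2) :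
    CuspForm (Gamma0 N) 2 :=
  (t : Module.End ℂ (CuspForm (Gamma0 N) 2)) f

theorem hact_one (f : CuspForm (Gamma0 N) 2) : hact N S 1 f = f := rfl

theorem hact_mul (s t : CuspForm.heckeAlgebra N 2 S) (f : CuspForm (Gamma0 N) 2) :
    hact N S (s * t) f = hact N S s (hact N S t f) := rfl

theorem hact_add (s t : CuspForm.heckeAlgebra N 2 S) (f : CuspForm (Gamma0 N) 2) :
    hact N S (s + t) f = hact N S s f + hact N S t f := rfl

theorem hact_add_right (t : CuspForm.heckeAlgebra N 2 S) (f g : CuspForm (Gamma0 N) 2) :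
    hact N S t (f + g) = hact N S t f + hact N S t g :=
  map_add (t : Module.End ℂ (CuspForm (Gamma0 N) 2)) f g

theorem hact_faithful (t : CuspForm.heckeAlgebra N 2 S)
    (h : ∀ f, hact N S t f = 0) : t = 0 := by
  apply Subtype.ext
  apply LinearMap.ext
  intro f
  exact h f

/-- the period family `f ↦ (γ ↦ periodMap N f γ)` -/
noncomputable def hper (f : CuspForm (Gamma0 N) 2) (γ : Gam N) : ℂ :=
  periodMap N f (Additive.ofMul γ)

theorem hper_add (f g : CuspForm (Gamma0 N) 2) (γ : Gam N) :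
    hper N (f + g) γ = hper N f γ + hper N g γ := by
  unfold hper
  rw [periodMap_add]; rfl

theorem hper_mul (f : CuspForm (Gamma0 N) 2) (γ γ' : Gam N) :
    hper N f (γ * γ') = hper N f γ + hper N f γ' := by
  unfold hper
  rw [ofMul_mul, map_add]

theorem hper_inj (f : CuspForm (Gamma0 N) 2) (h : ∀ γ, hper N f γ = 0) : f = 0 := by
  by_contra hf
  apply periodMap_ne_zero hf
  ext γ
  exact h (Additive.toMul γ)

theorem hper_hecke (i : GoodPrime N S) (f : CuspForm (Gamma0 N) 2) (γ : Gam N) :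
    hper N (hact N S (CuspForm.heckeAlgebra.T i.2.1 i.2.2.1 i.2.2.2) f) γ =
      ∑ x : OnePoint (ZMod (i : ℕ)), hper N f (gamT i.2.2.1 γ x) :=
  periodMap_heckeT i.2.2.1 f γ

/-- **Every character of the Hecke algebra occurs in the Betti cohomology.**  For every ring
homomorphism `χ` from `heckeAlgebra N 2 S` to a field `K` (any characteristic) there is a nonzero
additive character `ψ : Γ₀(N) → K`, killing parabolic and finite-order elements, with
`T_ℓ ψ = χ(T_ℓ) ψ` for the transfer operators at all `ℓ ∤ N`, `ℓ ∉ S`. -/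
theorem exists_eigenHom_of_char {K : Type*} [Field K] (χ : CuspForm.heckeAlgebra N 2 S →+* K) :
    ∃ ψ : Additive (Gam N) →+ K, ψ ≠ 0 ∧ IsPE ψ ∧
      ∀ (ℓ : ℕ) [Fact ℓ.Prime] (hℓN : ¬ ℓ ∣ N) (hℓS : ℓ ∉ S) (γ : Gam N),
        ∑ x : OnePoint (ZMod ℓ), ψ (Additive.ofMul (gamT hℓN γ x)) =
          χ (CuspForm.heckeAlgebra.T Fact.out hℓN hℓS) * ψ (Additive.ofMul γ) := by
  classical
  obtain ⟨S₀, hS₀⟩ := exists_finset_closure N
  obtain ⟨ψ, hψ0, hψmul, hψT, hψz⟩ :=
    PerLat.exists_eigen_hom_of_char (Γ := Gam N) (A := ℂ) S₀ hS₀ (hact N S) (hact_one N S)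
      (hact_mul N S) (hact_add N S) (hact_add_right N S) (hact_faithful N S) (hper N)
      (hper_add N) (hper_mul N) (hper_inj N)
      (J := fun i : GoodPrime N S => OnePoint (ZMod (i : ℕ)))
      (fun i γ x => gamT i.2.2.1 γ x)
      (fun i => CuspForm.heckeAlgebra.T i.2.1 i.2.2.1 i.2.2.2) (hper_hecke N S) χ
  refine ⟨AddMonoidHom.mk' (fun a => ψ (Additive.toMul a)) (fun a b => hψmul _ _), ?_, ?_, ?_⟩
  · intro h
    apply hψ0
    funext γ
    exact DFunLike.congr_fun h (Additive.ofMul γ)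
  · intro γ hγ
    exact hψz γ fun f => isPE_periodMap f γ hγ
  · intro ℓ _ hℓN hℓS γ
    exact hψT ⟨ℓ, Fact.out, hℓN, hℓS⟩ γ

/-- If `S` contains the primes dividing `N`, the Hecke algebra is generated as a ring by the
`T_ℓ`, `ℓ ∤ N`, `ℓ ∉ S`. -/
theorem closure_range_T_eq_top (hNS : ∀ q : ℕ, q.Prime → q ∣ N → q ∈ S) :
    Subring.closure (Set.range fun i : GoodPrime N S =>
      (CuspForm.heckeAlgebra.T i.2.1 i.2.2.1 i.2.2.2 : CuspForm.heckeAlgebra N 2 S)) = ⊤ := by
  rw [eq_top_iff]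
  rintro ⟨t, ht⟩ -
  refine Algebra.adjoin_induction
    (p := fun x hx => (⟨x, hx⟩ : CuspForm.heckeAlgebra N 2 S) ∈
      Subring.closure (Set.range fun i : GoodPrime N S =>
        (CuspForm.heckeAlgebra.T i.2.1 i.2.2.1 i.2.2.2 : CuspForm.heckeAlgebra N 2 S)))
    ?_ ?_ ?_ ?_ ht
  · rintro x (⟨ℓ, hℓ, hℓN, hℓS, rfl⟩ | ⟨q, hqN, hq, hqS, rfl⟩)
    · exact Subring.subset_closure ⟨⟨ℓ, hℓ, hℓN, hℓS⟩, rfl⟩
    · exact absurd (hNS q hq hqN) hqS
  · intro r
    have h := intCast_mem (Subring.closure (Set.range fun i : GoodPrime N S =>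
        (CuspForm.heckeAlgebra.T i.2.1 i.2.2.1 i.2.2.2 : CuspForm.heckeAlgebra N 2 S))) r
    convert h using 1
    apply Subtype.ext
    exact eq_intCast (algebraMap ℤ (Module.End ℂ (CuspForm (Gamma0 N) 2))) r
  · intro x y hx hy ihx ihy
    exact Subring.add_mem _ ihx ihy
  · intro x y hx hy ihx ihy
    exact Subring.mul_mem _ ihx ihy

/-- **The period lattice of `Γ₀(N)`.**  If `S` contains the primes dividing `N`, there is a
finitely generated free `ℤ`-module `L` with a FAITHFUL action of `heckeAlgebra N 2 S` and a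
surjective homomorphism `ev : Γ₀(N) → L` killing parabolic and finite-order elements such that
`T_ℓ • ev γ = ∑ x, ev (gamT γ x)`; moreover (uniform saturation) there is `m ≠ 0` such that every
`h` in the Hecke algebra killing `Hom(L, ℤ/d)` satisfies `m • h ∈ d • heckeAlgebra`. -/
theorem exists_hecke_lattice (hNS : ∀ q : ℕ, q.Prime → q ∣ N → q ∈ S) :
    ∃ (L : Type) (_ : AddCommGroup L) (_ : Module (CuspForm.heckeAlgebra N 2 S) L)
      (ev : Additive (Gam N) →+ L),
      Module.Finite ℤ L ∧ Module.Free ℤ L ∧ Function.Surjective ev ∧ IsPE ev ∧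
      (∀ (ℓ : ℕ) [Fact ℓ.Prime] (hℓN : ¬ ℓ ∣ N) (hℓS : ℓ ∉ S) (γ : Gam N),
        (CuspForm.heckeAlgebra.T Fact.out hℓN hℓS : CuspForm.heckeAlgebra N 2 S) •
            ev (Additive.ofMul γ) =
          ∑ x : OnePoint (ZMod ℓ), ev (Additive.ofMul (gamT hℓN γ x))) ∧
      (∀ t : CuspForm.heckeAlgebra N 2 S, (∀ x : L, t • x = 0) → t = 0) ∧
      ∃ m : ℕ, m ≠ 0 ∧ ∀ (d : ℕ) (h : CuspForm.heckeAlgebra N 2 S),
        (∀ (ψ : L →+ ZMod d) (x : L), ψ (h • x) = 0) →
          ∃ h' : CuspForm.heckeAlgebra N 2 S, m • h = d • h' := by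
  classical
  obtain ⟨S₀, hS₀⟩ := exists_finset_closure N
  obtain ⟨L, instG, instM, ev, hfin, hfree, ev_mul, ev_T, ev_zero, hcl, hfaith⟩ :=
    PerLat.exists_period_lattice (Γ := Gam N) (A := ℂ) S₀ hS₀
      (fun n hn a ha => (smul_eq_zero.mp ha).resolve_left (Nat.cast_ne_zero.mpr hn))
      (hact N S) (hact_one N S)
      (hact_mul N S) (hact_add N S) (hact_add_right N S) (hact_faithful N S) (hper N)
      (hper_add N) (hper_mul N) (hper_inj N)
      (J := fun i : GoodPrime N S => OnePoint (ZMod (i : ℕ)))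
      (fun i γ x => gamT i.2.2.1 γ x)
      (fun i => CuspForm.heckeAlgebra.T i.2.1 i.2.2.1 i.2.2.2) (hper_hecke N S)
      (closure_range_T_eq_top N S hNS)
  obtain ⟨m, hm, hsat⟩ := PerLat.exists_saturation_bound_hom (𝕋 := CuspForm.heckeAlgebra N 2 S)
    (L := L) hfaith
  let evHom : Additive (Gam N) →+ L :=
    AddMonoidHom.mk' (fun a => ev (Additive.toMul a)) (fun a b => ev_mul _ _)
  refine ⟨L, instG, instM, evHom, hfin, hfree, ?_, ?_, ?_, hfaith, m, hm, hsat⟩
  · intro x
    have hx : x ∈ AddSubgroup.closure (Set.range ev) := by rw [hcl]; trivial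
    have hrange : Set.range ev = (evHom.range : Set L) := by
      ext y
      constructor
      · rintro ⟨γ, rfl⟩
        exact ⟨Additive.ofMul γ, rfl⟩
      · rintro ⟨a, rfl⟩
        exact ⟨Additive.toMul a, rfl⟩
    rw [hrange, AddSubgroup.closure_eq] at hx
    exact hx
  · intro γ hγ
    exact ev_zero γ fun f => isPE_periodMap f γ hγ
  · intro ℓ _ hℓN hℓS γ
    exact ev_T ⟨ℓ, Fact.out, hℓN, hℓS⟩ γ

end Fermat.Agent.S30.PerLatHecke
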