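import Mathlib
import Fermat.Agent.S30.PerLatHecke

/-!
# Phase B: the concrete lattice `Λ` for `Γ₀(N)` (dual of the period lattice)

`Λ := Hom_ℤ(L, ℤ)` for the period lattice `L` of `PerLatHecke.exists_hecke_lattice`, embedded in
`Hom(Γ₀(N), ℤ)` by composition with the evaluation `ev : Γ₀(N) → L`; the Hecke algebra acts on
`Λ` by transposition, faithfully; the image of `Λ` consists of `PE` homomorphisms, is saturated,
and the Hecke action is given by the transfer formula with `S22.gamT`.
-/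

set_option autoImplicit false

namespace Fermat.Agent.S30

open Fermat.Agent

theorem PerLatJ.exists_lattice (N : ℕ) [NeZero N] (S : Finset ℕ)
    (hNS : ∀ q : ℕ, q.Prime → q ∣ N → q ∈ S) :
    ∃ (Λ : Type) (_ : AddCommGroup Λ) (_ : Module.Free ℤ Λ) (_ : Module.Finite ℤ Λ)
      (hecke : CuspForm.heckeAlgebra N 2 (↑S : Set ℕ) →+* Module.End ℤ Λ)
      (incl : Λ →+ (Additive (S22.Gam N) →+ ℤ)),
      Function.Injective hecke ∧ Function.Injective incl ∧ (∀ v : Λ, S29.IsPE (incl v)) ∧
      (∀ (ψ : Additive (S22.Gam N) →+ ℤ) (k : ℕ), k ≠ 0 → (∃ v : Λ, incl v = k • ψ) →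
        ∃ v : Λ, incl v = ψ) ∧
      ∀ (ℓ : ℕ) [Fact ℓ.Prime] (hℓN : ¬ ℓ ∣ N) (hℓS : ℓ ∉ (↑S : Set ℕ)) (v : Λ)
        (γ : S22.Gam N),
        incl (hecke (CuspForm.heckeAlgebra.T Fact.out hℓN hℓS) v) (Additive.ofMul γ) =
          ∑ x : OnePoint (ZMod ℓ), incl v (Additive.ofMul (S22.gamT hℓN γ x)) := by
  classical
  obtain ⟨L, instG, instM, ev, hfin, hfree, hsurj, hPE, hT, hfaith, -⟩ :=
    PerLatHecke.exists_hecke_lattice N (↑S : Set ℕ)
      (fun q hq hqN => Finset.mem_coe.mpr (hNS q hq hqN))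
  -- multiplication by `t` as a `ℤ`-linear endomorphism of `L`
  let mulL : CuspForm.heckeAlgebra N 2 (↑S : Set ℕ) → (L →ₗ[ℤ] L) := fun t =>
    (DistribSMul.toAddMonoidHom L t).toIntLinearMap
  have mulL_apply : ∀ t x, mulL t x = t • x := fun _ _ => rfl
  let hecke : CuspForm.heckeAlgebra N 2 (↑S : Set ℕ) →+* Module.End ℤ (L →ₗ[ℤ] ℤ) :=
    { toFun := fun t => LinearMap.lcomp ℤ ℤ (mulL t)
      map_one' := by
        ext v x
        simp [mulL_apply]
      map_mul' := fun s t => by
        ext v x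
        simp [mulL_apply, mul_smul, smul_comm s t x]
      map_zero' := by
        ext v x
        simp [mulL_apply]
      map_add' := fun s t => by
        ext v x
        simp [mulL_apply, add_smul] }
  have hecke_apply : ∀ t (v : L →ₗ[ℤ] ℤ) x, hecke t v x = v (t • x) := fun _ _ _ => rfl
  let incl : (L →ₗ[ℤ] ℤ) →+ (Additive (S22.Gam N) →+ ℤ) :=
    { toFun := fun v => v.toAddMonoidHom.comp ev
      map_zero' := by ext a; simp
      map_add' := fun v w => by ext a; simp }
  have incl_apply : ∀ (v : L →ₗ[ℤ] ℤ) a, incl v a = v (ev a) := fun _ _ => rfl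
  refine ⟨L →ₗ[ℤ] ℤ, inferInstance, inferInstance, inferInstance, hecke, incl, ?_, ?_, ?_, ?_, ?_⟩
  · -- faithfulness
    rw [injective_iff_map_eq_zero]
    intro t ht
    apply hfaith
    intro x
    rw [← Module.forall_dual_apply_eq_zero_iff ℤ]
    intro v
    have h1 := hecke_apply t v x
    rw [ht] at h1
    exact h1.symm
  · -- injectivity of `incl`
    intro v w hvw
    ext x
    obtain ⟨a, rfl⟩ := hsurj x
    have := DFunLike.congr_fun hvw a
    rwa [incl_apply, incl_apply] at this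
  · -- `PE`
    intro v γ hγ
    rw [incl_apply, hPE γ hγ, map_zero]
  · -- saturation
    rintro ψ k hk ⟨v, hv⟩
    have hdvd : ∀ x : L, (k : ℤ) ∣ v x := by
      intro x
      obtain ⟨a, rfl⟩ := hsurj x
      refine ⟨ψ a, ?_⟩
      have := DFunLike.congr_fun hv a
      rw [incl_apply] at this
      rw [this]
      simp
    let w : L →+ ℤ :=
      { toFun := fun x => v x / (k : ℤ)
        map_zero' := by simp
        map_add' := fun x y => by
          rw [map_add]
          exact Int.add_ediv_of_dvd_left (hdvd x) }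
    refine ⟨w.toIntLinearMap, ?_⟩
    refine DFunLike.ext _ _ fun a => ?_
    have h1 := DFunLike.congr_fun hv a
    rw [incl_apply] at h1
    rw [incl_apply]
    show v (ev a) / (k : ℤ) = ψ a
    rw [h1]
    simp only [AddMonoidHom.coe_smul, Pi.smul_apply, nsmul_eq_mul]
    exact Int.mul_ediv_cancel_left _ (Nat.cast_ne_zero.mpr hk)
  · -- the transfer formula
    intro ℓ _ hℓN hℓS v γ
    rw [incl_apply, hecke_apply, hT ℓ hℓN hℓS γ, map_sum]
    rfl

end Fermat.Agent.S30
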