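import Mathlib

/-!
# The limit lemma (phase B, package B4)

If `u - aₙ • w ∈ ϖⁿ • P` for every `n`, where `P` is a finitely generated module over a
Noetherian local ring `O`, `ϖ` lies in the maximal ideal, and everything sits inside a vector
space over a field `K` receiving `O`, then `u` is a `K`-multiple of `w`.

Proof: if `u ∉ K • w` choose a `K`-linear functional `φ` with `φ w = 0`, `φ u ≠ 0`; then
`φ u ∈ ϖⁿ • φ(P)` for all `n`, and `φ(P)` is a finitely generated `O`-module, so Krull's
intersection theorem gives `φ u = 0`.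
-/

set_option autoImplicit false

namespace Fermat.Agent.S30

namespace Limit

/-- Krull: an element of a finitely generated module over a Noetherian local ring which is
divisible by every power of an element of the maximal ideal vanishes. -/
theorem eq_zero_of_forall_pow_smul {O M : Type*} [CommRing O] [IsLocalRing O]
    [IsNoetherianRing O] [AddCommGroup M] [Module O M] [Module.Finite O M]
    (ϖ : O) (hϖ : ϖ ∈ IsLocalRing.maximalIdeal O) (x : M)
    (h : ∀ n : ℕ, ∃ y : M, x = ϖ ^ n • y) : x = 0 := by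
  have hI : IsLocalRing.maximalIdeal O ≠ ⊤ := Ideal.IsPrime.ne_top inferInstance
  have hbot := Ideal.iInf_pow_smul_eq_bot_of_isLocalRing (M := M) (IsLocalRing.maximalIdeal O) hI
  have hx : x ∈ (⨅ i : ℕ, IsLocalRing.maximalIdeal O ^ i • ⊤ : Submodule O M) := by
    rw [Submodule.mem_iInf]
    intro n
    obtain ⟨y, rfl⟩ := h n
    exact Submodule.smul_mem_smul (Ideal.pow_mem_pow hϖ n) Submodule.mem_top
  rw [hbot] at hx
  simpa using hx

/-- The same inside an ambient module: the intersection of the `ϖⁿ • P` is zero for a finitely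
generated submodule `P`. -/
theorem eq_zero_of_forall_pow_smul_mem {O V : Type*} [CommRing O] [IsLocalRing O]
    [IsNoetherianRing O] [AddCommGroup V] [Module O V]
    (ϖ : O) (hϖ : ϖ ∈ IsLocalRing.maximalIdeal O) (P : Submodule O V) (hP : P.FG) (x : V)
    (h : ∀ n : ℕ, ∃ y ∈ P, x = ϖ ^ n • y) : x = 0 := by
  have : Module.Finite O P := Module.Finite.iff_fg.mpr hP
  have hxP : x ∈ P := by
    obtain ⟨y, hy, rfl⟩ := h 0
    simpa using hy
  have := eq_zero_of_forall_pow_smul (M := P) ϖ hϖ ⟨x, hxP⟩ (fun n => by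
    obtain ⟨y, hy, hxy⟩ := h n
    exact ⟨⟨y, hy⟩, Subtype.ext hxy⟩)
  simpa using congrArg Subtype.val this

/-- **The limit lemma** (interface B4 of phase B, verbatim). -/
theorem exists_smul_eq_of_approx {O K V : Type*} [CommRing O] [IsLocalRing O]
    [IsNoetherianRing O] [Field K] [Algebra O K] [AddCommGroup V] [Module O V] [Module K V]
    [IsScalarTower O K V] (ϖ : O) (hϖ : ϖ ∈ IsLocalRing.maximalIdeal O)
    (P : Submodule O V) (hP : P.FG) (u w : V)
    (h : ∀ n : ℕ, ∃ a : O, ∃ y ∈ P, u - a • w = ϖ ^ n • y) :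
    ∃ c : K, u = c • w := by
  by_contra hcon
  have hu : u ∉ Submodule.span K ({w} : Set V) := by
    intro hmem
    obtain ⟨c, hc⟩ := Submodule.mem_span_singleton.mp hmem
    exact hcon ⟨c, hc.symm⟩
  obtain ⟨φ, hφu, hφ⟩ := Submodule.exists_dual_map_eq_bot_of_notMem hu inferInstance
  have hφw : φ w = 0 := by
    have : φ w ∈ (Submodule.span K ({w} : Set V)).map φ :=
      Submodule.mem_map_of_mem (Submodule.mem_span_singleton_self w)
    rw [hφ] at this
    simpa using this
  -- the `O`-linear version of `φ`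
  let ψ : V →ₗ[O] K := φ.restrictScalars O
  have hψ : ∀ v, ψ v = φ v := fun _ => rfl
  have hfg : (P.map ψ).FG := hP.map ψ
  apply hφu
  refine eq_zero_of_forall_pow_smul_mem ϖ hϖ (P.map ψ) hfg (φ u) (fun n => ?_)
  obtain ⟨a, y, hy, hay⟩ := h n
  refine ⟨ψ y, Submodule.mem_map_of_mem hy, ?_⟩
  have h1 : ψ (u - a • w) = ψ (ϖ ^ n • y) := congrArg ψ hay
  rw [map_sub, map_smul, map_smul, hψ w, hφw, smul_zero, sub_zero, hψ u] at h1
  exact h1

end Limit

end Fermat.Agent.S30
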