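import Mathlib

/-!
# Power sums of the roots of a quadratic

`psum t d i` is the sequence `2, t, t² - 2d, …` defined by
`psum (i + 2) = t * psum (i + 1) - d * psum i`: the `i`-th power sum of the roots of
`X² - t X + d`.

* `trace_pow_eq_psum`: over a commutative ring, an endomorphism `f` of a free module of rank two
  with characteristic polynomial `X² - a X + d` has `tr (f ^ i) = psum a d i`.
* `pow_add_pow_eq_psum`: in any ring, if `F` is invertible with inverse `F'`, `d` commutes with
  both and `F + d F' = t`, then `F ^ i + d ^ i F' ^ i = psum t d i`.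
-/

set_option autoImplicit false

open Polynomial

namespace Fermat.Agent.S30.PowerSum

/-- The power-sum sequence of the quadratic `X² - t X + d`. -/
def psum {E : Type*} [Ring E] (t d : E) : ℕ → E
  | 0 => 2
  | 1 => t
  | (i + 2) => t * psum t d (i + 1) - d * psum t d i

section Basic

variable {E : Type*} [Ring E] (t d : E)

@[simp] theorem psum_zero : psum t d 0 = 2 := rfl

@[simp] theorem psum_one : psum t d 1 = t := rfl

theorem psum_add_two (i : ℕ) : psum t d (i + 2) = t * psum t d (i + 1) - d * psum t d i := rfl

theorem map_psum {E' : Type*} [Ring E'] (f : E →+* E') (i : ℕ) :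
    f (psum t d i) = psum (f t) (f d) i := by
  induction i using Nat.strong_induction_on with
  | _ i ih =>
    match i, ih with
    | 0, _ => exact map_ofNat f 2
    | 1, _ => rfl
    | (i + 2), ih =>
      rw [psum_add_two, psum_add_two, map_sub, map_mul, map_mul, ih (i + 1) (by omega),
        ih i (by omega)]

/-- A sequence satisfying the recursion with the right initial values is `psum`. -/
theorem eq_psum_of_rec (s : ℕ → E) (h0 : s 0 = 2) (h1 : s 1 = t)
    (hrec : ∀ i, s (i + 2) = t * s (i + 1) - d * s i) (i : ℕ) : s i = psum t d i := by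
  induction i using Nat.strong_induction_on with
  | _ i ih =>
    match i, ih with
    | 0, _ => exact h0
    | 1, _ => exact h1
    | (i + 2), ih =>
      rw [hrec, psum_add_two, ih (i + 1) (by omega), ih i (by omega)]

/-- **Power sums of a unit and its twisted inverse.** -/
theorem pow_add_pow_eq_psum (F F' : E) (h1 : F * F' = 1) (h2 : F' * F = 1)
    (hd : Commute d F) (hd' : Commute d F') (ht : F + d * F' = t) (i : ℕ) :
    F ^ i + d ^ i * F' ^ i = psum t d i := by
  refine eq_psum_of_rec t d (fun i => F ^ i + d ^ i * F' ^ i) ?_ ?_ ?_ i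
  · simp; norm_num
  · simp [ht]
  · intro i
    show F ^ (i + 2) + d ^ (i + 2) * F' ^ (i + 2) =
      t * (F ^ (i + 1) + d ^ (i + 1) * F' ^ (i + 1)) - d * (F ^ i + d ^ i * F' ^ i)
    rw [← ht]
    have e1 : F * (d ^ (i + 1) * F' ^ (i + 1)) = d ^ (i + 1) * F' ^ i := by
      rw [← mul_assoc, ← (hd.pow_left (i + 1)).eq, mul_assoc, pow_succ' F' i, ← mul_assoc F,
        h1, one_mul]
    have e2 : d * F' * F ^ (i + 1) = d * F ^ i := by
      rw [mul_assoc, pow_succ' F i, ← mul_assoc F', h2, one_mul]
    have e3 : d * F' * (d ^ (i + 1) * F' ^ (i + 1)) = d ^ (i + 2) * F' ^ (i + 2) := by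
      rw [mul_assoc, ← mul_assoc F', ← (hd'.pow_left (i + 1)).eq, mul_assoc, ← pow_succ' F',
        ← mul_assoc, ← pow_succ' d]
    have e4 : F * F ^ (i + 1) = F ^ (i + 2) := by rw [← pow_succ']
    have e5 : d * (d ^ i * F' ^ i) = d ^ (i + 1) * F' ^ i := by rw [← mul_assoc, ← pow_succ']
    rw [add_mul, mul_add, mul_add, e1, e2, e3, e4, mul_add, e5]
    abel

end Basic

section Trace

variable {R M : Type*} [CommRing R] [Nontrivial R] [AddCommGroup M] [Module R M]
  [Module.Free R M] [Module.Finite R M]

/-- The trace of an endomorphism of a free module of rank two read off its characteristic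
polynomial. -/
theorem trace_eq_of_charpoly (h2 : Module.finrank R M = 2) (f : Module.End R M) (a d : R)
    (hf : f.charpoly = X ^ 2 - C a * X + C d) : LinearMap.trace R M f = a := by
  classical
  let b : Module.Basis (Fin 2) R M := Module.finBasisOfFinrankEq R M h2
  rw [LinearMap.trace_eq_matrix_trace R b, Matrix.trace_eq_neg_charpoly_coeff,
    LinearMap.charpoly_toMatrix, hf]
  simp [coeff_C, coeff_X_pow]

omit [Nontrivial R] in
/-- Cayley–Hamilton for a quadratic characteristic polynomial. -/
theorem sq_eq_of_charpoly (f : Module.End R M) (a d : R)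
    (hf : f.charpoly = X ^ 2 - C a * X + C d) : f ^ 2 = a • f - d • (1 : Module.End R M) := by
  have h := LinearMap.aeval_self_charpoly f
  rw [hf] at h
  simp only [map_sub, map_add, map_pow, map_mul, aeval_X, aeval_C] at h
  rw [Algebra.algebraMap_eq_smul_one, Algebra.algebraMap_eq_smul_one, smul_mul_assoc, one_mul]
    at h
  rw [eq_sub_iff_add_eq, ← sub_eq_zero]
  rw [← h]
  abel

/-- **Traces of powers**: for an endomorphism `f` of a free module of rank two with
characteristic polynomial `X² - a X + d`, `tr (f ^ i) = psum a d i`. -/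
theorem trace_pow_eq_psum (h2 : Module.finrank R M = 2) (f : Module.End R M) (a d : R)
    (hf : f.charpoly = X ^ 2 - C a * X + C d) (i : ℕ) :
    LinearMap.trace R M (f ^ i) = psum a d i := by
  refine eq_psum_of_rec a d (fun i => LinearMap.trace R M (f ^ i)) ?_ ?_ ?_ i
  · show LinearMap.trace R M (f ^ 0) = 2
    rw [pow_zero, LinearMap.trace_one, h2]
    norm_num
  · show LinearMap.trace R M (f ^ 1) = a
    rw [pow_one]
    exact trace_eq_of_charpoly h2 f a d hf
  · intro i
    show LinearMap.trace R M (f ^ (i + 2)) =
      a * LinearMap.trace R M (f ^ (i + 1)) - d * LinearMap.trace R M (f ^ i)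
    have e : f ^ (i + 2) = a • f ^ (i + 1) - d • f ^ i := by
      rw [pow_add, sq_eq_of_charpoly f a d hf, mul_sub, mul_smul_comm, mul_smul_comm, mul_one,
        ← pow_succ]
    rw [e, map_sub, map_smul, map_smul, smul_eq_mul, smul_eq_mul]

end Trace

end Fermat.Agent.S30.PowerSum
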