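import Mathlib
import Fermat.Agent.S30.Defs
import Fermat.Agent.S30.PowerSum
import Fermat.Agent.S30.Limit

/-!
# Phase B: the quadratic relation for all Galois elements (matrix form)

`exists_scalar` : for the matrix data `(R, Tm)` of the Tate module (continuity, Eichler–Shimura at
Frobenius lifts) and a character `χ` of the Hecke algebra with values in a Noetherian local ring
`O` receiving `ℤ_p`, every `g ∈ G_ℚ` acts on the `χ`-eigenspace in `K ^ r` through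
`R(g) + ε(g) R(g⁻¹) = t`, a scalar.

Proof: for each `n`, weak Chebotarev gives a Frobenius lift `φ` and `i` with `g ≡ φ ^ i` on the
level of `R mod p ^ n` and `ε mod p ^ n`; then
`R(g) + ε(g) R(g⁻¹) ≡ R(φ) ^ i + ℓ ^ i R(φ)⁻¹ ^ i = D_i(T_ℓ, ℓ)` modulo `p ^ n`, which acts on the
eigenspace through the scalar `D_i(χ(T_ℓ), ℓ) ∈ O`.  The limit lemma makes every eigenvector an
eigenvector of `R(g) + ε(g) R(g⁻¹)`, and a linear map with this property is a scalar.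
-/

set_option autoImplicit false
set_option linter.unusedSectionVars false

namespace Fermat.Agent.S30.QuadAllB

open Fermat.Agent.S30.PowerSum CuspForm

/-- A linear map sending every vector of a subspace to a multiple of itself is a scalar on that
subspace. -/
theorem exists_scalar_of_forall {K V : Type*} [Field K] [AddCommGroup V] [Module K V]
    (Φ : V →ₗ[K] V) (W : Submodule K V) (h : ∀ v ∈ W, ∃ c : K, Φ v = c • v) :
    ∃ t : K, ∀ v ∈ W, Φ v = t • v := by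
  by_cases hW : ∀ v ∈ W, v = 0
  · exact ⟨0, fun v hv => by rw [hW v hv, map_zero, smul_zero]⟩
  · push Not at hW
    obtain ⟨v₀, hv₀, hv₀0⟩ := hW
    obtain ⟨c₀, hc₀⟩ := h v₀ hv₀
    refine ⟨c₀, fun v hv => ?_⟩
    obtain ⟨c, hc⟩ := h v hv
    obtain ⟨c', hc'⟩ := h (v + v₀) (W.add_mem hv hv₀)
    rw [map_add, hc, hc₀, smul_add] at hc'
    have e : (c - c') • v = (c' - c₀) • v₀ := by
      rw [sub_smul, sub_smul, sub_eq_sub_iff_add_eq_add]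
      exact hc'.trans (add_comm _ _)
    by_cases hcc : c = c'
    · rw [hcc, sub_self, zero_smul] at e
      have h2 : c' - c₀ = 0 := by
        rcases smul_eq_zero.mp e.symm with h3 | h3
        · exact h3
        · exact absurd h3 hv₀0
      rw [hc, hcc, sub_eq_zero.mp h2]
    · have hne : c - c' ≠ 0 := sub_ne_zero.mpr hcc
      have hv : v = ((c - c')⁻¹ * (c' - c₀)) • v₀ := by
        rw [mul_smul, ← e, smul_smul, inv_mul_cancel₀ hne, one_smul]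
      rw [hv, map_smul, hc₀, smul_smul, smul_smul, mul_comm]

/-- `psum` of a matrix on an eigenvector. -/
theorem psum_mulVec {K : Type*} [CommRing K] {r : ℕ} (M : Matrix (Fin r) (Fin r) K) (d : ℕ)
    (lam : K) (v : Fin r → K) (hv : M.mulVec v = lam • v) (i : ℕ) :
    (psum M ((d : ℕ) : Matrix (Fin r) (Fin r) K) i).mulVec v = psum lam (d : K) i • v := by
  induction i using Nat.strong_induction_on with
  | _ i ih =>
    match i, ih with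
    | 0, _ =>
      rw [psum_zero, psum_zero, ← Nat.cast_ofNat (R := Matrix (Fin r) (Fin r) K),
        Matrix.natCast_mulVec, Nat.cast_ofNat]
    | 1, _ => rw [psum_one, psum_one, hv]
    | (i + 2), ih =>
      rw [psum_add_two, psum_add_two, Matrix.sub_mulVec, ← Matrix.mulVec_mulVec,
        ← Matrix.mulVec_mulVec, ih (i + 1) (by omega), ih i (by omega), Matrix.mulVec_smul, hv,
        Matrix.natCast_mulVec, sub_smul, mul_smul, mul_smul, smul_comm lam]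

section Approx

variable (p : ℕ) [Fact p.Prime] (N : ℕ) [NeZero N] (S : Finset ℕ)

/-- the approximation step: modulo `p ^ n`, `R(g) + ε(g) R(g⁻¹)` is a Dickson polynomial in a
Hecke operator. -/
theorem exists_approx (hpS : p ∈ S) (hNS : ∀ q : ℕ, q.Prime → q ∣ N → q ∈ S) (hcheb : WeakCheb)
    (ε : GQ →* ℤ_[p]ˣ)
    (hε_level : ∀ n : ℕ, ∃ L : IntermediateField ℚ Qb, FiniteDimensional ℚ L ∧
      ∀ σ : GQ, (∀ x ∈ L, σ x = x) →
        ∃ w : ℤ_[p], ((ε σ : ℤ_[p]ˣ) : ℤ_[p]) = 1 + (p : ℤ_[p]) ^ n * w)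
    (hε_frob : ∀ ℓ : ℕ, ℓ.Prime → ℓ ≠ p → ∀ A : ValuationSubring Qb, A.LiesOverPrime ℓ →
      ∀ s : GQ, A.IsFrobeniusAt s ℓ → ((ε s : ℤ_[p]ˣ) : ℤ_[p]) = (ℓ : ℤ_[p]))
    {r : ℕ} (R : GQ →* Matrix (Fin r) (Fin r) ℤ_[p])
    (Tm : Nat.Primes → Matrix (Fin r) (Fin r) ℤ_[p])
    (hcont : ∀ n : ℕ, ∃ L : IntermediateField ℚ Qb, FiniteDimensional ℚ L ∧
      ∀ σ : GQ, (∀ x ∈ L, σ x = x) →
        ∃ W : Matrix (Fin r) (Fin r) ℤ_[p], R σ = 1 + (p : ℤ_[p]) ^ n • W)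
    (hfrob : ∀ (ℓ : ℕ) (hℓ : ℓ.Prime), ¬ ℓ ∣ N → ℓ ≠ p → ∀ A : ValuationSubring Qb,
      A.LiesOverPrime ℓ → ∀ σ : GQ, A.IsFrobeniusAt σ ℓ →
        R σ * R σ - Tm ⟨ℓ, hℓ⟩ * R σ + (ℓ : Matrix (Fin r) (Fin r) ℤ_[p]) = 0)
    (g : GQ) (n : ℕ) :
    ∃ (ℓ : ℕ) (hℓ : ℓ.Prime) (_ : ¬ ℓ ∣ N) (_ : ℓ ∉ (↑S : Set ℕ)) (i : ℕ)
      (W : Matrix (Fin r) (Fin r) ℤ_[p]),
      R g + ((ε g : ℤ_[p]ˣ) : ℤ_[p]) • R g⁻¹ =
        psum (Tm ⟨ℓ, hℓ⟩) ((ℓ : ℕ) : Matrix (Fin r) (Fin r) ℤ_[p]) i + (p : ℤ_[p]) ^ n • W := by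
  obtain ⟨L₁, hL₁, h₁⟩ := hcont n
  obtain ⟨L₂, hL₂, h₂⟩ := hε_level n
  have hL : FiniteDimensional ℚ (L₁ ⊔ L₂ : IntermediateField ℚ Qb) :=
    IntermediateField.finiteDimensional_sup L₁ L₂
  obtain ⟨ℓ, A, φ, i, hℓ, hℓS, hA, hφ, hLφ⟩ := hcheb (L₁ ⊔ L₂) S g
  have hℓN : ¬ ℓ ∣ N := fun hd => hℓS (hNS ℓ hℓ hd)
  have hℓp : ℓ ≠ p := fun hd => hℓS (hd ▸ hpS)
  have hℓS' : ℓ ∉ (↑S : Set ℕ) := fun hd => hℓS (Finset.mem_coe.mp hd)
  have hσ : ∀ x ∈ (L₁ ⊔ L₂ : IntermediateField ℚ Qb), (g⁻¹ * φ ^ i) x = x := by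
    intro x hx
    rw [AlgEquiv.mul_apply, ← hLφ x hx]
    exact g.symm_apply_apply x
  have hσ' : ∀ x ∈ (L₁ ⊔ L₂ : IntermediateField ℚ Qb), (g⁻¹ * φ ^ i)⁻¹ x = x := by
    intro x hx
    have e := hσ x hx
    have e2 : (g⁻¹ * φ ^ i)⁻¹ ((g⁻¹ * φ ^ i) x) = x := (g⁻¹ * φ ^ i).symm_apply_apply x
    rw [e] at e2
    exact e2
  have hmul : g * (g⁻¹ * φ ^ i) = φ ^ i := mul_inv_cancel_left g (φ ^ i)
  have hmul' : (g⁻¹ * φ ^ i)⁻¹ * g⁻¹ = (φ⁻¹) ^ i := by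
    rw [← mul_inv_rev, hmul, inv_pow]
  obtain ⟨W₁, hW₁⟩ := h₁ (g⁻¹ * φ ^ i) fun x hx => hσ x (le_sup_left (a := L₁) (b := L₂) hx)
  obtain ⟨W₂, hW₂⟩ := h₁ (g⁻¹ * φ ^ i)⁻¹ fun x hx => hσ' x (le_sup_left (a := L₁) (b := L₂) hx)
  obtain ⟨w, hw⟩ := h₂ (g⁻¹ * φ ^ i) fun x hx => hσ x (le_sup_right (a := L₁) (b := L₂) hx)
  -- Eichler–Shimura for `φ`
  have hF1 : R φ * R φ⁻¹ = 1 := by rw [← map_mul, mul_inv_cancel, map_one]
  have hF2 : R φ⁻¹ * R φ = 1 := by rw [← map_mul, inv_mul_cancel, map_one]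
  have hES := hfrob ℓ hℓ hℓN hℓp A hA φ hφ
  have ht : R φ + (ℓ : Matrix (Fin r) (Fin r) ℤ_[p]) * R φ⁻¹ = Tm ⟨ℓ, hℓ⟩ := by
    have e := congrArg (fun M => M * R φ⁻¹) hES
    simp only [add_mul, sub_mul, zero_mul, mul_assoc, hF1, mul_one] at e
    rw [sub_add_eq_add_sub, sub_eq_zero] at e
    exact e
  have hps := pow_add_pow_eq_psum (Tm ⟨ℓ, hℓ⟩) ((ℓ : ℕ) : Matrix (Fin r) (Fin r) ℤ_[p])
    (R φ) (R φ⁻¹) hF1 hF2 (Nat.cast_commute ℓ _) (Nat.cast_commute ℓ _) ht i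
  -- rewrite the three ingredients in terms of `g`
  have e1 : R φ ^ i = R g + (p : ℤ_[p]) ^ n • (R g * W₁) := by
    rw [← map_pow, ← hmul, map_mul, hW₁, mul_add, mul_one, mul_smul_comm]
  have e2 : R φ⁻¹ ^ i = R g⁻¹ + (p : ℤ_[p]) ^ n • (W₂ * R g⁻¹) := by
    rw [← map_pow, ← hmul', map_mul, hW₂, add_mul, one_mul, smul_mul_assoc]
  have e3 : ((ℓ : ℕ) : Matrix (Fin r) (Fin r) ℤ_[p]) ^ i * R φ⁻¹ ^ i =
      (((ε g : ℤ_[p]ˣ) : ℤ_[p]) * (1 + (p : ℤ_[p]) ^ n * w)) • R φ⁻¹ ^ i := by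
    have e4 : ((ε φ : ℤ_[p]ˣ) : ℤ_[p]) = (ℓ : ℤ_[p]) := hε_frob ℓ hℓ hℓp A hA φ hφ
    have e5 : ε (φ ^ i) = ε g * ε (g⁻¹ * φ ^ i) := by rw [← map_mul, hmul]
    have e6 := congrArg (fun u : ℤ_[p]ˣ => (u : ℤ_[p])) e5
    simp only [map_pow, Units.val_pow_eq_pow_val, Units.val_mul] at e6
    rw [e4, hw] at e6
    rw [← e6, ← map_natCast (algebraMap ℤ_[p] (Matrix (Fin r) (Fin r) ℤ_[p])), ← map_pow,
      ← Algebra.smul_def]
  refine ⟨ℓ, hℓ, hℓN, hℓS', i, -(R g * W₁) - (((ε g : ℤ_[p]ˣ) : ℤ_[p]) * w) • R g⁻¹ -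
    (((ε g : ℤ_[p]ˣ) : ℤ_[p]) * (1 + (p : ℤ_[p]) ^ n * w)) • (W₂ * R g⁻¹), ?_⟩
  rw [← hps, e3, e1, e2]
  module

/-- **QuadAll** (phase-B interface, matrix form): on the `χ`-eigenspace, every `g ∈ G_ℚ` acts
through `R(g) + ε(g) R(g⁻¹) = t`, a scalar. -/
theorem exists_scalar (hpS : p ∈ S) (hNS : ∀ q : ℕ, q.Prime → q ∣ N → q ∈ S) (hcheb : WeakCheb)
    (ε : GQ →* ℤ_[p]ˣ)
    (hε_level : ∀ n : ℕ, ∃ L : IntermediateField ℚ Qb, FiniteDimensional ℚ L ∧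
      ∀ σ : GQ, (∀ x ∈ L, σ x = x) →
        ∃ w : ℤ_[p], ((ε σ : ℤ_[p]ˣ) : ℤ_[p]) = 1 + (p : ℤ_[p]) ^ n * w)
    (hε_frob : ∀ ℓ : ℕ, ℓ.Prime → ℓ ≠ p → ∀ A : ValuationSubring Qb, A.LiesOverPrime ℓ →
      ∀ s : GQ, A.IsFrobeniusAt s ℓ → ((ε s : ℤ_[p]ˣ) : ℤ_[p]) = (ℓ : ℤ_[p]))
    {r : ℕ} (R : GQ →* Matrix (Fin r) (Fin r) ℤ_[p])
    (Tm : Nat.Primes → Matrix (Fin r) (Fin r) ℤ_[p])
    (hcomm : ∀ (ℓ : Nat.Primes) (σ : GQ), Tm ℓ * R σ = R σ * Tm ℓ)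
    (hcont : ∀ n : ℕ, ∃ L : IntermediateField ℚ Qb, FiniteDimensional ℚ L ∧
      ∀ σ : GQ, (∀ x ∈ L, σ x = x) →
        ∃ W : Matrix (Fin r) (Fin r) ℤ_[p], R σ = 1 + (p : ℤ_[p]) ^ n • W)
    (hfrob : ∀ (ℓ : ℕ) (hℓ : ℓ.Prime), ¬ ℓ ∣ N → ℓ ≠ p → ∀ A : ValuationSubring Qb,
      A.LiesOverPrime ℓ → ∀ σ : GQ, A.IsFrobeniusAt σ ℓ →
        R σ * R σ - Tm ⟨ℓ, hℓ⟩ * R σ + (ℓ : Matrix (Fin r) (Fin r) ℤ_[p]) = 0)
    {O : Type*} [CommRing O] [IsLocalRing O] [IsNoetherianRing O] (ι : ℤ_[p] →+* O)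
    (hιp : ι (p : ℤ_[p]) ∈ IsLocalRing.maximalIdeal O)
    {K : Type*} [Field K] [Algebra O K]
    (χ : CuspForm.heckeAlgebra N 2 (↑S : Set ℕ) →+* O) (g : GQ) :
    ∃ t : K, ∀ v : Fin r → K,
      (∀ (ℓ : ℕ) (hℓ : ℓ.Prime) (hℓN : ¬ ℓ ∣ N) (hℓS : ℓ ∉ (↑S : Set ℕ)),
        ((Tm ⟨ℓ, hℓ⟩).map ((algebraMap O K).comp ι)).mulVec v =
          algebraMap O K (χ (CuspForm.heckeAlgebra.T hℓ hℓN hℓS)) • v) →
      ((R g).map ((algebraMap O K).comp ι)).mulVec v +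
          ((algebraMap O K).comp ι) ((ε g : ℤ_[p]ˣ) : ℤ_[p]) •
            ((R g⁻¹).map ((algebraMap O K).comp ι)).mulVec v = t • v := by
  classical
  -- the eigenspace
  let Wχ : Submodule K (Fin r → K) :=
    { carrier := {v | ∀ (ℓ : ℕ) (hℓ : ℓ.Prime) (hℓN : ¬ ℓ ∣ N) (hℓS : ℓ ∉ (↑S : Set ℕ)),
        ((Tm ⟨ℓ, hℓ⟩).map ((algebraMap O K).comp ι)).mulVec v =
          algebraMap O K (χ (CuspForm.heckeAlgebra.T hℓ hℓN hℓS)) • v}
      add_mem' := fun {a b} ha hb ℓ hℓ hℓN hℓS => by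
        rw [Matrix.mulVec_add, ha ℓ hℓ hℓN hℓS, hb ℓ hℓ hℓN hℓS, smul_add]
      zero_mem' := fun ℓ hℓ hℓN hℓS => by rw [Matrix.mulVec_zero, smul_zero]
      smul_mem' := fun c a ha ℓ hℓ hℓN hℓS => by
        rw [Matrix.mulVec_smul, ha ℓ hℓ hℓN hℓS, smul_comm] }
  -- the operator
  let Φ : (Fin r → K) →ₗ[K] (Fin r → K) :=
    Matrix.toLin' ((R g).map ((algebraMap O K).comp ι) +
      ((algebraMap O K).comp ι) ((ε g : ℤ_[p]ˣ) : ℤ_[p]) •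
        (R g⁻¹).map ((algebraMap O K).comp ι))
  have hΦ : ∀ v : Fin r → K, Φ v = ((R g).map ((algebraMap O K).comp ι)).mulVec v +
      ((algebraMap O K).comp ι) ((ε g : ℤ_[p]ˣ) : ℤ_[p]) •
        ((R g⁻¹).map ((algebraMap O K).comp ι)).mulVec v := by
    intro v
    show ((R g).map ((algebraMap O K).comp ι) +
      ((algebraMap O K).comp ι) ((ε g : ℤ_[p]ˣ) : ℤ_[p]) •
        (R g⁻¹).map ((algebraMap O K).comp ι)).mulVec v = _
    rw [Matrix.add_mulVec, Matrix.smul_mulVec]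
  have key : ∀ v ∈ Wχ, ∃ c : K, Φ v = c • v := by
    intro v hv
    refine Limit.exists_smul_eq_of_approx (ι (p : ℤ_[p])) hιp
      (Submodule.span O (Set.range fun ij : Fin r × Fin r =>
        (Pi.single ij.1 (v ij.2) : Fin r → K)))
      (Submodule.fg_span (Set.finite_range _)) (Φ v) v ?_
    intro n
    obtain ⟨ℓ, hℓ, hℓN, hℓS, i, W, hW⟩ := exists_approx p N S hpS hNS hcheb ε hε_level hε_frob
      R Tm hcont hfrob g n
    refine ⟨psum (χ (heckeAlgebra.T hℓ hℓN hℓS)) ((ℓ : ℕ) : O) i,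
      (W.map ((algebraMap O K).comp ι)).mulVec v, ?_, ?_⟩
    · -- membership in the lattice
      have hy : (W.map ((algebraMap O K).comp ι)).mulVec v =
          ∑ a : Fin r, ∑ b : Fin r, ι (W a b) • (Pi.single a (v b) : Fin r → K) := by
        funext a
        have hL : (W.map ((algebraMap O K).comp ι)).mulVec v a =
            ∑ b : Fin r, ((algebraMap O K).comp ι) (W a b) * v b := rfl
        have hR : (∑ a' : Fin r, ∑ b : Fin r,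
            ι (W a' b) • (Pi.single a' (v b) : Fin r → K)) a =
            ∑ b : Fin r, ((algebraMap O K).comp ι) (W a b) * v b := by
          rw [Finset.sum_apply, Finset.sum_eq_single a]
          · rw [Finset.sum_apply]
            refine Finset.sum_congr rfl fun b _ => ?_
            rw [Pi.smul_apply, Pi.single_eq_same, RingHom.comp_apply, Algebra.smul_def]
          · intro b _ hb
            rw [Finset.sum_apply]
            refine Finset.sum_eq_zero fun c _ => ?_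
            rw [Pi.smul_apply, Pi.single_eq_of_ne hb.symm, smul_zero]
          · intro h
            exact absurd (Finset.mem_univ a) h
        rw [hL, hR]
      rw [hy]
      refine Submodule.sum_mem _ fun a _ => Submodule.sum_mem _ fun b _ =>
        Submodule.smul_mem _ _ (Submodule.subset_span ⟨(a, b), rfl⟩)
    · -- the congruence
      have h1 : (R g).map ((algebraMap O K).comp ι) +
          ((algebraMap O K).comp ι) ((ε g : ℤ_[p]ˣ) : ℤ_[p]) •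
            (R g⁻¹).map ((algebraMap O K).comp ι) =
          psum ((Tm ⟨ℓ, hℓ⟩).map ((algebraMap O K).comp ι))
            ((ℓ : ℕ) : Matrix (Fin r) (Fin r) K) i +
          ((algebraMap O K).comp ι) (p : ℤ_[p]) ^ n •
            W.map ((algebraMap O K).comp ι) := by
        have e := congrArg (RingHom.mapMatrix ((algebraMap O K).comp ι)) hW
        rw [map_add, map_add, map_psum, map_natCast] at e
        simp only [RingHom.mapMatrix_apply] at e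
        rw [Matrix.map_smul' _ _ _ (map_mul _), Matrix.map_smul' _ _ _ (map_mul _), map_pow] at e
        exact e
      have h2 := psum_mulVec ((Tm ⟨ℓ, hℓ⟩).map ((algebraMap O K).comp ι)) ℓ
        (algebraMap O K (χ (heckeAlgebra.T hℓ hℓN hℓS))) v (hv ℓ hℓ hℓN hℓS) i
      have h3 : psum (algebraMap O K (χ (heckeAlgebra.T hℓ hℓN hℓS))) ((ℓ : ℕ) : K) i =
          algebraMap O K (psum (χ (heckeAlgebra.T hℓ hℓN hℓS)) ((ℓ : ℕ) : O) i) := by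
        rw [map_psum, map_natCast]
      show Matrix.mulVec _ v - _ = _
      rw [h1, Matrix.add_mulVec, h2, h3, algebraMap_smul, add_sub_cancel_left,
        Matrix.smul_mulVec, RingHom.comp_apply, ← map_pow, algebraMap_smul]
  obtain ⟨t, ht⟩ := exists_scalar_of_forall Φ Wχ key
  exact ⟨t, fun v hv => by rw [← hΦ]; exact ht v hv⟩

end Approx

end Fermat.Agent.S30.QuadAllB
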