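import Mathlib

/-!
# S30 (phase B): matrices of a representation on a saturated lattice

Let `B` be a commutative ring inside a field `K`, `U ≤ Kʳ` a subspace and `e : Fin d → Bʳ` a
family which is `K`-linearly independent, spans `U` over `K` and spans `U ∩ Bʳ` over `B`
(`Lattice.exists_basis`).  For a group `G` acting on `Bʳ` through matrices `RB g` preserving `U`
we construct the matrices `latRep g ∈ M_d(B)` of the action on the lattice `U ∩ Bʳ` in the basis
`e` (`RB g * E = E * latRep g`, `E` the matrix with columns `e k`), and transport congruences,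
linear relations and irreducibility.
-/

set_option autoImplicit false
set_option linter.unusedSectionVars false

namespace Fermat.Agent.S30.LatMat

open Matrix

section Basic

variable {B : Type*} [CommRing B] {r d : ℕ}

/-- the `r × d` matrix with columns `e k` -/
def colMat (e : Fin d → Fin r → B) : Matrix (Fin r) (Fin d) B := Matrix.of fun i k => e k i

theorem colMat_apply (e : Fin d → Fin r → B) (i : Fin r) (k : Fin d) : colMat e i k = e k i := rfl

theorem colMat_mulVec (e : Fin d → Fin r → B) (a : Fin d → B) :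
    colMat e *ᵥ a = ∑ k, a k • e k := by
  funext i
  simp only [Matrix.mulVec, dotProduct, colMat_apply, Finset.sum_apply, Pi.smul_apply, smul_eq_mul]
  exact Finset.sum_congr rfl fun k _ => mul_comm _ _

/-- left cancellation by a matrix with injective `mulVec` -/
theorem mat_cancel (E : Matrix (Fin r) (Fin d) B) (hE : ∀ a : Fin d → B, E *ᵥ a = 0 → a = 0)
    {n : ℕ} (A A' : Matrix (Fin d) (Fin n) B) (h : E * A = E * A') : A = A' := by
  ext l k
  have h0 : E *ᵥ (fun l => A l k - A' l k) = 0 := by
    funext i
    have hi := congrFun (congrFun h i) k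
    simp only [Matrix.mul_apply] at hi
    simp only [Matrix.mulVec, dotProduct, Pi.zero_apply, mul_sub, Finset.sum_sub_distrib]
    rw [hi, sub_self]
  exact sub_eq_zero.mp (congrFun (hE _ h0) l)

end Basic

section Lattice

variable {B K : Type*} [CommRing B] [Field K] [Algebra B K] {r d : ℕ}
  (e : Fin d → Fin r → B) (U : Submodule K (Fin r → K))

/-- the image of `e` in `Kʳ` -/
def eK : Fin d → Fin r → K := fun k i => algebraMap B K (e k i)

theorem colMat_map (e : Fin d → Fin r → B) :
    (colMat e).map (algebraMap B K) = colMat (eK (K := K) e) := rfl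

variable {e U}

theorem eK_mem (hspan : Submodule.span K (Set.range (eK (K := K) e)) = U) (k : Fin d) :
    eK (K := K) e k ∈ U :=
  hspan ▸ Submodule.subset_span ⟨k, rfl⟩

theorem colMat_eK_mulVec_mem (hspan : Submodule.span K (Set.range (eK (K := K) e)) = U)
    (a : Fin d → K) : colMat (eK (K := K) e) *ᵥ a ∈ U := by
  rw [colMat_mulVec]
  exact Submodule.sum_mem _ fun k _ => Submodule.smul_mem _ _ (eK_mem hspan k)

theorem colMat_eK_inj (hli : LinearIndependent K (eK (K := K) e)) (a : Fin d → K)
    (h : colMat (eK (K := K) e) *ᵥ a = 0) : a = 0 := by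
  rw [colMat_mulVec] at h
  funext k
  exact Fintype.linearIndependent_iff.mp hli a h k

theorem colMat_inj (hinj : Function.Injective (algebraMap B K))
    (hli : LinearIndependent K (eK (K := K) e)) (a : Fin d → B)
    (h : colMat e *ᵥ a = 0) : a = 0 := by
  have h1 : colMat (eK (K := K) e) *ᵥ (algebraMap B K ∘ a) = 0 := by
    funext i
    rw [← colMat_map, ← RingHom.map_mulVec, h, Pi.zero_apply, map_zero, Pi.zero_apply]
  funext k
  have h2 := congrFun (colMat_eK_inj hli _ h1) k
  exact hinj (by rw [Pi.zero_apply, map_zero]; exact h2)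

/-- the columns of `E * Y` lie in `U` -/
theorem col_mul_mem (hspan : Submodule.span K (Set.range (eK (K := K) e)) = U) {n : ℕ}
    (Y : Matrix (Fin d) (Fin n) B) (k : Fin n) :
    (fun i => algebraMap B K ((colMat e * Y) i k)) ∈ U := by
  have h : (fun i => algebraMap B K ((colMat e * Y) i k)) =
      colMat (eK (K := K) e) *ᵥ (fun l => algebraMap B K (Y l k)) := by
    funext i
    simp only [Matrix.mul_apply, Matrix.mulVec, dotProduct, colMat_apply, eK, map_sum, map_mul]
  rw [h]
  exact colMat_eK_mulVec_mem hspan _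

/-- a matrix over `B` whose columns lie in `U` factors through `E` -/
theorem exists_factor
    (hsat : ∀ x : Fin r → B, (fun i => algebraMap B K (x i)) ∈ U →
      x ∈ Submodule.span B (Set.range e)) {n : ℕ}
    (P : Matrix (Fin r) (Fin n) B) (hP : ∀ k, (fun i => algebraMap B K (P i k)) ∈ U) :
    ∃ A : Matrix (Fin d) (Fin n) B, P = colMat e * A := by
  have hex : ∀ k, ∃ a : Fin d → B, ∑ l, a l • e l = fun i => P i k := fun k =>
    (Submodule.mem_span_range_iff_exists_fun B).mp (hsat _ (hP k))
  choose a ha using hex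
  refine ⟨Matrix.of fun l k => a k l, ?_⟩
  ext i k
  have h := congrFun (ha k) i
  simp only [Finset.sum_apply, Pi.smul_apply, smul_eq_mul] at h
  rw [Matrix.mul_apply, ← h]
  exact Finset.sum_congr rfl fun l _ => by rw [colMat_apply, Matrix.of_apply, mul_comm]

/-- the matrix of an endomorphism of `Bʳ` preserving `U`, on the lattice -/
theorem exists_latMat (hspan : Submodule.span K (Set.range (eK (K := K) e)) = U)
    (hsat : ∀ x : Fin r → B, (fun i => algebraMap B K (x i)) ∈ U →
      x ∈ Submodule.span B (Set.range e))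
    (M : Matrix (Fin r) (Fin r) B)
    (hM : ∀ x ∈ U, M.map (algebraMap B K) *ᵥ x ∈ U) :
    ∃ A : Matrix (Fin d) (Fin d) B, M * colMat e = colMat e * A := by
  refine exists_factor hsat (M * colMat e) fun k => ?_
  have h : (fun i => algebraMap B K ((M * colMat e) i k)) =
      M.map (algebraMap B K) *ᵥ eK (K := K) e k := by
    funext i
    simp only [Matrix.mul_apply, Matrix.mulVec, dotProduct, colMat_apply, eK, map_sum, map_mul,
      Matrix.map_apply]
  rw [h]
  exact hM _ (eK_mem hspan k)

end Lattice

section Rep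

variable {G : Type*} [Group G] {B K : Type*} [CommRing B] [Field K] [Algebra B K] {r d : ℕ}
  {e : Fin d → Fin r → B} {U : Submodule K (Fin r → K)}
  (hinj : Function.Injective (algebraMap B K))
  (hli : LinearIndependent K (eK (K := K) e))
  (hspan : Submodule.span K (Set.range (eK (K := K) e)) = U)
  (hsat : ∀ x : Fin r → B, (fun i => algebraMap B K (x i)) ∈ U →
    x ∈ Submodule.span B (Set.range e))
  (RB : G →* Matrix (Fin r) (Fin r) B)
  (hst : ∀ g, ∀ x ∈ U, (RB g).map (algebraMap B K) *ᵥ x ∈ U)

/-- the matrices of the action on the lattice `U ∩ Bʳ` in the basis `e` -/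
noncomputable def latFun (g : G) : Matrix (Fin d) (Fin d) B :=
  Classical.choose (exists_latMat hspan hsat (RB g) (hst g))

theorem latFun_spec (g : G) :
    RB g * colMat e = colMat e * latFun hspan hsat RB hst g :=
  Classical.choose_spec (exists_latMat hspan hsat (RB g) (hst g))

include hinj hli in
theorem latFun_one : latFun hspan hsat RB hst 1 = 1 := by
  refine mat_cancel (colMat e) (colMat_inj hinj hli) _ _ ?_
  rw [← latFun_spec, map_one, Matrix.one_mul, Matrix.mul_one]

include hinj hli in
theorem latFun_mul (g h : G) :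
    latFun hspan hsat RB hst (g * h) = latFun hspan hsat RB hst g * latFun hspan hsat RB hst h := by
  refine mat_cancel (colMat e) (colMat_inj hinj hli) _ _ ?_
  rw [← latFun_spec, map_mul, Matrix.mul_assoc, latFun_spec hspan hsat RB hst h,
    ← Matrix.mul_assoc, latFun_spec hspan hsat RB hst g, Matrix.mul_assoc]

/-- the representation on the lattice, in matrix form -/
noncomputable def latRep : G →* Matrix (Fin d) (Fin d) B where
  toFun := latFun hspan hsat RB hst
  map_one' := latFun_one hinj hli hspan hsat RB hst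
  map_mul' := latFun_mul hinj hli hspan hsat RB hst

theorem latRep_spec (g : G) :
    RB g * colMat e = colMat e * latRep hinj hli hspan hsat RB hst g :=
  latFun_spec hspan hsat RB hst g

theorem latRep_spec_map (g : G) :
    (RB g).map (algebraMap B K) * colMat (eK (K := K) e) =
      colMat (eK (K := K) e) * (latRep hinj hli hspan hsat RB hst g).map (algebraMap B K) := by
  rw [← colMat_map, ← Matrix.map_mul, latRep_spec hinj hli hspan hsat RB hst g, Matrix.map_mul]

/-- (Q1) trivial action gives the identity matrix -/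
theorem latRep_eq_one (g : G) (hg : RB g = 1) : latRep hinj hli hspan hsat RB hst g = 1 := by
  refine mat_cancel (colMat e) (colMat_inj hinj hli) _ _ ?_
  rw [← latRep_spec, hg, Matrix.one_mul, Matrix.mul_one]

/-- (Q2) congruences descend to the lattice -/
theorem latRep_congr (g : G) (c : B) (hc : c ≠ 0) (W' : Matrix (Fin r) (Fin r) B)
    (hg : RB g = 1 + c • W') :
    ∃ A' : Matrix (Fin d) (Fin d) B, latRep hinj hli hspan hsat RB hst g = 1 + c • A' := by
  have hcK : algebraMap B K c ≠ 0 := fun h => hc (hinj (by rw [h, map_zero]))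
  have h1 : c • (W' * colMat e) =
      colMat e * (latRep hinj hli hspan hsat RB hst g - 1) := by
    rw [Matrix.mul_sub, Matrix.mul_one, ← latRep_spec, hg, Matrix.add_mul, Matrix.one_mul,
      Matrix.smul_mul, add_sub_cancel_left]
  obtain ⟨A', hA'⟩ := exists_factor hsat (W' * colMat e) fun k => by
    have h2 := col_mul_mem hspan (latRep hinj hli hspan hsat RB hst g - 1) k
    rw [← h1] at h2
    have h3 : (fun i => algebraMap B K ((c • (W' * colMat e)) i k)) =
        algebraMap B K c • fun i => algebraMap B K ((W' * colMat e) i k) := by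
      funext i
      rw [Matrix.smul_apply, smul_eq_mul, map_mul, Pi.smul_apply, smul_eq_mul]
    rw [h3] at h2
    have h4 := Submodule.smul_mem U (algebraMap B K c)⁻¹ h2
    rwa [smul_smul, inv_mul_cancel₀ hcK, one_smul] at h4
  refine ⟨A', mat_cancel (colMat e) (colMat_inj hinj hli) _ _ ?_⟩
  rw [← latRep_spec, hg, Matrix.add_mul, Matrix.one_mul, Matrix.smul_mul, hA', Matrix.mul_add,
    Matrix.mul_one, Matrix.mul_smul]

/-- (Q3) linear relations on `U` descend to the lattice -/
theorem latRep_rel (g h : G) (δ t : K)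
    (hrel : ∀ x ∈ U, (RB g).map (algebraMap B K) *ᵥ x + δ • ((RB h).map (algebraMap B K) *ᵥ x)
      = t • x) :
    (latRep hinj hli hspan hsat RB hst g).map (algebraMap B K) +
      δ • (latRep hinj hli hspan hsat RB hst h).map (algebraMap B K) =
      t • (1 : Matrix (Fin d) (Fin d) K) := by
  refine mat_cancel (colMat (eK (K := K) e)) (colMat_eK_inj hli) _ _ ?_
  rw [Matrix.mul_add, Matrix.mul_smul, ← latRep_spec_map, ← latRep_spec_map, Matrix.mul_smul,
    Matrix.mul_one]
  ext i k
  have hk := congrFun (hrel _ (eK_mem hspan k)) i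
  simp only [Matrix.add_apply, Matrix.smul_apply, Matrix.mul_apply, colMat_apply, smul_eq_mul]
  simp only [Pi.add_apply, Pi.smul_apply, Matrix.mulVec, dotProduct, smul_eq_mul] at hk
  exact hk

/-- (Q4) minimality of `U` gives irreducibility of the lattice representation over `K` -/
theorem latRep_irreducible
    (hmin : ∀ U' : Submodule K (Fin r → K), U' ≤ U → U' ≠ ⊥ →
      (∀ g, ∀ x ∈ U', (RB g).map (algebraMap B K) *ᵥ x ∈ U') → U' = U)
    (W : Submodule K (Fin d → K))
    (hW : ∀ g, ∀ a ∈ W, (latRep hinj hli hspan hsat RB hst g).map (algebraMap B K) *ᵥ a ∈ W) :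
    W = ⊥ ∨ W = ⊤ := by
  by_cases hW0 : W = ⊥
  · exact Or.inl hW0
  right
  let U' : Submodule K (Fin r → K) := W.map (colMat (eK (K := K) e)).mulVecLin
  have hU'le : U' ≤ U := by
    rintro _ ⟨a, _, rfl⟩
    exact colMat_eK_mulVec_mem hspan a
  have hU'0 : U' ≠ ⊥ := by
    intro h
    apply hW0
    rw [eq_bot_iff]
    intro a ha
    have h1 : (colMat (eK (K := K) e)).mulVecLin a ∈ U' := ⟨a, ha, rfl⟩
    rw [h, Submodule.mem_bot, Matrix.mulVecLin_apply] at h1
    rw [Submodule.mem_bot]
    exact colMat_eK_inj hli a h1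
  have hU'st : ∀ g, ∀ x ∈ U', (RB g).map (algebraMap B K) *ᵥ x ∈ U' := by
    rintro g _ ⟨a, ha, rfl⟩
    refine ⟨(latRep hinj hli hspan hsat RB hst g).map (algebraMap B K) *ᵥ a, hW g a ha, ?_⟩
    rw [Matrix.mulVecLin_apply, Matrix.mulVecLin_apply, Matrix.mulVec_mulVec, Matrix.mulVec_mulVec,
      latRep_spec_map]
  have hUU := hmin U' hU'le hU'0 hU'st
  rw [eq_top_iff]
  intro a _
  have h1 : colMat (eK (K := K) e) *ᵥ a ∈ U' := hUU ▸ colMat_eK_mulVec_mem hspan a
  obtain ⟨a', ha', h2⟩ := h1
  rw [Matrix.mulVecLin_apply] at h2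
  have h3 : a' - a = 0 := colMat_eK_inj hli _ (by rw [Matrix.mulVec_sub, h2, sub_self])
  rw [← sub_eq_zero.mp h3]
  exact ha'

end Rep

end Fermat.Agent.S30.LatMat
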