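import Mathlib

/-!
# Lattices in rational subspaces (phase B of MODGAL, slice B8)

`B` a principal ideal domain mapping injectively to a field `K`; `U ≤ Kʳ` a subspace spanned by
vectors with coordinates in `B`.  Then `U ∩ Bʳ` has a `B`-basis which is a `K`-basis of `U`.
-/

set_option autoImplicit false

namespace Fermat.Agent.S30.Lattice

/-- Linear independence over a domain `B` of vectors in `Bʳ` persists over any field `K`
containing `B`. -/
theorem linearIndependent_map {B K : Type*} [CommRing B] [IsDomain B]
    [Field K] [Algebra B K] (hinj : Function.Injective (algebraMap B K)) {r : ℕ} {ι : Type*}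
    (v : ι → (Fin r → B)) (hv : LinearIndependent B v) :
    LinearIndependent K (fun k i => algebraMap B K (v k i)) := by
  classical
  let F := FractionRing B
  letI : Algebra F K := (IsFractionRing.lift hinj).toAlgebra
  haveI : IsScalarTower B F K :=
    IsScalarTower.of_algebraMap_eq (fun x => (IsFractionRing.lift_algebraMap hinj x).symm)
  -- step 1: `F`-independence in `Fʳ`
  have hF : LinearIndependent F (fun k i => algebraMap B F (v k i)) := by
    rw [← LinearIndependent.iff_fractionRing B F]
    have hker : LinearMap.ker ((Algebra.linearMap B F).compLeft (Fin r)) = ⊥ := by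
      rw [LinearMap.ker_eq_bot]
      intro x y hxy
      funext i
      have := congrFun hxy i
      exact IsFractionRing.injective B F this
    exact hv.map' ((Algebra.linearMap B F).compLeft (Fin r)) hker
  -- step 2: `K`-independence via an `F`-linear functional on `K`
  rw [linearIndependent_iff'] at hF ⊢
  intro s c hc k hk
  by_contra hne
  obtain ⟨lam, hlam⟩ := Module.Projective.exists_dual_ne_zero F hne
  have key : ∑ k ∈ s, lam (c k) • (fun i => algebraMap B F (v k i)) = 0 := by
    funext i
    have hi := congrFun hc i
    simp only [Finset.sum_apply, Pi.smul_apply, smul_eq_mul, Pi.zero_apply] at hi ⊢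
    have h2 : lam (∑ k ∈ s, c k * algebraMap B K (v k i)) = 0 := by rw [hi, map_zero]
    rw [map_sum] at h2
    rw [← h2]
    refine Finset.sum_congr rfl fun k _ => ?_
    have h3 : c k * algebraMap B K (v k i) = algebraMap B F (v k i) • c k := by
      rw [Algebra.smul_def, ← IsScalarTower.algebraMap_apply, mul_comm]
    rw [h3, map_smul, smul_eq_mul, mul_comm]
  exact hlam (hF s (fun k => lam (c k)) key k hk)

/-- **Lattices in rational subspaces.**  For a principal ideal domain `B` inside a field `K` and
a subspace `U ≤ Kʳ` spanned by `B`-vectors, there is a `B`-basis of `U ∩ Bʳ` which is a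
`K`-basis of `U`. -/
theorem exists_basis {B K : Type*} [CommRing B] [IsDomain B] [IsPrincipalIdealRing B]
    [Field K] [Algebra B K] (hinj : Function.Injective (algebraMap B K)) {r : ℕ}
    (U : Submodule K (Fin r → K))
    (hU : ∃ s : Set (Fin r → B), U = Submodule.span K ((fun x i => algebraMap B K (x i)) '' s)) :
    ∃ (d : ℕ) (e : Fin d → (Fin r → B)),
      LinearIndependent K (fun k i => algebraMap B K (e k i)) ∧
      Submodule.span K (Set.range (fun k i => algebraMap B K (e k i))) = U ∧
      ∀ x : Fin r → B, (fun i => algebraMap B K (x i)) ∈ U → x ∈ Submodule.span B (Set.range e) := by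
  classical
  obtain ⟨s, hs⟩ := hU
  let j : (Fin r → B) →ₗ[B] (Fin r → K) := (Algebra.linearMap B K).compLeft (Fin r)
  have hj : ∀ x : Fin r → B, j x = fun i => algebraMap B K (x i) := fun x => rfl
  let L : Submodule B (Fin r → B) := (U.restrictScalars B).comap j
  have hL : ∀ x : Fin r → B, x ∈ L ↔ (fun i => algebraMap B K (x i)) ∈ U := fun x => Iff.rfl
  obtain ⟨d, bas⟩ := Submodule.basisOfPid (Pi.basisFun B (Fin r)) L
  let e : Fin d → (Fin r → B) := fun k => (bas k : Fin r → B)
  have hspanB : Submodule.span B (Set.range e) = L := by
    have h1 : Set.range e = L.subtype '' Set.range bas := by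
      rw [← Set.range_comp]
      rfl
    rw [h1, ← Submodule.map_span, bas.span_eq, Submodule.map_subtype_top]
  have hind : LinearIndependent B e :=
    bas.linearIndependent.map' L.subtype (Submodule.ker_subtype _)
  refine ⟨d, e, linearIndependent_map hinj e hind, ?_, ?_⟩
  · apply le_antisymm
    · rw [Submodule.span_le]
      rintro _ ⟨k, rfl⟩
      exact (hL (e k)).1 (bas k).2
    · rw [hs, Submodule.span_le]
      rintro _ ⟨x, hx, rfl⟩
      have hxL : x ∈ L := by
        rw [hL, hs]
        exact Submodule.subset_span ⟨x, hx, rfl⟩
      rw [← hspanB] at hxL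
      have h2 : j x ∈ (Submodule.span B (Set.range e)).map j := Submodule.mem_map_of_mem hxL
      rw [Submodule.map_span] at h2
      have h3 : j '' Set.range e = Set.range (fun k i => algebraMap B K (e k i)) := by
        rw [← Set.range_comp]
        rfl
      rw [h3] at h2
      exact Submodule.span_le_restrictScalars B K _ h2
  · intro x hx
    rw [hspanB]
    exact (hL x).2 hx

end Fermat.Agent.S30.Lattice
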