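import Mathlib
import Fermat.Agent.S30.Defs
import Fermat.Agent.S30.Lattice
import Fermat.Agent.S30.LatMat
import Fermat.Agent.S29.QuadCharpoly

/-!
# S30 (phase B): the two-dimensional `p`-adic representation on a lattice

* `ofMatrix` : a matrix representation `GQ →* M₂(B)` over a local ring which is `𝔪`-adically
  continuous is a `GaloisRepAdic B`;
* `exists_rep_of_minimal` : let `B` be a discrete valuation ring inside an algebraically closed
  field `K`, `R : GQ →* M_r(ℤ_p)` a continuous matrix representation, `ε` a continuous character,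
  and `U ≤ Kʳ` a minimal nonzero `R`-stable subspace spanned by `B`-vectors on which
  `R g + ε g • R g⁻¹` is the scalar `t g` for every `g`.  Then there is a `GaloisRepAdic B` whose
  characteristic polynomials are `X² - t g X + ε g`, trivial on every `g` with `R g = 1` and
  `ε g = 1`.
-/

set_option autoImplicit false
set_option linter.unusedSectionVars false
set_option linter.style.haveILetI false
set_option linter.unnecessarySeqFocus false

noncomputable section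

namespace Fermat.Agent.S30.LatAdic

open Polynomial Matrix Fermat.Agent.S30.LatMat

/-- a continuous `2 × 2` matrix representation as a `GaloisRepAdic` -/
def ofMatrix {B : Type} [CommRing B] [IsLocalRing B] (A : GQ →* Matrix (Fin 2) (Fin 2) B)
    (hcont : ∀ n : ℕ, ∃ L : IntermediateField ℚ Qb, FiniteDimensional ℚ L ∧
      ∀ σ : GQ, (∀ x ∈ L, σ x = x) → ∃ (c : B) (A' : Matrix (Fin 2) (Fin 2) B),
        c ∈ IsLocalRing.maximalIdeal B ^ n ∧ A σ = 1 + c • A') : GaloisRepAdic B where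
  V := Fin 2 → B
  finrank_eq := by simp
  ρ :=
    { toFun := fun σ => Matrix.toLin' (A σ)
      map_one' := by rw [map_one, Matrix.toLin'_one]; rfl
      map_mul' := fun σ τ => by rw [map_mul, Matrix.toLin'_mul]; rfl }
  isAdicContinuous := by
    intro n
    obtain ⟨L, hL, h⟩ := hcont n
    refine ⟨L, hL, fun σ hσ v => ?_⟩
    obtain ⟨c, A', hc, hA⟩ := h σ hσ
    have h1 : Matrix.toLin' (A σ) v - v = c • (A' *ᵥ v) := by
      rw [Matrix.toLin'_apply, hA, Matrix.add_mulVec, Matrix.one_mulVec, add_sub_cancel_left,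
        Matrix.smul_mulVec]
    show Matrix.toLin' (A σ) v - v ∈ _
    rw [h1]
    exact Submodule.smul_mem_smul hc Submodule.mem_top

theorem ofMatrix_apply {B : Type} [CommRing B] [IsLocalRing B] (A : GQ →* Matrix (Fin 2) (Fin 2) B)
    (hcont : ∀ n : ℕ, ∃ L : IntermediateField ℚ Qb, FiniteDimensional ℚ L ∧
      ∀ σ : GQ, (∀ x ∈ L, σ x = x) → ∃ (c : B) (A' : Matrix (Fin 2) (Fin 2) B),
        c ∈ IsLocalRing.maximalIdeal B ^ n ∧ A σ = 1 + c • A') (σ : GQ) :
    (ofMatrix A hcont).ρ σ = Matrix.toLin' (A σ) := rfl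

theorem ofMatrix_charpoly {B : Type} [CommRing B] [IsLocalRing B]
    (A : GQ →* Matrix (Fin 2) (Fin 2) B)
    (hcont : ∀ n : ℕ, ∃ L : IntermediateField ℚ Qb, FiniteDimensional ℚ L ∧
      ∀ σ : GQ, (∀ x ∈ L, σ x = x) → ∃ (c : B) (A' : Matrix (Fin 2) (Fin 2) B),
        c ∈ IsLocalRing.maximalIdeal B ^ n ∧ A σ = 1 + c • A') (σ : GQ) :
    LinearMap.charpoly ((ofMatrix A hcont).ρ σ) = (A σ).charpoly := by
  rw [ofMatrix_apply]
  exact Matrix.charpoly_toLin' (A σ)

theorem ofMatrix_eq_one {B : Type} [CommRing B] [IsLocalRing B]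
    (A : GQ →* Matrix (Fin 2) (Fin 2) B)
    (hcont : ∀ n : ℕ, ∃ L : IntermediateField ℚ Qb, FiniteDimensional ℚ L ∧
      ∀ σ : GQ, (∀ x ∈ L, σ x = x) → ∃ (c : B) (A' : Matrix (Fin 2) (Fin 2) B),
        c ∈ IsLocalRing.maximalIdeal B ^ n ∧ A σ = 1 + c • A') (σ : GQ) (h : A σ = 1) :
    (ofMatrix A hcont).ρ σ = 1 := by
  rw [ofMatrix_apply, h, Matrix.toLin'_one]
  rfl

section Main

variable {p : ℕ} [Fact p.Prime]
  {B : Type} [CommRing B] [IsDomain B] [IsDiscreteValuationRing B]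
  {K : Type} [Field K] [IsAlgClosed K] [Algebra B K]

/-- **The lattice representation.**  See the module docstring. -/
theorem exists_rep_of_minimal
    (hinj : Function.Injective (algebraMap B K))
    (ιB : ℤ_[p] →+* B) (f : ℤ_[p] →+* K) (hf : ∀ a, algebraMap B K (ιB a) = f a)
    (hpB : (p : B) ∈ IsLocalRing.maximalIdeal B) (hp0 : (p : B) ≠ 0)
    {r : ℕ} (R : GQ →* Matrix (Fin r) (Fin r) ℤ_[p])
    (hcont : ∀ n : ℕ, ∃ L : IntermediateField ℚ Qb, FiniteDimensional ℚ L ∧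
      ∀ σ : GQ, (∀ x ∈ L, σ x = x) →
        ∃ W : Matrix (Fin r) (Fin r) ℤ_[p], R σ = 1 + (p : ℤ_[p]) ^ n • W)
    (ε : GQ →* ℤ_[p]ˣ)
    (hε : ∀ n : ℕ, ∃ L : IntermediateField ℚ Qb, FiniteDimensional ℚ L ∧
      ∀ σ : GQ, (∀ x ∈ L, σ x = x) →
        ∃ w : ℤ_[p], ((ε σ : ℤ_[p]ˣ) : ℤ_[p]) = 1 + (p : ℤ_[p]) ^ n * w)
    (U : Submodule K (Fin r → K)) (hU0 : U ≠ ⊥)
    (hUB : ∃ s : Set (Fin r → B), U = Submodule.span K ((fun x i => algebraMap B K (x i)) '' s))
    (hst : ∀ g, ∀ x ∈ U, (R g).map f *ᵥ x ∈ U)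
    (hmin : ∀ U' : Submodule K (Fin r → K), U' ≤ U → U' ≠ ⊥ →
      (∀ g, ∀ x ∈ U', (R g).map f *ᵥ x ∈ U') → U' = U)
    (t : GQ → K)
    (hquad : ∀ g, ∀ x ∈ U, (R g).map f *ᵥ x +
      f ((ε g : ℤ_[p]ˣ) : ℤ_[p]) • ((R g⁻¹).map f *ᵥ x) = t g • x) :
    ∃ ρ : GaloisRepAdic B,
      (∀ σ, (LinearMap.charpoly (ρ.ρ σ)).map (algebraMap B K) =
        X ^ 2 - C (t σ) * X + C (f ((ε σ : ℤ_[p]ˣ) : ℤ_[p]))) ∧
      (∀ σ, R σ = 1 → ε σ = 1 → ρ.ρ σ = 1) := by
  classical
  obtain ⟨d, e, hli, hspan, hsat⟩ := Lattice.exists_basis hinj U hUB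
  have hli' : LinearIndependent K (eK (K := K) e) := hli
  have hspan' : Submodule.span K (Set.range (eK (K := K) e)) = U := hspan
  let RB : GQ →* Matrix (Fin r) (Fin r) B :=
    (RingHom.toMonoidHom
      (RingHom.mapMatrix ιB : Matrix (Fin r) (Fin r) ℤ_[p] →+* Matrix (Fin r) (Fin r) B)).comp R
  have hRBdef : ∀ g, RB g = ιB.mapMatrix (R g) := fun g => rfl
  have hRB : ∀ g, (RB g).map (algebraMap B K) = (R g).map f := by
    intro g
    ext i j
    exact hf _
  have hstB : ∀ g, ∀ x ∈ U, (RB g).map (algebraMap B K) *ᵥ x ∈ U := fun g x hx => by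
    rw [hRB]; exact hst g x hx
  let A := latRep hinj hli' hspan' hsat RB hstB
  have hA1 : ∀ g, R g = 1 → A g = 1 := fun g hg =>
    latRep_eq_one hinj hli' hspan' hsat RB hstB g (by rw [hRBdef, hg, map_one])
  have hpn : ∀ n : ℕ, ((p : B)) ^ n ≠ 0 := fun n => pow_ne_zero n hp0
  have hAcont : ∀ n : ℕ, ∃ L : IntermediateField ℚ Qb, FiniteDimensional ℚ L ∧
      ∀ σ : GQ, (∀ x ∈ L, σ x = x) →
        ∃ A' : Matrix (Fin d) (Fin d) B, A σ = 1 + (p : B) ^ n • A' := by
    intro n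
    obtain ⟨L, hL, h⟩ := hcont n
    refine ⟨L, hL, fun σ hσ => ?_⟩
    obtain ⟨W, hW⟩ := h σ hσ
    refine latRep_congr hinj hli' hspan' hsat RB hstB σ ((p : B) ^ n) (hpn n)
      (ιB.mapMatrix W) ?_
    rw [hRBdef, hW, map_add, map_one]
    congr 1
    ext i j
    simp [RingHom.mapMatrix_apply, Matrix.map_apply, Matrix.smul_apply]
  -- the representation over `K`
  let ρK : GQ →* Module.End K (Fin d → K) :=
    { toFun := fun g => Matrix.toLin' ((A g).map (algebraMap B K))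
      map_one' := by
        rw [map_one, Matrix.map_one _ (map_zero _) (map_one _), Matrix.toLin'_one]; rfl
      map_mul' := fun g h => by rw [map_mul, Matrix.map_mul, Matrix.toLin'_mul]; rfl }
  have hρK : ∀ g, ρK g = Matrix.toLin' ((A g).map (algebraMap B K)) := fun g => rfl
  let δ : GQ →* Kˣ := (Units.map (f : ℤ_[p] →* K)).comp ε
  have hδ : ∀ g, ((δ g : Kˣ) : K) = f ((ε g : ℤ_[p]ˣ) : ℤ_[p]) := fun g => rfl
  have hrel : ∀ g, (A g).map (algebraMap B K) +
      f ((ε g : ℤ_[p]ˣ) : ℤ_[p]) • (A g⁻¹).map (algebraMap B K) =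
        t g • (1 : Matrix (Fin d) (Fin d) K) := fun g =>
    latRep_rel hinj hli' hspan' hsat RB hstB g g⁻¹ _ _ (fun x hx => by
      rw [hRB, hRB]; exact hquad g x hx)
  have hq : ∀ g, ρK g + (δ g : K) • ρK g⁻¹ = t g • (1 : Module.End K (Fin d → K)) := by
    intro g
    rw [hρK, hρK, hδ, ← map_smul, ← map_add, hrel g, map_smul, Matrix.toLin'_one]
    rfl
  have hirr : ∀ W : Submodule K (Fin d → K), (∀ g, ∀ x ∈ W, ρK g x ∈ W) → W = ⊥ ∨ W = ⊤ :=
    fun W hW => latRep_irreducible hinj hli' hspan' hsat RB hstB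
      (fun U' h1 h2 h3 => hmin U' h1 h2 (fun g x hx => by rw [← hRB]; exact h3 g x hx)) W
      (fun g a ha => by
        have h := hW g a ha
        rwa [hρK, Matrix.toLin'_apply] at h)
  have hle : Module.finrank K (Fin d → K) ≤ 2 :=
    Fermat.Agent.S29.QuadDim.finrank_le_two ρK δ t hq hirr
  rw [Module.finrank_fin_fun] at hle
  have hd0 : d ≠ 0 := by
    rintro rfl
    apply hU0
    rw [← hspan', Set.range_eq_empty, Submodule.span_empty]
  rcases (show d = 2 ∨ d = 1 by omega) with rfl | rfl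
  · -- dimension two
    have hcontA : ∀ n : ℕ, ∃ L : IntermediateField ℚ Qb, FiniteDimensional ℚ L ∧
        ∀ σ : GQ, (∀ x ∈ L, σ x = x) → ∃ (c : B) (A' : Matrix (Fin 2) (Fin 2) B),
          c ∈ IsLocalRing.maximalIdeal B ^ n ∧ A σ = 1 + c • A' := by
      intro n
      obtain ⟨L, hL, h⟩ := hAcont n
      exact ⟨L, hL, fun σ hσ => by
        obtain ⟨A', hA'⟩ := h σ hσ
        exact ⟨(p : B) ^ n, A', Ideal.pow_mem_pow hpB n, hA'⟩⟩
    refine ⟨ofMatrix A hcontA, fun σ => ?_, fun σ hσ _ => ofMatrix_eq_one A hcontA σ (hA1 σ hσ)⟩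
    rw [ofMatrix_charpoly, ← Matrix.charpoly_map]
    have h2 := Fermat.Agent.S29.QuadCharpoly.charpoly_of_finrank_two ρK δ t hq hirr
      (by rw [Module.finrank_fin_fun]) σ
    have h3 : LinearMap.charpoly (ρK σ) = ((A σ).map (algebraMap B K)).charpoly :=
      Matrix.charpoly_toLin' _
    rw [← h3, h2, hδ]
  · -- dimension one
    let ψ : GQ → B := fun g => A g 0 0
    have hψdef : ∀ g, ψ g = A g 0 0 := fun g => rfl
    have hψ1 : ψ 1 = 1 := by rw [hψdef, map_one, Matrix.one_apply_eq]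
    have hψmul : ∀ g h, ψ (g * h) = ψ g * ψ h := by
      intro g h
      rw [hψdef, map_mul, Matrix.mul_apply, Fin.sum_univ_one]
    have hψinv : ∀ g, ψ g * ψ g⁻¹ = 1 := fun g => by rw [← hψmul, mul_inv_cancel, hψ1]
    let εB : GQ → B := fun g => ιB ((ε g : ℤ_[p]ˣ) : ℤ_[p])
    have hεBdef : ∀ g, εB g = ιB ((ε g : ℤ_[p]ˣ) : ℤ_[p]) := fun g => rfl
    have hεB1 : εB 1 = 1 := by rw [hεBdef, map_one, Units.val_one, map_one]
    have hεBmul : ∀ g h, εB (g * h) = εB g * εB h := fun g h => by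
      rw [hεBdef, map_mul, Units.val_mul, map_mul]
    have hψt : ∀ g, algebraMap B K (ψ g + εB g * ψ g⁻¹) = t g := by
      intro g
      have h := congrFun (congrFun (hrel g) 0) 0
      simp only [Matrix.add_apply, Matrix.smul_apply, Matrix.map_apply, Matrix.one_apply_eq,
        smul_eq_mul, mul_one] at h
      rw [map_add, map_mul, hεBdef, hf]
      exact h
    let D : GQ →* Matrix (Fin 2) (Fin 2) B :=
      { toFun := fun g => Matrix.diagonal ![ψ g, εB g * ψ g⁻¹]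
        map_one' := by
          rw [inv_one, hψ1, hεB1, mul_one]
          ext i j
          fin_cases i <;> fin_cases j <;> simp
        map_mul' := fun g h => by
          rw [Matrix.diagonal_mul_diagonal]
          congr 1
          ext i
          fin_cases i
          · simp [hψmul]
          · simp [hψmul, hεBmul, _root_.mul_inv_rev]
            ring }
    have hDdef : ∀ g, D g = Matrix.diagonal ![ψ g, εB g * ψ g⁻¹] := fun g => rfl
    have hDcont : ∀ n : ℕ, ∃ L : IntermediateField ℚ Qb, FiniteDimensional ℚ L ∧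
        ∀ σ : GQ, (∀ x ∈ L, σ x = x) → ∃ (c : B) (A' : Matrix (Fin 2) (Fin 2) B),
          c ∈ IsLocalRing.maximalIdeal B ^ n ∧ D σ = 1 + c • A' := by
      intro n
      obtain ⟨L₁, hL₁, h₁⟩ := hAcont n
      obtain ⟨L₂, hL₂, h₂⟩ := hε n
      refine ⟨L₁ ⊔ L₂, inferInstance, fun σ hσ => ?_⟩
      have hσ1 : ∀ x ∈ L₁, σ x = x := fun x hx => hσ x ((le_sup_left : L₁ ≤ L₁ ⊔ L₂) hx)
      have hσ2 : ∀ x ∈ L₂, σ x = x := fun x hx => hσ x ((le_sup_right : L₂ ≤ L₁ ⊔ L₂) hx)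
      have hσ1' : ∀ x ∈ L₁, σ⁻¹ x = x := fun x hx => by
        calc σ⁻¹ x = σ⁻¹ (σ x) := by rw [hσ1 x hx]
          _ = (σ⁻¹ * σ) x := rfl
          _ = x := by rw [inv_mul_cancel]; rfl
      obtain ⟨A₁, hA₁⟩ := h₁ σ hσ1
      obtain ⟨A₂, hA₂⟩ := h₁ σ⁻¹ hσ1'
      obtain ⟨w, hw⟩ := h₂ σ hσ2
      have e1 : ψ σ = 1 + (p : B) ^ n * A₁ 0 0 := by
        rw [hψdef, hA₁, Matrix.add_apply, Matrix.one_apply_eq, Matrix.smul_apply, smul_eq_mul]
      have e2 : ψ σ⁻¹ = 1 + (p : B) ^ n * A₂ 0 0 := by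
        rw [hψdef, hA₂, Matrix.add_apply, Matrix.one_apply_eq, Matrix.smul_apply, smul_eq_mul]
      have e3 : εB σ = 1 + (p : B) ^ n * ιB w := by
        rw [hεBdef, hw, map_add, map_one, map_mul, map_pow, map_natCast]
      refine ⟨(p : B) ^ n,
        Matrix.diagonal ![A₁ 0 0, ιB w + A₂ 0 0 + (p : B) ^ n * ιB w * A₂ 0 0],
        Ideal.pow_mem_pow hpB n, ?_⟩
      rw [hDdef, e1, e2, e3]
      ext i j
      fin_cases i <;> fin_cases j <;> simp <;> ring
    refine ⟨ofMatrix D hDcont, fun σ => ?_, fun σ hσ hεσ => ?_⟩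
    · rw [ofMatrix_charpoly, hDdef, Matrix.charpoly_fin_two]
      have htr : (Matrix.diagonal ![ψ σ, εB σ * ψ σ⁻¹]).trace = ψ σ + εB σ * ψ σ⁻¹ := by
        rw [Matrix.trace_fin_two]; simp
      have hdet : (Matrix.diagonal ![ψ σ, εB σ * ψ σ⁻¹]).det = εB σ := by
        rw [Matrix.det_fin_two]; simp
        rw [← mul_assoc, mul_comm (ψ σ), mul_assoc, hψinv, mul_one]
      rw [htr, hdet, Polynomial.map_add, Polynomial.map_sub, Polynomial.map_mul,
        Polynomial.map_pow, Polynomial.map_X, Polynomial.map_C, Polynomial.map_C, hψt,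
        hεBdef, hf]
    · apply ofMatrix_eq_one
      have h1 : ψ σ = 1 := by rw [hψdef, hA1 σ hσ, Matrix.one_apply_eq]
      have h2 : ψ σ⁻¹ = 1 := by
        have h := hψinv σ
        rwa [h1, one_mul] at h
      have h3 : εB σ = 1 := by rw [hεBdef, hεσ, Units.val_one, map_one]
      rw [hDdef, h1, h2, h3]
      ext i j
      fin_cases i <;> fin_cases j <;> simp

end Main

end Fermat.Agent.S30.LatAdic
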