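import Mathlib
import Fermat.Agent.S30.Defs
import Fermat.Agent.S30.PadicLift
import Fermat.Agent.S30.LatAdic

/-!
# S30 (phase B): the final assembly

`s30_of_matrix_data` : the statement of S30 (for a level `N ≠ 0`) from

* `hMat` : the Tate module in coordinates (matrices `R σ`, `Tm ℓ` over `ℤ_p` with commutation,
  continuity, the Eichler–Shimura relation, trivial inertia and eigenvectors for every character
  of the Hecke algebra);
* `hQuad` : the quadratic relation for all Galois elements on the eigenspaces;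
* `hDVR` : finite discrete valuation ring extensions inside an algebraic extension;
* the `p`-adic cyclotomic character.

Route: `K̄ := AlgebraicClosure (Frac 𝒪')`; the simultaneous eigenspace `W ≤ K̄ʳ` of `χ` is nonzero
and Galois-stable; a minimal nonzero stable `U ≤ W` is spanned by finitely many vectors, whose
coordinates lie in the fraction field of a finite discrete valuation ring extension `B ⊆ K̄` of
`𝒪'`; the lattice `U ∩ Bʳ` carries the representation (`LatAdic.exists_rep_of_minimal`).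
-/

set_option autoImplicit false
set_option linter.unusedSectionVars false
set_option linter.style.haveILetI false
set_option linter.unusedVariables false

noncomputable section

namespace Fermat.Agent.S30.S30Asm

open Polynomial Matrix

/-- a minimal nonzero stable subspace -/
theorem exists_minimal {G K : Type*} [Field K] {r : ℕ} (M : G → Matrix (Fin r) (Fin r) K)
    (W : Submodule K (Fin r → K)) (hW0 : W ≠ ⊥) (hWst : ∀ g, ∀ x ∈ W, M g *ᵥ x ∈ W) :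
    ∃ U : Submodule K (Fin r → K), U ≤ W ∧ U ≠ ⊥ ∧ (∀ g, ∀ x ∈ U, M g *ᵥ x ∈ U) ∧
      ∀ U' : Submodule K (Fin r → K), U' ≤ U → U' ≠ ⊥ → (∀ g, ∀ x ∈ U', M g *ᵥ x ∈ U') →
        U' = U := by
  classical
  have hex : ∃ n : ℕ, ∃ U : Submodule K (Fin r → K), U ≤ W ∧ U ≠ ⊥ ∧
      (∀ g, ∀ x ∈ U, M g *ᵥ x ∈ U) ∧ Module.finrank K U = n :=
    ⟨_, W, le_rfl, hW0, hWst, rfl⟩
  obtain ⟨U, hUW, hU0, hUst, hUn⟩ := Nat.find_spec hex
  refine ⟨U, hUW, hU0, hUst, fun U' hle h0 hst => ?_⟩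
  have h1 : Module.finrank K U ≤ Module.finrank K U' := by
    rw [hUn]
    exact Nat.find_min' hex ⟨U', hle.trans hUW, h0, hst, rfl⟩
  exact Submodule.eq_of_le_of_finrank_le hle h1

/-- a finite family of vectors whose coordinates are fractions of `B` spans the same subspace as
a set of `B`-vectors -/
theorem exists_spanning_set {B K : Type*} [CommRing B] [Field K] [Algebra B K]
    (hinj : Function.Injective (algebraMap B K)) {r n : ℕ} (u : Fin n → Fin r → K)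
    (hfrac : ∀ k i, ∃ a b : B, b ≠ 0 ∧ u k i * algebraMap B K b = algebraMap B K a) :
    ∃ s : Set (Fin r → B), Submodule.span K (Set.range u) =
      Submodule.span K ((fun x i => algebraMap B K (x i)) '' s) := by
  classical
  choose a b hb hab using hfrac
  let x : Fin n → Fin r → B := fun k i => a k i * ∏ j ∈ Finset.univ.erase i, b k j
  let c : Fin n → K := fun k => ∏ j, algebraMap B K (b k j)
  have hc : ∀ k, c k ≠ 0 := fun k =>
    Finset.prod_ne_zero_iff.mpr fun j _ h => hb k j (hinj (by rw [h, map_zero]))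
  have hx : ∀ k, (fun i => algebraMap B K (x k i)) = c k • u k := by
    intro k
    funext i
    show algebraMap B K (a k i * ∏ j ∈ Finset.univ.erase i, b k j) = c k * u k i
    rw [map_mul, ← hab k i, map_prod, mul_assoc,
      Finset.mul_prod_erase _ (fun j => algebraMap B K (b k j)) (Finset.mem_univ i), mul_comm]
  refine ⟨Set.range x, le_antisymm ?_ ?_⟩
  · rw [Submodule.span_le]
    rintro _ ⟨k, rfl⟩
    have h1 : (fun i => algebraMap B K (x k i)) ∈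
        Submodule.span K ((fun x i => algebraMap B K (x i)) '' Set.range x) :=
      Submodule.subset_span ⟨x k, ⟨k, rfl⟩, rfl⟩
    rw [hx k] at h1
    have h2 := Submodule.smul_mem _ (c k)⁻¹ h1
    rwa [smul_smul, inv_mul_cancel₀ (hc k), one_smul] at h2
  · rw [Submodule.span_le]
    rintro _ ⟨_, ⟨k, rfl⟩, rfl⟩
    show (fun i => algebraMap B K (x k i)) ∈ _
    rw [hx k]
    exact Submodule.smul_mem _ _ (Submodule.subset_span ⟨k, rfl⟩)

/-- **S30 from the matrix form of the Tate module.** -/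
theorem s30_of_matrix_data (p : ℕ) [Fact p.Prime] (N : ℕ) [NeZero N] (S : Finset ℕ)
    (hMat : ∃ (r : ℕ) (R : GQ →* Matrix (Fin r) (Fin r) ℤ_[p])
      (Tm : Nat.Primes → Matrix (Fin r) (Fin r) ℤ_[p]),
      (∀ (ℓ : Nat.Primes) (σ : GQ), Tm ℓ * R σ = R σ * Tm ℓ) ∧
      (∀ n : ℕ, ∃ L : IntermediateField ℚ Qb, FiniteDimensional ℚ L ∧
        ∀ σ : GQ, (∀ x ∈ L, σ x = x) →
          ∃ W : Matrix (Fin r) (Fin r) ℤ_[p], R σ = 1 + (p : ℤ_[p]) ^ n • W) ∧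
      (∀ (ℓ : ℕ) (hℓ : ℓ.Prime), ¬ ℓ ∣ N → ℓ ≠ p → ∀ A : ValuationSubring Qb,
        A.LiesOverPrime ℓ → ∀ σ : GQ, A.IsFrobeniusAt σ ℓ →
          R σ * R σ - Tm ⟨ℓ, hℓ⟩ * R σ + (ℓ : Matrix (Fin r) (Fin r) ℤ_[p]) = 0) ∧
      (∀ q : ℕ, q.Prime → ¬ q ∣ N → q ≠ p → ∀ A : ValuationSubring Qb,
        A.LiesOverPrime q → ∀ σ ∈ A.inertiaSubgroupIn ℚ, R σ = 1) ∧
      (∀ (K : Type) [Field K] [CharZero K] (f : ℤ_[p] →+* K)
        (χ : CuspForm.heckeAlgebra N 2 (↑S : Set ℕ) →+* K),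
        ∃ v : Fin r → K, v ≠ 0 ∧ ∀ (ℓ : ℕ) (hℓ : ℓ.Prime) (hℓN : ¬ ℓ ∣ N)
          (hℓS : ℓ ∉ (↑S : Set ℕ)),
          ((Tm ⟨ℓ, hℓ⟩).map f).mulVec v = χ (CuspForm.heckeAlgebra.T hℓ hℓN hℓS) • v))
    (hQuad : ∀ (ε : GQ →* ℤ_[p]ˣ)
      (_ : ∀ n : ℕ, ∃ L : IntermediateField ℚ Qb, FiniteDimensional ℚ L ∧
        ∀ σ : GQ, (∀ x ∈ L, σ x = x) →
          ∃ w : ℤ_[p], ((ε σ : ℤ_[p]ˣ) : ℤ_[p]) = 1 + (p : ℤ_[p]) ^ n * w)
      (_ : ∀ ℓ : ℕ, ℓ.Prime → ℓ ≠ p → ∀ A : ValuationSubring Qb, A.LiesOverPrime ℓ →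
        ∀ s : GQ, A.IsFrobeniusAt s ℓ → ((ε s : ℤ_[p]ˣ) : ℤ_[p]) = (ℓ : ℤ_[p]))
      {r : ℕ} (R : GQ →* Matrix (Fin r) (Fin r) ℤ_[p])
      (Tm : Nat.Primes → Matrix (Fin r) (Fin r) ℤ_[p])
      (_ : ∀ (ℓ : Nat.Primes) (σ : GQ), Tm ℓ * R σ = R σ * Tm ℓ)
      (_ : ∀ n : ℕ, ∃ L : IntermediateField ℚ Qb, FiniteDimensional ℚ L ∧
        ∀ σ : GQ, (∀ x ∈ L, σ x = x) →
          ∃ W : Matrix (Fin r) (Fin r) ℤ_[p], R σ = 1 + (p : ℤ_[p]) ^ n • W)
      (_ : ∀ (ℓ : ℕ) (hℓ : ℓ.Prime), ¬ ℓ ∣ N → ℓ ≠ p → ∀ A : ValuationSubring Qb,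
        A.LiesOverPrime ℓ → ∀ σ : GQ, A.IsFrobeniusAt σ ℓ →
          R σ * R σ - Tm ⟨ℓ, hℓ⟩ * R σ + (ℓ : Matrix (Fin r) (Fin r) ℤ_[p]) = 0)
      {O : Type} [CommRing O] [IsLocalRing O] [IsNoetherianRing O] (ι : ℤ_[p] →+* O)
      (_ : ι (p : ℤ_[p]) ∈ IsLocalRing.maximalIdeal O)
      {K : Type} [Field K] [Algebra O K]
      (χ : CuspForm.heckeAlgebra N 2 (↑S : Set ℕ) →+* O) (g : GQ),
      ∃ t : K, ∀ v : Fin r → K,
        (∀ (ℓ : ℕ) (hℓ : ℓ.Prime) (hℓN : ¬ ℓ ∣ N) (hℓS : ℓ ∉ (↑S : Set ℕ)),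
          ((Tm ⟨ℓ, hℓ⟩).map ((algebraMap O K).comp ι)).mulVec v =
            algebraMap O K (χ (CuspForm.heckeAlgebra.T hℓ hℓN hℓS)) • v) →
        ((R g).map ((algebraMap O K).comp ι)).mulVec v +
            ((algebraMap O K).comp ι) ((ε g : ℤ_[p]ˣ) : ℤ_[p]) •
              ((R g⁻¹).map ((algebraMap O K).comp ι)).mulVec v = t • v)
    (hDVR : ∀ (O : Type) [CommRing O] [IsDomain O] [IsDiscreteValuationRing O]
      [IsAdicComplete (IsLocalRing.maximalIdeal O) O] [Finite (IsLocalRing.ResidueField O)]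
      [CharZero O] (K : Type) [Field K] [Algebra O K]
      (_ : Function.Injective (algebraMap O K)) (_ : ∀ x : K, IsAlgebraic O x) (s : Finset K),
      ∃ B : Subalgebra O K, ∃ (_ : IsDiscreteValuationRing B)
        (_ : IsAdicComplete (IsLocalRing.maximalIdeal B) B)
        (_ : Finite (IsLocalRing.ResidueField B)) (_ : Module.Finite O B)
        (_ : IsLocalHom (algebraMap O B)),
        ∀ x ∈ s, ∃ a b : B, b ≠ 0 ∧ x * (b : K) = (a : K))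
    (hcyc : CycPadic p) (hpS : p ∈ S)
    (𝒪' : Type) [CommRing 𝒪'] [IsDomain 𝒪'] [IsDiscreteValuationRing 𝒪']
    [IsAdicComplete (IsLocalRing.maximalIdeal 𝒪') 𝒪'] [Finite (IsLocalRing.ResidueField 𝒪')]
    [CharZero 𝒪'] (hp𝒪' : (p : 𝒪') ∈ IsLocalRing.maximalIdeal 𝒪')
    (χ : CuspForm.heckeAlgebra N 2 (↑S : Set ℕ) →+* 𝒪') :
    ∃ (𝒪'' : Type) (_ : CommRing 𝒪'') (_ : IsDomain 𝒪'') (_ : IsDiscreteValuationRing 𝒪'')
      (_ : IsAdicComplete (IsLocalRing.maximalIdeal 𝒪'') 𝒪'')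
      (_ : Finite (IsLocalRing.ResidueField 𝒪'')) (_ : CharZero 𝒪'')
      (_ : Algebra 𝒪' 𝒪'') (_ : Module.Finite 𝒪' 𝒪'') (_ : IsLocalHom (algebraMap 𝒪' 𝒪'')),
    Function.Injective (algebraMap 𝒪' 𝒪'') ∧
    ∃ ρ : GaloisRepAdic 𝒪'',
      (∀ (ℓ : ℕ) (hℓ : ℓ.Prime) (hℓN : ¬ ℓ ∣ N) (hℓS : ℓ ∉ (↑S : Set ℕ)),
        ∀ A : ValuationSubring (AlgebraicClosure ℚ), A.LiesOverPrime ℓ →
          ∀ σ : AlgebraicClosure ℚ ≃ₐ[ℚ] AlgebraicClosure ℚ, A.IsFrobeniusAt σ ℓ →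
            LinearMap.charpoly (ρ.ρ σ) =
              X ^ 2 - C (algebraMap 𝒪' 𝒪'' (χ (CuspForm.heckeAlgebra.T hℓ hℓN hℓS))) * X
                + C ((ℓ : 𝒪''))) ∧
      (∀ q : ℕ, q.Prime → ¬ q ∣ N → q ≠ p → ρ.IsUnramifiedAt q) := by
  classical
  obtain ⟨r, R, Tm, hcomm, hcont, hfrob, hinert, heig⟩ := hMat
  obtain ⟨ε, hε_level, hε_loc⟩ := hcyc
  obtain ⟨ι⟩ := PadicLift.exists_ringHom p 𝒪' hp𝒪'
  have hιp : ι (p : ℤ_[p]) ∈ IsLocalRing.maximalIdeal 𝒪' := by rw [map_natCast]; exact hp𝒪'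
  haveI : CharZero (FractionRing 𝒪') :=
    charZero_of_injective_algebraMap (IsFractionRing.injective 𝒪' (FractionRing 𝒪'))
  let Kb : Type := AlgebraicClosure (FractionRing 𝒪')
  have hinjK : Function.Injective (algebraMap 𝒪' Kb) := by
    rw [IsScalarTower.algebraMap_eq 𝒪' (FractionRing 𝒪') Kb]
    exact (algebraMap (FractionRing 𝒪') Kb).injective.comp
      (IsFractionRing.injective 𝒪' (FractionRing 𝒪'))
  let fK : ℤ_[p] →+* Kb := (algebraMap 𝒪' Kb).comp ι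
  let χK : CuspForm.heckeAlgebra N 2 (↑S : Set ℕ) →+* Kb := (algebraMap 𝒪' Kb).comp χ
  obtain ⟨v₀, hv₀, hv₀eig⟩ := heig Kb fK χK
  -- the eigenspace
  let W : Submodule Kb (Fin r → Kb) :=
    { carrier := {v | ∀ (ℓ : ℕ) (hℓ : ℓ.Prime) (hℓN : ¬ ℓ ∣ N) (hℓS : ℓ ∉ (↑S : Set ℕ)),
        ((Tm ⟨ℓ, hℓ⟩).map fK).mulVec v =
          algebraMap 𝒪' Kb (χ (CuspForm.heckeAlgebra.T hℓ hℓN hℓS)) • v}
      add_mem' := fun {a b} ha hb ℓ hℓ hℓN hℓS => by
        rw [Matrix.mulVec_add, ha ℓ hℓ hℓN hℓS, hb ℓ hℓ hℓN hℓS, smul_add]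
      zero_mem' := fun ℓ hℓ hℓN hℓS => by rw [Matrix.mulVec_zero, smul_zero]
      smul_mem' := fun c {a} ha ℓ hℓ hℓN hℓS => by
        rw [Matrix.mulVec_smul, ha ℓ hℓ hℓN hℓS, smul_comm] }
  have hv₀W : v₀ ∈ W := fun ℓ hℓ hℓN hℓS => hv₀eig ℓ hℓ hℓN hℓS
  have hW0 : W ≠ ⊥ := fun h => hv₀ (by rw [h] at hv₀W; exact (Submodule.mem_bot Kb).mp hv₀W)
  have hWst : ∀ g : GQ, ∀ x ∈ W, (R g).map fK *ᵥ x ∈ W := by
    intro g x hx ℓ hℓ hℓN hℓS
    rw [Matrix.mulVec_mulVec, ← Matrix.map_mul, hcomm ⟨ℓ, hℓ⟩ g, Matrix.map_mul,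
      ← Matrix.mulVec_mulVec, hx ℓ hℓ hℓN hℓS, Matrix.mulVec_smul]
  -- the quadratic relation on the eigenspace
  have hq0 : ∀ g : GQ, ∃ t : Kb, ∀ v : Fin r → Kb,
      (∀ (ℓ : ℕ) (hℓ : ℓ.Prime) (hℓN : ¬ ℓ ∣ N) (hℓS : ℓ ∉ (↑S : Set ℕ)),
          ((Tm ⟨ℓ, hℓ⟩).map fK).mulVec v =
            algebraMap 𝒪' Kb (χ (CuspForm.heckeAlgebra.T hℓ hℓN hℓS)) • v) →
        ((R g).map fK).mulVec v + fK ((ε g : ℤ_[p]ˣ) : ℤ_[p]) • ((R g⁻¹).map fK).mulVec v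
          = t • v := fun g =>
    hQuad ε hε_level (fun ℓ hℓ hℓp A hA s hs => (hε_loc ℓ hℓ hℓp A hA).2 s hs) R Tm hcomm hcont
      hfrob ι hιp χ g
  choose t ht using hq0
  -- a minimal stable subspace
  obtain ⟨U, hUW, hU0, hUst, hUmin⟩ :=
    exists_minimal (fun g : GQ => (R g).map fK) W hW0 hWst
  -- coordinates of a basis
  let bU := Module.finBasis Kb U
  let u : Fin (Module.finrank Kb U) → Fin r → Kb := fun k => (bU k : Fin r → Kb)
  have hspanU : Submodule.span Kb (Set.range u) = U := by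
    have h1 := bU.span_eq
    have h2 : Set.range u = U.subtype '' Set.range bU := by
      rw [← Set.range_comp]; rfl
    rw [h2, ← Submodule.map_span, h1, Submodule.map_subtype_top]
  let s : Finset Kb :=
    Finset.univ.image (fun ki : Fin (Module.finrank Kb U) × Fin r => u ki.1 ki.2)
  have halg : ∀ x : Kb, IsAlgebraic 𝒪' x := fun x =>
    (IsFractionRing.isAlgebraic_iff 𝒪' (FractionRing 𝒪') Kb).mpr
      (Algebra.IsAlgebraic.isAlgebraic x)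
  obtain ⟨B, hdvr, hcompl, hfin, hmodfin, hloc, hB⟩ := hDVR 𝒪' Kb hinjK halg s
  have hinjB : Function.Injective (algebraMap B Kb) := fun a b h => Subtype.ext h
  let ιB : ℤ_[p] →+* B := (algebraMap 𝒪' B).comp ι
  have hf : ∀ a, algebraMap B Kb (ιB a) = fK a := fun a => rfl
  have hpB : (p : B) ∈ IsLocalRing.maximalIdeal B := by
    rw [IsLocalRing.mem_maximalIdeal, mem_nonunits_iff]
    intro hu
    have h1 : IsUnit (algebraMap 𝒪' B (p : 𝒪')) := by rwa [map_natCast]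
    exact (IsLocalRing.mem_maximalIdeal _).mp hp𝒪' (isUnit_of_map_unit (algebraMap 𝒪' B) _ h1)
  have hp0 : (p : B) ≠ 0 := by
    intro h
    have h1 : algebraMap B Kb (p : B) = 0 := by rw [h, map_zero]
    rw [map_natCast] at h1
    exact (Nat.cast_ne_zero.mpr (Fact.out : p.Prime).ne_zero) h1
  have hUB : ∃ s' : Set (Fin r → B),
      U = Submodule.span Kb ((fun x i => algebraMap B Kb (x i)) '' s') := by
    obtain ⟨s', hs'⟩ := exists_spanning_set hinjB u (fun k i => by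
      obtain ⟨a, b, hb, hab⟩ := hB (u k i) (Finset.mem_image.mpr ⟨(k, i), Finset.mem_univ _, rfl⟩)
      exact ⟨a, b, hb, hab⟩)
    exact ⟨s', by rw [← hs', hspanU]⟩
  obtain ⟨ρ, hρchar, hρtriv⟩ := LatAdic.exists_rep_of_minimal hinjB ιB fK hf hpB hp0 R hcont ε
    hε_level U hU0 hUB hUst hUmin t (fun g x hx => ht g x (hUW hx))
  have hinj𝒪'B : Function.Injective (algebraMap 𝒪' B) := fun a b h =>
    hinjK (congrArg (algebraMap B Kb) h)
  haveI : CharZero B := ⟨fun m n h => by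
    have h1 := congrArg (algebraMap B Kb) h
    rw [map_natCast, map_natCast] at h1
    exact Nat.cast_injective h1⟩
  refine ⟨B, inferInstance, inferInstance, hdvr, hcompl, hfin, inferInstance, inferInstance,
    hmodfin, hloc, hinj𝒪'B, ρ, ?_, ?_⟩
  · intro ℓ hℓ hℓN hℓS A hA σ hσ
    have hℓp : ℓ ≠ p := fun h => hℓS (by rw [h]; exact Finset.mem_coe.mpr hpS)
    have hε_frob : fK ((ε σ : ℤ_[p]ˣ) : ℤ_[p]) = (ℓ : Kb) := by
      rw [(hε_loc ℓ hℓ hℓp A hA).2 σ hσ, map_natCast]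
    have ht_frob : t σ = algebraMap 𝒪' Kb (χ (CuspForm.heckeAlgebra.T hℓ hℓN hℓS)) := by
      have h1 := hfrob ℓ hℓ hℓN hℓp A hA σ hσ
      have h3 := congrArg (fun M => M * R σ⁻¹) h1
      simp only [add_mul, sub_mul, zero_mul, mul_assoc] at h3
      rw [← map_mul, mul_inv_cancel, map_one, mul_one, mul_one] at h3
      have h4 : (ℓ : Matrix (Fin r) (Fin r) ℤ_[p]) * R σ⁻¹ = (ℓ : ℤ_[p]) • R σ⁻¹ := by
        rw [Nat.cast_smul_eq_nsmul, nsmul_eq_mul]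
      rw [h4] at h3
      have h2 : R σ + (ℓ : ℤ_[p]) • R σ⁻¹ = Tm ⟨ℓ, hℓ⟩ := by
        calc R σ + (ℓ : ℤ_[p]) • R σ⁻¹
            = (R σ - Tm ⟨ℓ, hℓ⟩ + (ℓ : ℤ_[p]) • R σ⁻¹) + Tm ⟨ℓ, hℓ⟩ := by abel
          _ = Tm ⟨ℓ, hℓ⟩ := by rw [h3, zero_add]
      have h5 : (R σ).map fK + (ℓ : Kb) • (R σ⁻¹).map fK = (Tm ⟨ℓ, hℓ⟩).map fK := by
        rw [← h2]
        ext i j
        simp [Matrix.map_apply, Matrix.add_apply, Matrix.smul_apply]
      have h6 : (R σ).map fK *ᵥ v₀ + (ℓ : Kb) • ((R σ⁻¹).map fK *ᵥ v₀) =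
          algebraMap 𝒪' Kb (χ (CuspForm.heckeAlgebra.T hℓ hℓN hℓS)) • v₀ := by
        rw [← Matrix.smul_mulVec, ← Matrix.add_mulVec, h5]
        exact hv₀W ℓ hℓ hℓN hℓS
      have h7 := ht σ v₀ hv₀W
      rw [hε_frob, h6] at h7
      have h8 : (t σ - algebraMap 𝒪' Kb (χ (CuspForm.heckeAlgebra.T hℓ hℓN hℓS))) • v₀ = 0 := by
        rw [sub_smul, ← h7, sub_self]
      rcases smul_eq_zero.mp h8 with h | h
      · exact sub_eq_zero.mp h
      · exact absurd h hv₀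
    apply Polynomial.map_injective (algebraMap B Kb) hinjB
    rw [hρchar σ, Polynomial.map_add, Polynomial.map_sub, Polynomial.map_mul, Polynomial.map_pow,
      Polynomial.map_X, Polynomial.map_C, Polynomial.map_C, map_natCast, ht_frob, hε_frob]
    rfl
  · intro q hq hqN hqp A hA σ hσ
    exact hρtriv σ (hinert q hq hqN hqp A hA σ hσ) ((hε_loc q hq hqp A hA).1 σ hσ)

end Fermat.Agent.S30.S30Asm
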