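import Mathlib

/-!
# Period lattices: every character of a faithful commutative algebra occurs

Pure algebra, Mathlib only.

* `exists_semilinear`: a finite faithful module `P` over a commutative ring `𝕋` admits, for every
  ring homomorphism `χ : 𝕋 →+* K` into a field, a nonzero additive map `ψ : P →+ K` with
  `ψ (t • x) = χ t * ψ x`.
-/

set_option autoImplicit false

namespace Fermat.Agent.S30.PerLat

open TensorProduct

/-- **Every character occurs.**  A finite faithful module `P` over a commutative ring `𝕋` has,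
for every ring homomorphism `χ` from `𝕋` to a field `K` (any characteristic), a nonzero additive
map `ψ : P →+ K` which is `χ`-semilinear. -/
theorem exists_semilinear {𝕋 P K : Type*} [CommRing 𝕋] [AddCommGroup P] [Module 𝕋 P]
    [Module.Finite 𝕋 P] [Field K]
    (hfaith : ∀ t : 𝕋, (∀ x : P, t • x = 0) → t = 0) (χ : 𝕋 →+* K) :
    ∃ ψ : P →+ K, ψ ≠ 0 ∧ ∀ (t : 𝕋) (x : P), ψ (t • x) = χ t * ψ x := by
  classical
  let 𝔭 : Ideal 𝕋 := RingHom.ker χ
  have h𝔭 : 𝔭.IsPrime := RingHom.ker_isPrime χ
  let pt : PrimeSpectrum 𝕋 := ⟨𝔭, h𝔭⟩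
  have hsupp : pt ∈ Module.support 𝕋 P := by
    rw [Module.mem_support_iff_of_finite]
    intro t ht
    have : t = 0 := hfaith t (fun x => Module.mem_annihilator.mp ht x)
    rw [this]; exact zero_mem _
  have hnt : Nontrivial (𝔭.ResidueField ⊗[𝕋] P) :=
    (Module.mem_support_iff_nontrivial_residueField_tensorProduct pt).mp hsupp
  obtain ⟨y, hy⟩ := exists_ne (0 : 𝔭.ResidueField ⊗[𝕋] P)
  obtain ⟨f, hf⟩ : ∃ f : Module.Dual 𝔭.ResidueField (𝔭.ResidueField ⊗[𝕋] P), f y ≠ 0 := by
    by_contra h
    exact hy ((Module.forall_dual_apply_eq_zero_iff 𝔭.ResidueField y).mp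
      (fun f => not_not.mp (fun hne => h ⟨f, hne⟩)))
  let ι : 𝔭.ResidueField →+* K := Ideal.ResidueField.lift 𝔭 χ le_rfl (by
    intro t ht
    simp only [Submonoid.mem_comap, IsUnit.mem_submonoid_iff]
    exact isUnit_iff_ne_zero.mpr (fun h => ht h))
  have hι : ∀ t : 𝕋, ι (algebraMap 𝕋 𝔭.ResidueField t) = χ t := fun t =>
    Ideal.ResidueField.lift_algebraMap 𝔭 χ _ _ t
  let ψ : P →+ K :=
    { toFun := fun x => ι (f ((1 : 𝔭.ResidueField) ⊗ₜ[𝕋] x))
      map_zero' := by simp
      map_add' := fun x x' => by simp [TensorProduct.tmul_add] }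
  have hψ : ∀ x, ψ x = ι (f ((1 : 𝔭.ResidueField) ⊗ₜ[𝕋] x)) := fun _ => rfl
  refine ⟨ψ, ?_, ?_⟩
  · intro h0
    apply hf
    have hspan : ∀ z : 𝔭.ResidueField ⊗[𝕋] P, f z = 0 := by
      intro z
      induction z using TensorProduct.induction_on with
      | zero => simp
      | tmul a x =>
        have e : a ⊗ₜ[𝕋] x = a • ((1 : 𝔭.ResidueField) ⊗ₜ[𝕋] x) := by
          simp [TensorProduct.smul_tmul']
        have h1 : ι (f ((1 : 𝔭.ResidueField) ⊗ₜ[𝕋] x)) = 0 := by
          simpa [hψ] using DFunLike.congr_fun h0 x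
        have h2 : f ((1 : 𝔭.ResidueField) ⊗ₜ[𝕋] x) = 0 := (map_eq_zero ι).mp h1
        rw [e, map_smul, h2, smul_zero]
      | add a b ha hb => simp [ha, hb]
    exact hspan y
  · intro t x
    have e : (1 : 𝔭.ResidueField) ⊗ₜ[𝕋] (t • x) =
        (algebraMap 𝕋 𝔭.ResidueField t) • ((1 : 𝔭.ResidueField) ⊗ₜ[𝕋] x) := by
      rw [TensorProduct.tmul_smul, TensorProduct.smul_tmul', TensorProduct.smul_tmul',
        Algebra.smul_def, mul_one, smul_eq_mul, mul_one]
    rw [hψ, hψ, e, map_smul, smul_eq_mul, map_mul, hι]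


section Eigen

variable {X V A 𝕋 : Type*} [AddCommGroup V] [AddCommGroup A] [CommRing 𝕋]

/-- **Period lattice, abstract form.**  `𝕋` is a commutative ring acting faithfully (through
`act`) on an abelian group `V`; `per : V → X → A` is an injective additive "period map" whose
evaluations `v ↦ per v x` are integral combinations of finitely many of them.  Then for every
ring homomorphism `χ` from `𝕋` to a field `K` there is a nonzero `ψ : X → K` such that every
integral relation `∑ c_y per (t v) y = ∑ d_y per v y` (valid for all `v`) is inherited in the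
form `χ t * ∑ c_y ψ y = ∑ d_y ψ y`. -/
theorem exists_eigen_of_char
    (act : 𝕋 → V → V)
    (act_one : ∀ v, act 1 v = v)
    (act_mul : ∀ s t v, act (s * t) v = act s (act t v))
    (act_add : ∀ s t v, act (s + t) v = act s v + act t v)
    (act_add_right : ∀ t v w, act t (v + w) = act t v + act t w)
    (act_faithful : ∀ t, (∀ v, act t v = 0) → t = 0)
    (per : V → X → A)
    (per_add : ∀ v w x, per (v + w) x = per v x + per w x)
    (per_inj : ∀ v, (∀ x, per v x = 0) → v = 0)
    (F : Finset X)
    (hF : ∀ x, ∃ c : X → ℤ, ∀ v, per v x = ∑ y ∈ F, c y • per v y)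
    {K : Type*} [Field K] (χ : 𝕋 →+* K) :
    ∃ ψ : X → K, ψ ≠ 0 ∧
      ∀ (t : 𝕋) (c d : X →₀ ℤ),
        (∀ v, Finsupp.linearCombination ℤ (per (act t v)) c =
          Finsupp.linearCombination ℤ (per v) d) →
        χ t * Finsupp.linearCombination ℤ ψ c = Finsupp.linearCombination ℤ ψ d := by
  classical
  -- the action as additive endomorphisms
  let actHom : 𝕋 → (V →+ V) := fun t => AddMonoidHom.mk' (act t) (act_add_right t)
  have actHom_apply : ∀ t v, actHom t v = act t v := fun _ _ => rfl
  have act_zero : ∀ v, act 0 v = 0 := by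
    intro v
    have h := act_add 0 0 v
    rw [add_zero] at h
    exact left_eq_add.mp h
  -- the transposed module structure on `V →+ A`
  let instSMul : SMul 𝕋 (V →+ A) := ⟨fun t l => l.comp (actHom t)⟩
  have smul_apply : ∀ (t : 𝕋) (l : V →+ A) (v : V), (t • l) v = l (act t v) := fun _ _ _ => rfl
  let instMod : Module 𝕋 (V →+ A) :=
    { one_smul := fun l => by
        ext v; rw [smul_apply, act_one]
      mul_smul := fun s t l => by
        ext v; rw [smul_apply, smul_apply, smul_apply, mul_comm, act_mul]
      smul_zero := fun t => by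
        ext v; rw [smul_apply]; rfl
      smul_add := fun t l l' => by
        ext v; rw [smul_apply, AddMonoidHom.add_apply, AddMonoidHom.add_apply, smul_apply,
          smul_apply]
      add_smul := fun s t l => by
        ext v; rw [smul_apply, AddMonoidHom.add_apply, smul_apply, smul_apply, act_add, map_add]
      zero_smul := fun l => by
        ext v; rw [smul_apply, act_zero, map_zero]; rfl }
  -- evaluations
  let ev : X → (V →+ A) := fun x => AddMonoidHom.mk' (fun v => per v x) (fun v w => per_add v w x)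
  have ev_apply : ∀ x v, ev x v = per v x := fun _ _ => rfl
  let L : Submodule 𝕋 (V →+ A) := Submodule.span 𝕋 (Set.range ev)
  have hev : ∀ x, ev x ∈ L := fun x => Submodule.subset_span ⟨x, rfl⟩
  have hLF : L = Submodule.span 𝕋 (ev '' (F : Set X)) := by
    apply le_antisymm
    · rw [Submodule.span_le]
      rintro _ ⟨x, rfl⟩
      obtain ⟨c, hc⟩ := hF x
      have hx : ev x = ∑ y ∈ F, c y • ev y := by
        ext v
        rw [ev_apply, hc v, AddMonoidHom.finsetSum_apply]
        rfl
      rw [hx]
      refine Submodule.sum_mem _ fun y hy => ?_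
      have hy' : ev y ∈ Submodule.span 𝕋 (ev '' (F : Set X)) :=
        Submodule.subset_span ⟨y, hy, rfl⟩
      exact zsmul_mem hy' _
    · exact Submodule.span_mono (Set.image_subset_range _ _)
  have hfin : Module.Finite 𝕋 L := by
    rw [Module.Finite.iff_fg, hLF]
    exact Submodule.fg_span (F.finite_toSet.image ev)
  have hfaith : ∀ t : 𝕋, (∀ x : L, t • x = 0) → t = 0 := by
    intro t ht
    apply act_faithful
    intro v
    apply per_inj
    intro x
    have h := congrArg Subtype.val (ht ⟨ev x, hev x⟩)
    have h2 : (t • ev x) v = 0 := by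
      have h3 : t • ev x = 0 := h
      rw [h3]; rfl
    rw [smul_apply, ev_apply] at h2
    exact h2
  obtain ⟨ψL, hψL0, hψL⟩ := exists_semilinear (𝕋 := 𝕋) (P := L) hfaith χ
  refine ⟨fun x => ψL ⟨ev x, hev x⟩, ?_, ?_⟩
  · intro h0
    apply hψL0
    ext ⟨l, hl⟩
    rw [AddMonoidHom.zero_apply]
    induction hl using Submodule.span_induction with
    | mem l hl =>
      obtain ⟨x, rfl⟩ := hl
      exact congrFun h0 x
    | zero => exact map_zero ψL
    | add l l' hl hl' ih ih' =>
      have : (⟨l + l', Submodule.add_mem _ hl hl'⟩ : L) = ⟨l, hl⟩ + ⟨l', hl'⟩ := rfl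
      rw [this, map_add, ih, ih', add_zero]
    | smul t l hl ih =>
      have : (⟨t • l, Submodule.smul_mem _ t hl⟩ : L) = t • ⟨l, hl⟩ := rfl
      rw [this, hψL, ih, mul_zero]
  · intro t c d h
    simp only [Finsupp.linearCombination_apply] at h ⊢
    let evL : X → L := fun x => ⟨ev x, hev x⟩
    have key : t • c.sum (fun y n => n • evL y) = d.sum (fun y n => n • evL y) := by
      apply Subtype.ext
      ext v
      have e1 : ((t • c.sum (fun y n => n • evL y) : L) : V →+ A) v =
          c.sum (fun y n => n • per (act t v) y) := by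
        rw [Submodule.coe_smul, smul_apply, Finsupp.sum, Finsupp.sum,
          AddSubmonoidClass.coe_finsetSum, AddMonoidHom.finsetSum_apply]
        rfl
      have e2 : ((d.sum (fun y n => n • evL y) : L) : V →+ A) v =
          d.sum (fun y n => n • per v y) := by
        rw [Finsupp.sum, Finsupp.sum,
          AddSubmonoidClass.coe_finsetSum, AddMonoidHom.finsetSum_apply]
        rfl
      rw [e1, e2, h v]
    have h1 := congrArg ψL key
    rw [hψL] at h1
    have e3 : ∀ c : X →₀ ℤ, ψL (c.sum (fun y n => n • evL y)) =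
        c.sum (fun y n => n • ψL ⟨ev y, hev y⟩) := by
      intro c
      rw [Finsupp.sum, Finsupp.sum, map_sum]
      exact Finset.sum_congr rfl fun y _ => map_zsmul ψL _ _
    rw [e3, e3] at h1
    exact h1

end Eigen

section Lattice

universe u v w

variable {X : Type*} {V : Type u} {A : Type v} {𝕋 : Type w} [AddCommGroup V] [AddCommGroup A]
  [CommRing 𝕋]

/-- **The period lattice as an object.**  With `𝕋` acting on `V` through `act` and an additive
period map `per : V → X → A`, the `𝕋`-span `L` of the evaluations `ev x = (v ↦ per v x)` inside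
`V →+ A` (with the transposed action `(t • l) v = l (act t v)`) is a `𝕋`-module which is faithful
when `per` is injective and `act` is faithful, is torsion-free when `A` is, and in which every
integral relation between periods holds. -/
theorem exists_lattice_aux
    (act : 𝕋 → V → V)
    (act_one : ∀ v, act 1 v = v)
    (act_mul : ∀ s t v, act (s * t) v = act s (act t v))
    (act_add : ∀ s t v, act (s + t) v = act s v + act t v)
    (act_add_right : ∀ t v w, act t (v + w) = act t v + act t w)
    (act_faithful : ∀ t, (∀ v, act t v = 0) → t = 0)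
    (per : V → X → A)
    (per_add : ∀ v w x, per (v + w) x = per v x + per w x)
    (per_inj : ∀ v, (∀ x, per v x = 0) → v = 0) :
    ∃ (L : Type (max u v)) (_ : AddCommGroup L) (_ : Module 𝕋 L) (ev : X → L),
      Submodule.span 𝕋 (Set.range ev) = ⊤ ∧
      (∀ t : 𝕋, (∀ x : L, t • x = 0) → t = 0) ∧
      (∀ (t : 𝕋) (c d : X →₀ ℤ),
        (∀ v, Finsupp.linearCombination ℤ (per (act t v)) c =
          Finsupp.linearCombination ℤ (per v) d) →
        t • Finsupp.linearCombination ℤ ev c = Finsupp.linearCombination ℤ ev d) ∧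
      (∀ n : ℕ, n ≠ 0 → (∀ a : A, n • a = 0 → a = 0) → ∀ x : L, n • x = 0 → x = 0) := by
  classical
  let actHom : 𝕋 → (V →+ V) := fun t => AddMonoidHom.mk' (act t) (act_add_right t)
  have act_zero : ∀ v, act 0 v = 0 := by
    intro v
    have h := act_add 0 0 v
    rw [add_zero] at h
    exact left_eq_add.mp h
  let instSMul : SMul 𝕋 (V →+ A) := ⟨fun t l => l.comp (actHom t)⟩
  have smul_apply : ∀ (t : 𝕋) (l : V →+ A) (v : V), (t • l) v = l (act t v) := fun _ _ _ => rfl
  let instMod : Module 𝕋 (V →+ A) :=
    { one_smul := fun l => by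
        ext v; rw [smul_apply, act_one]
      mul_smul := fun s t l => by
        ext v; rw [smul_apply, smul_apply, smul_apply, mul_comm, act_mul]
      smul_zero := fun t => by
        ext v; rw [smul_apply]; rfl
      smul_add := fun t l l' => by
        ext v; rw [smul_apply, AddMonoidHom.add_apply, AddMonoidHom.add_apply, smul_apply,
          smul_apply]
      add_smul := fun s t l => by
        ext v; rw [smul_apply, AddMonoidHom.add_apply, smul_apply, smul_apply, act_add, map_add]
      zero_smul := fun l => by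
        ext v; rw [smul_apply, act_zero, map_zero]; rfl }
  let ev : X → (V →+ A) := fun x => AddMonoidHom.mk' (fun v => per v x) (fun v w => per_add v w x)
  have ev_apply : ∀ x v, ev x v = per v x := fun _ _ => rfl
  let L : Submodule 𝕋 (V →+ A) := Submodule.span 𝕋 (Set.range ev)
  have hev : ∀ x, ev x ∈ L := fun x => Submodule.subset_span ⟨x, rfl⟩
  let evL : X → L := fun x => ⟨ev x, hev x⟩
  refine ⟨L, inferInstance, inferInstance, evL, ?_, ?_, ?_, ?_⟩
  · rw [eq_top_iff]
    rintro ⟨l, hl⟩ -
    induction hl using Submodule.span_induction with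
    | mem l hl =>
      obtain ⟨x, rfl⟩ := hl
      exact Submodule.subset_span ⟨x, rfl⟩
    | zero => exact Submodule.zero_mem _
    | add l l' hl hl' ih ih' =>
      have : (⟨l + l', Submodule.add_mem _ hl hl'⟩ : L) = ⟨l, hl⟩ + ⟨l', hl'⟩ := rfl
      rw [this]
      exact Submodule.add_mem _ ih ih'
    | smul t l hl ih =>
      have : (⟨t • l, Submodule.smul_mem _ t hl⟩ : L) = t • ⟨l, hl⟩ := rfl
      rw [this]
      exact Submodule.smul_mem _ t ih
  · intro t ht
    apply act_faithful
    intro v
    apply per_inj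
    intro x
    have h := congrArg Subtype.val (ht ⟨ev x, hev x⟩)
    have h2 : (t • ev x) v = 0 := by
      have h3 : t • ev x = 0 := h
      rw [h3]; rfl
    rw [smul_apply, ev_apply] at h2
    exact h2
  · intro t c d h
    simp only [Finsupp.linearCombination_apply] at h ⊢
    apply Subtype.ext
    ext v
    have e1 : ((t • c.sum (fun y n => n • evL y) : L) : V →+ A) v =
        c.sum (fun y n => n • per (act t v) y) := by
      rw [Submodule.coe_smul, smul_apply, Finsupp.sum, Finsupp.sum,
        AddSubmonoidClass.coe_finsetSum, AddMonoidHom.finsetSum_apply]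
      rfl
    have e2 : ((d.sum (fun y n => n • evL y) : L) : V →+ A) v =
        d.sum (fun y n => n • per v y) := by
      rw [Finsupp.sum, Finsupp.sum,
        AddSubmonoidClass.coe_finsetSum, AddMonoidHom.finsetSum_apply]
      rfl
    rw [e1, e2, h v]
  · intro n hn hA x hx
    apply Subtype.ext
    ext v
    have h := congrArg Subtype.val hx
    have h2 : (n • (x : V →+ A)) v = 0 := by
      have h3 : n • (x : V →+ A) = 0 := h
      rw [h3]; rfl
    exact hA _ h2

end Lattice

section Group

variable {Γ V A 𝕋 : Type*} [Group Γ] [AddCommGroup V] [AddCommGroup A] [CommRing 𝕋]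

/-- **Period lattice, group form.**  `Γ` a finitely generated group, `𝕋` a commutative ring acting
faithfully on `V`, `per : V → Γ → A` an injective additive family of homomorphisms `Γ → A`,
and `T i ∈ 𝕋` operators given on periods by transfer formulas
`per (T i • v) γ = ∑ x, per v (g i γ x)`.  Then for EVERY ring homomorphism `χ : 𝕋 →+* K` into a
field (any characteristic) there is a nonzero homomorphism `ψ : Γ → K` with
`∑ x, ψ (g i γ x) = χ (T i) * ψ γ`, vanishing wherever all periods vanish. -/
theorem exists_eigen_hom_of_char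
    (S : Finset Γ) (hS : Subgroup.closure (S : Set Γ) = ⊤)
    (act : 𝕋 → V → V)
    (act_one : ∀ v, act 1 v = v)
    (act_mul : ∀ s t v, act (s * t) v = act s (act t v))
    (act_add : ∀ s t v, act (s + t) v = act s v + act t v)
    (act_add_right : ∀ t v w, act t (v + w) = act t v + act t w)
    (act_faithful : ∀ t, (∀ v, act t v = 0) → t = 0)
    (per : V → Γ → A)
    (per_add : ∀ v w γ, per (v + w) γ = per v γ + per w γ)
    (per_mul : ∀ v γ γ', per v (γ * γ') = per v γ + per v γ')
    (per_inj : ∀ v, (∀ γ, per v γ = 0) → v = 0)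
    {I : Type*} {J : I → Type*} [∀ i, Fintype (J i)] (g : ∀ i, Γ → J i → Γ)
    (T : I → 𝕋) (hT : ∀ i v γ, per (act (T i) v) γ = ∑ x, per v (g i γ x))
    {K : Type*} [Field K] (χ : 𝕋 →+* K) :
    ∃ ψ : Γ → K, ψ ≠ 0 ∧ (∀ γ γ', ψ (γ * γ') = ψ γ + ψ γ') ∧
      (∀ i γ, ∑ x, ψ (g i γ x) = χ (T i) * ψ γ) ∧
      ∀ γ, (∀ v, per v γ = 0) → ψ γ = 0 := by
  classical
  have per_one : ∀ v, per v 1 = 0 := by
    intro v
    have h := per_mul v 1 1
    rw [mul_one] at h
    exact left_eq_add.mp h
  have per_inv : ∀ v γ, per v γ⁻¹ = - per v γ := by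
    intro v γ
    have h := per_mul v γ γ⁻¹
    rw [mul_inv_cancel, per_one] at h
    exact eq_neg_of_add_eq_zero_right h.symm
  have hF : ∀ γ : Γ, ∃ c : Γ → ℤ, ∀ v, per v γ = ∑ y ∈ S, c y • per v y := by
    intro γ
    have hγ : γ ∈ Subgroup.closure (S : Set Γ) := by rw [hS]; trivial
    induction hγ using Subgroup.closure_induction with
    | mem x hx =>
      refine ⟨fun y => if y = x then 1 else 0, fun v => ?_⟩
      simp only [ite_smul, one_smul, zero_smul]
      rw [Finset.sum_ite_eq' S x, if_pos (Finset.mem_coe.mp hx)]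
    | one => exact ⟨0, fun v => by simp [per_one]⟩
    | mul x y _ _ ihx ihy =>
      obtain ⟨c, hc⟩ := ihx
      obtain ⟨c', hc'⟩ := ihy
      refine ⟨c + c', fun v => ?_⟩
      rw [per_mul, hc v, hc' v, ← Finset.sum_add_distrib]
      exact Finset.sum_congr rfl fun y _ => by rw [Pi.add_apply, add_smul]
    | inv x _ ih =>
      obtain ⟨c, hc⟩ := ih
      refine ⟨-c, fun v => ?_⟩
      rw [per_inv, hc v, ← Finset.sum_neg_distrib]
      exact Finset.sum_congr rfl fun y _ => by rw [Pi.neg_apply, neg_smul]
  obtain ⟨ψ, hψ0, hψ⟩ := exists_eigen_of_char act act_one act_mul act_add act_add_right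
    act_faithful per per_add per_inj S hF χ
  have hrel : ∀ d : Γ →₀ ℤ, (∀ v, Finsupp.linearCombination ℤ (per v) d = 0) →
      Finsupp.linearCombination ℤ ψ d = 0 := by
    intro d hd
    have h := hψ 1 0 d (fun v => by rw [map_zero, hd v])
    rw [map_zero, mul_zero] at h
    exact h.symm
  refine ⟨ψ, hψ0, ?_, ?_, ?_⟩
  · intro γ γ'
    have h := hrel (Finsupp.single (γ * γ') 1 - Finsupp.single γ 1 - Finsupp.single γ' 1)
      (fun v => by
        simp only [map_sub, Finsupp.linearCombination_single, one_smul]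
        rw [per_mul]; abel)
    simp only [map_sub, Finsupp.linearCombination_single, one_smul] at h
    rw [sub_sub, sub_eq_zero] at h
    exact h
  · intro i γ
    have h := hψ (T i) (Finsupp.single γ 1) (∑ x, Finsupp.single (g i γ x) 1)
      (fun v => by
        simp only [map_sum, Finsupp.linearCombination_single, one_smul]
        exact hT i v γ)
    simp only [map_sum, Finsupp.linearCombination_single, one_smul] at h
    exact h.symm
  · intro γ hγ
    have h := hrel (Finsupp.single γ 1) (fun v => by
      simp only [Finsupp.linearCombination_single, one_smul]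
      exact hγ v)
    simpa only [Finsupp.linearCombination_single, one_smul] using h


universe u v w

/-- **Period lattice, bundled group form.**  In the situation of `exists_eigen_hom_of_char`, if
moreover `A` is torsion-free and the `T i` generate `𝕋` as a ring, the period lattice is a
finitely generated free `ℤ`-module `L` with a faithful `𝕋`-action and a homomorphism
`ev : Γ → L` with additively generating image, such that `T i • ev γ = ∑ x, ev (g i γ x)` and
`ev γ = 0` wherever all periods vanish. -/
theorem exists_period_lattice {Γ : Type*} [Group Γ] {V : Type u} {A : Type v} {𝕋 : Type w}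
    [AddCommGroup V] [AddCommGroup A] [CommRing 𝕋]
    (S : Finset Γ) (hS : Subgroup.closure (S : Set Γ) = ⊤)
    (hA : ∀ n : ℕ, n ≠ 0 → ∀ a : A, n • a = 0 → a = 0)
    (act : 𝕋 → V → V)
    (act_one : ∀ v, act 1 v = v)
    (act_mul : ∀ s t v, act (s * t) v = act s (act t v))
    (act_add : ∀ s t v, act (s + t) v = act s v + act t v)
    (act_add_right : ∀ t v w, act t (v + w) = act t v + act t w)
    (act_faithful : ∀ t, (∀ v, act t v = 0) → t = 0)
    (per : V → Γ → A)
    (per_add : ∀ v w γ, per (v + w) γ = per v γ + per w γ)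
    (per_mul : ∀ v γ γ', per v (γ * γ') = per v γ + per v γ')
    (per_inj : ∀ v, (∀ γ, per v γ = 0) → v = 0)
    {I : Type*} {J : I → Type*} [∀ i, Fintype (J i)] (g : ∀ i, Γ → J i → Γ)
    (T : I → 𝕋) (hT : ∀ i v γ, per (act (T i) v) γ = ∑ x, per v (g i γ x))
    (hgen : Subring.closure (Set.range T) = ⊤) :
    ∃ (L : Type (max u v)) (_ : AddCommGroup L) (_ : Module 𝕋 L) (ev : Γ → L),
      Module.Finite ℤ L ∧ Module.Free ℤ L ∧
      (∀ γ γ', ev (γ * γ') = ev γ + ev γ') ∧
      (∀ i γ, T i • ev γ = ∑ x, ev (g i γ x)) ∧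
      (∀ γ, (∀ v, per v γ = 0) → ev γ = 0) ∧
      AddSubgroup.closure (Set.range ev) = ⊤ ∧
      (∀ t : 𝕋, (∀ x : L, t • x = 0) → t = 0) := by
  classical
  obtain ⟨L, instG, instM, ev, hspan, hfaith, hrel, htf⟩ :=
    exists_lattice_aux act act_one act_mul act_add act_add_right act_faithful per per_add per_inj
  have hrel1 : ∀ c d : Γ →₀ ℤ,
      (∀ v, Finsupp.linearCombination ℤ (per v) c = Finsupp.linearCombination ℤ (per v) d) →
      Finsupp.linearCombination ℤ ev c = Finsupp.linearCombination ℤ ev d := by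
    intro c d h
    have h1 := hrel 1 c d (fun v => by rw [act_one]; exact h v)
    rwa [one_smul] at h1
  have ev_mul : ∀ γ γ', ev (γ * γ') = ev γ + ev γ' := by
    intro γ γ'
    have h := hrel1 (Finsupp.single (γ * γ') 1) (Finsupp.single γ 1 + Finsupp.single γ' 1)
      (fun v => by
        simp only [map_add, Finsupp.linearCombination_single, one_smul]
        exact per_mul v γ γ')
    simpa only [map_add, Finsupp.linearCombination_single, one_smul] using h
  have ev_T : ∀ i γ, T i • ev γ = ∑ x, ev (g i γ x) := by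
    intro i γ
    have h := hrel (T i) (Finsupp.single γ 1) (∑ x, Finsupp.single (g i γ x) 1)
      (fun v => by
        simp only [map_sum, Finsupp.linearCombination_single, one_smul]
        exact hT i v γ)
    simpa only [map_sum, Finsupp.linearCombination_single, one_smul] using h
  have ev_zero : ∀ γ, (∀ v, per v γ = 0) → ev γ = 0 := by
    intro γ hγ
    have h := hrel1 (Finsupp.single γ 1) 0 (fun v => by
      simp only [map_zero, Finsupp.linearCombination_single, one_smul]
      exact hγ v)
    simpa only [map_zero, Finsupp.linearCombination_single, one_smul] using h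
  have ev_one : ev 1 = 0 := by
    have h := ev_mul 1 1
    rw [mul_one] at h
    exact left_eq_add.mp h
  have ev_inv : ∀ γ, ev γ⁻¹ = - ev γ := by
    intro γ
    have h := ev_mul γ γ⁻¹
    rw [mul_inv_cancel, ev_one] at h
    exact eq_neg_of_add_eq_zero_right h.symm
  -- the additive closure of the evaluations is stable under `𝕋`
  let Lz : AddSubgroup L := AddSubgroup.closure (Set.range ev)
  let R₀ : Subring 𝕋 :=
    { carrier := {t | ∀ l ∈ Lz, t • l ∈ Lz}
      one_mem' := fun l hl => by rw [one_smul]; exact hl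
      mul_mem' := fun {s t} hs ht l hl => by rw [mul_smul]; exact hs _ (ht _ hl)
      zero_mem' := fun l _ => by rw [zero_smul]; exact Lz.zero_mem
      add_mem' := fun {s t} hs ht l hl => by rw [add_smul]; exact Lz.add_mem (hs _ hl) (ht _ hl)
      neg_mem' := fun {s} hs l hl => by rw [neg_smul]; exact Lz.neg_mem (hs _ hl) }
  have hR₀ : ∀ t : 𝕋, ∀ l ∈ Lz, t • l ∈ Lz := by
    have hle : Subring.closure (Set.range T) ≤ R₀ := by
      rw [Subring.closure_le]
      rintro _ ⟨i, rfl⟩ l hl
      induction hl using AddSubgroup.closure_induction with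
      | mem l hl =>
        obtain ⟨γ, rfl⟩ := hl
        rw [ev_T]
        exact Lz.sum_mem fun x _ => AddSubgroup.subset_closure ⟨_, rfl⟩
      | zero => rw [smul_zero]; exact Lz.zero_mem
      | add l l' _ _ ih ih' => rw [smul_add]; exact Lz.add_mem ih ih'
      | neg l _ ih => rw [smul_neg]; exact Lz.neg_mem ih
    intro t
    have : t ∈ R₀ := hle (by rw [hgen]; trivial)
    exact this
  have hLz : Lz = ⊤ := by
    rw [eq_top_iff]
    rintro x -
    have hx : x ∈ Submodule.span 𝕋 (Set.range ev) := by rw [hspan]; trivial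
    induction hx using Submodule.span_induction with
    | mem l hl => exact AddSubgroup.subset_closure hl
    | zero => exact Lz.zero_mem
    | add l l' _ _ ih ih' => exact Lz.add_mem ih ih'
    | smul t l _ ih => exact hR₀ t l ih
  -- finite generation over `ℤ`
  have hS' : ∀ γ : Γ, ev γ ∈ Submodule.span ℤ (ev '' (S : Set Γ)) := by
    intro γ
    have hγ : γ ∈ Subgroup.closure (S : Set Γ) := by rw [hS]; trivial
    induction hγ using Subgroup.closure_induction with
    | mem x hx => exact Submodule.subset_span ⟨x, hx, rfl⟩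
    | one => rw [ev_one]; exact Submodule.zero_mem _
    | mul x y _ _ ihx ihy => rw [ev_mul]; exact Submodule.add_mem _ ihx ihy
    | inv x _ ih => rw [ev_inv]; exact Submodule.neg_mem _ ih
  have hfin : Module.Finite ℤ L := by
    rw [Module.finite_def]
    have htop : (⊤ : Submodule ℤ L) = Submodule.span ℤ (ev '' (S : Set Γ)) := by
      symm
      rw [eq_top_iff]
      rintro x -
      have hx : x ∈ Lz := by rw [hLz]; trivial
      induction hx using AddSubgroup.closure_induction with
      | mem l hl =>
        obtain ⟨γ, rfl⟩ := hl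
        exact hS' γ
      | zero => exact Submodule.zero_mem _
      | add l l' _ _ ih ih' => exact Submodule.add_mem _ ih ih'
      | neg l _ ih => exact Submodule.neg_mem _ ih
    rw [htop]
    exact Submodule.fg_span (S.finite_toSet.image ev)
  have htfree : IsAddTorsionFree L :=
    ⟨fun n hn x y hxy => by
      have h : n • (x - y) = 0 := by
        rw [smul_sub]
        exact sub_eq_zero.mpr hxy
      exact sub_eq_zero.mp (htf n hn (hA n hn) _ h)⟩
  have hfree : Module.Free ℤ L := Module.free_of_finite_type_torsion_free'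
  exact ⟨L, instG, instM, ev, hfin, hfree, ev_mul, ev_T, ev_zero, hLz, hfaith⟩

end Group

section Saturation

variable {𝕋 L : Type*} [CommRing 𝕋] [AddCommGroup L] [Module 𝕋 L]

/-- In a finite free `ℤ`-module, an element killed by every homomorphism to `ZMod d` is divisible
by `d`. -/
theorem exists_eq_nsmul_of_forall_hom [Module.Finite ℤ L] [Module.Free ℤ L] (d : ℕ) (z : L)
    (hz : ∀ ψ : L →+ ZMod d, ψ z = 0) : ∃ y : L, z = d • y := by
  classical
  let b := Module.Free.chooseBasis ℤ L
  have hdvd : ∀ i, (d : ℤ) ∣ b.repr z i := by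
    intro i
    have h := hz ((Int.castAddHom (ZMod d)).comp (b.coord i).toAddMonoidHom)
    have h' : ((b.repr z i : ℤ) : ZMod d) = 0 := h
    exact (ZMod.intCast_zmod_eq_zero_iff_dvd _ _).mp h'
  refine ⟨b.repr.symm ((b.repr z).mapRange (fun a => a / (d : ℤ)) (by simp)), ?_⟩
  apply b.repr.injective
  ext i
  rw [map_nsmul, LinearEquiv.apply_symm_apply, Finsupp.smul_apply, Finsupp.mapRange_apply,
    nsmul_eq_mul, Int.mul_ediv_cancel' (hdvd i)]

/-- **Uniform saturation.**  If a commutative ring `𝕋` acts faithfully on a finite free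
`ℤ`-module `L`, there is a single `m ≠ 0` such that whenever `h ∈ 𝕋` maps `L` into `d • L`,
the multiple `m • h` is divisible by `d` in `𝕋`. -/
theorem exists_saturation_bound [Module.Finite ℤ L] [Module.Free ℤ L]
    (hfaith : ∀ t : 𝕋, (∀ x : L, t • x = 0) → t = 0) :
    ∃ m : ℕ, m ≠ 0 ∧ ∀ (d : ℕ) (h : 𝕋), (∀ x : L, ∃ y : L, h • x = d • y) →
      ∃ h' : 𝕋, m • h = d • h' := by
  classical
  -- the action as a `ℤ`-linear map into `End_ℤ L`
  let ρ : 𝕋 →+ (L →ₗ[ℤ] L) :=
    { toFun := fun t => (DistribSMul.toAddMonoidHom L t).toIntLinearMap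
      map_zero' := by
        ext x; simp
      map_add' := fun s t => by
        ext x; simp [add_smul] }
  have ρ_apply : ∀ t x, ρ t x = t • x := fun _ _ => rfl
  have ρ_inj : Function.Injective ρ := by
    rw [injective_iff_map_eq_zero]
    intro t ht
    exact hfaith t fun x => by rw [← ρ_apply, ht]; rfl
  let R : Submodule ℤ (L →ₗ[ℤ] L) := LinearMap.range ρ.toIntLinearMap
  have hR : ∀ e, e ∈ R ↔ ∃ t, ρ t = e := fun e => Iff.rfl
  let Sat : Submodule ℤ (L →ₗ[ℤ] L) :=
    { carrier := {e | ∃ n : ℕ, n ≠ 0 ∧ n • e ∈ R}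
      zero_mem' := ⟨1, one_ne_zero, by rw [smul_zero]; exact R.zero_mem⟩
      add_mem' := by
        rintro e e' ⟨n, hn, he⟩ ⟨n', hn', he'⟩
        refine ⟨n * n', mul_ne_zero hn hn', ?_⟩
        rw [smul_add]
        refine R.add_mem ?_ ?_
        · rw [mul_comm, mul_smul]; exact nsmul_mem he _
        · rw [mul_smul]; exact nsmul_mem he' _
      smul_mem' := by
        rintro k e ⟨n, hn, he⟩
        refine ⟨n, hn, ?_⟩
        rw [smul_comm]
        exact R.smul_mem k he }
  have hSatfg : Sat.FG := IsNoetherian.noetherian Sat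
  obtain ⟨s, hs⟩ := hSatfg
  have hsSat : ∀ e ∈ s, ∃ n : ℕ, n ≠ 0 ∧ n • e ∈ R := by
    intro e he
    have : e ∈ Sat := by rw [← hs]; exact Submodule.subset_span he
    exact this
  choose! n hn0 hnR using hsSat
  let m : ℕ := ∏ e ∈ s, n e
  have hm0 : m ≠ 0 := Finset.prod_ne_zero_iff.mpr hn0
  have hmSat : ∀ e ∈ Sat, m • e ∈ R := by
    intro e he
    rw [← hs] at he
    induction he using Submodule.span_induction with
    | mem e he =>
      have hdvd : n e ∣ m := Finset.dvd_prod_of_mem n he
      obtain ⟨k, hk⟩ := hdvd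
      rw [hk, mul_comm, mul_smul]
      exact nsmul_mem (hnR e he) _
    | zero => rw [smul_zero]; exact R.zero_mem
    | add e e' _ _ ih ih' => rw [smul_add]; exact R.add_mem ih ih'
    | smul k e _ ih => rw [smul_comm]; exact R.smul_mem k ih
  refine ⟨m, hm0, fun d h hh => ?_⟩
  rcases Nat.eq_zero_or_pos d with hd | hd
  · subst hd
    refine ⟨0, ?_⟩
    have h0 : h = 0 := hfaith h fun x => by
      obtain ⟨y, hy⟩ := hh x
      rw [hy, zero_smul]
    rw [h0, smul_zero, smul_zero]
  · let b := Module.Free.chooseBasis ℤ L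
    choose y hy using hh
    let e : L →ₗ[ℤ] L := b.constr ℤ (fun i => y (b i))
    have hde : d • e = ρ h := by
      apply b.ext
      intro i
      rw [LinearMap.smul_apply, Module.Basis.constr_basis, ρ_apply, hy]
    have heSat : e ∈ Sat := ⟨d, hd.ne', by rw [hde]; exact (hR _).mpr ⟨h, rfl⟩⟩
    obtain ⟨h', hh'⟩ := (hR _).mp (hmSat e heSat)
    refine ⟨h', ρ_inj ?_⟩
    rw [map_nsmul, map_nsmul, hh', ← hde, smul_comm]

/-- **Uniform saturation, dual form.**  If `h ∈ 𝕋` kills `Hom(L, ZMod d)` (acting by
transposition), then `m • h` is divisible by `d` in `𝕋`, with `m ≠ 0` independent of `d`, `h`. -/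
theorem exists_saturation_bound_hom [Module.Finite ℤ L] [Module.Free ℤ L]
    (hfaith : ∀ t : 𝕋, (∀ x : L, t • x = 0) → t = 0) :
    ∃ m : ℕ, m ≠ 0 ∧ ∀ (d : ℕ) (h : 𝕋), (∀ (ψ : L →+ ZMod d) (x : L), ψ (h • x) = 0) →
      ∃ h' : 𝕋, m • h = d • h' := by
  obtain ⟨m, hm, H⟩ := exists_saturation_bound (𝕋 := 𝕋) (L := L) hfaith
  exact ⟨m, hm, fun d h hh => H d h fun x =>
    exists_eq_nsmul_of_forall_hom d (h • x) fun ψ => hh ψ x⟩

end Saturation

end Fermat.Agent.S30.PerLat
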