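import Mathlib
import Fermat.Agent.S30.PerLat

/-!
# Phase B, package B2: eigenvectors from a faithful action

A commutative ring `A` acting faithfully on a finite free `ℤ`-module `Λ` has, for every ring
homomorphism `χ : A →+* K` into a field, a nonzero eigenvector in `K ⊗[ℤ] Λ` with eigencharacter
`χ`.  (Deduced from `PerLat.exists_eigen_of_char` with the coordinates of a basis as periods.)
-/

set_option autoImplicit false

open scoped TensorProduct

namespace Fermat.Agent.S30

theorem Eigen.exists_eigenvector {A : Type*} [CommRing A] {Λ : Type*} [AddCommGroup Λ]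
    [Module.Free ℤ Λ] [Module.Finite ℤ Λ] (h : A →+* Module.End ℤ Λ)
    (hinj : Function.Injective h) {K : Type*} [Field K] [CharZero K] (χ : A →+* K) :
    ∃ v : K ⊗[ℤ] Λ, v ≠ 0 ∧ ∀ a : A, (h a).baseChange K v = χ a • v := by
  classical
  let ι := Module.Free.ChooseBasisIndex ℤ Λ
  let b : Module.Basis ι ℤ Λ := Module.Free.chooseBasis ℤ Λ
  obtain ⟨ψ, hψ0, hψ⟩ := PerLat.exists_eigen_of_char (X := ι) (V := Λ) (A := ℤ) (𝕋 := A)
    (fun t v => h t v)
    (fun v => by simp)
    (fun s t v => by simp [map_mul])
    (fun s t v => by simp [map_add])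
    (fun t v w => by simp)
    (fun t ht => hinj (by rw [map_zero]; ext v; exact ht v))
    (fun v i => b.repr v i)
    (fun v w x => by simp)
    (fun v hv => b.repr.injective (by ext i; simpa using hv i))
    Finset.univ
    (fun x => ⟨Pi.single x 1, fun v => by
      simp [Pi.single_apply, Finset.sum_ite_eq']⟩) χ
  -- the matrix coefficients of `h a`
  let m : A → ι → ι → ℤ := fun a j i => b.repr (h a (b i)) j
  have hm : ∀ (a : A) (j : ι), ∑ i, m a j i • ψ i = χ a * ψ j := by
    intro a j
    have key := hψ a (Finsupp.single j 1) (Finsupp.equivFunOnFinite.symm (fun i => m a j i))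
      (fun v => by
        rw [Finsupp.linearCombination_single, one_smul, Finsupp.linearCombination_apply,
          Finsupp.sum_fintype _ (fun i c => c • (b.repr v) i) (fun i => zero_smul _ _)]
        simp only [Finsupp.equivFunOnFinite_symm_apply_apply, smul_eq_mul]
        conv_lhs => rw [← b.sum_repr v]
        rw [map_sum, map_sum, Finsupp.coe_finsetSum, Finset.sum_apply]
        refine Finset.sum_congr rfl fun i _ => ?_
        rw [map_zsmul, map_zsmul, Finsupp.smul_apply, smul_eq_mul, mul_comm])
    rw [Finsupp.linearCombination_single, one_smul, Finsupp.linearCombination_apply,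
      Finsupp.sum_fintype _ (fun i c => c • ψ i) (fun i => zero_smul _ _)] at key
    simp only [Finsupp.equivFunOnFinite_symm_apply_apply] at key
    exact key.symm
  let B : Module.Basis ι K (K ⊗[ℤ] Λ) := Algebra.TensorProduct.basis K b
  have hB : ∀ i, B i = (1 : K) ⊗ₜ[ℤ] b i := fun i => Algebra.TensorProduct.basis_apply b i
  have htmul : ∀ (c : K) (i : ι), c ⊗ₜ[ℤ] b i = c • B i := by
    intro c i
    rw [hB, TensorProduct.smul_tmul', smul_eq_mul, mul_one]
  refine ⟨∑ i, ψ i ⊗ₜ[ℤ] b i, ?_, ?_⟩
  · intro h0
    apply hψ0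
    have h1 : ∑ i, ψ i • B i = 0 := by
      rw [← h0]
      exact Finset.sum_congr rfl fun i _ => (htmul _ _).symm
    funext i
    exact Fintype.linearIndependent_iff.mp B.linearIndependent ψ h1 i
  · intro a
    rw [map_sum, Finset.smul_sum]
    have e1 : ∀ i, (h a).baseChange K (ψ i ⊗ₜ[ℤ] b i) = ∑ j, (m a j i • ψ i) ⊗ₜ[ℤ] b j := by
      intro i
      rw [LinearMap.baseChange_tmul]
      conv_lhs => rw [← b.sum_repr (h a (b i))]
      rw [TensorProduct.tmul_sum]
      exact Finset.sum_congr rfl fun j _ => (TensorProduct.smul_tmul _ _ _).symm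
    simp only [e1]
    rw [Finset.sum_comm]
    refine Finset.sum_congr rfl fun j _ => ?_
    rw [← TensorProduct.sum_tmul, hm a j, TensorProduct.smul_tmul', smul_eq_mul]

end Fermat.Agent.S30
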