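import Mathlib
import Fermat.Prelude.Thm_IsAdicComplete_of_module_finite

/-!
# The `p`-adic Tate module of an abelian group

For an abelian group `J` and a prime `p`:

* `tate p J` : the group of sequences `x : ℕ → J` with `x 0 = 0` and `p • x (n + 1) = x n`
  (the inverse limit of the `p ^ n`-torsion along multiplication by `p`), a `ℤ_[p]`-module;
* `proj p J n : tate p J →+ J` with kernel `p ^ n • tate` (`proj_eq_zero_iff`);
* torsion-free (`instIsTorsionFree`), separated (`eq_zero_of_forall_pow`);
* `finite_of_finite_torsion` : finitely generated as soon as `J[p]` is finite, hence free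
  (`free_of_finite_torsion`);
* `mapHom p J : AddMonoid.End J →+* Module.End ℤ_[p] (tate p J)` (functoriality), with the
  continuity statement `mapHom_sub_eq_pow_smul`.

The finiteness uses a complete version of Nakayama's lemma, `span_eq_top_of_complete`.
-/

set_option autoImplicit false

namespace Fermat.Agent.S30.TateModule

noncomputable section

/-! ### A complete Nakayama lemma -/

/-- Elements of `(span {π}) ^ n • ⊤` are multiples of `π ^ n`. -/
theorem exists_eq_pow_smul_of_mem {R M : Type*} [CommRing R] [AddCommGroup M] [Module R M]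
    (π : R) (n : ℕ) {x : M} (hx : x ∈ (Ideal.span {π} ^ n • ⊤ : Submodule R M)) :
    ∃ y : M, x = π ^ n • y := by
  rw [Ideal.span_singleton_pow, Submodule.ideal_span_singleton_smul] at hx
  obtain ⟨y, -, rfl⟩ := (Submodule.mem_smul_pointwise_iff_exists _ _ _).mp hx
  exact ⟨y, rfl⟩

theorem pow_smul_mem {R M : Type*} [CommRing R] [AddCommGroup M] [Module R M]
    (π : R) (n : ℕ) (y : M) : π ^ n • y ∈ (Ideal.span {π} ^ n • ⊤ : Submodule R M) :=
  Submodule.smul_mem_smul (Ideal.pow_mem_pow (Ideal.mem_span_singleton_self π) n)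
    Submodule.mem_top

/-- **Complete Nakayama.** Let `R` be a Noetherian ring complete with respect to `(π)`, `M` a
`π`-adically separated `R`-module and `S` a finite subset of `M` generating `M` modulo `π`.
Then `S` generates `M`. -/
theorem span_eq_top_of_complete {R M : Type*} [CommRing R] [IsNoetherianRing R] (π : R)
    [IsAdicComplete (Ideal.span {π}) R] [AddCommGroup M] [Module R M]
    (hsep : ∀ x : M, (∀ n : ℕ, ∃ y : M, x = π ^ n • y) → x = 0)
    (S : Finset M)
    (hS : ∀ x : M, ∃ y ∈ Submodule.span R (S : Set M), ∃ z : M, x - y = π • z) :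
    Submodule.span R (S : Set M) = ⊤ := by
  classical
  set F : (S → R) →ₗ[R] M := Fintype.linearCombination R (fun s : S => (s : M)) with hF
  have hrange : LinearMap.range F = Submodule.span R (S : Set M) := by
    rw [hF, Fintype.range_linearCombination]
    congr 1
    exact Subtype.range_coe
  have hS' : ∀ x : M, ∃ a : S → R, ∃ z : M, x - F a = π • z := by
    intro x
    obtain ⟨y, hy, z, hz⟩ := hS x
    rw [← hrange] at hy
    obtain ⟨a, rfl⟩ := hy
    exact ⟨a, z, hz⟩
  choose a z haz using hS'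
  have hcomp : IsAdicComplete (Ideal.span {π}) (S → R) :=
    IsAdicComplete.of_module_finite (Ideal.span {π}) (S → R)
  rw [eq_top_iff]
  intro x _
  -- the successive remainders
  let xs : ℕ → M := fun k => Nat.rec x (fun _ y => z y) k
  have hxs0 : xs 0 = x := rfl
  have hxs : ∀ k, xs (k + 1) = z (xs k) := fun _ => rfl
  let A : ℕ → (S → R) := fun k => ∑ i ∈ Finset.range k, π ^ i • a (xs i)
  have hA : ∀ k, x - F (A k) = π ^ k • xs k := by
    intro k
    induction k with
    | zero => simp [A, hxs0]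
    | succ k ih =>
      have h1 : A (k + 1) = A k + π ^ k • a (xs k) := Finset.sum_range_succ _ _
      rw [h1, map_add, map_smul, ← sub_sub, ih, ← smul_sub, haz, hxs, pow_succ, mul_smul]
  have hcauchy : ∀ {m n : ℕ}, m ≤ n →
      A m ≡ A n [SMOD (Ideal.span {π} ^ m • ⊤ : Submodule R (S → R))] := by
    intro m n hmn
    induction n, hmn using Nat.le_induction with
    | base => exact SModEq.refl _
    | succ n hmn ih =>
      refine ih.trans ?_
      have h1 : A (n + 1) = A n + π ^ n • a (xs n) := Finset.sum_range_succ _ _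
      rw [h1, SModEq.sub_mem]
      have : A n - (A n + π ^ n • a (xs n)) = -(π ^ n • a (xs n)) := by abel
      rw [this]
      refine Submodule.neg_mem _ ?_
      exact Submodule.smul_mono_left (Ideal.pow_le_pow_right hmn) (pow_smul_mem π n _)
  obtain ⟨L, hL⟩ := hcomp.toIsPrecomplete.prec hcauchy
  have hx : x - F L = 0 := by
    refine hsep _ (fun n => ?_)
    have h1 : A n - L ∈ (Ideal.span {π} ^ n • ⊤ : Submodule R (S → R)) :=
      SModEq.sub_mem.mp (hL n)
    obtain ⟨b, hb⟩ := exists_eq_pow_smul_of_mem π n h1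
    refine ⟨xs n + F b, ?_⟩
    have h2 : x - F L = (x - F (A n)) + F (A n - L) := by
      rw [map_sub]
      abel
    rw [h2, hA n, hb, map_smul, smul_add]
  rw [← hrange]
  exact ⟨L, (sub_eq_zero.mp hx).symm⟩

/-! ### The Tate module -/

section Tate

variable (p : ℕ) (J : Type*) [AddCommGroup J]

/-- `a • y = b • y` when `a ≡ b` modulo an annihilator of `y`. -/
theorem nsmul_eq_of_modEq {J : Type*} [AddCommGroup J] {m a b : ℕ} {y : J} (hy : m • y = 0)
    (h : a ≡ b [MOD m]) : a • y = b • y := by
  obtain ⟨k, hk⟩ := (Nat.modEq_iff_dvd.mp h)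
  have h1 : (b : ℤ) • y - (a : ℤ) • y = 0 := by
    rw [← sub_smul, hk, mul_comm, mul_smul, natCast_zsmul, hy, smul_zero]
  have h2 : (a : ℤ) • y = (b : ℤ) • y := (sub_eq_zero.mp h1).symm
  rwa [natCast_zsmul, natCast_zsmul] at h2

/-- The `p`-adic Tate module of an abelian group: sequences `x` with `x 0 = 0` and
`p • x (n + 1) = x n`. -/
def tate : AddSubgroup (ℕ → J) where
  carrier := {x | x 0 = 0 ∧ ∀ n, p • x (n + 1) = x n}
  zero_mem' := ⟨rfl, fun _ => smul_zero _⟩
  add_mem' := by
    rintro x y ⟨hx0, hx⟩ ⟨hy0, hy⟩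
    refine ⟨?_, fun n => ?_⟩
    · show x 0 + y 0 = 0
      rw [hx0, hy0, add_zero]
    · show p • (x (n + 1) + y (n + 1)) = x n + y n
      rw [smul_add, hx n, hy n]
  neg_mem' := by
    rintro x ⟨hx0, hx⟩
    refine ⟨?_, fun n => ?_⟩
    · show -x 0 = 0
      rw [hx0, neg_zero]
    · show p • (-x (n + 1)) = -x n
      rw [smul_neg, hx n]

variable {p J}

theorem mem_tate {x : ℕ → J} : x ∈ tate p J ↔ x 0 = 0 ∧ ∀ n, p • x (n + 1) = x n := Iff.rfl

@[ext] theorem ext {x y : tate p J} (h : ∀ n, (x : ℕ → J) n = (y : ℕ → J) n) : x = y :=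
  Subtype.ext (funext h)

theorem apply_zero (x : tate p J) : (x : ℕ → J) 0 = 0 := x.2.1

theorem smul_apply_succ (x : tate p J) (n : ℕ) : p • (x : ℕ → J) (n + 1) = (x : ℕ → J) n :=
  x.2.2 n

theorem pow_smul_apply (x : tate p J) (n : ℕ) : p ^ n • (x : ℕ → J) n = 0 := by
  induction n with
  | zero => rw [pow_zero, one_smul, apply_zero]
  | succ n ih => rw [pow_succ, mul_smul, smul_apply_succ, ih]

theorem pow_smul_apply_add (x : tate p J) (n k : ℕ) :
    p ^ n • (x : ℕ → J) (k + n) = (x : ℕ → J) k := by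
  induction n with
  | zero => rw [pow_zero, one_smul, add_zero]
  | succ n ih => rw [pow_succ, mul_smul, ← add_assoc, smul_apply_succ, ih]

variable (p J)

/-- the `n`-th component -/
def proj (n : ℕ) : tate p J →+ J where
  toFun x := (x : ℕ → J) n
  map_zero' := rfl
  map_add' _ _ := rfl

variable {p J}

@[simp] theorem proj_apply (n : ℕ) (x : tate p J) : proj p J n x = (x : ℕ → J) n := rfl

theorem pow_smul_proj (n : ℕ) (x : tate p J) : p ^ n • proj p J n x = 0 := pow_smul_apply x n

/-- the shift `y k = x (k + n)` of an element with `x n = 0` -/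
def shift (x : tate p J) (n : ℕ) (h : (x : ℕ → J) n = 0) : tate p J :=
  ⟨fun k => (x : ℕ → J) (k + n), by
    refine ⟨?_, fun k => ?_⟩
    · show (x : ℕ → J) (0 + n) = 0
      rw [zero_add, h]
    · show p • (x : ℕ → J) (k + 1 + n) = (x : ℕ → J) (k + n)
      rw [add_right_comm, smul_apply_succ]⟩

/-- a compatible family defines an element of the Tate module -/
def mk (c : ℕ → J) (h0 : c 0 = 0) (h : ∀ n, p • c (n + 1) = c n) : tate p J := ⟨c, h0, h⟩

@[simp] theorem mk_apply (c : ℕ → J) (h0 : c 0 = 0) (h : ∀ n, p • c (n + 1) = c n) (n : ℕ) :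
    ((mk c h0 h : tate p J) : ℕ → J) n = c n := rfl

variable [Fact p.Prime]

theorem val_toZModPow_succ_modEq (a : ℤ_[p]) (n : ℕ) :
    (PadicInt.toZModPow (n + 1) a).val ≡ (PadicInt.toZModPow n a).val [MOD p ^ n] := by
  have h := PadicInt.zmod_cast_comp_toZModPow (p := p) n (n + 1) (Nat.le_succ n)
  have h1 : PadicInt.toZModPow n a
      = ZMod.castHom (pow_dvd_pow p (Nat.le_succ n)) (ZMod (p ^ n))
          (PadicInt.toZModPow (n + 1) a) := by
    rw [← h]
    rfl
  rw [h1, ZMod.castHom_apply, ← ZMod.natCast_val, ZMod.val_natCast]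
  exact (Nat.mod_modEq _ _).symm

/-- the scalar action of `ℤ_[p]` -/
def smulTate (a : ℤ_[p]) (x : tate p J) : tate p J :=
  ⟨fun n => (PadicInt.toZModPow n a).val • (x : ℕ → J) n, by
    refine ⟨?_, fun n => ?_⟩
    · show (PadicInt.toZModPow 0 a).val • (x : ℕ → J) 0 = 0
      rw [apply_zero, smul_zero]
    · show p • ((PadicInt.toZModPow (n + 1) a).val • (x : ℕ → J) (n + 1))
        = (PadicInt.toZModPow n a).val • (x : ℕ → J) n
      rw [smul_comm, smul_apply_succ]
      exact nsmul_eq_of_modEq (pow_smul_apply x n) (val_toZModPow_succ_modEq a n)⟩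

instance instModule : Module ℤ_[p] (tate p J) where
  smul := smulTate
  one_smul x := by
    ext n
    show (PadicInt.toZModPow n (1 : ℤ_[p])).val • (x : ℕ → J) n = (x : ℕ → J) n
    rw [map_one, nsmul_eq_of_modEq (pow_smul_apply x n) (b := 1), one_smul]
    rw [ZMod.val_one_eq_one_mod]
    exact Nat.mod_modEq _ _
  mul_smul a b x := by
    ext n
    show (PadicInt.toZModPow n (a * b)).val • (x : ℕ → J) n
      = (PadicInt.toZModPow n a).val • ((PadicInt.toZModPow n b).val • (x : ℕ → J) n)
    rw [map_mul, ← mul_smul]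
    refine nsmul_eq_of_modEq (pow_smul_apply x n) ?_
    rw [ZMod.val_mul]
    exact Nat.mod_modEq _ _
  smul_zero a := by
    ext n
    show (PadicInt.toZModPow n a).val • (0 : J) = 0
    rw [smul_zero]
  smul_add a x y := by
    ext n
    show (PadicInt.toZModPow n a).val • ((x : ℕ → J) n + (y : ℕ → J) n)
      = (PadicInt.toZModPow n a).val • (x : ℕ → J) n + (PadicInt.toZModPow n a).val • (y : ℕ → J) n
    rw [smul_add]
  add_smul a b x := by
    ext n
    show (PadicInt.toZModPow n (a + b)).val • (x : ℕ → J) n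
      = (PadicInt.toZModPow n a).val • (x : ℕ → J) n + (PadicInt.toZModPow n b).val • (x : ℕ → J) n
    rw [map_add, ← add_smul]
    refine nsmul_eq_of_modEq (pow_smul_apply x n) ?_
    rw [ZMod.val_add]
    exact Nat.mod_modEq _ _
  zero_smul x := by
    ext n
    show (PadicInt.toZModPow n (0 : ℤ_[p])).val • (x : ℕ → J) n = 0
    rw [map_zero, ZMod.val_zero, zero_smul]

theorem coe_smul (a : ℤ_[p]) (x : tate p J) (n : ℕ) :
    ((a • x : tate p J) : ℕ → J) n = (PadicInt.toZModPow n a).val • (x : ℕ → J) n := rfl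

theorem natCast_smul_apply (k : ℕ) (x : tate p J) (n : ℕ) :
    (((k : ℤ_[p]) • x : tate p J) : ℕ → J) n = k • (x : ℕ → J) n := by
  rw [coe_smul, map_natCast]
  refine nsmul_eq_of_modEq (pow_smul_apply x n) ?_
  rw [ZMod.val_natCast]
  exact Nat.mod_modEq _ _

theorem pow_smul_apply' (m : ℕ) (x : tate p J) (n : ℕ) :
    ((((p : ℤ_[p]) ^ m) • x : tate p J) : ℕ → J) n = p ^ m • (x : ℕ → J) n := by
  rw [← Nat.cast_pow, natCast_smul_apply]

/-- **The kernel of the `n`-th projection is `p ^ n • T`.** -/
theorem proj_eq_zero_iff (n : ℕ) (x : tate p J) :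
    proj p J n x = 0 ↔ ∃ y : tate p J, x = (p : ℤ_[p]) ^ n • y := by
  constructor
  · intro h
    refine ⟨shift x n h, ?_⟩
    ext k
    rw [pow_smul_apply']
    exact (pow_smul_apply_add x n k).symm
  · rintro ⟨y, rfl⟩
    rw [proj_apply, pow_smul_apply', pow_smul_apply]

/-- `T` is `p`-adically separated. -/
theorem eq_zero_of_forall_pow (x : tate p J)
    (h : ∀ n : ℕ, ∃ y : tate p J, x = (p : ℤ_[p]) ^ n • y) : x = 0 := by
  ext n
  exact (proj_eq_zero_iff n x).mpr (h n)

theorem pow_smul_eq_zero (m : ℕ) (x : tate p J) (h : (p : ℤ_[p]) ^ m • x = 0) : x = 0 := by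
  ext n
  have h1 := pow_smul_apply_add x m n
  rw [← pow_smul_apply', h] at h1
  exact h1.symm

instance instIsTorsionFree : Module.IsTorsionFree ℤ_[p] (tate p J) := by
  refine Module.IsTorsionFree.of_smul_eq_zero (fun a x h => ?_)
  by_cases ha : a = 0
  · exact Or.inl ha
  · right
    have h1 := PadicInt.unitCoeff_spec ha
    rw [h1, mul_smul] at h
    have h2 : (p : ℤ_[p]) ^ a.valuation • x = 0 := by
      have := congrArg (fun y => (((PadicInt.unitCoeff ha)⁻¹ : ℤ_[p]ˣ) : ℤ_[p]) • y) h
      simp only [smul_zero] at this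
      rwa [← mul_smul, Units.inv_mul, one_smul] at this
    exact pow_smul_eq_zero _ x h2

/-- membership in `𝔪 ^ n • ⊤`, in the shape of the prelude's adic continuity -/
theorem mem_maximalIdeal_pow_smul_top_iff (n : ℕ) (x : tate p J) :
    x ∈ (IsLocalRing.maximalIdeal ℤ_[p] ^ n • ⊤ : Submodule ℤ_[p] (tate p J))
      ↔ proj p J n x = 0 := by
  rw [PadicInt.maximalIdeal_eq_span_p, proj_eq_zero_iff]
  constructor
  · intro h
    exact exists_eq_pow_smul_of_mem _ n h
  · rintro ⟨y, rfl⟩
    exact pow_smul_mem _ n y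

instance instIsHausdorff : IsHausdorff (IsLocalRing.maximalIdeal ℤ_[p]) (tate p J) where
  haus' x hx := by
    ext n
    have h := hx n
    rw [SModEq.zero, mem_maximalIdeal_pow_smul_top_iff] at h
    exact h

/-! ### Finiteness -/

/-- **The Tate module is finitely generated over `ℤ_[p]` when `J[p]` is finite.** -/
theorem finite_of_finite_torsion (hfin : Finite {y : J // p • y = 0}) :
    Module.Finite ℤ_[p] (tate p J) := by
  classical
  -- the image of the first projection is finite
  have himg : (Set.range (proj p J 1)).Finite := by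
    have h1 : Set.range (proj p J 1) ⊆ Set.range (Subtype.val : {y : J // p • y = 0} → J) := by
      rintro _ ⟨x, rfl⟩
      refine ⟨⟨proj p J 1 x, ?_⟩, rfl⟩
      have := pow_smul_proj 1 x
      rwa [pow_one] at this
    exact (Set.finite_range _).subset h1
  -- choose preimages
  have hch : ∀ y : J, ∃ x : tate p J, y ∈ Set.range (proj p J 1) → proj p J 1 x = y := by
    intro y
    by_cases hy : y ∈ Set.range (proj p J 1)
    · obtain ⟨x, hx⟩ := hy
      exact ⟨x, fun _ => hx⟩
    · exact ⟨0, fun h => absurd h hy⟩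
  choose g hg using hch
  let S : Finset (tate p J) := himg.toFinset.image g
  have : IsAdicComplete (Ideal.span {(p : ℤ_[p])}) ℤ_[p] := by
    rw [← PadicInt.maximalIdeal_eq_span_p]
    infer_instance
  have hspan : Submodule.span ℤ_[p] (S : Set (tate p J)) = ⊤ := by
    refine span_eq_top_of_complete (p : ℤ_[p]) eq_zero_of_forall_pow S (fun x => ?_)
    have hx : proj p J 1 x ∈ Set.range (proj p J 1) := ⟨x, rfl⟩
    refine ⟨g (proj p J 1 x), Submodule.subset_span ?_, ?_⟩
    · rw [Finset.coe_image]
      exact ⟨proj p J 1 x, by simp, rfl⟩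
    · have h1 : proj p J 1 (x - g (proj p J 1 x)) = 0 := by
        rw [map_sub, hg _ hx, sub_self]
      obtain ⟨z, hz⟩ := (proj_eq_zero_iff 1 _).mp h1
      exact ⟨z, by rw [hz, pow_one]⟩
  exact ⟨⟨S, hspan⟩⟩

/-- Set form of `finite_of_finite_torsion`. -/
theorem finite_of_setFinite (hfin : {y : J | p • y = 0}.Finite) :
    Module.Finite ℤ_[p] (tate p J) :=
  finite_of_finite_torsion hfin.to_subtype

/-- The Tate module is free over `ℤ_[p]` when `J[p]` is finite. -/
theorem free_of_finite_torsion (hfin : Finite {y : J // p • y = 0}) :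
    Module.Free ℤ_[p] (tate p J) := by
  have := finite_of_finite_torsion hfin
  infer_instance

/-! ### Functoriality -/

/-- the endomorphism of the Tate module induced by an endomorphism of `J` -/
def mapLin (f : AddMonoid.End J) : tate p J →ₗ[ℤ_[p]] tate p J where
  toFun x := ⟨fun n => f ((x : ℕ → J) n), by
    refine ⟨?_, fun n => ?_⟩
    · show f ((x : ℕ → J) 0) = 0
      rw [apply_zero, map_zero]
    · show p • f ((x : ℕ → J) (n + 1)) = f ((x : ℕ → J) n)
      rw [← map_nsmul, smul_apply_succ]⟩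
  map_add' x y := by
    ext n
    show f ((x : ℕ → J) n + (y : ℕ → J) n) = f ((x : ℕ → J) n) + f ((y : ℕ → J) n)
    rw [map_add]
  map_smul' a x := by
    ext n
    show f ((PadicInt.toZModPow n a).val • (x : ℕ → J) n)
      = (PadicInt.toZModPow n a).val • f ((x : ℕ → J) n)
    rw [map_nsmul]

@[simp] theorem mapLin_apply (f : AddMonoid.End J) (x : tate p J) (n : ℕ) :
    ((mapLin f x : tate p J) : ℕ → J) n = f ((x : ℕ → J) n) := rfl

variable (p J)

/-- **Functoriality of the Tate module** as a ring homomorphism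
`End(J) →+* End_{ℤ_[p]}(T_p J)`. -/
def mapHom : AddMonoid.End J →+* Module.End ℤ_[p] (tate p J) where
  toFun := mapLin
  map_one' := by
    ext x n
    rfl
  map_mul' f g := by
    ext x n
    rfl
  map_zero' := by
    ext x n
    rfl
  map_add' f g := by
    ext x n
    rfl

variable {p J}

@[simp] theorem mapHom_apply (f : AddMonoid.End J) (x : tate p J) (n : ℕ) :
    ((mapHom p J f x : tate p J) : ℕ → J) n = f ((x : ℕ → J) n) := rfl

theorem proj_mapHom (f : AddMonoid.End J) (x : tate p J) (n : ℕ) :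
    proj p J n (mapHom p J f x) = f (proj p J n x) := rfl

/-- Two endomorphisms of `J` agreeing on the `p`-power torsion induce the same endomorphism
of the Tate module. -/
theorem mapHom_eq_of_forall (f g : AddMonoid.End J)
    (h : ∀ (n : ℕ) (y : J), p ^ n • y = 0 → f y = g y) : mapHom p J f = mapHom p J g := by
  ext x n
  exact h n _ (pow_smul_apply x n)

theorem mapHom_eq_zero_of_forall (f : AddMonoid.End J)
    (h : ∀ (n : ℕ) (y : J), p ^ n • y = 0 → f y = 0) : mapHom p J f = 0 := by
  rw [← map_zero (mapHom p J)]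
  exact mapHom_eq_of_forall f 0 h

theorem mapHom_eq_one_of_forall (f : AddMonoid.End J)
    (h : ∀ (n : ℕ) (y : J), p ^ n • y = 0 → f y = y) : mapHom p J f = 1 := by
  rw [← map_one (mapHom p J)]
  exact mapHom_eq_of_forall f 1 h

/-- **Adic continuity**: an endomorphism of `J` fixing the `p ^ n`-torsion pointwise acts
trivially on the Tate module modulo `p ^ n`. -/
theorem mapHom_sub_eq_pow_smul (f : AddMonoid.End J) (n : ℕ)
    (hf : ∀ y : J, p ^ n • y = 0 → f y = y) (x : tate p J) :
    ∃ z : tate p J, mapHom p J f x - x = (p : ℤ_[p]) ^ n • z := by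
  refine (proj_eq_zero_iff n _).mp ?_
  rw [map_sub, proj_mapHom, hf _ (pow_smul_proj n x), sub_self]

theorem mapHom_sub_mem (f : AddMonoid.End J) (n : ℕ)
    (hf : ∀ y : J, p ^ n • y = 0 → f y = y) (x : tate p J) :
    mapHom p J f x - x ∈ (IsLocalRing.maximalIdeal ℤ_[p] ^ n • ⊤ : Submodule ℤ_[p] (tate p J)) := by
  rw [mem_maximalIdeal_pow_smul_top_iff, map_sub, proj_mapHom, hf _ (pow_smul_proj n x), sub_self]

end Tate

end

end Fermat.Agent.S30.TateModule
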