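import Mathlib
import Fermat.Agent.S30.TateModule

/-!
# The Tate module of an abelian group (interface form)

`Fermat.Agent.S30.TateMod.exists_tate` : the statement T1 of the phase-B interface, for the
concrete Tate module `TateModule.tate p X` (sequences `x` with `x 0 = 0`, `p • x (n+1) = x n`).
-/

set_option autoImplicit false

namespace Fermat.Agent.S30

namespace TateMod

open TateModule

/-- the `n`-th component of `a • x` is `a.appr n • x n` -/
theorem proj_smul (p : ℕ) [Fact p.Prime] (X : Type*) [AddCommGroup X] (n : ℕ) (a : ℤ_[p])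
    (x : tate p X) : proj p X n (a • x) = a.appr n • proj p X n x := by
  have h : (PadicInt.toZModPow n a).val = a.appr n := by
    change ((a.appr n : ℕ) : ZMod (p ^ n)).val = a.appr n
    rw [ZMod.val_natCast, Nat.mod_eq_of_lt (PadicInt.appr_lt a n)]
  rw [proj_apply, coe_smul, h, proj_apply]

/-- **(T1) The Tate module of an abelian group with finite `p`-torsion.** -/
theorem exists_tate (p : ℕ) [Fact p.Prime] (X : Type) [AddCommGroup X]
    (hfin : Finite {x : X // p • x = 0}) :
    ∃ (M : Type) (_ : AddCommGroup M) (_ : Module ℤ_[p] M) (_ : Module.Free ℤ_[p] M)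
      (_ : Module.Finite ℤ_[p] M) (proj : ℕ → M →+ X)
      (map : AddMonoid.End X →+* Module.End ℤ_[p] M),
      (∀ (n : ℕ) (x : M), p ^ n • proj n x = 0) ∧
      (∀ (n : ℕ) (x : M), p • proj (n + 1) x = proj n x) ∧
      (∀ x : M, (∀ n, proj n x = 0) → x = 0) ∧
      (∀ (n : ℕ) (x : M), proj n x = 0 → ∃ y : M, x = (p : ℤ_[p]) ^ n • y) ∧
      (∀ (n : ℕ) (a : ℤ_[p]) (x : M), proj n (a • x) = a.appr n • proj n x) ∧
      (∀ (f : AddMonoid.End X) (n : ℕ) (x : M), proj n (map f x) = f (proj n x)) ∧
      (∀ y : ℕ → X, y 0 = 0 → (∀ n, p • y (n + 1) = y n) → ∃ x : M, ∀ n, proj n x = y n) :=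
  ⟨tate p X, inferInstance, inferInstance, free_of_finite_torsion hfin,
    finite_of_finite_torsion hfin, TateModule.proj p X, mapHom p X,
    fun n x => pow_smul_proj n x,
    fun n x => smul_apply_succ x n,
    fun _ hx => TateModule.ext hx,
    fun n x hx => (proj_eq_zero_iff n x).mp hx,
    fun n a x => proj_smul p X n a x,
    fun f n x => proj_mapHom f x n,
    fun y h0 h => ⟨mk y h0 h, fun _ => rfl⟩⟩

end TateMod

end Fermat.Agent.S30
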