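import Mathlib
import Fermat.Agent.S30.Defs
import Fermat.Agent.S30.TateMod
import Fermat.Agent.S30.Eigen

/-!
# Phase B (S30 / S31), package B14: the Tate module input

`Tate.exists_tateInput` : the abstract geometric input `GeomInput p N S` (Galois module `X` with
Hecke operators, Eichler--Shimura and triviality of inertia on `p`-power torsion, open
stabilisers, the lattice `Λ` with its Kummer maps `θ n : Λ → X[p ^ n]`), together with the
compatibility of the Kummer maps and the finiteness of `X[p]`, gives the `TateInput p N S`: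

* `M` := the Tate module of `X` (`TateMod.exists_tate`), `ρ σ := map (σ • ·)`,
  `T ℓ := map (I.T ℓ)`;
* continuity: finitely many generators of `M`, open stabilisers of their images in `X[p ^ n]`;
* Eichler--Shimura and inertia: checked after every `proj n` (separation);
* eigenvectors: the compatible system `(θ n v)_n` lifts to `j : Λ →+ M`, Hecke equivariant and
  saturated (`j v ∈ p M ⇒ v ∈ p Λ`); hence the images of a `ℤ`-basis of `Λ` are `ℤ_p`-linearly
  independent, and `K ⊗[ℤ] Λ → K ⊗[ℤ_p] M` is injective for every characteristic-zero field `K`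
  over `ℤ_p` (flatness); the eigenvector of `Eigen.exists_eigenvector` is pushed along it.
-/

set_option autoImplicit false
open scoped TensorProduct

namespace Fermat.Agent.S30.Tate

/-- an element of `ℤ_p` divisible by every power of `p` vanishes -/
theorem eq_zero_of_forall_pow_dvd (p : ℕ) [Fact p.Prime] (a : ℤ_[p])
    (h : ∀ n : ℕ, (p : ℤ_[p]) ^ n ∣ a) : a = 0 := by
  by_contra ha
  have hp : ¬ IsUnit (p : ℤ_[p]) := PadicInt.p_nonunit
  have hfin : FiniteMultiplicity (p : ℤ_[p]) a := FiniteMultiplicity.of_not_isUnit hp ha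
  obtain ⟨n, hn⟩ := hfin
  exact hn (h (n + 1))

/-- the key step: a relation among the images of a basis has all coefficients divisible by `p` -/
theorem dvd_of_relation (p : ℕ) [Fact p.Prime] {Λ M : Type*} [AddCommGroup Λ] [AddCommGroup M]
    [Module ℤ_[p] M] {r : ℕ} (e : Module.Basis (Fin r) ℤ Λ) (j : Λ →+ M)
    (hsat : ∀ (v : Λ) (y : M), j v = (p : ℤ_[p]) • y → ∃ w : Λ, v = p • w)
    (a : Fin r → ℤ_[p]) (ha : ∑ i, a i • j (e i) = 0) (i : Fin r) : (p : ℤ_[p]) ∣ a i := by
  classical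
  -- integer approximations
  have hc : ∀ i, ∃ c : ℤ_[p], a i = ((a i).appr 1 : ℤ_[p]) + (p : ℤ_[p]) * c := by
    intro i
    have := PadicInt.appr_spec 1 (a i)
    rw [Ideal.mem_span_singleton] at this
    obtain ⟨c, hc⟩ := this
    refine ⟨c, ?_⟩
    rw [pow_one] at hc
    rw [← hc]; ring
  choose c hc using hc
  set b : Fin r → ℕ := fun i => (a i).appr 1 with hb
  have h1 : j (∑ i, b i • e i) = (p : ℤ_[p]) • (- ∑ i, c i • j (e i)) := by
    rw [map_sum]
    have h2 : ∀ i, j (b i • e i) = a i • j (e i) - (p : ℤ_[p]) • (c i • j (e i)) := by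
      intro i
      rw [map_nsmul, smul_smul, ← sub_smul, ← Nat.cast_smul_eq_nsmul ℤ_[p]]
      congr 1
      rw [hc i]; ring
    rw [Finset.sum_congr rfl (fun i _ => h2 i), Finset.sum_sub_distrib, ha, zero_sub, smul_neg,
      Finset.smul_sum]
  obtain ⟨w, hw⟩ := hsat _ _ h1
  have h3 : (b i : ℤ) = (p : ℤ) * e.repr w i := by
    have := congrArg (fun v => e.repr v i) hw
    simp only [map_sum, map_nsmul, Module.Basis.repr_self, Finsupp.coe_finsetSum,
      Finsupp.coe_smul, Finset.sum_apply, Pi.smul_apply, Finsupp.single_apply] at this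
    simpa using this
  rw [hc i]
  refine dvd_add ?_ (dvd_mul_right _ _)
  have : ((b i : ℕ) : ℤ_[p]) = (p : ℤ_[p]) * ((e.repr w i : ℤ) : ℤ_[p]) := by
    have := congrArg (fun z : ℤ => (z : ℤ_[p])) h3
    push_cast at this
    exact this
  exact ⟨_, this⟩


/-- the images of a `ℤ`-basis under a saturated additive map into a torsion-free `ℤ_p`-module are
`ℤ_p`-linearly independent -/
theorem linearIndependent_of_saturated (p : ℕ) [Fact p.Prime] {Λ M : Type*} [AddCommGroup Λ]
    [AddCommGroup M] [Module ℤ_[p] M] [Module.IsTorsionFree ℤ_[p] M] {r : ℕ}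
    (e : Module.Basis (Fin r) ℤ Λ) (j : Λ →+ M)
    (hsat : ∀ (v : Λ) (y : M), j v = (p : ℤ_[p]) • y → ∃ w : Λ, v = p • w) :
    LinearIndependent ℤ_[p] (fun i => j (e i)) := by
  classical
  have hp0 : (p : ℤ_[p]) ≠ 0 := by
    exact_mod_cast (Fact.out : p.Prime).ne_zero
  have key : ∀ (n : ℕ) (a : Fin r → ℤ_[p]), ∑ i, a i • j (e i) = 0 →
      ∀ i, (p : ℤ_[p]) ^ n ∣ a i := by
    intro n
    induction n with
    | zero => intro a _ i; simp
    | succ n ih =>
      intro a ha i
      have h1 := dvd_of_relation p e j hsat a ha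
      choose a' ha' using h1
      have h2 : ∑ i, a' i • j (e i) = 0 := by
        have h3 : (p : ℤ_[p]) • ∑ i, a' i • j (e i) = 0 := by
          rw [Finset.smul_sum, ← ha]
          refine Finset.sum_congr rfl (fun i _ => ?_)
          rw [smul_smul, ← ha' i]
        exact (smul_eq_zero.mp h3).resolve_left hp0
      obtain ⟨d, hd⟩ := ih a' h2 i
      exact ⟨d, by rw [ha' i, hd]; ring⟩
  rw [Fintype.linearIndependent_iff]
  intro a ha i
  exact eq_zero_of_forall_pow_dvd p (a i) (fun n => key n a ha i)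


/-- `ℤ_p → K` is injective for every characteristic-zero field `K` -/
theorem algebraMap_injective (p : ℕ) [Fact p.Prime] (K : Type*) [Field K] [CharZero K]
    [Algebra ℤ_[p] K] : Function.Injective (algebraMap ℤ_[p] K) := by
  rw [injective_iff_map_eq_zero]
  intro a ha
  by_contra h0
  have hspec := PadicInt.unitCoeff_spec h0
  rw [hspec, map_mul, map_pow, map_natCast] at ha
  have hu : algebraMap ℤ_[p] K (PadicInt.unitCoeff h0 : ℤ_[p]) ≠ 0 :=
    ((PadicInt.unitCoeff h0).isUnit.map (algebraMap ℤ_[p] K)).ne_zero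
  have hp : (p : K) ≠ 0 := by exact_mod_cast (Fact.out : p.Prime).ne_zero
  exact (mul_ne_zero hu (pow_ne_zero _ hp)) ha

/-- the `K`-linear extension `K ⊗[ℤ] Λ → K ⊗[ℤ_p] M` of an additive map `Λ → M` -/
noncomputable def ext (p : ℕ) [Fact p.Prime] {Λ M : Type*} [AddCommGroup Λ] [AddCommGroup M]
    [Module ℤ_[p] M] (j : Λ →+ M) (K : Type*) [Field K] [Algebra ℤ_[p] K] :
    K ⊗[ℤ] Λ →ₗ[K] K ⊗[ℤ_[p]] M :=
  LinearMap.liftBaseChange K
    (((TensorProduct.mk ℤ_[p] K M 1).toAddMonoidHom.comp j).toIntLinearMap)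

theorem ext_tmul (p : ℕ) [Fact p.Prime] {Λ M : Type*} [AddCommGroup Λ] [AddCommGroup M]
    [Module ℤ_[p] M] (j : Λ →+ M) (K : Type*) [Field K] [Algebra ℤ_[p] K] (c : K) (v : Λ) :
    ext p j K (c ⊗ₜ[ℤ] v) = c ⊗ₜ[ℤ_[p]] j v := by
  simp [ext, TensorProduct.smul_tmul']

/-- base change of a saturated map of lattices is injective -/
theorem ext_injective (p : ℕ) [Fact p.Prime] {Λ M : Type*} [AddCommGroup Λ]
    [Module.Free ℤ Λ] [Module.Finite ℤ Λ] [AddCommGroup M] [Module ℤ_[p] M]
    [Module.IsTorsionFree ℤ_[p] M] (j : Λ →+ M)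
    (hsat : ∀ (v : Λ) (y : M), j v = (p : ℤ_[p]) • y → ∃ w : Λ, v = p • w)
    (K : Type*) [Field K] [CharZero K] [Algebra ℤ_[p] K] :
    Function.Injective (ext p j K) := by
  classical
  have : Module.IsTorsionFree ℤ_[p] K :=
    Module.isTorsionFree_iff_algebraMap_injective.mpr (algebraMap_injective p K)
  have : Module.Flat ℤ_[p] K := inferInstance
  let e : Module.Basis (Fin (Module.finrank ℤ Λ)) ℤ Λ := Module.finBasis ℤ Λ
  have hli := linearIndependent_of_saturated p e j hsat
  have hli' : LinearIndependent K (fun i => (1 : K) ⊗ₜ[ℤ_[p]] j (e i)) :=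
    Module.Flat.linearIndependent_one_tmul hli
  let eK : Module.Basis (Fin (Module.finrank ℤ Λ)) K (K ⊗[ℤ] Λ) := e.baseChange K
  rw [injective_iff_map_eq_zero]
  intro v hv
  rw [← eK.sum_repr v, map_sum] at hv
  have h1 : ∀ i, ext p j K (eK.repr v i • eK i) = eK.repr v i • ((1 : K) ⊗ₜ[ℤ_[p]] j (e i)) := by
    intro i
    rw [map_smul]
    congr 1
    rw [Module.Basis.baseChange_apply, ext_tmul]
  rw [Finset.sum_congr rfl (fun i _ => h1 i)] at hv
  have h2 := (Fintype.linearIndependent_iff.mp hli') _ hv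
  rw [← eK.sum_repr v]
  exact Finset.sum_eq_zero (fun i _ => by rw [h2 i, zero_smul])


section core

variable {p : ℕ} [Fact p.Prime] {N : ℕ} [NeZero N] {S : Finset ℕ}

omit [Fact p.Prime] in
/-- finitely many points of the Galois module are fixed by a common open subgroup -/
theorem exists_level (I : GeomInput p N S) (s : Finset I.X) :
    ∃ L : IntermediateField ℚ Qb, FiniteDimensional ℚ L ∧
      ∀ σ : GQ, (∀ y ∈ L, σ y = y) → ∀ x ∈ s, σ • x = x := by
  classical
  induction s using Finset.induction_on with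
  | empty => exact ⟨⊥, inferInstance, fun σ _ x hx => absurd hx (Finset.notMem_empty x)⟩
  | insert a s _ ih =>
    obtain ⟨L₁, hL₁, h₁⟩ := ih
    obtain ⟨L₂, hL₂, h₂⟩ := I.stab a
    refine ⟨L₁ ⊔ L₂, IntermediateField.finiteDimensional_sup L₁ L₂, fun σ hσ x hx => ?_⟩
    rcases Finset.mem_insert.mp hx with rfl | hx
    · exact h₂ σ (fun y hy => hσ y (le_sup_right (a := L₁) (b := L₂) hy))
    · exact h₁ σ (fun y hy => hσ y (le_sup_left (a := L₁) (b := L₂) hy)) x hx

/-- **The core.**  An abstract Tate module of `I.X` (in the shape of `TateMod.exists_tate`)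
together with eigenvectors on the lattice gives the `TateInput`. -/
theorem tateInput_of_module (I : GeomInput p N S) (hc : I.Compat)
    (hEig : ∀ (K : Type) [Field K] [CharZero K]
      (χ : CuspForm.heckeAlgebra N 2 (↑S : Set ℕ) →+* K),
      ∃ v : K ⊗[ℤ] I.Λ, v ≠ 0 ∧ ∀ a, (I.hecke a).baseChange K v = χ a • v)
    (M : Type) [AddCommGroup M] [Module ℤ_[p] M] [Module.Free ℤ_[p] M]
    [Module.Finite ℤ_[p] M] (proj : ℕ → M →+ I.X)
    (map : AddMonoid.End I.X →+* Module.End ℤ_[p] M)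
    (h_tors : ∀ (n : ℕ) (x : M), p ^ n • proj n x = 0)
    (h_sep : ∀ x : M, (∀ n, proj n x = 0) → x = 0)
    (h_ker : ∀ (n : ℕ) (x : M), proj n x = 0 → ∃ y : M, x = (p : ℤ_[p]) ^ n • y)
    (h_smul : ∀ (n : ℕ) (a : ℤ_[p]) (x : M), proj n (a • x) = a.appr n • proj n x)
    (h_map : ∀ (f : AddMonoid.End I.X) (n : ℕ) (x : M), proj n (map f x) = f (proj n x))
    (h_lift : ∀ y : ℕ → I.X, y 0 = 0 → (∀ n, p • y (n + 1) = y n) →
      ∃ x : M, ∀ n, proj n x = y n) :
    Nonempty (TateInput p N S) := by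
  classical
  -- the Galois action and the Hecke operators on `M`
  let gal : GQ →* AddMonoid.End I.X := DistribMulAction.toAddMonoidEnd GQ I.X
  let ρ : GQ →* Module.End ℤ_[p] M := (map : AddMonoid.End I.X →* Module.End ℤ_[p] M).comp gal
  let T : Nat.Primes → Module.End ℤ_[p] M := fun ℓ => map (I.T ℓ)
  have hρ : ∀ (σ : GQ) (n : ℕ) (x : M), proj n (ρ σ x) = σ • proj n x :=
    fun σ n x => h_map (gal σ) n x
  have hT : ∀ (ℓ : Nat.Primes) (n : ℕ) (x : M), proj n (T ℓ x) = I.T ℓ (proj n x) :=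
    fun ℓ n x => h_map (I.T ℓ) n x
  -- the lattice map
  have hθ0 : ∀ v : I.Λ, I.θ 0 v = 0 := fun v => by simpa using I.θ_tors 0 v
  have hj : ∀ v : I.Λ, ∃ x : M, ∀ n, proj n x = I.θ n v :=
    fun v => h_lift (fun n => I.θ n v) (hθ0 v) (fun n => hc n v)
  choose j0 hj0 using hj
  let j : I.Λ →+ M := AddMonoidHom.mk' j0 (fun a b => sub_eq_zero.mp (h_sep _ (fun n => by
    rw [map_sub, map_add, hj0, hj0, hj0, map_add, sub_self])))
  have hjp : ∀ (n : ℕ) (v : I.Λ), proj n (j v) = I.θ n v := fun n v => hj0 v n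
  have hsat : ∀ (v : I.Λ) (y : M), j v = (p : ℤ_[p]) • y → ∃ w : I.Λ, v = p • w := by
    intro v y hvy
    have h1 : I.θ 1 v = 0 := by
      rw [← hjp 1 v, hvy, Nat.cast_smul_eq_nsmul, map_nsmul]
      simpa using h_tors 1 y
    obtain ⟨w, hw⟩ := I.θ_ker 1 v h1
    exact ⟨w, by simpa using hw⟩
  have hjT : ∀ (ℓ : ℕ) (hℓ : ℓ.Prime) (hℓN : ¬ ℓ ∣ N) (hℓS : ℓ ∉ (↑S : Set ℕ)) (v : I.Λ),
      j (I.hecke (CuspForm.heckeAlgebra.T hℓ hℓN hℓS) v) = T ⟨ℓ, hℓ⟩ (j v) := by
    intro ℓ hℓ hℓN hℓS v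
    refine sub_eq_zero.mp (h_sep _ (fun n => ?_))
    have h1 := hT ⟨ℓ, hℓ⟩ n (j v)
    rw [map_sub, hjp, h1, hjp, I.θ_hecke, sub_self]
  refine ⟨{ M := M, ρ := ρ, T := T, commute := ?_, cont := ?_, frob := ?_, inertia := ?_,
            eigen := ?_ }⟩
  · -- commute
    intro ℓ σ
    have h1 : ∀ f : AddMonoid.End I.X, (∀ x, f x = I.T ℓ x) →
        map f * map (gal σ) = map (gal σ) * map f := by
      intro f hf
      rw [← map_mul, ← map_mul]
      congr 1
      ext x
      change f (σ • x) = σ • f x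
      rw [hf, hf, I.comm]
    exact h1 _ (fun _ => rfl)
  · -- continuity
    intro n
    obtain ⟨s, hs⟩ := (Module.Finite.fg_top : (⊤ : Submodule ℤ_[p] M).FG)
    obtain ⟨L, hL, hfix⟩ := exists_level I (s.image (proj n))
    refine ⟨L, hL, fun σ hσ v => ?_⟩
    refine h_ker n _ ?_
    let W : Submodule ℤ_[p] M :=
      { carrier := {v | proj n (ρ σ v - v) = 0}
        zero_mem' := by simp
        add_mem' := by
          intro a b ha hb
          simp only [Set.mem_ofPred_eq] at ha hb ⊢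
          rw [map_add, add_sub_add_comm, map_add, ha, hb, add_zero]
        smul_mem' := by
          intro c a ha
          simp only [Set.mem_ofPred_eq] at ha ⊢
          rw [map_smul, ← smul_sub, h_smul, ha, smul_zero] }
    have hsW : (s : Set M) ⊆ W := by
      intro m hm
      change proj n (ρ σ m - m) = 0
      rw [map_sub, hρ, hfix σ hσ _ (Finset.mem_image_of_mem _ hm), sub_self]
    have hW : W = ⊤ := top_le_iff.mp (hs ▸ Submodule.span_le.mpr hsW)
    have : v ∈ W := hW ▸ Submodule.mem_top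
    exact this
  · -- Eichler–Shimura
    intro ℓ hℓ hℓN hℓp A hA σ hσ
    refine LinearMap.ext (fun v => h_sep _ (fun n => ?_))
    have h1 := hT ⟨ℓ, hℓ⟩ n (ρ σ v)
    simp only [LinearMap.add_apply, LinearMap.sub_apply, Module.End.mul_apply, map_add, map_sub,
      Module.End.natCast_apply, map_nsmul, hρ, h1]
    exact I.frob ℓ hℓ hℓN hℓp A hA σ hσ n (proj n v) (h_tors n v)
  · -- inertia
    intro q hq hqN hqp A hA σ hσ
    refine LinearMap.ext (fun v => sub_eq_zero.mp (h_sep _ (fun n => ?_)))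
    rw [map_sub, hρ, Module.End.one_apply,
      I.inertia q hq hqN hqp A hA σ hσ n (proj n v) (h_tors n v), sub_self]
  · -- eigenvectors
    intro K _ _ _ χ
    obtain ⟨v₀, hv₀, hev⟩ := hEig K χ
    refine ⟨ext p j K v₀, fun h => hv₀ (ext_injective p j hsat K (h.trans (map_zero _).symm)),
      fun ℓ hℓ hℓN hℓS => ?_⟩
    have hcomm : ∀ v : K ⊗[ℤ] I.Λ, (T ⟨ℓ, hℓ⟩).baseChange K (ext p j K v) =
        ext p j K ((I.hecke (CuspForm.heckeAlgebra.T hℓ hℓN hℓS)).baseChange K v) := by
      intro v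
      induction v using TensorProduct.induction_on with
      | zero => simp
      | tmul c x =>
        rw [ext_tmul, LinearMap.baseChange_tmul, LinearMap.baseChange_tmul, ext_tmul, hjT]
      | add a b ha hb => rw [map_add, map_add, ha, hb, map_add, map_add]
    rw [hcomm, hev, map_smul]

/-- `Tate.exists_tateInput` with the two inputs (`TateMod.exists_tate` for `I.X` and
`Eigen.exists_eigenvector` for the lattice) as explicit hypotheses. -/
theorem exists_tateInput_of (I : GeomInput p N S) (hc : I.Compat)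
    (hTate : ∃ (M : Type) (_ : AddCommGroup M) (_ : Module ℤ_[p] M) (_ : Module.Free ℤ_[p] M)
      (_ : Module.Finite ℤ_[p] M) (proj : ℕ → M →+ I.X)
      (map : AddMonoid.End I.X →+* Module.End ℤ_[p] M),
      (∀ (n : ℕ) (x : M), p ^ n • proj n x = 0) ∧
      (∀ (n : ℕ) (x : M), p • proj (n + 1) x = proj n x) ∧
      (∀ x : M, (∀ n, proj n x = 0) → x = 0) ∧
      (∀ (n : ℕ) (x : M), proj n x = 0 → ∃ y : M, x = (p : ℤ_[p]) ^ n • y) ∧
      (∀ (n : ℕ) (a : ℤ_[p]) (x : M), proj n (a • x) = a.appr n • proj n x) ∧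
      (∀ (f : AddMonoid.End I.X) (n : ℕ) (x : M), proj n (map f x) = f (proj n x)) ∧
      (∀ y : ℕ → I.X, y 0 = 0 → (∀ n, p • y (n + 1) = y n) → ∃ x : M, ∀ n, proj n x = y n))
    (hEig : ∀ (K : Type) [Field K] [CharZero K]
      (χ : CuspForm.heckeAlgebra N 2 (↑S : Set ℕ) →+* K),
      ∃ v : K ⊗[ℤ] I.Λ, v ≠ 0 ∧ ∀ a, (I.hecke a).baseChange K v = χ a • v) :
    Nonempty (TateInput p N S) := by
  obtain ⟨M, _, _, _, _, proj, map, h_tors, -, h_sep, h_ker, h_smul, h_map, h_lift⟩ := hTate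
  exact tateInput_of_module I hc hEig M proj map h_tors h_sep h_ker h_smul h_map h_lift

end core

/-- **B14.**  The Tate module input from the geometric input. -/
theorem exists_tateInput (p : ℕ) [Fact p.Prime] (N : ℕ) [NeZero N] (S : Finset ℕ)
    (I : GeomInput p N S) (hc : I.Compat) (hf : I.FiniteTors) : Nonempty (TateInput p N S) :=
  exists_tateInput_of I hc (TateMod.exists_tate p I.X hf)
    (fun _ _ _ χ => Eigen.exists_eigenvector I.hecke I.hecke_injective χ)

end Fermat.Agent.S30.Tate
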