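import Mathlib
import Fermat.Agent.S30.Defs

/-!
# Phase B (S30): the Tate module input in coordinates

`TateMat.exists_matrix_data` : a `TateInput` (finite free `ℤ_p`-module with commuting Galois and
Hecke actions) read in a basis: a matrix representation `R : G_ℚ → M_r(ℤ_p)`, Hecke matrices
`Tm ℓ`, with the commutation, continuity, Eichler–Shimura and inertia properties in matrix form,
and an eigenvector in `K ^ r` for every character of the Hecke algebra with values in a field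
`K` of characteristic zero receiving `ℤ_p`.
-/

set_option autoImplicit false

open scoped TensorProduct

namespace Fermat.Agent.S30.TateMat

variable (p : ℕ) [Fact p.Prime] (N : ℕ) [NeZero N] (S : Finset ℕ)

/-- an endomorphism of a free module which is divisible by `a` on every vector is `a` times an
endomorphism -/
theorem exists_eq_smul_of_forall {R M : Type*} [CommRing R] [AddCommGroup M] [Module R M]
    {ι : Type*} (b : Module.Basis ι R M) (a : R) (f : Module.End R M)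
    (h : ∀ v : M, ∃ w : M, f v = a • w) : ∃ g : Module.End R M, f = a • g := by
  choose w hw using h
  refine ⟨b.constr R (fun k => w (b k)), b.ext fun k => ?_⟩
  rw [LinearMap.smul_apply, Module.Basis.constr_basis, hw]

/-- **The Tate module in coordinates.** -/
theorem exists_matrix_data (TI : TateInput p N S) :
    ∃ (r : ℕ) (R : GQ →* Matrix (Fin r) (Fin r) ℤ_[p])
      (Tm : Nat.Primes → Matrix (Fin r) (Fin r) ℤ_[p]),
      (∀ (ℓ : Nat.Primes) (σ : GQ), Tm ℓ * R σ = R σ * Tm ℓ) ∧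
      (∀ n : ℕ, ∃ L : IntermediateField ℚ Qb, FiniteDimensional ℚ L ∧
        ∀ σ : GQ, (∀ x ∈ L, σ x = x) →
          ∃ W : Matrix (Fin r) (Fin r) ℤ_[p], R σ = 1 + (p : ℤ_[p]) ^ n • W) ∧
      (∀ (ℓ : ℕ) (hℓ : ℓ.Prime), ¬ ℓ ∣ N → ℓ ≠ p → ∀ A : ValuationSubring Qb,
        A.LiesOverPrime ℓ → ∀ σ : GQ, A.IsFrobeniusAt σ ℓ →
          R σ * R σ - Tm ⟨ℓ, hℓ⟩ * R σ + (ℓ : Matrix (Fin r) (Fin r) ℤ_[p]) = 0) ∧
      (∀ q : ℕ, q.Prime → ¬ q ∣ N → q ≠ p → ∀ A : ValuationSubring Qb,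
        A.LiesOverPrime q → ∀ σ ∈ A.inertiaSubgroupIn ℚ, R σ = 1) ∧
      (∀ (K : Type) [Field K] [CharZero K] (f : ℤ_[p] →+* K)
        (χ : CuspForm.heckeAlgebra N 2 (↑S : Set ℕ) →+* K),
        ∃ v : Fin r → K, v ≠ 0 ∧ ∀ (ℓ : ℕ) (hℓ : ℓ.Prime) (hℓN : ¬ ℓ ∣ N)
          (hℓS : ℓ ∉ (↑S : Set ℕ)),
          ((Tm ⟨ℓ, hℓ⟩).map f).mulVec v = χ (CuspForm.heckeAlgebra.T hℓ hℓN hℓS) • v) := by
  classical
  let b := Module.finBasis ℤ_[p] TI.M
  let e : Module.End ℤ_[p] TI.M ≃ₐ[ℤ_[p]]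
      Matrix (Fin (Module.finrank ℤ_[p] TI.M)) (Fin (Module.finrank ℤ_[p] TI.M)) ℤ_[p] :=
    LinearMap.toMatrixAlgEquiv b
  refine ⟨Module.finrank ℤ_[p] TI.M, (e : Module.End ℤ_[p] TI.M →* _).comp TI.ρ,
    fun ℓ => e (TI.T ℓ), ?_, ?_, ?_, ?_, ?_⟩
  · -- commutation
    intro ℓ σ
    show e (TI.T ℓ) * e (TI.ρ σ) = e (TI.ρ σ) * e (TI.T ℓ)
    rw [← map_mul, ← map_mul, (TI.commute ℓ σ).eq]
  · -- continuity
    intro n
    obtain ⟨L, hL, h⟩ := TI.cont n
    refine ⟨L, hL, fun σ hσ => ?_⟩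
    obtain ⟨g, hg⟩ := exists_eq_smul_of_forall b ((p : ℤ_[p]) ^ n) (TI.ρ σ - 1)
      (fun v => by
        obtain ⟨w, hw⟩ := h σ hσ v
        exact ⟨w, by rw [LinearMap.sub_apply, Module.End.one_apply, hw]⟩)
    refine ⟨e g, ?_⟩
    show e (TI.ρ σ) = 1 + (p : ℤ_[p]) ^ n • e g
    rw [← map_smul, ← hg, map_sub, map_one]
    abel
  · -- Eichler–Shimura
    intro ℓ hℓ hℓN hℓp A hA σ hσ
    show e (TI.ρ σ) * e (TI.ρ σ) - e (TI.T ⟨ℓ, hℓ⟩) * e (TI.ρ σ) + (ℓ : Matrix _ _ ℤ_[p]) = 0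
    have h := congrArg e (TI.frob ℓ hℓ hℓN hℓp A hA σ hσ)
    rw [map_add, map_sub, map_mul, map_mul, map_natCast, map_zero] at h
    exact h
  · -- inertia
    intro q hq hqN hqp A hA σ hσ
    show e (TI.ρ σ) = 1
    rw [TI.inertia q hq hqN hqp A hA σ hσ, map_one]
  · -- eigenvectors
    intro K _ _ f χ
    let _ : Algebra ℤ_[p] K := f.toAlgebra
    obtain ⟨v, hv0, hv⟩ := TI.eigen K χ
    let bK := Algebra.TensorProduct.basis K b
    refine ⟨fun i => bK.repr v i, ?_, ?_⟩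
    · intro h0
      apply hv0
      apply bK.repr.injective
      rw [map_zero]
      exact Finsupp.ext fun i => congrFun h0 i
    · intro ℓ hℓ hℓN hℓS
      have h1 := LinearMap.toMatrix_mulVec_repr bK bK ((TI.T ⟨ℓ, hℓ⟩).baseChange K) v
      rw [LinearMap.toMatrix_baseChange, hv ℓ hℓ hℓN hℓS, map_smul] at h1
      funext i
      have h2 := congrFun h1 i
      rw [Finsupp.smul_apply] at h2
      rw [Pi.smul_apply, ← h2]
      rfl

end Fermat.Agent.S30.TateMat
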