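import Mathlib
import Fermat.Agent.S29.KummerTop

/-!
# Wave 5, phase B: the Kummer tower (level compatibility of the Kummer map)

The Kummer map `Θ_m : peHoms N (ℤ/m) →+ J₀(N)(ℚ̄)` of `Fermat.Agent.S29.Kummer.exists_theta_of`
is characterised by `Kummer.IsClass N m ι ψ (Θ_m ψ)`.  This file proves that the characterising
property is compatible with a change of level `d ∣ m`:

* `isKummerDatum_of_dvd` : a Kummer datum `(χ, u, f₀)` of exponent `d * k` gives the Kummer datum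
  `(χ ^ k, u ^ k, f₀)` of exponent `d`;
* `isRootClass_of_mul` : a root class of exponent `d * k` multiplied by `k` is a root class of
  exponent `d`;
* `isClass_of_dvd` : `IsClass N m ι ψ x → IsClass N d ι (ψ mod d) ((m / d) • x)`;
* `exists_theta_spec_of` : the Kummer map with its characterising property exported;
* `exists_theta_tower_of` : for a prime `p`, a compatible family of injective Hecke-equivariant
  maps `Θ n : peHoms N (ℤ/p^n) →+ J₀(N)(ℚ̄)` with `Θ n (ψ mod p^n) = p • Θ (n + 1) ψ`.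

The pieces of the Kummer package enter through the Prop-structure `KPieces N m ι`, whose fields
are the hypotheses of `Kummer.exists_theta_of` verbatim.
-/

set_option autoImplicit false

open scoped MatrixGroups Manifold
open UpperHalfPlane ModularCurve AlgebraicCurve

namespace Fermat.Agent.S30.KummerTower

open Fermat.Agent.S29

local notation "Qb" => AlgebraicClosure ℚ

/-! ### Reduction of characters -/

/-- reduction of an additive character mod `m` to a character mod `d`, for `d ∣ m` -/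
noncomputable def redHom {N d m : ℕ} (hdm : d ∣ m) (ψ : Additive (S22.Gam N) →+ ZMod m) :
    Additive (S22.Gam N) →+ ZMod d :=
  (ZMod.castHom hdm (ZMod d)).toAddMonoidHom.comp ψ

theorem redHom_apply {N d m : ℕ} (hdm : d ∣ m) (ψ : Additive (S22.Gam N) →+ ZMod m)
    (γ : Additive (S22.Gam N)) : redHom hdm ψ γ = ZMod.castHom hdm (ZMod d) (ψ γ) := rfl

theorem isPE_redHom {N d m : ℕ} (hdm : d ∣ m) {ψ : Additive (S22.Gam N) →+ ZMod m}
    (hψ : IsPE ψ) : IsPE (redHom hdm ψ) := by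
  intro γ hγ
  rw [redHom_apply, hψ γ hγ, map_zero]

/-- reduction of parabolic-elliptic characters mod `m` to characters mod `d`, for `d ∣ m` -/
noncomputable def redPE {N d m : ℕ} (hdm : d ∣ m) : peHoms N (ZMod m) →+ peHoms N (ZMod d) where
  toFun ψ := ⟨redHom hdm ψ.1, isPE_redHom hdm ψ.2⟩
  map_zero' := by
    apply Subtype.ext
    apply AddMonoidHom.ext
    intro γ
    show ZMod.castHom hdm (ZMod d) 0 = 0
    exact map_zero _
  map_add' ψ ψ' := by
    apply Subtype.ext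
    apply AddMonoidHom.ext
    intro γ
    show ZMod.castHom hdm (ZMod d) (ψ.1 γ + ψ'.1 γ)
      = ZMod.castHom hdm (ZMod d) (ψ.1 γ) + ZMod.castHom hdm (ZMod d) (ψ'.1 γ)
    exact map_add _ _ _

theorem coe_redPE {N d m : ℕ} (hdm : d ∣ m) (ψ : peHoms N (ZMod m)) :
    ((redPE hdm ψ : peHoms N (ZMod d)) : Additive (S22.Gam N) →+ ZMod d) = redHom hdm ψ.1 := rfl

/-! ### The exponential character under reduction -/

theorem toCircle_pow_eq {d k : ℕ} [NeZero d] [NeZero (d * k)] (a : ZMod (d * k)) :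
    ZMod.toCircle a ^ k = ZMod.toCircle (ZMod.castHom (dvd_mul_right d k) (ZMod d) a) := by
  obtain ⟨j, rfl⟩ := ZMod.intCast_surjective a
  rw [map_intCast (ZMod.castHom (dvd_mul_right d k) (ZMod d)) j]
  apply Circle.ext
  rw [Circle.coe_pow, ZMod.toCircle_intCast, ZMod.toCircle_intCast, ← Complex.exp_nat_mul]
  congr 1
  have hd : (d : ℂ) ≠ 0 := Nat.cast_ne_zero.mpr (NeZero.ne d)
  have hdk : (d * k : ℕ) ≠ 0 := NeZero.ne (d * k)
  have hk : (k : ℂ) ≠ 0 := by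
    intro h
    apply hdk
    have : k = 0 := by exact_mod_cast h
    rw [this, mul_zero]
  push_cast
  field_simp

theorem expChar_pow_eq {N d k : ℕ} [NeZero d] [NeZero (d * k)]
    (ψ : Additive (S22.Gam N) →+ ZMod (d * k)) :
    expChar N (d * k) ψ ^ k = expChar N d (redHom (dvd_mul_right d k) ψ) := by
  apply MonoidHom.ext
  intro γ
  rw [MonoidHom.pow_apply, expChar_apply, expChar_apply, ← map_pow, toCircle_pow_eq, redHom_apply]

/-! ### Kummer data and root classes under a change of exponent -/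

/-- A Kummer datum of exponent `d * k` gives a Kummer datum of exponent `d`. -/
theorem isKummerDatum_of_mul {N d k : ℕ} {ι : Qb →+* ℂ} {χ : S22.Gam N →* ℂˣ} {u : ℍ → ℂ}
    {f₀ : modularFunctionFieldBar N} (h : IsKummerDatum N (d * k) ι χ u f₀) :
    IsKummerDatum N d ι (χ ^ k) (fun z => u z ^ k) f₀ where
  mdiff := h.mdiff.pow k
  ne_zero := by
    intro h0
    apply h.ne_zero
    funext z
    have h1 : u z ^ k = 0 := congrFun h0 z
    exact eq_zero_of_pow_eq_zero h1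
  mult := by
    intro γ z
    show u ((γ : SL(2, ℤ)) • z) ^ k = ((χ ^ k) γ : ℂ) * u z ^ k
    rw [h.mult γ z, mul_pow, MonoidHom.pow_apply, Units.val_pow_eq_pow_val]
  isWH := by
    have h1 := h.isWH
    have e : (fun z : ℍ => (u z ^ k) ^ d) = (fun z : ℍ => u z ^ (d * k)) := by
      funext z
      rw [← pow_mul, mul_comm]
    rw [e]
    exact h1
  qexp := by
    have e : (fun z : ℍ => (u z ^ k) ^ d) = (fun z : ℍ => u z ^ (d * k)) := by
      funext z
      rw [← pow_mul, mul_comm]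
    rw [e]
    exact h.qexp

/-- A root class of exponent `d * k`, multiplied by `k`, is a root class of exponent `d`. -/
theorem isRootClass_of_mul {K F : Type*} [Field K] [Field F] [Algebra K F] {d k : ℕ} {f : F}
    {x : Pic0 K F} (h : IsRootClass (d * k) f x) : IsRootClass d f (k • x) := by
  obtain ⟨D, rfl, hD⟩ := h
  refine ⟨k • D, ?_, fun v => ?_⟩
  · exact map_nsmul (QuotientAddGroup.mk' _) k D
  · have h1 := hD v
    rw [← h1, AddSubgroup.coe_nsmul, Finsupp.smul_apply]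
    push_cast
    rw [nsmul_eq_mul]
    ring

/-- The Kummer class of a character mod `d * k`, multiplied by `k`, is the Kummer class of its
reduction mod `d`. -/
theorem isClass_of_mul {N d k : ℕ} [NeZero d] [NeZero (d * k)] (ι : Qb →+* ℂ)
    {ψ : Additive (S22.Gam N) →+ ZMod (d * k)} {x : JZero N}
    (h : Kummer.IsClass N (d * k) ι ψ x) :
    Kummer.IsClass N d ι (redHom (dvd_mul_right d k) ψ) (k • x) := by
  obtain ⟨u, f₀, hd, hx⟩ := h
  refine ⟨fun z => u z ^ k, f₀, ?_, isRootClass_of_mul hx⟩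
  rw [← expChar_pow_eq]
  exact isKummerDatum_of_mul hd

/-- Level compatibility of Kummer classes, for a general divisor `d ∣ m`. -/
theorem isClass_of_dvd {N d m : ℕ} [NeZero d] [NeZero m] (hdm : d ∣ m) (ι : Qb →+* ℂ)
    {ψ : Additive (S22.Gam N) →+ ZMod m} {x : JZero N} (h : Kummer.IsClass N m ι ψ x) :
    Kummer.IsClass N d ι (redHom hdm ψ) ((m / d) • x) := by
  obtain ⟨k, rfl⟩ := hdm
  rw [Nat.mul_div_cancel_left k (Nat.pos_of_ne_zero (NeZero.ne d))]
  exact isClass_of_mul ι h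

/-! ### The pieces of the Kummer package -/

/-- The pieces of the Kummer package at exponent `m` (the hypotheses of
`Kummer.exists_theta_of`, verbatim). -/
structure KPieces (N : ℕ) [NeZero N] (m : ℕ) [NeZero m] (ι : Qb →+* ℂ) : Prop where
  hKE : ∀ ψ : peHoms N (ZMod m), ∃ (u : ℍ → ℂ) (f₀ : modularFunctionFieldBar N),
      IsKummerDatum N m ι (expChar N m ψ) u f₀
  hKD : ∀ (ψ : peHoms N (ZMod m)) {u : ℍ → ℂ} {f₀ : modularFunctionFieldBar N},
      IsKummerDatum N m ι (expChar N m ψ) u f₀ →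
        f₀ ≠ 0 ∧ ∀ v : Place Qb (modularFunctionFieldBar N), (m : ℤ) ∣ v.ord f₀
  hKR1 : ∀ {f₀ : modularFunctionFieldBar N}, f₀ ≠ 0 →
      (∀ v : Place Qb (modularFunctionFieldBar N), (m : ℤ) ∣ v.ord f₀) →
        ∃ x : JZero N, IsRootClass m f₀ x
  hKR2 : ∀ {f₀ : modularFunctionFieldBar N} {x y : JZero N},
      IsRootClass m f₀ x → IsRootClass m f₀ y → x = y
  hKR3 : ∀ {f₀ g₀ : modularFunctionFieldBar N}, f₀ ≠ 0 → g₀ ≠ 0 → ∀ {x y : JZero N},
      IsRootClass m f₀ x → IsRootClass m g₀ y → IsRootClass m (f₀ * g₀) (x + y)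
  hKR4 : ∀ {h₀ : modularFunctionFieldBar N}, h₀ ≠ 0 → IsRootClass m (h₀ ^ m) (0 : JZero N)
  hKR5 : ∀ {f₀ : modularFunctionFieldBar N}, f₀ ≠ 0 → IsRootClass m f₀ (0 : JZero N) →
      ∃ h₀ : modularFunctionFieldBar N, f₀ = h₀ ^ m
  hKM : ∀ {χ χ' : S22.Gam N →* ℂˣ} {u u' : ℍ → ℂ} {f₀ f₀' : modularFunctionFieldBar N},
      IsKummerDatum N m ι χ u f₀ → IsKummerDatum N m ι χ' u' f₀' →
        IsKummerDatum N m ι (χ * χ') (fun z => u z * u' z) (f₀ * f₀')
  hKU : ∀ {χ : S22.Gam N →* ℂˣ} {u u' : ℍ → ℂ} {f₀ f₀' : modularFunctionFieldBar N},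
      IsKummerDatum N m ι χ u f₀ → IsKummerDatum N m ι χ u' f₀' →
        ∃ h₀ : modularFunctionFieldBar N, h₀ ≠ 0 ∧ f₀ = f₀' * h₀ ^ m
  hKI : ∀ {χ : S22.Gam N →* ℂˣ} {u : ℍ → ℂ} {f₀ : modularFunctionFieldBar N},
      IsKummerDatum N m ι χ u f₀ → ∀ h₀ : modularFunctionFieldBar N, f₀ = h₀ ^ m → χ = 1
  hKH : ∀ (ℓ : ℕ) [Fact ℓ.Prime] (hℓN : ¬ ℓ ∣ N) {χ : S22.Gam N →* ℂˣ} {u : ℍ → ℂ}
      {f₀ : modularFunctionFieldBar N}, IsKummerDatum N m ι χ u f₀ →
        ∃ (U : ℍ → ℂ) (h₀ : modularFunctionFieldBar N),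
          IsKummerDatum N m ι (Betti.heckeChar hℓN χ) U h₀ ∧
          ∀ x : JZero N, IsRootClass m f₀ x →
            IsRootClass m h₀ (heckeOperatorBar N ⟨ℓ, Fact.out⟩ x)

section Pieces

variable {N : ℕ} [NeZero N] {m : ℕ} [NeZero m] {ι : Qb →+* ℂ}

/-- Existence of the Kummer class of a parabolic-elliptic character. -/
theorem KPieces.exists_isClass (h : KPieces N m ι) (ψ : peHoms N (ZMod m)) :
    ∃ x : JZero N, Kummer.IsClass N m ι ψ x := by
  obtain ⟨u, f₀, hd⟩ := h.hKE ψ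
  obtain ⟨hf, hdiv⟩ := h.hKD ψ hd
  obtain ⟨x, hx⟩ := h.hKR1 hf hdiv
  exact ⟨x, u, f₀, hd, hx⟩

/-- Uniqueness of the Kummer class of a parabolic-elliptic character. -/
theorem KPieces.isClass_unique (h : KPieces N m ι) (ψ : peHoms N (ZMod m)) {x y : JZero N}
    (hx : Kummer.IsClass N m ι ψ x) (hy : Kummer.IsClass N m ι ψ y) : x = y := by
  obtain ⟨u, f₀, hd, hx⟩ := hx
  obtain ⟨u', f₀', hd', hy⟩ := hy
  obtain ⟨h₀, hh₀, hf⟩ := h.hKU hd hd'
  have hf' : f₀' ≠ 0 := (h.hKD ψ hd').1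
  have h1 : IsRootClass m (f₀' * h₀ ^ m) (y + 0) :=
    h.hKR3 hf' (pow_ne_zero m hh₀) hy (h.hKR4 hh₀)
  rw [← hf, add_zero] at h1
  exact h.hKR2 hx h1

/-- The Kummer map from its pieces, with its characterising property. -/
theorem exists_theta_spec_of (h : KPieces N m ι) :
    ∃ Θ : peHoms N (ZMod m) →+ JZero N, Function.Injective Θ ∧
      (∀ (ℓ : ℕ) [Fact ℓ.Prime] (hℓN : ¬ ℓ ∣ N) (χ χ' : peHoms N (ZMod m)),
        (∀ γ : S22.Gam N, (χ' : Additive (S22.Gam N) →+ ZMod m) (Additive.ofMul γ) =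
          ∑ x : OnePoint (ZMod ℓ),
            (χ : Additive (S22.Gam N) →+ ZMod m) (Additive.ofMul (S22.gamT hℓN γ x))) →
        Θ χ' = heckeOperatorBar N ⟨ℓ, Fact.out⟩ (Θ χ)) ∧
      ∀ ψ : peHoms N (ZMod m), Kummer.IsClass N m ι ψ (Θ ψ) := by
  classical
  choose θ hθ using h.exists_isClass
  have hadd : ∀ ψ ψ' : peHoms N (ZMod m), θ (ψ + ψ') = θ ψ + θ ψ' := by
    intro ψ ψ'
    obtain ⟨u, f₀, hd, hx⟩ := hθ ψ
    obtain ⟨u', f₀', hd', hx'⟩ := hθ ψ'
    refine h.isClass_unique (ψ + ψ') (hθ (ψ + ψ')) ⟨fun z => u z * u' z, f₀ * f₀', ?_, ?_⟩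
    · have h2 := h.hKM hd hd'
      rw [← expChar_add] at h2
      exact h2
    · exact h.hKR3 (h.hKD ψ hd).1 (h.hKD ψ' hd').1 hx hx'
  refine ⟨AddMonoidHom.mk' θ hadd, ?_, ?_, ?_⟩
  · rw [injective_iff_map_eq_zero]
    intro ψ hψ
    rw [AddMonoidHom.mk'_apply] at hψ
    obtain ⟨u, f₀, hd, hx⟩ := hθ ψ
    rw [hψ] at hx
    obtain ⟨h₀, hh₀⟩ := h.hKR5 (h.hKD ψ hd).1 hx
    have h1 : expChar N m (ψ : Additive (S22.Gam N) →+ ZMod m) = 1 := h.hKI hd h₀ hh₀
    apply Subtype.ext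
    apply AddMonoidHom.ext
    intro γ
    have h2 : expChar N m (ψ : Additive (S22.Gam N) →+ ZMod m) (Additive.toMul γ) = 1 := by
      rw [h1, MonoidHom.one_apply]
    exact (expChar_eq_one_iff N m _ _).mp h2
  · intro ℓ _ hℓN χ χ' hχ
    show θ χ' = heckeOperatorBar N ⟨ℓ, Fact.out⟩ (θ χ)
    obtain ⟨u, f₀, hd, hx⟩ := hθ χ
    obtain ⟨U, h₀, hd₀, hx₀⟩ := h.hKH ℓ hℓN hd
    rw [Kummer.heckeChar_expChar hℓN _ _ hχ] at hd₀
    exact h.isClass_unique χ' (hθ χ') ⟨U, h₀, hd₀, hx₀ _ hx⟩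
  · intro ψ
    exact hθ ψ

end Pieces

/-! ### Two levels -/

/-- Level compatibility of any two maps with the characterising property: for `d ∣ m`,
`Θ_d (ψ mod d) = (m / d) • Θ_m ψ`. -/
theorem theta_redPE {N : ℕ} [NeZero N] {d m : ℕ} [NeZero d] [NeZero m] (hdm : d ∣ m)
    {ι : Qb →+* ℂ} (hd : KPieces N d ι)
    (Θd : peHoms N (ZMod d) → JZero N) (Θm : peHoms N (ZMod m) → JZero N)
    (hΘd : ∀ ψ : peHoms N (ZMod d), Kummer.IsClass N d ι ψ (Θd ψ))
    (hΘm : ∀ ψ : peHoms N (ZMod m), Kummer.IsClass N m ι ψ (Θm ψ))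
    (ψ : peHoms N (ZMod m)) : Θd (redPE hdm ψ) = (m / d) • Θm ψ :=
  hd.isClass_unique (redPE hdm ψ) (hΘd _) (isClass_of_dvd hdm ι (hΘm ψ))

/-- The Kummer map takes values in the `m`-torsion. -/
theorem nsmul_theta_eq_zero {N m : ℕ} [NeZero m] (Θ : peHoms N (ZMod m) →+ JZero N)
    (ψ : peHoms N (ZMod m)) : m • Θ ψ = 0 := by
  rw [← map_nsmul]
  have h : m • ψ = 0 := by
    apply Subtype.ext
    apply AddMonoidHom.ext
    intro γ
    show (m • (ψ : Additive (S22.Gam N) →+ ZMod m)) γ = 0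
    rw [AddMonoidHom.nsmul_apply, nsmul_eq_mul, ZMod.natCast_self, zero_mul]
  rw [h, map_zero]

/-! ### The tower at a prime -/

/-- **The Kummer tower.**  For a prime `p`, the Kummer maps at the levels `p ^ n` form an
injective, Hecke-equivariant morphism of inverse systems
`(peHoms N (ℤ/p^n), reduction) → (J₀(N)[p^n], multiplication by p)`. -/
theorem exists_theta_tower_of (N : ℕ) [NeZero N] (p : ℕ) [Fact p.Prime] (ι : Qb →+* ℂ)
    (h : ∀ n : ℕ, KPieces N (p ^ n) ι) :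
    ∃ Θ : ∀ n : ℕ, peHoms N (ZMod (p ^ n)) →+ JZero N,
      (∀ n, Function.Injective (Θ n)) ∧
      (∀ (n : ℕ) (ℓ : ℕ) [Fact ℓ.Prime] (hℓN : ¬ ℓ ∣ N) (χ χ' : peHoms N (ZMod (p ^ n))),
        (∀ γ : S22.Gam N, (χ' : Additive (S22.Gam N) →+ ZMod (p ^ n)) (Additive.ofMul γ) =
          ∑ x : OnePoint (ZMod ℓ),
            (χ : Additive (S22.Gam N) →+ ZMod (p ^ n)) (Additive.ofMul (S22.gamT hℓN γ x))) →
        Θ n χ' = heckeOperatorBar N ⟨ℓ, Fact.out⟩ (Θ n χ)) ∧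
      (∀ (n : ℕ) (ψ : peHoms N (ZMod (p ^ n))), Kummer.IsClass N (p ^ n) ι ψ (Θ n ψ)) ∧
      (∀ (n : ℕ) (ψ : peHoms N (ZMod (p ^ n))), (p ^ n) • Θ n ψ = 0) ∧
      ∀ (n : ℕ) (ψ : peHoms N (ZMod (p ^ (n + 1)))),
        Θ n (redPE (pow_dvd_pow p (Nat.le_succ n)) ψ) = p • Θ (n + 1) ψ := by
  choose Θ hinj hhecke hspec using fun n => exists_theta_spec_of (h n)
  refine ⟨Θ, hinj, ?_, hspec, fun n ψ => nsmul_theta_eq_zero (Θ n) ψ, ?_⟩
  · intro n ℓ _ hℓN χ χ' hχ
    exact hhecke n ℓ hℓN χ χ' hχ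
  · intro n ψ
    have h1 := theta_redPE (pow_dvd_pow p (Nat.le_succ n)) (h n) (Θ n) (Θ (n + 1))
      (hspec n) (hspec (n + 1)) ψ
    have hp : 0 < p := (Fact.out : p.Prime).pos
    have h2 : p ^ (n + 1) / p ^ n = p := by
      rw [pow_succ, Nat.mul_div_cancel_left p (pow_pos hp n)]
    rw [h2] at h1
    exact h1

end Fermat.Agent.S30.KummerTower
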