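import Mathlib
import Fermat.Agent.S30.KummerTower
import Fermat.Agent.S30.RedPE
import Fermat.Agent.S29.KummerExist
import Fermat.Agent.S29.KummerDivTop
import Fermat.Agent.S29.KummerRoot
import Fermat.Agent.S29.KummerCore
import Fermat.Agent.S29.KummerHecke

/-!
# Wave 5, phase B: the Kummer maps as a compatible family (K-top, family form)

* `KummerTower.kPieces N m ι : KPieces N m ι` : the eleven pieces of the Kummer package, from
  the landed theorems `Fermat.Agent.S29.Kummer.*`;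
* `ThetaFam.exists_family` : the Kummer maps `Θ m : peHoms N (ℤ/m) →+ J₀(N)(ℚ̄)` for all `m`,
  injective and Hecke-equivariant for `m > 0`, with `Θ m (ψ mod m) = d • Θ (m * d) ψ`;
* `ThetaFam.exists_tower` : the tower at a prime `p`.
-/

set_option autoImplicit false

open scoped MatrixGroups Manifold
open UpperHalfPlane ModularCurve AlgebraicCurve

namespace Fermat.Agent.S30

open Fermat.Agent.S29

local notation "Qb" => AlgebraicClosure ℚ

/-- The eleven pieces of the Kummer package at exponent `m`. -/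
theorem KummerTower.kPieces (N : ℕ) [NeZero N] (m : ℕ) [NeZero m] (ι : Qb →+* ℂ) :
    KummerTower.KPieces N m ι where
  hKE := Kummer.exists_datum N m ι
  hKD := fun ψ {_ _} h => Kummer.dvd_ord N m ι ψ h
  hKR1 := fun hf hdiv => Kummer.exists_isRootClass N m hf hdiv
  hKR2 := fun hx hy => Kummer.isRootClass_unique N m hx hy
  hKR3 := fun {_ _} hf hg {_ _} hx hy => Kummer.isRootClass_mul N m hf hg hx hy
  hKR4 := fun hh => Kummer.isRootClass_pow N m hh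
  hKR5 := fun hf h => Kummer.exists_pow_of_isRootClass_zero N m hf h
  hKM := fun h h' => Kummer.isKummerDatum_mul N m ι h h'
  hKU := fun h h' => Kummer.exists_eq_mul_pow N m ι h h'
  hKI := fun h h₀ hh => Kummer.eq_one_of_pow N m ι h h₀ hh
  hKH := fun ℓ _ hℓN {_ _ _} h => Kummer.hecke N m ι ℓ hℓN h

namespace ThetaFam

/-- an embedding of `ℚ̄` into `ℂ` -/
theorem nonempty_ringHom : Nonempty (Qb →+* ℂ) := by
  haveI : Algebra.IsAlgebraic ℚ (AlgebraicClosure ℚ) := AlgebraicClosure.isAlgebraic ℚ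
  exact ⟨(IsAlgClosed.lift : AlgebraicClosure ℚ →ₐ[ℚ] ℂ).toRingHom⟩

/-- The Kummer map at one level (junk at level `0`), with its characterising property. -/
theorem exists_theta_spec (N : ℕ) [NeZero N] (ι : Qb →+* ℂ) (m : ℕ) :
    ∃ Θ : peHoms N (ZMod m) →+ JZero N, ∀ hm : 0 < m,
      Function.Injective Θ ∧
      (∀ (ℓ : ℕ) [Fact ℓ.Prime] (hℓN : ¬ ℓ ∣ N) (χ χ' : peHoms N (ZMod m)),
        (∀ γ : S22.Gam N, (χ' : Additive (S22.Gam N) →+ ZMod m) (Additive.ofMul γ) =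
          ∑ x : OnePoint (ZMod ℓ),
            (χ : Additive (S22.Gam N) →+ ZMod m) (Additive.ofMul (S22.gamT hℓN γ x))) →
        Θ χ' = heckeOperatorBar N ⟨ℓ, Fact.out⟩ (Θ χ)) ∧
      ∀ ψ : peHoms N (ZMod m), @Kummer.IsClass N m ⟨hm.ne'⟩ ι ψ (Θ ψ) := by
  rcases Nat.eq_zero_or_pos m with hm | hm
  · exact ⟨0, fun h => absurd h (by rw [hm]; exact lt_irrefl 0)⟩
  · haveI : NeZero m := ⟨hm.ne'⟩
    obtain ⟨Θ, h1, h2, h3⟩ := KummerTower.exists_theta_spec_of (KummerTower.kPieces N m ι)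
    exact ⟨Θ, fun _ => ⟨h1, h2, h3⟩⟩

/-- **(K-top, family form)** The Kummer maps as a compatible family. -/
theorem exists_family (N : ℕ) [NeZero N] :
    ∃ Θ : ∀ m : ℕ, S29.peHoms N (ZMod m) →+ ModularCurve.JZero N,
      (∀ m : ℕ, 0 < m → Function.Injective (Θ m)) ∧
      (∀ (m : ℕ), 0 < m → ∀ (ℓ : ℕ) [Fact ℓ.Prime] (hℓN : ¬ ℓ ∣ N)
        (χ χ' : S29.peHoms N (ZMod m)),
        (∀ γ : S22.Gam N, (χ' : Additive (S22.Gam N) →+ ZMod m) (Additive.ofMul γ) =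
          ∑ x : OnePoint (ZMod ℓ),
            (χ : Additive (S22.Gam N) →+ ZMod m) (Additive.ofMul (S22.gamT hℓN γ x))) →
        Θ m χ' = ModularCurve.heckeOperatorBar N ⟨ℓ, Fact.out⟩ (Θ m χ)) ∧
      ∀ (m d : ℕ), 0 < m → 0 < d → ∀ ψ : S29.peHoms N (ZMod (m * d)),
        Θ m (redPE N (Dvd.intro d rfl) ψ) = d • Θ (m * d) ψ := by
  obtain ⟨ι⟩ := nonempty_ringHom
  choose Θ hΘ using exists_theta_spec N ι
  refine ⟨Θ, fun m hm => (hΘ m hm).1, ?_, ?_⟩
  · intro m hm ℓ _ hℓN χ χ' hχ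
    exact (hΘ m hm).2.1 ℓ hℓN χ χ' hχ
  · intro m d hm hd ψ
    have hmd : 0 < m * d := Nat.mul_pos hm hd
    haveI : NeZero m := ⟨hm.ne'⟩
    haveI : NeZero (m * d) := ⟨hmd.ne'⟩
    have h1 := KummerTower.theta_redPE (Dvd.intro d rfl : m ∣ m * d)
      (KummerTower.kPieces N m ι) (Θ m) (Θ (m * d)) (hΘ m hm).2.2 (hΘ (m * d) hmd).2.2 ψ
    rw [Nat.mul_div_cancel_left d hm] at h1
    exact h1

/-- **The Kummer tower at a prime.** -/
theorem exists_tower (N : ℕ) [NeZero N] (p : ℕ) [Fact p.Prime] :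
    ∃ Θ : ∀ n : ℕ, peHoms N (ZMod (p ^ n)) →+ JZero N,
      (∀ n, Function.Injective (Θ n)) ∧
      (∀ (n : ℕ) (ℓ : ℕ) [Fact ℓ.Prime] (hℓN : ¬ ℓ ∣ N) (χ χ' : peHoms N (ZMod (p ^ n))),
        (∀ γ : S22.Gam N, (χ' : Additive (S22.Gam N) →+ ZMod (p ^ n)) (Additive.ofMul γ) =
          ∑ x : OnePoint (ZMod ℓ),
            (χ : Additive (S22.Gam N) →+ ZMod (p ^ n)) (Additive.ofMul (S22.gamT hℓN γ x))) →
        Θ n χ' = heckeOperatorBar N ⟨ℓ, Fact.out⟩ (Θ n χ)) ∧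
      (∀ (n : ℕ) (ψ : peHoms N (ZMod (p ^ n))), (p ^ n) • Θ n ψ = 0) ∧
      ∀ (n : ℕ) (ψ : peHoms N (ZMod (p ^ (n + 1)))),
        Θ n (redPE N (pow_dvd_pow p (Nat.le_succ n)) ψ) = p • Θ (n + 1) ψ := by
  obtain ⟨ι⟩ := nonempty_ringHom
  obtain ⟨Θ, h1, h2, -, h4, h5⟩ := KummerTower.exists_theta_tower_of N p ι
    (fun n => KummerTower.kPieces N (p ^ n) ι)
  exact ⟨Θ, h1, h2, h4, h5⟩

end ThetaFam

end Fermat.Agent.S30
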