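import Mathlib
import Fermat.Prelude.Def_GaloisRep_Adic
import Fermat.Agent.S30.PowerSum

/-!
# Reduction of an adic Galois representation modulo a power of the maximal ideal

* `redHom ρ n`: the action of `G_ℚ` on `V ⧸ 𝔪 ^ n • V`, a monoid homomorphism that factors
  through a finite level (`redHom_factors`);
* `trace_sub_mem_of_redHom_eq`: two elements with the same image under `redHom ρ n` have traces
  congruent modulo `𝔪 ^ n`;
* `trace_sub_psum_mem`: if `g` acts on `V ⧸ 𝔪 ^ n • V` like the `i`-th power of an element `s`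
  with characteristic polynomial `X² - a X + d`, then `tr ρ(g) ≡ psum a d i` modulo `𝔪 ^ n`;
* `factors_prod`: products of homomorphisms factoring through finite levels do so.
-/

set_option autoImplicit false

open Polynomial

namespace Fermat.Agent.S30.AdicRed

open Fermat.Agent.S30.PowerSum

/-! ### traces of endomorphisms with small image -/

section Generic

variable {R M : Type*} [CommRing R] [AddCommGroup M] [Module R M]

theorem repr_mem_of_mem_smul_top {ι : Type*} (b : Module.Basis ι R M) (J : Ideal R) {x : M}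
    (hx : x ∈ J • (⊤ : Submodule R M)) (i : ι) : b.repr x i ∈ J := by
  refine Submodule.smul_induction_on (p := fun x => b.repr x i ∈ J) hx ?_ ?_
  · intro r hr m _
    rw [map_smul, Finsupp.smul_apply, smul_eq_mul]
    exact J.mul_mem_right _ hr
  · intro x y hx hy
    rw [map_add, Finsupp.add_apply]
    exact J.add_mem hx hy

variable [Module.Free R M] [Module.Finite R M]

/-- An endomorphism of a finite free module with image in `J • M` has trace in `J`. -/
theorem trace_mem_of_forall_mem (J : Ideal R) (f : Module.End R M)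
    (h : ∀ v, f v ∈ J • (⊤ : Submodule R M)) : LinearMap.trace R M f ∈ J := by
  classical
  let b := Module.Free.chooseBasis R M
  rw [LinearMap.trace_eq_matrix_trace R b, Matrix.trace]
  refine J.sum_mem fun i _ => ?_
  rw [Matrix.diag_apply, LinearMap.toMatrix_apply]
  exact repr_mem_of_mem_smul_top b J (h _) i

end Generic

/-! ### products of homomorphisms factoring through finite levels -/

theorem factors_prod {M₁ M₂ : Type} [Monoid M₁] [Monoid M₂]
    (ρ₁ : (AlgebraicClosure ℚ ≃ₐ[ℚ] AlgebraicClosure ℚ) →* M₁)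
    (ρ₂ : (AlgebraicClosure ℚ ≃ₐ[ℚ] AlgebraicClosure ℚ) →* M₂)
    (h₁ : GaloisFactorsThroughFiniteLevel ρ₁) (h₂ : GaloisFactorsThroughFiniteLevel ρ₂) :
    GaloisFactorsThroughFiniteLevel (ρ₁.prod ρ₂) := by
  obtain ⟨L₁, hL₁, hρ₁⟩ := h₁
  obtain ⟨L₂, hL₂, hρ₂⟩ := h₂
  refine ⟨L₁ ⊔ L₂, IntermediateField.finiteDimensional_sup L₁ L₂, fun σ hσ => ?_⟩
  rw [MonoidHom.prod_apply, hρ₁ σ fun x hx => hσ x ((le_sup_left : L₁ ≤ L₁ ⊔ L₂) hx),
    hρ₂ σ fun x hx => hσ x ((le_sup_right : L₂ ≤ L₁ ⊔ L₂) hx)]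
  rfl

/-- A homomorphism that factors through a finite level still does so after composition. -/
theorem factors_comp {M₁ M₂ : Type} [Monoid M₁] [Monoid M₂]
    (ρ₁ : (AlgebraicClosure ℚ ≃ₐ[ℚ] AlgebraicClosure ℚ) →* M₁) (f : M₁ →* M₂)
    (h₁ : GaloisFactorsThroughFiniteLevel ρ₁) :
    GaloisFactorsThroughFiniteLevel (f.comp ρ₁) := by
  obtain ⟨L₁, hL₁, hρ₁⟩ := h₁
  exact ⟨L₁, hL₁, fun σ hσ => by rw [MonoidHom.comp_apply, hρ₁ σ hσ, map_one]⟩

/-! ### the reduction of an adic representation -/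

section Adic

variable {T : Type} [CommRing T] [IsLocalRing T]

/-- The submodule `𝔪 ^ n • V`. -/
def redSub (ρ : GaloisRepAdic T) (n : ℕ) : Submodule T ρ.V :=
  (IsLocalRing.maximalIdeal T ^ n) • (⊤ : Submodule T ρ.V)

theorem redSub_le_comap (ρ : GaloisRepAdic T) (n : ℕ) (f : Module.End T ρ.V) :
    redSub ρ n ≤ (redSub ρ n).comap f := by
  intro x hx
  rw [Submodule.mem_comap]
  refine Submodule.smul_induction_on (p := fun x => f x ∈ redSub ρ n) hx ?_ ?_
  · intro r hr m _
    rw [map_smul]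
    exact Submodule.smul_mem_smul hr Submodule.mem_top
  · intro x y hx hy
    rw [map_add]
    exact Submodule.add_mem _ hx hy

/-- (AR1) The action of `G_ℚ` on `V ⧸ 𝔪 ^ n • V`. -/
noncomputable def redHom (ρ : GaloisRepAdic T) (n : ℕ) :
    (AlgebraicClosure ℚ ≃ₐ[ℚ] AlgebraicClosure ℚ) →* Module.End T (ρ.V ⧸ redSub ρ n) where
  toFun σ := (redSub ρ n).mapQ (redSub ρ n) (ρ.ρ σ) (redSub_le_comap ρ n _)
  map_one' := by
    refine Submodule.linearMap_qext _ (LinearMap.ext fun x => ?_)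
    simp
  map_mul' σ τ := by
    refine Submodule.linearMap_qext _ (LinearMap.ext fun x => ?_)
    simp

theorem redHom_mk (ρ : GaloisRepAdic T) (n : ℕ)
    (σ : AlgebraicClosure ℚ ≃ₐ[ℚ] AlgebraicClosure ℚ) (v : ρ.V) :
    redHom ρ n σ (Submodule.Quotient.mk v) = Submodule.Quotient.mk (ρ.ρ σ v) := rfl

/-- (AR1) `redHom ρ n` factors through a finite level. -/
theorem redHom_factors (ρ : GaloisRepAdic T) (n : ℕ) :
    GaloisFactorsThroughFiniteLevel (redHom ρ n) := by
  obtain ⟨L, hL, h⟩ := ρ.isAdicContinuous n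
  refine ⟨L, hL, fun σ hσ => ?_⟩
  refine Submodule.linearMap_qext _ (LinearMap.ext fun v => ?_)
  show redHom ρ n σ (Submodule.Quotient.mk v) = Submodule.Quotient.mk v
  rw [redHom_mk, Submodule.Quotient.eq]
  exact h σ hσ v

theorem redHom_eq_iff (ρ : GaloisRepAdic T) (n : ℕ)
    (g g' : AlgebraicClosure ℚ ≃ₐ[ℚ] AlgebraicClosure ℚ) :
    redHom ρ n g = redHom ρ n g' ↔ ∀ v : ρ.V, ρ.ρ g v - ρ.ρ g' v ∈ redSub ρ n := by
  constructor
  · intro h v
    have := congrArg (fun f => f (Submodule.Quotient.mk v)) h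
    simp only [redHom_mk] at this
    exact (Submodule.Quotient.eq _).mp this
  · intro h
    refine Submodule.linearMap_qext _ (LinearMap.ext fun v => ?_)
    show redHom ρ n g (Submodule.Quotient.mk v) = redHom ρ n g' (Submodule.Quotient.mk v)
    rw [redHom_mk, redHom_mk, Submodule.Quotient.eq]
    exact h v

/-- (AR2) Elements with the same reduction have congruent traces. -/
theorem trace_sub_mem_of_redHom_eq (ρ : GaloisRepAdic T) (n : ℕ)
    {g g' : AlgebraicClosure ℚ ≃ₐ[ℚ] AlgebraicClosure ℚ} (h : redHom ρ n g = redHom ρ n g') :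
    LinearMap.trace T ρ.V (ρ.ρ g) - LinearMap.trace T ρ.V (ρ.ρ g') ∈
      IsLocalRing.maximalIdeal T ^ n := by
  rw [← map_sub]
  exact trace_mem_of_forall_mem _ _ fun v => (redHom_eq_iff ρ n g g').mp h v

/-- (AR2') If `g` acts on `V ⧸ 𝔪 ^ n • V` like the `i`-th power of an element `s` whose
characteristic polynomial is `X² - a X + d`, then `tr ρ(g) ≡ psum a d i` modulo `𝔪 ^ n`. -/
theorem trace_sub_psum_mem (ρ : GaloisRepAdic T) (n : ℕ)
    {g s : AlgebraicClosure ℚ ≃ₐ[ℚ] AlgebraicClosure ℚ} {i : ℕ} {a d : T}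
    (hs : LinearMap.charpoly (ρ.ρ s) = X ^ 2 - C a * X + C d)
    (h : redHom ρ n g = redHom ρ n s ^ i) :
    LinearMap.trace T ρ.V (ρ.ρ g) - psum a d i ∈ IsLocalRing.maximalIdeal T ^ n := by
  rw [← map_pow] at h
  have h1 := trace_sub_mem_of_redHom_eq ρ n h
  rw [map_pow, trace_pow_eq_psum ρ.finrank_eq (ρ.ρ s) a d hs i] at h1
  exact h1

end Adic

end Fermat.Agent.S30.AdicRed
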