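import Mathlib
import Fermat.Agent.S29.QuadCharpoly

/-!
# A simple constituent of a representation with the quadratic relation

Let `K` be algebraically closed, `ρ : G →* End_K V` a nonzero finite-dimensional representation
such that `ρ g + δ g • ρ g⁻¹` is the scalar `t g` for every `g` (`δ` a character).

* `exists_constituent` : there is an invariant subspace `U` which is either of dimension `2`
  with `charpoly (ρ g |_U) = X² - t g X + δ g` for all `g`, or of dimension `1` on which `G`
  acts through a character `ψ` with `ψ g + δ g / ψ g = t g`;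
* `exists_matrixRep` / `matrixRep_unique` : the matrix representation of a family of matrices
  on the span of a linearly independent family of vectors;
* `exists_constituent_matrix` : the same in the matrix currency (`R : G →* M_r(K)` acting on a
  stable subspace `E ≤ Kʳ` on which `R g + δ g R g⁻¹` is a scalar).
-/

set_option autoImplicit false

namespace Fermat.Agent.S30.Constituent

open Polynomial Matrix Fermat.Agent.S29

section Module

variable {K G V : Type*} [Field K] [IsAlgClosed K] [Group G] [AddCommGroup V] [Module K V]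
  [FiniteDimensional K V]

/-- An endomorphism of a one-dimensional space is a scalar. -/
theorem exists_eq_smul_of_finrank_one {K U : Type*} [Field K] [AddCommGroup U] [Module K U]
    (h1 : Module.finrank K U = 1) (f : Module.End K U) : ∃ c : K, ∀ x : U, f x = c • x := by
  obtain ⟨u, hu0, hu⟩ := finrank_eq_one_iff'.mp h1
  obtain ⟨c, hc⟩ := hu (f u)
  refine ⟨c, fun x => ?_⟩
  obtain ⟨a, rfl⟩ := hu x
  rw [map_smul, ← hc, smul_comm]

/-- **A simple constituent with its characteristic polynomials.** -/
theorem exists_constituent [Nontrivial V] (ρ : G →* Module.End K V) (δ : G →* Kˣ) (t : G → K)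
    (hq : ∀ g, ρ g + (δ g : K) • ρ g⁻¹ = t g • (1 : Module.End K V)) :
    ∃ (U : Submodule K V) (hU : ∀ g, ∀ x ∈ U, ρ g x ∈ U),
      (Module.finrank K U = 2 ∧
        ∀ g, (QuadCharpoly.restrictRep ρ U hU g).charpoly = X ^ 2 - C (t g) * X + C (δ g : K)) ∨
      (Module.finrank K U = 1 ∧ ∃ ψ : G →* Kˣ,
        (∀ g, ∀ x ∈ U, ρ g x = (ψ g : K) • x) ∧
        ∀ g, (ψ g : K) + (δ g : K) * (((ψ g)⁻¹ : Kˣ) : K) = t g) := by
  classical
  -- a minimal nonzero invariant subspace
  have hex : ∃ n : ℕ, ∃ U : Submodule K V, U ≠ ⊥ ∧ (∀ g, ∀ x ∈ U, ρ g x ∈ U) ∧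
      Module.finrank K U = n :=
    ⟨_, ⊤, top_ne_bot, fun _ _ _ => Submodule.mem_top, rfl⟩
  obtain ⟨U, hU0, hU, hUn⟩ := Nat.find_spec hex
  have hmin : ∀ U' : Submodule K V, U' ≠ ⊥ → (∀ g, ∀ x ∈ U', ρ g x ∈ U') →
      Module.finrank K U ≤ Module.finrank K U' := by
    intro U' h0 hinv
    rw [hUn]
    exact Nat.find_min' hex ⟨U', h0, hinv, rfl⟩
  set ρU := QuadCharpoly.restrictRep ρ U hU with hρU
  have hqU : ∀ g, ρU g + (δ g : K) • ρU g⁻¹ = t g • (1 : Module.End K U) := by
    intro g
    ext x
    have := congrArg (fun f : Module.End K V => f (x : V)) (hq g)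
    simpa [ρU, QuadCharpoly.restrictRep_apply] using this
  have hirrU : ∀ W : Submodule K U, (∀ g, ∀ x ∈ W, ρU g x ∈ W) → W = ⊥ ∨ W = ⊤ := by
    intro W hW
    by_cases hW0 : W = ⊥
    · exact Or.inl hW0
    right
    have hmap0 : W.map U.subtype ≠ ⊥ := by
      intro h
      apply hW0
      rw [eq_bot_iff]
      intro x hx
      have hx' : (x : V) ∈ W.map U.subtype := ⟨x, hx, rfl⟩
      rw [h, Submodule.mem_bot] at hx'
      rw [Submodule.mem_bot]
      exact Subtype.ext hx'
    have hinv : ∀ g, ∀ x ∈ W.map U.subtype, ρ g x ∈ W.map U.subtype := by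
      rintro g _ ⟨x, hx, rfl⟩
      exact ⟨ρU g x, hW g x hx, rfl⟩
    have h1 := hmin _ hmap0 hinv
    have h2 : Module.finrank K (W.map U.subtype) = Module.finrank K W :=
      LinearEquiv.finrank_eq (Submodule.equivMapOfInjective _ U.subtype_injective W).symm
    rw [h2] at h1
    exact Submodule.eq_top_of_finrank_eq (le_antisymm (Submodule.finrank_le W) h1)
  have hle : Module.finrank K U ≤ 2 := QuadDim.finrank_le_two ρU δ t hqU hirrU
  have hpos : 0 < Module.finrank K U := by
    rw [Module.finrank_pos_iff_exists_ne_zero]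
    obtain ⟨x, hx, hx0⟩ := (Submodule.ne_bot_iff U).mp hU0
    exact ⟨⟨x, hx⟩, fun h => hx0 (congrArg Subtype.val h)⟩
  refine ⟨U, hU, ?_⟩
  rcases (show Module.finrank K U = 2 ∨ Module.finrank K U = 1 by omega) with h2 | h1
  · exact Or.inl ⟨h2, fun g => QuadCharpoly.charpoly_of_finrank_two ρU δ t hqU hirrU h2 g⟩
  · right
    refine ⟨h1, ?_⟩
    -- the character
    have hsc : ∀ g, ∃ c : K, ∀ x : U, ρU g x = c • x := fun g =>
      exists_eq_smul_of_finrank_one h1 (ρU g)
    choose ψ hψ using hsc
    obtain ⟨u, hu0⟩ : ∃ u : U, u ≠ 0 := by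
      rw [← Module.finrank_pos_iff_exists_ne_zero (R := K)]
      exact hpos
    have hψ1 : ψ 1 = 1 := by
      have h := hψ 1 u
      rw [map_one, Module.End.one_apply] at h
      have h' : (1 - ψ 1) • u = 0 := by rw [sub_smul, one_smul, ← h, sub_self]
      rcases smul_eq_zero.mp h' with h0 | h0
      · exact (sub_eq_zero.mp h0).symm
      · exact absurd h0 hu0
    have hψmul : ∀ g h, ψ (g * h) = ψ g * ψ h := by
      intro g h
      have h3 := hψ (g * h) u
      rw [map_mul, Module.End.mul_apply, hψ h u, map_smul, hψ g u, smul_smul] at h3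
      have h' : (ψ h * ψ g - ψ (g * h)) • u = 0 := by rw [sub_smul, h3, sub_self]
      rcases smul_eq_zero.mp h' with h0 | h0
      · rw [mul_comm]
        exact (sub_eq_zero.mp h0).symm
      · exact absurd h0 hu0
    let ψm : G →* K := { toFun := ψ, map_one' := hψ1, map_mul' := hψmul }
    refine ⟨ψm.toHomUnits, fun g x hx => ?_, fun g => ?_⟩
    · have := congrArg Subtype.val (hψ g ⟨x, hx⟩)
      show ρ g x = ψ g • x
      simpa [ρU, QuadCharpoly.restrictRep_apply] using this
    · have hinv : (((ψm.toHomUnits g)⁻¹ : Kˣ) : K) = ψ g⁻¹ := by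
        rw [← map_inv]
        rfl
      rw [hinv]
      show ψ g + (δ g : K) * ψ g⁻¹ = t g
      have h4 := congrArg (fun f : Module.End K U => f u) (hqU g)
      simp only [LinearMap.add_apply, LinearMap.smul_apply, Module.End.one_apply, hψ g u,
        hψ g⁻¹ u] at h4
      have h' : (ψ g + (δ g : K) * ψ g⁻¹ - t g) • u = 0 := by
        rw [sub_smul, add_smul, mul_smul, h4, sub_self]
      rcases smul_eq_zero.mp h' with h0 | h0
      · exact sub_eq_zero.mp h0
      · exact absurd h0 hu0

end Module

/-! ### Matrix currency -/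

section Coords

variable {K : Type*} [Field K]

/-- The characteristic polynomial of an endomorphism from its matrix in a linearly independent
family of the right cardinality. -/
theorem charpoly_eq_of_coords {W : Type*} [AddCommGroup W] [Module K W] [FiniteDimensional K W]
    {d : ℕ} (w : Fin d → W) (hw : LinearIndependent K w) (hd : Module.finrank K W = d)
    (f : Module.End K W) (M : Matrix (Fin d) (Fin d) K)
    (hM : ∀ k, f (w k) = ∑ j, M j k • w j) : f.charpoly = M.charpoly := by
  classical
  let b : Module.Basis (Fin d) K W :=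
    Module.Basis.mk hw
      (hw.span_eq_top_of_card_eq_finrank' (by rw [Fintype.card_fin, hd])).ge
  have hb : ∀ k, b k = w k := fun k => Module.Basis.mk_apply _ _ k
  have hmat : LinearMap.toMatrix b b f = M := by
    ext i j
    rw [LinearMap.toMatrix_apply, hb, hM j]
    have : (∑ x, M x j • w x) = ∑ x, M x j • b x := by
      refine Finset.sum_congr rfl (fun x _ => ?_)
      rw [hb]
    rw [this, Module.Basis.repr_sum_self]
  rw [← hmat, LinearMap.charpoly_toMatrix]

/-- Coordinates in a linearly independent family are unique. -/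
theorem coords_unique {W : Type*} [AddCommGroup W] [Module K W] {d : ℕ} (e : Fin d → W)
    (he : LinearIndependent K e) {a b : Fin d → K}
    (h : ∑ j, a j • e j = ∑ j, b j • e j) : a = b := by
  have h0 : ∑ j, (a j - b j) • e j = 0 := by
    simp only [sub_smul, Finset.sum_sub_distrib, h, sub_self]
  funext j
  exact sub_eq_zero.mp ((Fintype.linearIndependent_iff.mp he) _ h0 j)

variable {G : Type*} [Monoid G] {r d : ℕ}

/-- **The matrix representation on the span of a linearly independent family** stable under a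
matrix representation. -/
theorem exists_matrixRep (R : G →* Matrix (Fin r) (Fin r) K) (e : Fin d → (Fin r → K))
    (he : LinearIndependent K e)
    (hstab : ∀ g k, (R g).mulVec (e k) ∈ Submodule.span K (Set.range e)) :
    ∃ A : G →* Matrix (Fin d) (Fin d) K,
      ∀ g k, (R g).mulVec (e k) = ∑ j, A g j k • e j := by
  have hex : ∀ g k, ∃ c : Fin d → K, ∑ j, c j • e j = (R g).mulVec (e k) := fun g k =>
    (Submodule.mem_span_range_iff_exists_fun K).mp (hstab g k)
  choose c hc using hex
  have hone : ∀ k j, c 1 k j = if j = k then 1 else 0 := by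
    intro k
    have h1 : ∑ j, c 1 k j • e j = ∑ j, (if j = k then (1 : K) else 0) • e j := by
      rw [hc, map_one, Matrix.one_mulVec]
      simp
    exact fun j => congrFun (coords_unique e he h1) j
  have hmul : ∀ g h k i, c (g * h) k i = ∑ j, c g j i * c h k j := by
    intro g h k
    have h1 : ∑ i, c (g * h) k i • e i = ∑ i, (∑ j, c g j i * c h k j) • e i := by
      rw [hc, map_mul, ← Matrix.mulVec_mulVec, ← hc h k, Matrix.mulVec_sum]
      simp only [Matrix.mulVec_smul, ← hc g, Finset.smul_sum, smul_smul, Finset.sum_smul]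
      rw [Finset.sum_comm]
      refine Finset.sum_congr rfl (fun i _ => Finset.sum_congr rfl (fun j _ => ?_))
      rw [mul_comm]
    exact fun i => congrFun (coords_unique e he h1) i
  refine ⟨{ toFun := fun g => Matrix.of (fun j k => c g k j)
            map_one' := ?_
            map_mul' := ?_ }, fun g k => ?_⟩
  · ext j k
    rw [Matrix.of_apply, hone, Matrix.one_apply]
  · intro g h
    ext i k
    rw [Matrix.of_apply, hmul, Matrix.mul_apply]
    rfl
  · show (R g).mulVec (e k) = ∑ j, c g k j • e j
    rw [hc]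

end Coords

section MatrixForm

variable {K G : Type*} [Field K] [IsAlgClosed K] [Group G] {r : ℕ}

/-- the representation on a stable subspace of `Kʳ` -/
def subRep (R : G →* Matrix (Fin r) (Fin r) K) (E : Submodule K (Fin r → K))
    (hE : ∀ g, ∀ v ∈ E, (R g).mulVec v ∈ E) : G →* Module.End K E where
  toFun g := (Matrix.mulVecLin (R g)).restrict (hE g)
  map_one' := by
    ext x
    simp
  map_mul' g h := by
    ext x i
    have h1 : (R (g * h)).mulVec (x : Fin r → K)
        = (R g).mulVec ((R h).mulVec (x : Fin r → K)) := by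
      rw [map_mul, Matrix.mulVec_mulVec]
    exact congrFun h1 i

omit [IsAlgClosed K] in
theorem subRep_apply (R : G →* Matrix (Fin r) (Fin r) K) (E : Submodule K (Fin r → K))
    (hE : ∀ g, ∀ v ∈ E, (R g).mulVec v ∈ E) (g : G) (x : E) :
    ((subRep R E hE g x : E) : Fin r → K) = (R g).mulVec (x : Fin r → K) := rfl

/-- **A simple constituent, matrix currency.**  Let `R : G →* M_r(K)`, `E ≤ Kʳ` a nonzero stable
subspace on which `R g + δ g R g⁻¹` is the scalar `t g` for all `g`.  Then there is a stable
`U ≤ E`, either of dimension `2` such that the matrix of `R g` on `U` in any basis has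
characteristic polynomial `X² - t g X + δ g`, or of dimension `1` on which `G` acts through a
character `ψ` with `ψ g + δ g / ψ g = t g`. -/
theorem exists_constituent_matrix (R : G →* Matrix (Fin r) (Fin r) K)
    (E : Submodule K (Fin r → K)) (hE0 : E ≠ ⊥)
    (hE : ∀ g, ∀ v ∈ E, (R g).mulVec v ∈ E) (δ : G →* Kˣ) (t : G → K)
    (hq : ∀ g, ∀ v ∈ E, (R g).mulVec v + (δ g : K) • (R g⁻¹).mulVec v = t g • v) :
    ∃ U : Submodule K (Fin r → K), U ≤ E ∧ (∀ g, ∀ v ∈ U, (R g).mulVec v ∈ U) ∧
      ((Module.finrank K U = 2 ∧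
          ∀ e : Fin 2 → (Fin r → K), LinearIndependent K e → (∀ k, e k ∈ U) →
            ∀ (g : G) (M : Matrix (Fin 2) (Fin 2) K),
              (∀ k, (R g).mulVec (e k) = ∑ j, M j k • e j) →
                M.charpoly = X ^ 2 - C (t g) * X + C (δ g : K)) ∨
        (Module.finrank K U = 1 ∧ ∃ ψ : G →* Kˣ,
          (∀ g, ∀ v ∈ U, (R g).mulVec v = (ψ g : K) • v) ∧
          ∀ g, (ψ g : K) + (δ g : K) * (((ψ g)⁻¹ : Kˣ) : K) = t g)) := by
  classical
  have : Nontrivial E := by
    obtain ⟨x, hx, hx0⟩ := (Submodule.ne_bot_iff E).mp hE0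
    exact ⟨⟨⟨x, hx⟩, 0, fun h => hx0 (congrArg Subtype.val h)⟩⟩
  set ρ := subRep R E hE with hρ
  have hqE : ∀ g, ρ g + (δ g : K) • ρ g⁻¹ = t g • (1 : Module.End K E) := by
    intro g
    ext1 x
    apply Subtype.ext
    have := hq g x x.2
    simpa [ρ, subRep_apply] using this
  obtain ⟨U', hU', hcase⟩ := exists_constituent ρ δ t hqE
  have hmem : ∀ v : Fin r → K, v ∈ U'.map E.subtype ↔ ∃ h : v ∈ E, (⟨v, h⟩ : E) ∈ U' := by
    intro v
    constructor
    · rintro ⟨x, hx, rfl⟩
      exact ⟨x.2, hx⟩
    · rintro ⟨h, hx⟩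
      exact ⟨⟨v, h⟩, hx, rfl⟩
  have hfr : Module.finrank K (U'.map E.subtype) = Module.finrank K U' :=
    LinearEquiv.finrank_eq (Submodule.equivMapOfInjective _ E.subtype_injective U').symm
  refine ⟨U'.map E.subtype, ?_, ?_, ?_⟩
  · rintro _ ⟨x, -, rfl⟩
    exact x.2
  · rintro g _ ⟨x, hx, rfl⟩
    exact ⟨ρ g x, hU' g x hx, rfl⟩
  · rcases hcase with ⟨h2, hcp⟩ | ⟨h1, ψ, hψ, hψt⟩
    · left
      refine ⟨hfr.trans h2, fun e he heU g M hM => ?_⟩
      -- lift the family to `U'`
      have hlift : ∀ k, ∃ h : e k ∈ E, (⟨e k, h⟩ : E) ∈ U' := fun k => (hmem _).mp (heU k)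
      let w : Fin 2 → U' := fun k => ⟨⟨e k, (hlift k).1⟩, (hlift k).2⟩
      have hwe : (E.subtype.comp U'.subtype) ∘ w = e := by
        funext k
        rfl
      have hw : LinearIndependent K w :=
        LinearIndependent.of_comp (E.subtype.comp U'.subtype) (by rw [hwe]; exact he)
      have hcoord : ∀ k, QuadCharpoly.restrictRep ρ U' hU' g (w k) = ∑ j, M j k • w j := by
        intro k
        apply Subtype.ext
        apply Subtype.ext
        have h3 : (((QuadCharpoly.restrictRep ρ U' hU' g (w k) : U') : E) : Fin r → K)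
            = (R g).mulVec (e k) := by
          rw [QuadCharpoly.restrictRep_apply, hρ, subRep_apply]
        rw [h3, hM k]
        simp only [Submodule.coe_sum, Submodule.coe_smul]
        rfl
      have key0 := @charpoly_eq_of_coords K _ U' _ _ _ 2 w hw h2
      have key := key0 (QuadCharpoly.restrictRep ρ U' hU' g) M hcoord
      rw [← hcp g]
      exact key.symm
    · right
      refine ⟨hfr.trans h1, ψ, ?_, hψt⟩
      rintro g _ ⟨x, hx, rfl⟩
      have := congrArg Subtype.val (hψ g x hx)
      simpa [ρ, subRep_apply] using this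

end MatrixForm

end Fermat.Agent.S30.Constituent
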