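import Mathlib
import Fermat.Prelude.Def_GaloisRep_Adic

/-!
# Packaging matrix data as a `GaloisRepAdic` (phase B of MODGAL, the packaging end of S30)

* `exists_galoisRepAdic_of_matrix` : a continuous homomorphism `G_ℚ → M₂(B)` is a `GaloisRepAdic B`
  with the same characteristic polynomials;
* `exists_galoisRepAdic_of_chars` : two continuous characters `ψ₁, ψ₂ : G_ℚ → Bˣ` give the
  `GaloisRepAdic` `ψ₁ ⊕ ψ₂`;
* `exists_galoisRepAdic_of_one` : the same for a `1 × 1` matrix representation `a` and a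
  character `δ`: the representation `a ⊕ δ a⁻¹`;
* `exists_matrix_of_lattice` : the matrices, in a basis of a saturated stable lattice, of a matrix
  representation (the change of basis step after `Lattice.exists_basis`).
-/

set_option autoImplicit false

open Polynomial

namespace Fermat.Agent.S30.MatRep

local notation "Qbar" => AlgebraicClosure ℚ
local notation "GalQ" => (AlgebraicClosure ℚ ≃ₐ[ℚ] AlgebraicClosure ℚ)

/-- A vector with all coordinates in an ideal `I` lies in `I • ⊤`. -/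
theorem mem_smul_top_of_forall {B : Type*} [CommRing B] {d : ℕ} (I : Ideal B) (w : Fin d → B)
    (h : ∀ i, w i ∈ I) : w ∈ I • (⊤ : Submodule B (Fin d → B)) := by
  classical
  rw [pi_eq_sum_univ w]
  exact Submodule.sum_mem _ fun i _ => Submodule.smul_mem_smul (h i) Submodule.mem_top

/-- **Packaging, rank two.**  A homomorphism `G_ℚ → M₂(B)` which is trivial modulo `𝔪ⁿ` on an
open subgroup for every `n` is a `GaloisRepAdic B` with the same characteristic polynomials. -/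
theorem exists_galoisRepAdic_of_matrix (B : Type) [CommRing B] [IsLocalRing B]
    (A : GalQ →* Matrix (Fin 2) (Fin 2) B)
    (hcont : ∀ n : ℕ, ∃ L : IntermediateField ℚ Qbar, FiniteDimensional ℚ L ∧
      ∀ σ : GalQ, (∀ x ∈ L, σ x = x) →
        ∀ i j, (A σ - 1) i j ∈ IsLocalRing.maximalIdeal B ^ n) :
    ∃ ρ : GaloisRepAdic B, (∀ σ, LinearMap.charpoly (ρ.ρ σ) = (A σ).charpoly) ∧
      (∀ σ, A σ = 1 → ρ.ρ σ = 1) := by
  classical
  let ρ : GalQ →* Module.End B (Fin 2 → B) :=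
    { toFun := fun σ => Matrix.toLin' (A σ)
      map_one' := by rw [map_one, Matrix.toLin'_one]; rfl
      map_mul' := fun σ τ => by rw [map_mul, Matrix.toLin'_mul]; rfl }
  have hρ : ∀ σ, ρ σ = Matrix.toLin' (A σ) := fun σ => rfl
  refine ⟨{ V := Fin 2 → B, finrank_eq := Module.finrank_fin_fun B, ρ := ρ,
            isAdicContinuous := ?_ }, ?_, ?_⟩
  · intro n
    obtain ⟨L, hL, h⟩ := hcont n
    refine ⟨L, hL, fun σ hσ v => ?_⟩
    have e1 : ρ σ v - v = (A σ - 1).mulVec v := by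
      rw [hρ, Matrix.toLin'_apply, Matrix.sub_mulVec, Matrix.one_mulVec]
    rw [e1]
    apply mem_smul_top_of_forall
    intro i
    show ∑ j, (A σ - 1) i j * v j ∈ IsLocalRing.maximalIdeal B ^ n
    exact Ideal.sum_mem _ fun j _ => Ideal.mul_mem_right _ _ (h σ hσ i j)
  · intro σ
    show LinearMap.charpoly (ρ σ) = _
    rw [hρ, Matrix.charpoly_toLin']
  · intro σ h1
    show ρ σ = 1
    rw [hρ, h1, Matrix.toLin'_one]
    rfl

/-- **Packaging, two characters.**  Two characters `ψ₁, ψ₂ : G_ℚ → Bˣ`, each trivial modulo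
`𝔪ⁿ` on an open subgroup for every `n`, give the `GaloisRepAdic` `ψ₁ ⊕ ψ₂`. -/
theorem exists_galoisRepAdic_of_chars (B : Type) [CommRing B] [IsLocalRing B]
    (ψ₁ ψ₂ : GalQ →* Bˣ)
    (hcont₁ : ∀ n : ℕ, ∃ L : IntermediateField ℚ Qbar, FiniteDimensional ℚ L ∧
      ∀ σ : GalQ, (∀ x ∈ L, σ x = x) →
        ((ψ₁ σ : Bˣ) : B) - 1 ∈ IsLocalRing.maximalIdeal B ^ n)
    (hcont₂ : ∀ n : ℕ, ∃ L : IntermediateField ℚ Qbar, FiniteDimensional ℚ L ∧
      ∀ σ : GalQ, (∀ x ∈ L, σ x = x) →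
        ((ψ₂ σ : Bˣ) : B) - 1 ∈ IsLocalRing.maximalIdeal B ^ n) :
    ∃ ρ : GaloisRepAdic B,
      (∀ σ, LinearMap.charpoly (ρ.ρ σ) =
        X ^ 2 - C (((ψ₁ σ : Bˣ) : B) + ((ψ₂ σ : Bˣ) : B)) * X
          + C (((ψ₁ σ : Bˣ) : B) * ((ψ₂ σ : Bˣ) : B))) ∧
      (∀ σ, ψ₁ σ = 1 → ψ₂ σ = 1 → ρ.ρ σ = 1) := by
  classical
  let A : GalQ →* Matrix (Fin 2) (Fin 2) B :=
    { toFun := fun σ => Matrix.diagonal ![((ψ₁ σ : Bˣ) : B), ((ψ₂ σ : Bˣ) : B)]
      map_one' := by
        ext i j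
        fin_cases i <;> fin_cases j <;> simp
      map_mul' := fun σ τ => by
        rw [Matrix.diagonal_mul_diagonal]
        congr 1
        funext i
        fin_cases i <;> simp }
  have hA : ∀ σ, A σ = Matrix.diagonal ![((ψ₁ σ : Bˣ) : B), ((ψ₂ σ : Bˣ) : B)] := fun σ => rfl
  obtain ⟨ρ, hρ1, hρ2⟩ := exists_galoisRepAdic_of_matrix B A (by
    intro n
    obtain ⟨L₁, hL₁, h₁⟩ := hcont₁ n
    obtain ⟨L₂, hL₂, h₂⟩ := hcont₂ n
    refine ⟨L₁ ⊔ L₂, IntermediateField.finiteDimensional_sup L₁ L₂, fun σ hσ i j => ?_⟩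
    have k₁ := h₁ σ (fun x hx => hσ x ((le_sup_left : L₁ ≤ L₁ ⊔ L₂) hx))
    have k₂ := h₂ σ (fun x hx => hσ x ((le_sup_right : L₂ ≤ L₁ ⊔ L₂) hx))
    rw [hA]
    fin_cases i <;> fin_cases j <;> simp [Matrix.sub_apply] <;> assumption)
  refine ⟨ρ, fun σ => ?_, fun σ h1 h2 => hρ2 σ ?_⟩
  · rw [hρ1, Matrix.charpoly_fin_two, hA, Matrix.trace_fin_two, Matrix.det_fin_two]
    simp
  · rw [hA, h1, h2]
    ext i j
    fin_cases i <;> fin_cases j <;> simp

/-- **Packaging, the reducible case.**  A `1 × 1` matrix representation `a` and a character `δ`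
give the `GaloisRepAdic` `a ⊕ δ a⁻¹`, with characteristic polynomials
`X² - (a(σ) + δ(σ) a(σ⁻¹)) X + δ(σ)`. -/
theorem exists_galoisRepAdic_of_one (B : Type) [CommRing B] [IsLocalRing B]
    (a : GalQ →* Matrix (Fin 1) (Fin 1) B) (δ : GalQ →* Bˣ)
    (hcont_a : ∀ n : ℕ, ∃ L : IntermediateField ℚ Qbar, FiniteDimensional ℚ L ∧
      ∀ σ : GalQ, (∀ x ∈ L, σ x = x) →
        ∀ i j, (a σ - 1) i j ∈ IsLocalRing.maximalIdeal B ^ n)
    (hcont_δ : ∀ n : ℕ, ∃ L : IntermediateField ℚ Qbar, FiniteDimensional ℚ L ∧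
      ∀ σ : GalQ, (∀ x ∈ L, σ x = x) →
        ((δ σ : Bˣ) : B) - 1 ∈ IsLocalRing.maximalIdeal B ^ n) :
    ∃ ρ : GaloisRepAdic B,
      (∀ σ, LinearMap.charpoly (ρ.ρ σ) =
        X ^ 2 - C (a σ 0 0 + ((δ σ : Bˣ) : B) * a σ⁻¹ 0 0) * X + C ((δ σ : Bˣ) : B)) ∧
      (∀ σ, a σ = 1 → δ σ = 1 → ρ.ρ σ = 1) := by
  classical
  let a₀ : GalQ →* B :=
    { toFun := fun σ => a σ 0 0
      map_one' := by rw [map_one]; rfl
      map_mul' := fun σ τ => by
        rw [map_mul, Matrix.mul_apply, Fin.sum_univ_one] }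
  let ψ₁ : GalQ →* Bˣ := a₀.toHomUnits
  have hψ₁ : ∀ σ, ((ψ₁ σ : Bˣ) : B) = a σ 0 0 := fun σ => rfl
  let ψ₂ : GalQ →* Bˣ := δ * ψ₁⁻¹
  have hψ₂ : ∀ σ, ((ψ₂ σ : Bˣ) : B) = ((δ σ : Bˣ) : B) * a σ⁻¹ 0 0 := by
    intro σ
    show ((δ σ * (ψ₁ σ)⁻¹ : Bˣ) : B) = _
    rw [← map_inv, Units.val_mul, hψ₁]
  obtain ⟨ρ, hρ1, hρ2⟩ := exists_galoisRepAdic_of_chars B ψ₁ ψ₂ (by
    intro n
    obtain ⟨L, hL, h⟩ := hcont_a n
    refine ⟨L, hL, fun σ hσ => ?_⟩
    have := h σ hσ 0 0
    rwa [Matrix.sub_apply, Matrix.one_apply_eq] at this) (by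
    intro n
    obtain ⟨L₁, hL₁, h₁⟩ := hcont_a n
    obtain ⟨L₂, hL₂, h₂⟩ := hcont_δ n
    refine ⟨L₁ ⊔ L₂, IntermediateField.finiteDimensional_sup L₁ L₂, fun σ hσ => ?_⟩
    have hσ' : ∀ x ∈ L₁, σ⁻¹ x = x := by
      intro x hx
      have := hσ x ((le_sup_left : L₁ ≤ L₁ ⊔ L₂) hx)
      calc σ⁻¹ x = σ⁻¹ (σ x) := by rw [this]
        _ = x := by
          show σ.symm (σ x) = x
          exact σ.symm_apply_apply x
    have k₁ := h₁ σ⁻¹ hσ' 0 0
    rw [Matrix.sub_apply, Matrix.one_apply_eq] at k₁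
    have k₂ := h₂ σ (fun x hx => hσ x ((le_sup_right : L₂ ≤ L₁ ⊔ L₂) hx))
    rw [hψ₂]
    have e1 : ((δ σ : Bˣ) : B) * a σ⁻¹ 0 0 - 1
        = (((δ σ : Bˣ) : B) - 1) * a σ⁻¹ 0 0 + (a σ⁻¹ 0 0 - 1) := by ring
    rw [e1]
    exact Ideal.add_mem _ (Ideal.mul_mem_right _ _ k₂) k₁)
  refine ⟨ρ, fun σ => ?_, fun σ h1 h2 => hρ2 σ ?_ ?_⟩
  · rw [hρ1, hψ₁, hψ₂]
    have e2 : a σ 0 0 * (((δ σ : Bˣ) : B) * a σ⁻¹ 0 0) = ((δ σ : Bˣ) : B) := by
      have h3 : a σ 0 0 * a σ⁻¹ 0 0 = 1 := by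
        have h4 : a₀ (σ * σ⁻¹) = a₀ σ * a₀ σ⁻¹ := map_mul a₀ σ σ⁻¹
        rw [mul_inv_cancel, map_one] at h4
        exact h4.symm
      calc a σ 0 0 * (((δ σ : Bˣ) : B) * a σ⁻¹ 0 0)
          = ((δ σ : Bˣ) : B) * (a σ 0 0 * a σ⁻¹ 0 0) := by ring
        _ = ((δ σ : Bˣ) : B) := by rw [h3, mul_one]
    rw [e2]
  · apply Units.ext
    rw [hψ₁, h1]
    rfl
  · have h5 : ψ₁ σ = 1 := by
      apply Units.ext
      rw [hψ₁, h1]
      rfl
    show δ σ * (ψ₁ σ)⁻¹ = 1
    rw [h5, h2, inv_one, mul_one]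

section ChangeOfBasis

variable {G : Type*} [Monoid G] {B : Type*} [CommRing B] {r d : ℕ}

/-- Coordinates with respect to a linearly independent family are unique (matrix form). -/
theorem matrix_eq_of_sum_smul_eq {e : Fin d → (Fin r → B)} (hind : LinearIndependent B e)
    (M M' : Matrix (Fin d) (Fin d) B)
    (h : ∀ k, ∑ l, M l k • e l = ∑ l, M' l k • e l) : M = M' := by
  classical
  ext l k
  have h0 : ∑ l, (M l k - M' l k) • e l = 0 := by
    simp only [sub_smul, Finset.sum_sub_distrib]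
    rw [h k, sub_self]
  have := (Fintype.linearIndependent_iff.mp hind) (fun l => M l k - M' l k) h0 l
  exact sub_eq_zero.mp this

/-- The matrices of a matrix representation in a basis `e` of a stable submodule. -/
theorem exists_matrix_of_stable (R : G →* Matrix (Fin r) (Fin r) B) (e : Fin d → (Fin r → B))
    (hind : LinearIndependent B e)
    (hstab : ∀ σ k, (R σ).mulVec (e k) ∈ Submodule.span B (Set.range e)) :
    ∃ A : G →* Matrix (Fin d) (Fin d) B,
      (∀ σ k, (R σ).mulVec (e k) = ∑ l, A σ l k • e l) ∧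
      (∀ σ, R σ = 1 → A σ = 1) ∧
      (∀ σ (a : B) (W : Matrix (Fin r) (Fin r) B),
        (∀ k, W.mulVec (e k) ∈ Submodule.span B (Set.range e)) → R σ = 1 + a • W →
          ∃ W' : Matrix (Fin d) (Fin d) B, A σ = 1 + a • W') := by
  classical
  let bas : Module.Basis (Fin d) B (Submodule.span B (Set.range e)) := Module.Basis.span hind
  have hbas : ∀ k, (bas k : Fin r → B) = e k := fun k =>
    congrArg Subtype.val (Module.Basis.span_apply hind k)
  have hrepr : ∀ x : Submodule.span B (Set.range e),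
      (x : Fin r → B) = ∑ l, bas.repr x l • e l := by
    intro x
    have h1 := bas.sum_repr x
    have h2 := congrArg (Subtype.val) h1
    rw [← h2]
    simp only [AddSubmonoidClass.coe_finsetSum, Submodule.coe_smul, hbas]
  have hone : ∀ k, e k = ∑ l, (1 : Matrix (Fin d) (Fin d) B) l k • e l := by
    intro k
    rw [Finset.sum_eq_single k]
    · rw [Matrix.one_apply_eq, one_smul]
    · intro l _ hl
      rw [Matrix.one_apply_ne hl, zero_smul]
    · intro hk
      exact absurd (Finset.mem_univ k) hk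
  let Af : G → Matrix (Fin d) (Fin d) B := fun σ l k => bas.repr ⟨(R σ).mulVec (e k), hstab σ k⟩ l
  have hAf : ∀ σ k, (R σ).mulVec (e k) = ∑ l, Af σ l k • e l := fun σ k =>
    hrepr ⟨(R σ).mulVec (e k), hstab σ k⟩
  have hAone : ∀ σ, R σ = 1 → Af σ = 1 := by
    intro σ h1
    apply matrix_eq_of_sum_smul_eq hind
    intro k
    rw [← hAf, h1, Matrix.one_mulVec]
    exact hone k
  let A : G →* Matrix (Fin d) (Fin d) B :=
    { toFun := Af
      map_one' := hAone 1 (map_one R)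
      map_mul' := fun σ τ => by
        apply matrix_eq_of_sum_smul_eq hind
        intro k
        rw [← hAf, map_mul, ← Matrix.mulVec_mulVec, hAf τ k]
        have e1 : (R σ).mulVec (∑ m, Af τ m k • e m) = ∑ m, Af τ m k • (R σ).mulVec (e m) := by
          have := map_sum (R σ).mulVecLin (fun m => Af τ m k • e m) Finset.univ
          simp only [Matrix.mulVecLin_apply] at this
          rw [this]
          refine Finset.sum_congr rfl fun m _ => ?_
          exact Matrix.mulVec_smul _ _ _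
        rw [e1]
        simp only [hAf σ, Finset.smul_sum, smul_smul, Matrix.mul_apply, Finset.sum_smul]
        rw [Finset.sum_comm]
        refine Finset.sum_congr rfl fun l _ => Finset.sum_congr rfl fun m _ => ?_
        rw [mul_comm] }
  have hA : ∀ σ, A σ = Af σ := fun σ => rfl
  refine ⟨A, hAf, hAone, ?_⟩
  intro σ a W hW hR
  let W' : Matrix (Fin d) (Fin d) B := fun l k => bas.repr ⟨W.mulVec (e k), hW k⟩ l
  have hW' : ∀ k, W.mulVec (e k) = ∑ l, W' l k • e l := fun k => hrepr ⟨W.mulVec (e k), hW k⟩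
  refine ⟨W', ?_⟩
  rw [hA]
  apply matrix_eq_of_sum_smul_eq hind
  intro k
  rw [← hAf, hR, Matrix.add_mulVec, Matrix.one_mulVec, Matrix.smul_mulVec, hW' k]
  simp only [Matrix.add_apply, Matrix.smul_apply, add_smul, Finset.sum_add_distrib, smul_eq_mul,
    mul_smul, ← Finset.smul_sum]
  rw [← hone k]

end ChangeOfBasis

section Lattice

variable {G : Type*} [Monoid G] {B K : Type*} [CommRing B] [Field K] [Algebra B K] {r d : ℕ}

/-- **Change of basis after `Lattice.exists_basis`.**  `R` a matrix representation over `B`,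
`U ≤ Kʳ` a subspace stable under `R`, `e` a family of `B`-vectors as produced by
`Lattice.exists_basis` (a `K`-basis of `U` spanning the saturated lattice `U ∩ Bʳ`).  Then the
matrices `A σ` of `R σ` in `e` form a representation over `B`, trivial where `R` is, and
congruent to `1` modulo `a` where `R` is. -/
theorem exists_matrix_of_lattice (hinj : Function.Injective (algebraMap B K))
    (R : G →* Matrix (Fin r) (Fin r) B) (U : Submodule K (Fin r → K))
    (hU : ∀ σ, ∀ u ∈ U, ((R σ).map (algebraMap B K)).mulVec u ∈ U)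
    (e : Fin d → (Fin r → B))
    (hind : LinearIndependent K (fun k i => algebraMap B K (e k i)))
    (hspan : Submodule.span K (Set.range (fun k i => algebraMap B K (e k i))) = U)
    (hsat : ∀ x : Fin r → B, (fun i => algebraMap B K (x i)) ∈ U →
      x ∈ Submodule.span B (Set.range e)) :
    ∃ A : G →* Matrix (Fin d) (Fin d) B,
      (∀ σ k, (R σ).mulVec (e k) = ∑ l, A σ l k • e l) ∧
      (∀ σ k, ((R σ).map (algebraMap B K)).mulVec (fun i => algebraMap B K (e k i)) =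
        ∑ l, algebraMap B K (A σ l k) • (fun i => algebraMap B K (e l i))) ∧
      (∀ σ, R σ = 1 → A σ = 1) ∧
      (∀ σ (a : B) (W : Matrix (Fin r) (Fin r) B), a ≠ 0 → R σ = 1 + a • W →
        ∃ W' : Matrix (Fin d) (Fin d) B, A σ = 1 + a • W') := by
  classical
  let j : (Fin r → B) →ₗ[B] (Fin r → K) := (Algebra.linearMap B K).compLeft (Fin r)
  have hj : ∀ x : Fin r → B, j x = fun i => algebraMap B K (x i) := fun x => rfl
  have hjmul : ∀ (M : Matrix (Fin r) (Fin r) B) (x : Fin r → B),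
      j (M.mulVec x) = (M.map (algebraMap B K)).mulVec (j x) := by
    intro M x
    funext i
    simp only [hj, Matrix.mulVec, dotProduct, Matrix.map_apply, map_sum, map_mul]
  have hindB : LinearIndependent B e := by
    have h1 : LinearIndependent B (j ∘ e) :=
      LinearIndependent.restrict_scalars (R := B) (K := K)
        (by simpa [Algebra.smul_def] using hinj) hind
    exact LinearIndependent.of_comp j h1
  have hmemU : ∀ k, j (e k) ∈ U := by
    intro k
    rw [← hspan]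
    exact Submodule.subset_span ⟨k, rfl⟩
  have hstab : ∀ σ k, (R σ).mulVec (e k) ∈ Submodule.span B (Set.range e) := by
    intro σ k
    apply hsat
    rw [← hj, hjmul]
    exact hU σ _ (hmemU k)
  obtain ⟨A, hA1, hA2, hA3⟩ := exists_matrix_of_stable R e hindB hstab
  refine ⟨A, hA1, ?_, hA2, ?_⟩
  · intro σ k
    have h1 := congrArg j (hA1 σ k)
    rw [hjmul, map_sum] at h1
    rw [← hj, h1]
    refine Finset.sum_congr rfl fun l _ => ?_
    rw [map_smul, hj, algebraMap_smul]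
  · intro σ a W ha hR
    apply hA3 σ a W _ hR
    intro k
    apply hsat
    -- `a • W e_k = R σ e_k - e_k` lies in the lattice, hence `W e_k` lies in `U`
    have h1 : a • W.mulVec (e k) = (R σ).mulVec (e k) - e k := by
      rw [hR, Matrix.add_mulVec, Matrix.one_mulVec, Matrix.smul_mulVec, add_sub_cancel_left]
    have h2 : j (a • W.mulVec (e k)) ∈ U := by
      rw [h1, map_sub, hjmul]
      exact U.sub_mem (hU σ _ (hmemU k)) (hmemU k)
    rw [map_smul, ← algebraMap_smul K a (j (W.mulVec (e k)))] at h2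
    have ha' : algebraMap B K a ≠ 0 := by
      intro h0
      exact ha (hinj (by rw [h0, map_zero]))
    have h3 := U.smul_mem (algebraMap B K a)⁻¹ h2
    rwa [smul_smul, inv_mul_cancel₀ ha', one_smul, hj] at h3

end Lattice

end Fermat.Agent.S30.MatRep
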