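import Mathlib
import Fermat.Agent.S30.DVRExt
import Fermat.Agent.S30.Lattice
import Fermat.Agent.S30.MatRep

/-!
# Descent of a stable subspace to a finite DVR extension (phase B of MODGAL)

`O` a complete discrete valuation ring (characteristic zero, finite residue field), `K` a field
algebraic over `O`, `R : G → M_r(O)` a matrix representation and `U ≤ Kʳ` a subspace stable under
`R`.  Then there is a finite DVR extension `B ⊆ K` of `O`, a family `e` of `B`-vectors which is a
`K`-basis of `U`, and matrices `A σ ∈ M_d(B)` of `R σ` in the basis `e`, forming a representation,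
trivial where `R` is and congruent to `1` modulo `a` where `R` is.

This is the composite of `DVRExt.exists_finite_dvr`, `Lattice.exists_basis` and
`MatRep.exists_matrix_of_lattice`.
-/

set_option autoImplicit false

namespace Fermat.Agent.S30.Descend

/-- A common denominator for a vector whose coordinates are fractions of elements of a
subalgebra of a field. -/
theorem exists_common_denominator {O K : Type*} [CommRing O] [Field K] [Algebra O K]
    (B : Subalgebra O K) {r : ℕ} (u : Fin r → K)
    (h : ∀ i, ∃ a b : B, b ≠ 0 ∧ u i * (b : K) = (a : K)) :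
    ∃ (c : B) (x : Fin r → B), c ≠ 0 ∧ ∀ i, (x i : K) = (c : K) * u i := by
  classical
  choose a b hb hab using h
  refine ⟨∏ i, b i, fun i => (∏ i' ∈ Finset.univ.erase i, b i') * a i, ?_, ?_⟩
  · exact Finset.prod_ne_zero_iff.mpr fun i _ => hb i
  · intro i
    have h1 : (∏ i', b i') = b i * ∏ i' ∈ Finset.univ.erase i, b i' :=
      (Finset.mul_prod_erase Finset.univ b (Finset.mem_univ i)).symm
    rw [h1]
    push_cast
    rw [← hab i]
    ring

/-- A finite-dimensional subspace of `Kʳ` is spanned by vectors with coordinates in a suitable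
finite DVR extension. -/
theorem exists_dvr_spanning (O : Type) [CommRing O] [IsDomain O]
    [IsDiscreteValuationRing O] [IsAdicComplete (IsLocalRing.maximalIdeal O) O]
    [Finite (IsLocalRing.ResidueField O)] [CharZero O]
    (K : Type) [Field K] [Algebra O K] (hinj : Function.Injective (algebraMap O K))
    (halg : ∀ x : K, IsAlgebraic O x) {r : ℕ} (U : Submodule K (Fin r → K)) :
    ∃ B : Subalgebra O K, ∃ (_ : IsDiscreteValuationRing B)
      (_ : IsAdicComplete (IsLocalRing.maximalIdeal B) B)
      (_ : Finite (IsLocalRing.ResidueField B)) (_ : Module.Finite O B)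
      (_ : IsLocalHom (algebraMap O B)),
      ∃ s : Set (Fin r → B), U = Submodule.span K ((fun x i => algebraMap B K (x i)) '' s) := by
  classical
  let bU := Module.finBasis K U
  let s₀ : Finset K := Finset.univ.image
    (fun ki : Fin (Module.finrank K U) × Fin r => (bU ki.1 : Fin r → K) ki.2)
  obtain ⟨B, hdvr, hcomp, hres, hfin, hloc, hB⟩ := DVRExt.exists_finite_dvr O K hinj halg s₀
  refine ⟨B, hdvr, hcomp, hres, hfin, hloc, ?_⟩
  have hden : ∀ k, ∃ (c : B) (x : Fin r → B), c ≠ 0 ∧
      ∀ i, (x i : K) = (c : K) * (bU k : Fin r → K) i := by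
    intro k
    apply exists_common_denominator B
    intro i
    exact hB _ (Finset.mem_image.mpr ⟨(k, i), Finset.mem_univ _, rfl⟩)
  choose c x hc hx using hden
  refine ⟨Set.range x, ?_⟩
  have hxk : ∀ k, (fun i => algebraMap B K (x k i)) = (c k : K) • (bU k : Fin r → K) := by
    intro k
    funext i
    exact hx k i
  have hc' : ∀ k, (c k : K) ≠ 0 := fun k h0 => hc k (Subtype.ext h0)
  apply le_antisymm
  · -- every basis vector of `U` is a multiple of some `x k`
    intro u hu
    have h1 : (⟨u, hu⟩ : U) ∈ Submodule.span K (Set.range bU) := by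
      rw [bU.span_eq]; exact Submodule.mem_top
    have h2 : ∀ w : U, w ∈ Submodule.span K (Set.range bU) →
        (w : Fin r → K) ∈ Submodule.span K ((fun x i => algebraMap B K (x i)) '' Set.range x) := by
      intro w hw
      induction hw using Submodule.span_induction with
      | mem w hw =>
        obtain ⟨k, rfl⟩ := hw
        have h3 : (bU k : Fin r → K) = (c k : K)⁻¹ • (fun i => algebraMap B K (x k i)) := by
          rw [hxk, smul_smul, inv_mul_cancel₀ (hc' k), one_smul]
        rw [h3]
        exact Submodule.smul_mem _ _ (Submodule.subset_span ⟨x k, ⟨k, rfl⟩, rfl⟩)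
      | zero => exact Submodule.zero_mem _
      | add w₁ w₂ _ _ h₁ h₂ => exact Submodule.add_mem _ h₁ h₂
      | smul t w _ h₁ => exact Submodule.smul_mem _ t h₁
    exact h2 ⟨u, hu⟩ h1
  · rw [Submodule.span_le]
    rintro _ ⟨_, ⟨k, rfl⟩, rfl⟩
    show (fun i => algebraMap B K (x k i)) ∈ U
    rw [hxk]
    exact U.smul_mem _ (bU k).2

/-- **Descent of a stable subspace.**  See the module docstring. -/
theorem exists_lattice_matrices' (O : Type) [CommRing O] [IsDomain O]
    [IsDiscreteValuationRing O] [IsAdicComplete (IsLocalRing.maximalIdeal O) O]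
    [Finite (IsLocalRing.ResidueField O)] [CharZero O]
    (K : Type) [Field K] [Algebra O K] (hinj : Function.Injective (algebraMap O K))
    (halg : ∀ x : K, IsAlgebraic O x) {G : Type*} [Monoid G] {r : ℕ}
    (R : G →* Matrix (Fin r) (Fin r) O) (U : Submodule K (Fin r → K))
    (hU : ∀ σ, ∀ u ∈ U, ((R σ).map (algebraMap O K)).mulVec u ∈ U) :
    ∃ B : Subalgebra O K, ∃ (_ : IsDiscreteValuationRing B)
      (_ : IsAdicComplete (IsLocalRing.maximalIdeal B) B)
      (_ : Finite (IsLocalRing.ResidueField B)) (_ : Module.Finite O B)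
      (_ : IsLocalHom (algebraMap O B)),
      ∃ (d : ℕ) (e : Fin d → (Fin r → B)) (A : G →* Matrix (Fin d) (Fin d) B),
        Module.finrank K U = d ∧
        LinearIndependent K (fun k i => algebraMap B K (e k i)) ∧
        Submodule.span K (Set.range (fun k i => algebraMap B K (e k i))) = U ∧
        (∀ σ k, ((R σ).map (algebraMap O K)).mulVec (fun i => algebraMap B K (e k i)) =
          ∑ l, algebraMap B K (A σ l k) • (fun i => algebraMap B K (e l i))) ∧
        (∀ σ, R σ = 1 → A σ = 1) ∧
        (∀ σ (a : O) (W : Matrix (Fin r) (Fin r) O), a ≠ 0 → R σ = 1 + a • W →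
          ∃ W' : Matrix (Fin d) (Fin d) B, A σ = 1 + algebraMap O B a • W') := by
  classical
  obtain ⟨B, hdvr, hcomp, hres, hfin, hloc, hspanB⟩ := exists_dvr_spanning O K hinj halg U
  refine ⟨B, hdvr, hcomp, hres, hfin, hloc, ?_⟩
  have hinjB : Function.Injective (algebraMap B K) := Subtype.val_injective
  have hinjOB : Function.Injective (algebraMap O B) := by
    intro a b hab
    apply hinj
    exact congrArg Subtype.val hab
  obtain ⟨d, e, hind, hspan, hsat⟩ := Lattice.exists_basis hinjB U hspanB
  -- the representation over `B`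
  let RB : G →* Matrix (Fin r) (Fin r) B :=
    (RingHom.mapMatrix (algebraMap O B)).toMonoidHom.comp R
  have hRB : ∀ σ, RB σ = (R σ).map (algebraMap O B) := fun σ => rfl
  have hRBK : ∀ σ, (RB σ).map (algebraMap B K) = (R σ).map (algebraMap O K) := by
    intro σ
    rw [hRB, Matrix.map_map]
    rfl
  obtain ⟨A, -, hA2, hA3, hA4⟩ := MatRep.exists_matrix_of_lattice hinjB RB U
    (fun σ u hu => by rw [hRBK]; exact hU σ u hu) e hind hspan hsat
  refine ⟨d, e, A, ?_, hind, hspan, ?_, ?_, ?_⟩
  · rw [← hspan, finrank_span_eq_card hind, Fintype.card_fin]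
  · intro σ k
    rw [← hRBK]
    exact hA2 σ k
  · intro σ h1
    apply hA3
    rw [hRB, h1]
    exact Matrix.map_one _ (map_zero _) (map_one _)
  · intro σ a W ha hR
    have ha' : algebraMap O B a ≠ 0 := by
      intro h0
      exact ha (hinjOB (by rw [h0, map_zero]))
    apply hA4 σ (algebraMap O B a) (W.map (algebraMap O B)) ha'
    rw [hRB, hR]
    ext i j
    simp only [Matrix.map_apply, Matrix.add_apply, Matrix.smul_apply, map_add, smul_eq_mul,
      map_mul, Matrix.one_apply]
    congr 1
    split_ifs <;> simp

/-- **Descent of a stable subspace**, indexed by `Fin (finrank K U)`. -/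
theorem exists_lattice_matrices (O : Type) [CommRing O] [IsDomain O]
    [IsDiscreteValuationRing O] [IsAdicComplete (IsLocalRing.maximalIdeal O) O]
    [Finite (IsLocalRing.ResidueField O)] [CharZero O]
    (K : Type) [Field K] [Algebra O K] (hinj : Function.Injective (algebraMap O K))
    (halg : ∀ x : K, IsAlgebraic O x) {G : Type*} [Monoid G] {r : ℕ}
    (R : G →* Matrix (Fin r) (Fin r) O) (U : Submodule K (Fin r → K))
    (hU : ∀ σ, ∀ u ∈ U, ((R σ).map (algebraMap O K)).mulVec u ∈ U) :
    ∃ B : Subalgebra O K, ∃ (_ : IsDiscreteValuationRing B)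
      (_ : IsAdicComplete (IsLocalRing.maximalIdeal B) B)
      (_ : Finite (IsLocalRing.ResidueField B)) (_ : Module.Finite O B)
      (_ : IsLocalHom (algebraMap O B)),
      ∃ (e : Fin (Module.finrank K U) → (Fin r → B))
        (A : G →* Matrix (Fin (Module.finrank K U)) (Fin (Module.finrank K U)) B),
        LinearIndependent K (fun k i => algebraMap B K (e k i)) ∧
        Submodule.span K (Set.range (fun k i => algebraMap B K (e k i))) = U ∧
        (∀ σ k, ((R σ).map (algebraMap O K)).mulVec (fun i => algebraMap B K (e k i)) =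
          ∑ l, algebraMap B K (A σ l k) • (fun i => algebraMap B K (e l i))) ∧
        (∀ σ, R σ = 1 → A σ = 1) ∧
        (∀ σ (a : O) (W : Matrix (Fin r) (Fin r) O), a ≠ 0 → R σ = 1 + a • W →
          ∃ W' : Matrix (Fin (Module.finrank K U)) (Fin (Module.finrank K U)) B,
            A σ = 1 + algebraMap O B a • W') := by
  obtain ⟨B, hdvr, hcomp, hres, hfin, hloc, d, e, A, hd, h1, h2, h3, h4, h5⟩ :=
    exists_lattice_matrices' O K hinj halg R U hU
  subst hd
  exact ⟨B, hdvr, hcomp, hres, hfin, hloc, e, A, h1, h2, h3, h4, h5⟩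

end Fermat.Agent.S30.Descend
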