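import Mathlib
import Fermat.Agent.S30.PowerSum

/-!
# Dickson polynomials (power sums of the roots of a quadratic)

`dick c d n = xⁿ + yⁿ` when `x + y = c`, `x y = d`.

* `dick_map`: compatibility with ring homomorphisms;
* `quad_pow`: a root `x` of `X² - c X + d` has `xⁿ` a root of `X² - (dick c d n) X + dⁿ`;
* `trace_pow`: traces of powers of an endomorphism of a free module of rank two.

(`dick` is the sequence `Fermat.Agent.S30.PowerSum.psum`, see `dick_eq_psum`.)
-/

set_option autoImplicit false

open Polynomial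

namespace Fermat.Agent.S30

namespace Dickson

/-- `dick c d n = xⁿ + yⁿ` when `x + y = c`, `x y = d`. -/
def dick {R : Type*} [Ring R] (c d : R) : ℕ → R
  | 0 => 2
  | 1 => c
  | (n + 2) => c * dick c d (n + 1) - d * dick c d n

theorem dick_add_two {R : Type*} [Ring R] (c d : R) (n : ℕ) :
    dick c d (n + 2) = c * dick c d (n + 1) - d * dick c d n := rfl

theorem dick_eq_psum {R : Type*} [Ring R] (c d : R) (n : ℕ) :
    dick c d n = PowerSum.psum c d n :=
  PowerSum.eq_psum_of_rec c d (dick c d) rfl rfl (fun _ => rfl) n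

theorem dick_map {R R' : Type*} [Ring R] [Ring R'] (f : R →+* R') (c d : R) (n : ℕ) :
    f (dick c d n) = dick (f c) (f d) n := by
  rw [dick_eq_psum, dick_eq_psum, PowerSum.map_psum]

/-- If `x y = d = y x` and `x + y = c` then `dick c d n = xⁿ + yⁿ`. -/
theorem dick_eq_pow_add_pow {R : Type*} [Ring R] {x y c d : R} (hxy : x * y = d)
    (hyx : y * x = d) (hc : x + y = c) (n : ℕ) : dick c d n = x ^ n + y ^ n := by
  rw [dick_eq_psum]
  symm
  refine PowerSum.eq_psum_of_rec c d (fun n => x ^ n + y ^ n) ?_ ?_ ?_ n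
  · simp; norm_num
  · simp [hc]
  · intro i
    show x ^ (i + 2) + y ^ (i + 2) = c * (x ^ (i + 1) + y ^ (i + 1)) - d * (x ^ i + y ^ i)
    have e1 : x * y ^ (i + 1) = d * y ^ i := by rw [pow_succ', ← mul_assoc, hxy]
    have e2 : y * x ^ (i + 1) = d * x ^ i := by rw [pow_succ', ← mul_assoc, hyx]
    have e3 : x * x ^ (i + 1) = x ^ (i + 2) := by rw [← pow_succ']
    have e4 : y * y ^ (i + 1) = y ^ (i + 2) := by rw [← pow_succ']
    rw [← hc, add_mul, mul_add, mul_add, e1, e2, e3, e4, mul_add]
    abel

/-- a root of `X² - cX + d` has `n`-th power a root of `X² - (dick c d n) X + dⁿ` -/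
theorem quad_pow {R : Type*} [Ring R] {x c d : R} (hxc : Commute x c) (hxd : Commute x d)
    (hcd : Commute c d) (h : x * x - c * x + d = 0) (n : ℕ) :
    x ^ n * x ^ n - dick c d n * x ^ n + d ^ n = 0 := by
  have _ := hxd
  have _ := hcd
  -- the conjugate root
  have hyx : (c - x) * x = d := by
    rw [sub_mul]
    rw [sub_add_eq_add_sub, sub_eq_zero] at h
    rw [← h]; abel
  have hxy : x * (c - x) = d := by
    rw [mul_sub, hxc.eq, ← sub_mul]
    exact hyx
  have hcomm : Commute (c - x) x := (hxc.symm.sub_left (Commute.refl x))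
  rw [dick_eq_pow_add_pow hxy hyx (by abel) n, add_mul, ← hcomm.mul_pow, hyx]
  abel

/-- traces of powers in rank `2` -/
theorem trace_pow {R M : Type*} [CommRing R] [AddCommGroup M] [Module R M] [Module.Free R M]
    [Module.Finite R M] (hM : Module.finrank R M = 2) (f : Module.End R M) (c d : R)
    (hf : f.charpoly = X ^ 2 - C c * X + C d) (n : ℕ) :
    LinearMap.trace R M (f ^ n) = dick c d n := by
  rcases subsingleton_or_nontrivial R with hR | hR
  · exact Subsingleton.elim _ _
  · rw [dick_eq_psum]
    exact PowerSum.trace_pow_eq_psum hM f c d hf n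

end Dickson

end Fermat.Agent.S30
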