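import Mathlib
import Fermat.Agent.S30.Defs
import Fermat.Agent.S30.RedPE
import Fermat.Agent.S29.Defs
import Fermat.Agent.S29.GalES
import Fermat.Agent.S29.OpenStab
import Fermat.Agent.S29.GalHeckeComm
import Fermat.Agent.S29.KFinTop

/-!
# Phase B (S30 / S31): the concrete geometric input for `J₀(N)`

`exists_geomInput_of` builds a `GeomInput p N S` with `X = J₀(N)(ℚ̄)` (prelude Galois action),
`T ℓ = heckeOperatorBar N ℓ`, the lattice `Λ` of integral PE characters (dual of the period
lattice) and the Kummer maps `θ n v = Θ (p ^ n) (v mod p ^ n)`, together with the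
compatibility between consecutive levels and the finiteness of the `p`-torsion.

The two packages which are consumed as statements (`FamStmt N`, the Kummer maps in family form,
and `LatStmt N S`, the lattice) are explicit hypotheses.
-/

set_option autoImplicit false

open scoped MatrixGroups
open ModularCurve AlgebraicCurve

namespace Fermat.Agent.S30.GeomJ

open Fermat.Agent.S29

/-- The statement of the Kummer maps in family form (`ThetaFam.exists_family N`). -/
def FamStmt (N : ℕ) [NeZero N] : Prop :=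
  ∃ Θ : ∀ m : ℕ, S29.peHoms N (ZMod m) →+ ModularCurve.JZero N,
    (∀ m : ℕ, 0 < m → Function.Injective (Θ m)) ∧
    (∀ (m : ℕ), 0 < m → ∀ (ℓ : ℕ) [Fact ℓ.Prime] (hℓN : ¬ ℓ ∣ N)
      (χ χ' : S29.peHoms N (ZMod m)),
      (∀ γ : S22.Gam N, (χ' : Additive (S22.Gam N) →+ ZMod m) (Additive.ofMul γ) =
        ∑ x : OnePoint (ZMod ℓ),
          (χ : Additive (S22.Gam N) →+ ZMod m) (Additive.ofMul (S22.gamT hℓN γ x))) →
      Θ m χ' = ModularCurve.heckeOperatorBar N ⟨ℓ, Fact.out⟩ (Θ m χ)) ∧
    ∀ (m d : ℕ), 0 < m → 0 < d → ∀ ψ : S29.peHoms N (ZMod (m * d)),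
      Θ m (redPE N (Dvd.intro d rfl) ψ) = d • Θ (m * d) ψ

/-- The statement of the lattice of integral PE characters (the conclusion of
`PerLatJ.exists_lattice N S hNS`). -/
def LatStmt (N : ℕ) [NeZero N] (S : Finset ℕ) : Prop :=
  ∃ (Λ : Type) (_ : AddCommGroup Λ) (_ : Module.Free ℤ Λ) (_ : Module.Finite ℤ Λ)
    (hecke : CuspForm.heckeAlgebra N 2 (↑S : Set ℕ) →+* Module.End ℤ Λ)
    (incl : Λ →+ (Additive (S22.Gam N) →+ ℤ)),
    Function.Injective hecke ∧ Function.Injective incl ∧ (∀ v : Λ, S29.IsPE (incl v)) ∧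
    (∀ (ψ : Additive (S22.Gam N) →+ ℤ) (k : ℕ), k ≠ 0 → (∃ v : Λ, incl v = k • ψ) →
      ∃ v : Λ, incl v = ψ) ∧
    ∀ (ℓ : ℕ) [Fact ℓ.Prime] (hℓN : ¬ ℓ ∣ N) (hℓS : ℓ ∉ (↑S : Set ℕ)) (v : Λ)
      (γ : S22.Gam N),
      incl (hecke (CuspForm.heckeAlgebra.T Fact.out hℓN hℓS) v) (Additive.ofMul γ) =
        ∑ x : OnePoint (ZMod ℓ), incl v (Additive.ofMul (S22.gamT hℓN γ x))

/-! ### Reduction of integral characters -/

section Red

variable {N : ℕ} {Λ : Type} [AddCommGroup Λ] (incl : Λ →+ (Additive (S22.Gam N) →+ ℤ))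
  (hPE : ∀ v : Λ, S29.IsPE (incl v))

/-- reduction modulo `k` of the integral PE characters of the lattice -/
noncomputable def red (k : ℕ) : Λ →+ S29.peHoms N (ZMod k) where
  toFun v := ⟨(Int.castAddHom (ZMod k)).comp (incl v), fun γ hγ => by
    show ((incl v (Additive.ofMul γ) : ℤ) : ZMod k) = 0
    rw [hPE v γ hγ, Int.cast_zero]⟩
  map_zero' := by
    apply Subtype.ext
    apply AddMonoidHom.ext
    intro γ
    show (((incl 0) γ : ℤ) : ZMod k) = 0
    rw [map_zero, AddMonoidHom.zero_apply, Int.cast_zero]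
  map_add' := by
    intro a b
    apply Subtype.ext
    apply AddMonoidHom.ext
    intro γ
    show (((incl (a + b)) γ : ℤ) : ZMod k) = ((incl a γ : ℤ) : ZMod k) + ((incl b γ : ℤ) : ZMod k)
    rw [map_add, AddMonoidHom.add_apply, Int.cast_add]

theorem red_apply (k : ℕ) (v : Λ) (γ : S22.Gam N) :
    ((red incl hPE k v : S29.peHoms N (ZMod k)) : Additive (S22.Gam N) →+ ZMod k)
      (Additive.ofMul γ) = ((incl v (Additive.ofMul γ) : ℤ) : ZMod k) := rfl

theorem red_apply' (k : ℕ) (v : Λ) (a : Additive (S22.Gam N)) :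
    ((red incl hPE k v : S29.peHoms N (ZMod k)) : Additive (S22.Gam N) →+ ZMod k) a
      = ((incl v a : ℤ) : ZMod k) := rfl

/-- `k` kills the reduction modulo `k`. -/
theorem nsmul_red (k : ℕ) (v : Λ) : k • red incl hPE k v = 0 := by
  apply Subtype.ext
  apply AddMonoidHom.ext
  intro a
  show (k • ((red incl hPE k v : S29.peHoms N (ZMod k)) : Additive (S22.Gam N) →+ ZMod k)) a = 0
  rw [AddMonoidHom.smul_apply, red_apply', nsmul_eq_mul, ZMod.natCast_self, zero_mul]

/-- the reductions at two levels are compatible -/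
theorem redPE_red {m m' : ℕ} (h : m ∣ m') (v : Λ) :
    redPE N h (red incl hPE m' v) = red incl hPE m v := by
  apply Subtype.ext
  apply AddMonoidHom.ext
  intro a
  show ZMod.castHom h (ZMod m) (((incl v a : ℤ) : ZMod m')) = ((incl v a : ℤ) : ZMod m)
  rw [map_intCast]

/-- an integral character whose reduction modulo `k` vanishes is `k` times a character -/
theorem exists_eq_nsmul_of_red_eq_zero {k : ℕ} (hk : k ≠ 0) (v : Λ)
    (h : red incl hPE k v = 0) :
    ∃ ψ : Additive (S22.Gam N) →+ ℤ, incl v = k • ψ := by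
  have hdvd : ∀ a : Additive (S22.Gam N), (k : ℤ) ∣ incl v a := by
    intro a
    have h1 : ((incl v a : ℤ) : ZMod k) = 0 := by
      have h2 := congrArg (fun χ : S29.peHoms N (ZMod k) =>
        (χ : Additive (S22.Gam N) →+ ZMod k) a) h
      exact h2
    exact (ZMod.intCast_zmod_eq_zero_iff_dvd _ k).mp h1
  have hk' : (k : ℤ) ≠ 0 := by exact_mod_cast hk
  refine ⟨{ toFun := fun a => incl v a / (k : ℤ)
            map_zero' := by rw [map_zero, Int.zero_ediv]
            map_add' := fun a b => by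
              rw [map_add, Int.add_ediv_of_dvd_left (hdvd a)] }, ?_⟩
  apply AddMonoidHom.ext
  intro a
  rw [AddMonoidHom.smul_apply]
  show incl v a = k • (incl v a / (k : ℤ))
  rw [nsmul_eq_mul, Int.mul_ediv_cancel' (hdvd a)]

end Red

/-! ### The geometric input -/

/-- the `p`-torsion of `J₀(N)(ℚ̄)` is finite -/
theorem finite_torsion (p : ℕ) [NeZero p] (N : ℕ) [NeZero N] :
    Finite {x : JZero N // p • x = 0} := by
  have := KFin.finite_Jtors N p
  let f : {x : JZero N // p • x = 0} → Jtors N p := fun x =>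
    ⟨x.1, Pic0.mem_torsion.mpr (by rw [natCast_zsmul]; exact x.2)⟩
  have hf : Function.Injective f := by
    intro a b hab
    apply Subtype.ext
    exact congrArg (fun y : Jtors N p => (y : JZero N)) hab
  exact Finite.of_injective f hf

/-- **The concrete geometric input**: `J₀(N)(ℚ̄)` with its Hecke operators, the lattice of
integral PE characters and the Kummer maps, from the Kummer family and the lattice. -/
theorem exists_geomInput_of (p : ℕ) [Fact p.Prime] (N : ℕ) [NeZero N] (S : Finset ℕ)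
    (hFam : FamStmt N) (hLat : LatStmt N S) :
    ∃ I : GeomInput p N S, I.Compat ∧ I.FiniteTors := by
  have hp : p.Prime := Fact.out
  have : NeZero p := ⟨hp.ne_zero⟩
  obtain ⟨Θ, hΘinj, hΘhecke, hΘfam⟩ := hFam
  obtain ⟨Λ, iΛ, iFree, iFin, hecke, incl, hhinj, hiinj, hPE, hsat, hformula⟩ := hLat
  have hpn : ∀ n : ℕ, 0 < p ^ n := fun n => pow_pos hp.pos n
  -- a prime different from `p` does not divide the powers of `p`
  have hndvd : ∀ q : ℕ, q.Prime → q ≠ p → ∀ n : ℕ, ¬ q ∣ p ^ n := by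
    intro q hq hqp n hdvd
    exact hqp ((Nat.prime_dvd_prime_iff_eq hq hp).mp (hq.dvd_of_dvd_pow hdvd))
  let I : GeomInput p N S :=
    { X := JZero N
      T := fun ℓ => (heckeOperatorBar N ℓ).toAddMonoidHom
      comm := fun ℓ σ x => GalHeckeComm.galois_smul_heckeOperatorBar N ℓ σ x
      stab := fun x => OpenStab.exists_finiteDimensional_fixing N x
      inertia := fun q hq hqN hqp A hA σ hσ n x hx =>
        GalES.inertia_smul_eq N hq hqN A hA hσ (hndvd q hq hqp n) hx
      frob := fun ℓ hℓ hℓN hℓp A hA s hs n x hx =>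
        GalES.frobenius_quadratic N hℓ hℓN A hA hs (hndvd ℓ hℓ hℓp n) hx
      Λ := Λ
      hecke := hecke
      hecke_injective := hhinj
      θ := fun n => (Θ (p ^ n)).comp (red incl hPE (p ^ n))
      θ_tors := fun n v => by
        show p ^ n • Θ (p ^ n) (red incl hPE (p ^ n) v) = 0
        rw [← map_nsmul, nsmul_red, map_zero]
      θ_ker := fun n v hv => by
        have h1 : red incl hPE (p ^ n) v = 0 := by
          apply hΘinj (p ^ n) (hpn n)
          rw [map_zero]
          exact hv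
        obtain ⟨ψ, hψ⟩ := exists_eq_nsmul_of_red_eq_zero incl hPE (hpn n).ne' v h1
        obtain ⟨w, hw⟩ := hsat ψ (p ^ n) (hpn n).ne' ⟨v, hψ⟩
        refine ⟨w, hiinj ?_⟩
        rw [map_nsmul, hw, hψ]
      θ_hecke := fun n ℓ hℓ hℓN hℓS v => by
        have : Fact ℓ.Prime := ⟨hℓ⟩
        show Θ (p ^ n) (red incl hPE (p ^ n) (hecke (CuspForm.heckeAlgebra.T hℓ hℓN hℓS) v))
          = heckeOperatorBar N ⟨ℓ, hℓ⟩ (Θ (p ^ n) (red incl hPE (p ^ n) v))
        refine hΘhecke (p ^ n) (hpn n) ℓ hℓN (red incl hPE (p ^ n) v)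
          (red incl hPE (p ^ n) (hecke (CuspForm.heckeAlgebra.T hℓ hℓN hℓS) v)) (fun γ => ?_)
        rw [red_apply]
        simp only [red_apply]
        rw [hformula ℓ hℓN hℓS v γ, Int.cast_sum] }
  refine ⟨I, ?_, ?_⟩
  · -- compatibility
    intro n v
    show p • Θ (p ^ (n + 1)) (red incl hPE (p ^ (n + 1)) v) = Θ (p ^ n) (red incl hPE (p ^ n) v)
    have hcongr : ∀ k k' : ℕ, k = k' → Θ k (red incl hPE k v) = Θ k' (red incl hPE k' v) := by
      intro k k' h
      subst h
      rfl
    rw [hcongr (p ^ (n + 1)) (p ^ n * p) (pow_succ p n),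
      ← hΘfam (p ^ n) p (hpn n) hp.pos (red incl hPE (p ^ n * p) v), redPE_red]
  · exact finite_torsion p N

end Fermat.Agent.S30.GeomJ
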