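import Mathlib
import Fermat.Prelude.Def_GaloisRep_Adic

/-!
# Lattices in stable subspaces (phase B of wave 5)

Let `O` be a discrete valuation ring with fraction field `K`, `T` a finite free `O`-module with
an action of a monoid `G`, `j : T → V` an injective `O`-linear map into a `K`-vector space
compatible with a `K`-linear action of `G` on `V`, and `W ⊆ V` a `G`-stable `K`-subspace all of
whose elements have a nonzero `O`-multiple in `j T`.  Then `L := j⁻¹ W` is a `G`-stable,
saturated, free `O`-submodule of `T` of rank `dim_K W`, the characteristic polynomial of every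
`g` on `L` is the one on `W`, and adic continuity of the action on `T` passes to `L`.
For `G = Gal(ℚ̄/ℚ)` and `dim W = 2` this produces a `GaloisRepAdic O`.
-/

set_option autoImplicit false

open Module Polynomial

namespace Fermat.Agent.S30.LatticeRep

section Lattice

variable (O : Type) [CommRing O] [IsDomain O] [IsPrincipalIdealRing O]
  (K : Type*) [Field K] [Algebra O K] [IsFractionRing O K]
  {T : Type} [AddCommGroup T] [Module O T] [Module.Free O T] [Module.Finite O T]
  {V : Type*} [AddCommGroup V] [Module K V] [Module O V] [IsScalarTower O K V]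
  (j : T →ₗ[O] V) (W : Submodule K V)

/-- The lattice `j⁻¹ W`. -/
def lattice : Submodule O T := (W.restrictScalars O).comap j

variable {K j W}

omit [IsDomain O] [IsPrincipalIdealRing O] [IsFractionRing O K] [Module.Free O T]
  [Module.Finite O T] in
theorem mem_lattice {t : T} : t ∈ lattice O K j W ↔ j t ∈ W := Iff.rfl

omit [IsPrincipalIdealRing O] [Module.Free O T] [Module.Finite O T] in
/-- The lattice is saturated. -/
theorem lattice_saturated {a : O} (ha : a ≠ 0) {t : T} (h : a • t ∈ lattice O K j W) :
    t ∈ lattice O K j W := by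
  rw [mem_lattice] at h ⊢
  rw [map_smul, ← algebraMap_smul K a (j t)] at h
  have ha' : algebraMap O K a ≠ 0 := by
    rwa [Ne, IsFractionRing.to_map_eq_zero_iff]
  have := W.smul_mem (algebraMap O K a)⁻¹ h
  rwa [smul_smul, inv_mul_cancel₀ ha', one_smul] at this

variable (hj : Function.Injective j)
  (hspan : ∀ w ∈ W, ∃ r : O, r ≠ 0 ∧ ∃ t : T, j t = r • w)

include hj hspan in
/-- An `O`-basis of the lattice gives a `K`-basis of `W`. -/
theorem exists_basis {ι : Type*} [Fintype ι] (b : Basis ι O (lattice O K j W)) :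
    ∃ b' : Basis ι K W, ∀ i, ((b' i : W) : V) = j (b i : T) := by
  classical
  let v : ι → W := fun i => ⟨j (b i : T), (b i).2⟩
  have hli0 : LinearIndependent O (fun i => j (b i : T)) := by
    have h1 : LinearIndependent O (fun i => ((b i : lattice O K j W) : T)) :=
      b.linearIndependent.map' (lattice O K j W).subtype (Submodule.ker_subtype _)
    exact h1.map' j (LinearMap.ker_eq_bot.mpr hj)
  have hliK : LinearIndependent K (fun i => j (b i : T)) :=
    (LinearIndependent.iff_fractionRing O K).mp hli0
  have hli : LinearIndependent K v := by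
    have : (fun i => j (b i : T)) = W.subtype ∘ v := rfl
    rw [this] at hliK
    exact LinearIndependent.of_comp W.subtype hliK
  have hsp : ⊤ ≤ Submodule.span K (Set.range v) := by
    rintro ⟨w, hw⟩ -
    obtain ⟨r, hr, t, ht⟩ := hspan w hw
    have htL : t ∈ lattice O K j W := by
      rw [mem_lattice, ht, ← algebraMap_smul K r w]
      exact W.smul_mem _ hw
    have hr' : algebraMap O K r ≠ 0 := by
      rwa [Ne, IsFractionRing.to_map_eq_zero_iff]
    have hrepr := b.sum_repr ⟨t, htL⟩
    have hw' : (⟨w, hw⟩ : W) = (algebraMap O K r)⁻¹ •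
        ∑ i, (algebraMap O K (b.repr ⟨t, htL⟩ i)) • v i := by
      apply Subtype.ext
      rw [Submodule.coe_smul, Submodule.coe_sum]
      have h1 : ∑ i, ((algebraMap O K (b.repr ⟨t, htL⟩ i) • v i : W) : V) = j t := by
        have h2 := congrArg (fun x : lattice O K j W => j (x : T)) hrepr
        simp only [Submodule.coe_sum, Submodule.coe_smul, map_sum, map_smul] at h2
        rw [← h2]
        refine Finset.sum_congr rfl fun i _ => ?_
        rw [Submodule.coe_smul, algebraMap_smul]
      rw [h1, ht, ← algebraMap_smul K r w, smul_smul, inv_mul_cancel₀ hr', one_smul]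
    rw [hw']
    refine Submodule.smul_mem _ _ (Submodule.sum_mem _ fun i _ => ?_)
    exact Submodule.smul_mem _ _ (Submodule.subset_span ⟨i, rfl⟩)
  refine ⟨Basis.mk hli hsp, fun i => ?_⟩
  rw [Basis.mk_apply]

include hj hspan in
/-- The rank of the lattice is the dimension of `W`. -/
theorem finrank_lattice : Module.finrank O (lattice O K j W) = Module.finrank K W := by
  classical
  let b := Module.Free.chooseBasis O (lattice O K j W)
  obtain ⟨b', -⟩ := exists_basis O hj hspan b
  rw [Module.finrank_eq_card_basis b, Module.finrank_eq_card_basis b']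

include hj hspan in
/-- Characteristic polynomials on the lattice and on `W` agree. -/
theorem charpoly_restrict (f : Module.End O T) (F : Module.End K V)
    (hfF : ∀ t, F (j t) = j (f t)) (hW : ∀ w ∈ W, F w ∈ W)
    (hL : ∀ t ∈ lattice O K j W, f t ∈ lattice O K j W) :
    haveI : Module.Finite K W := by
      obtain ⟨b', -⟩ := exists_basis O hj hspan (Module.Free.chooseBasis O (lattice O K j W))
      exact Module.Finite.of_basis b'
    (LinearMap.charpoly (f.restrict hL)).map (algebraMap O K)
      = LinearMap.charpoly (F.restrict hW) := by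
  classical
  let b := Module.Free.chooseBasis O (lattice O K j W)
  obtain ⟨b', hb'⟩ := exists_basis O hj hspan b
  haveI : Module.Finite K W := Module.Finite.of_basis b'
  rw [← LinearMap.charpoly_toMatrix (f.restrict hL) b,
    ← LinearMap.charpoly_toMatrix (F.restrict hW) b', ← Matrix.charpoly_map]
  congr 1
  ext i k
  rw [Matrix.map_apply, LinearMap.toMatrix_apply, LinearMap.toMatrix_apply]
  -- expand `f (b k)` in the basis `b` and transport along `j`
  have h1 := b.sum_repr ((f.restrict hL) (b k))
  have h2 : (F.restrict hW) (b' k)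
      = ∑ i, algebraMap O K (b.repr ((f.restrict hL) (b k)) i) • b' i := by
    apply Subtype.ext
    rw [Submodule.coe_sum]
    show F ((b' k : W) : V) = _
    rw [hb', hfF]
    have h3 := congrArg (fun x : lattice O K j W => j (x : T)) h1
    simp only [Submodule.coe_sum, Submodule.coe_smul, map_sum, map_smul,
      LinearMap.restrict_apply] at h3
    rw [← h3]
    refine Finset.sum_congr rfl fun i _ => ?_
    rw [Submodule.coe_smul, hb', algebraMap_smul]
    rfl
  rw [h2, map_sum]
  simp only [map_smul, Basis.repr_self, Finsupp.smul_single, smul_eq_mul, mul_one,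
    Finsupp.coe_finsetSum, Finset.sum_apply, Finsupp.single_apply]
  rw [Finset.sum_eq_single i]
  · simp
  · intro c _ hc
    simp [hc]
  · intro h
    exact absurd (Finset.mem_univ i) h

end Lattice

section Rep

variable (O : Type) [CommRing O] [IsDomain O] [IsDiscreteValuationRing O]
  (K : Type*) [Field K] [Algebra O K] [IsFractionRing O K]
  {T : Type} [AddCommGroup T] [Module O T] [Module.Free O T] [Module.Finite O T]
  {V : Type*} [AddCommGroup V] [Module K V] [Module O V] [IsScalarTower O K V]
  {j : T →ₗ[O] V} {W : Submodule K V}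

omit [Module.Free O T] [Module.Finite O T] in
/-- `𝔪ⁿ T ∩ L ⊆ 𝔪ⁿ L` for the saturated lattice `L`. -/
theorem mem_pow_smul_top_lattice (n : ℕ) (x : lattice O K j W)
    (hx : (x : T) ∈ (IsLocalRing.maximalIdeal O ^ n) • (⊤ : Submodule O T)) :
    x ∈ (IsLocalRing.maximalIdeal O ^ n) • (⊤ : Submodule O (lattice O K j W)) := by
  obtain ⟨ϖ, hϖ⟩ := IsDiscreteValuationRing.exists_irreducible O
  rw [hϖ.maximalIdeal_eq, Ideal.span_singleton_pow, Submodule.ideal_span_singleton_smul] at hx ⊢
  obtain ⟨t, -, ht⟩ := (Submodule.mem_smul_pointwise_iff_exists _ _ _).mp hx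
  have htL : t ∈ lattice O K j W :=
    lattice_saturated O (pow_ne_zero n hϖ.ne_zero) (by rw [ht]; exact x.2)
  exact (Submodule.mem_smul_pointwise_iff_exists _ _ _).mpr
    ⟨⟨t, htL⟩, Submodule.mem_top, Subtype.ext ht⟩

/-- The action on the lattice. -/
def latticeRep {G : Type*} [Monoid G] (ρT : G →* Module.End O T)
    (hL : ∀ g, ∀ t ∈ lattice O K j W, ρT g t ∈ lattice O K j W) :
    G →* Module.End O (lattice O K j W) where
  toFun g := (ρT g).restrict (hL g)
  map_one' := by
    ext x
    simp
  map_mul' g h := by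
    ext x
    simp [map_mul]

omit [Module.Free O T] [Module.Finite O T] in
theorem latticeRep_apply_coe {G : Type*} [Monoid G] (ρT : G →* Module.End O T)
    (hL : ∀ g, ∀ t ∈ lattice O K j W, ρT g t ∈ lattice O K j W) (g : G)
    (x : lattice O K j W) : ((latticeRep O K ρT hL g x : lattice O K j W) : T) = ρT g x :=
  rfl

local notation "GQ" => (AlgebraicClosure ℚ ≃ₐ[ℚ] AlgebraicClosure ℚ)

/-- **The lattice representation.** A `G_ℚ`-stable plane `W` in `V`, rational with respect to
the lattice `j T`, carries a `GaloisRepAdic O` whose characteristic polynomials are those of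
the action on `W`, and which is trivial wherever the action on `T` is. -/
theorem exists_galoisRepAdic (hj : Function.Injective j)
    (hspan : ∀ w ∈ W, ∃ r : O, r ≠ 0 ∧ ∃ t : T, j t = r • w)
    (ρT : GQ →* Module.End O T) (ρV : GQ →* Module.End K V)
    (hcomp : ∀ g t, ρV g (j t) = j (ρT g t)) (hW : ∀ g, ∀ w ∈ W, ρV g w ∈ W)
    (hcont : GaloisActionIsAdicContinuous O ρT) (h2 : Module.finrank K W = 2) :
    haveI : Module.Finite K W := Module.finite_of_finrank_pos (by rw [h2]; norm_num)
    ∃ ρ : GaloisRepAdic O,
      (∀ σ : GQ, (LinearMap.charpoly (ρ.ρ σ)).map (algebraMap O K)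
        = LinearMap.charpoly ((ρV σ).restrict (hW σ))) ∧
      (∀ σ : GQ, ρT σ = 1 → ρ.ρ σ = 1) := by
  have hL : ∀ g, ∀ t ∈ lattice O K j W, ρT g t ∈ lattice O K j W := by
    intro g t ht
    rw [mem_lattice, ← hcomp]
    exact hW g _ ht
  refine ⟨{ V := lattice O K j W
            finrank_eq := by rw [finrank_lattice O hj hspan, h2]
            ρ := latticeRep O K ρT hL
            isAdicContinuous := ?_ }, ?_, ?_⟩
  · intro n
    obtain ⟨L, hLfin, hLσ⟩ := hcont n
    refine ⟨L, hLfin, fun σ hσ v => ?_⟩
    apply mem_pow_smul_top_lattice O K n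
    have := hLσ σ hσ (v : T)
    simpa [latticeRep_apply_coe] using this
  · intro σ
    exact charpoly_restrict O hj hspan (ρT σ) (ρV σ) (hcomp σ) (hW σ) (hL σ)
  · intro σ hσ
    ext x
    show ρT σ (x : T) = _
    rw [hσ]
    rfl

end Rep

section Closed

variable (O : Type) [CommRing O] [IsDomain O] [IsDiscreteValuationRing O]
  (K : Type*) [Field K] [Algebra O K] [IsFractionRing O K]
  {T : Type*} [AddCommGroup T] [Module O T] [Module.Finite O T]
  {V : Type*} [AddCommGroup V] [Module K V] [Module O V] [IsScalarTower O K V]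
  (j : T →ₗ[O] V)

/-- **Closedness of lines.** If `v` is congruent to an `O`-multiple of `w` modulo `ϖⁿ (j T)` for
every `n`, then `v` lies on the line `K w`. (No completeness is needed.) -/
theorem mem_span_singleton_of_forall_close {ϖ : O} (hϖ : Irreducible ϖ) {v w : V}
    (h : ∀ n : ℕ, ∃ a : O, ∃ t : T, v - a • w = j (ϖ ^ n • t)) :
    v ∈ Submodule.span K {w} := by
  classical
  by_contra hv
  obtain ⟨φ, hφv, hφw⟩ := Submodule.exists_dual_map_eq_bot_of_notMem hv inferInstance
  have hφw' : φ w = 0 := by
    have : φ w ∈ (Submodule.span K {w}).map φ :=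
      Submodule.mem_map_of_mem (Submodule.mem_span_singleton_self w)
    rw [hφw] at this
    exact (Submodule.mem_bot K).mp this
  -- a common denominator for `φ ∘ j` on the finitely generated module `T`
  obtain ⟨s, hs⟩ := (Module.Finite.fg_top : (⊤ : Submodule O T).FG)
  obtain ⟨d, hd⟩ := IsLocalization.exist_integer_multiples_of_finset (nonZeroDivisors O)
    (s.image fun t => φ (j t))
  have hd0 : (d : O) ≠ 0 := nonZeroDivisors.ne_zero d.2
  have hint : ∀ t : T, ∃ c : O, algebraMap O K c = (d : O) • φ (j t) := by
    intro t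
    have ht : t ∈ Submodule.span O (s : Set T) := by rw [hs]; exact Submodule.mem_top
    induction ht using Submodule.span_induction with
    | mem x hx =>
      obtain ⟨c, hc⟩ := hd (φ (j x)) (Finset.mem_image_of_mem _ hx)
      exact ⟨c, hc⟩
    | zero => exact ⟨0, by simp⟩
    | add x y _ _ hx hy =>
      obtain ⟨c, hc⟩ := hx
      obtain ⟨c', hc'⟩ := hy
      exact ⟨c + c', by rw [map_add, hc, hc', map_add, map_add, smul_add]⟩
    | smul a x _ hx =>
      obtain ⟨c, hc⟩ := hx
      refine ⟨a * c, ?_⟩
      rw [map_mul, hc, map_smul, ← algebraMap_smul K a (j x), map_smul, smul_eq_mul,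
        Algebra.smul_def, Algebra.smul_def]
      ring
  -- `d • φ v` is divisible by every power of `ϖ`
  obtain ⟨c₀, hc₀⟩ : ∃ c₀ : O, algebraMap O K c₀ = (d : O) • φ v := by
    obtain ⟨a, t, hat⟩ := h 0
    obtain ⟨c, hc⟩ := hint t
    refine ⟨c, ?_⟩
    rw [hc]
    have : φ v = φ (j t) := by
      have h1 := congrArg φ hat
      rw [pow_zero, one_smul, map_sub, ← algebraMap_smul K a w, map_smul, hφw', smul_zero,
        sub_zero] at h1
      exact h1
    rw [this]
  have hdiv : ∀ n : ℕ, ϖ ^ n ∣ c₀ := by
    intro n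
    obtain ⟨a, t, hat⟩ := h n
    obtain ⟨c, hc⟩ := hint t
    refine ⟨c, ?_⟩
    apply IsFractionRing.injective O K
    rw [hc₀, map_mul, hc]
    have h1 := congrArg φ hat
    rw [map_sub, ← algebraMap_smul K a w, map_smul, hφw', smul_zero, sub_zero, map_smul,
      ← algebraMap_smul K (ϖ ^ n) (j t), map_smul, smul_eq_mul] at h1
    rw [h1, Algebra.smul_def, Algebra.smul_def]
    ring
  have hc₀0 : c₀ = 0 := by
    by_contra hne
    obtain ⟨n, u, hu⟩ := IsDiscreteValuationRing.eq_unit_mul_pow_irreducible hne hϖ
    obtain ⟨e, he⟩ := hdiv (n + 1)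
    rw [hu, pow_succ] at he
    have h2 : (u : O) = ϖ * e := by
      have h3 : ϖ ^ n * (u : O) = ϖ ^ n * (ϖ * e) := by
        rw [mul_comm (ϖ ^ n) (u : O), he]
        ring
      exact mul_left_cancel₀ (pow_ne_zero n hϖ.ne_zero) h3
    have hunit : IsUnit ϖ := isUnit_of_mul_isUnit_left (h2 ▸ u.isUnit)
    exact hϖ.not_isUnit hunit
  apply hφv
  have h4 : (d : O) • φ v = 0 := by rw [← hc₀, hc₀0, map_zero]
  rw [Algebra.smul_def] at h4
  rcases mul_eq_zero.mp h4 with h5 | h5
  · exact absurd ((IsFractionRing.to_map_eq_zero_iff).mp h5) hd0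
  · exact h5

end Closed

end Fermat.Agent.S30.LatticeRep
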