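import Mathlib
import Fermat.Agent.S30.Defs
import Fermat.Agent.S30.PowerSum
import Fermat.Agent.S30.Limit

/-!
# Phase B (S30): the quadratic relation for all Galois elements, matrix form

`QuadAll.exists_scalar`: on the `χ`-eigenspace (inside `Kʳ`) of a matrix model of the Tate
module, every `g ∈ G_ℚ` satisfies `R g + ε g • R g⁻¹ = t` for a scalar `t`.

Proof: at level `n`, weak Chebotarev writes `g = φ ^ i * h` with `φ` a Frobenius lift at a prime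
`ℓ ∉ S` and `h`, `h⁻¹` trivial on the level; Eichler–Shimura gives
`R φ ^ i + ℓ ^ i • R φ⁻¹ ^ i = psum (Tm ℓ) ℓ i` (a polynomial in `Tm ℓ`), so on an eigenvector
`v` the vector `u = (R g + ε g • R g⁻¹) v` is `ϖⁿ`-close to `O · v` for every `n`; the limit lemma
gives `u ∈ K · v`, and a linear map all of whose vectors (in a subspace) are eigenvectors is a
scalar there.
-/

set_option autoImplicit false
set_option linter.unusedVariables false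
set_option linter.unusedSectionVars false
set_option linter.style.haveILetI false

namespace Fermat.Agent.S30

namespace QuadAll

open Matrix

/-- A linear map which maps every vector of a subspace to a multiple of itself is a scalar on
that subspace. -/
theorem exists_scalar_of_forall {K V : Type*} [Field K] [AddCommGroup V] [Module K V]
    (E : V → Prop) (hadd : ∀ v w, E v → E w → E (v + w)) (B : V →ₗ[K] V)
    (h : ∀ v, E v → ∃ c : K, B v = c • v) : ∃ t : K, ∀ v, E v → B v = t • v := by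
  by_cases h0 : ∀ v, E v → v = 0
  · exact ⟨0, fun v hv => by rw [h0 v hv]; simp⟩
  · push Not at h0
    obtain ⟨v₀, hv₀, hv₀0⟩ := h0
    obtain ⟨t, ht⟩ := h v₀ hv₀
    refine ⟨t, fun w hw => ?_⟩
    obtain ⟨c, hc⟩ := h w hw
    obtain ⟨c', hc'⟩ := h (v₀ + w) (hadd _ _ hv₀ hw)
    rw [map_add, ht, hc] at hc'
    by_cases hcc : c' = c
    · have h1 : (t - c) • v₀ = 0 := by
        rw [hcc] at hc'
        linear_combination (norm := module) hc'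
      rcases smul_eq_zero.mp h1 with h2 | h2
      · rw [hc, ← sub_eq_zero.mp h2]
      · exact absurd h2 hv₀0
    · have h1 : (c' - c) • w = (t - c') • v₀ := by
        linear_combination (norm := module) (-1 : K) • hc'
      have h2 : w = ((c' - c)⁻¹ * (t - c')) • v₀ := by
        rw [mul_smul, ← h1, smul_smul, inv_mul_cancel₀ (sub_ne_zero.mpr hcc), one_smul]
      rw [h2, map_smul, ht, smul_comm]

/-- Power sums act on eigenvectors through the power sums of the eigenvalue. -/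
theorem psum_mulVec {K : Type*} [Field K] {r : ℕ} (t : Matrix (Fin r) (Fin r) K) (ℓ : ℕ)
    (lam : K) (v : Fin r → K) (hv : t *ᵥ v = lam • v) (i : ℕ) :
    (PowerSum.psum t (ℓ : Matrix (Fin r) (Fin r) K) i) *ᵥ v =
      PowerSum.psum lam (ℓ : K) i • v := by
  induction i using Nat.strong_induction_on with
  | _ i ih =>
    match i, ih with
    | 0, _ =>
      rw [PowerSum.psum_zero, PowerSum.psum_zero, Matrix.ofNat_mulVec]
    | 1, _ => rw [PowerSum.psum_one, PowerSum.psum_one, hv]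
    | (i + 2), ih =>
      rw [PowerSum.psum_add_two, PowerSum.psum_add_two, Matrix.sub_mulVec, ← Matrix.mulVec_mulVec,
        ← Matrix.mulVec_mulVec, ih (i + 1) (by omega), ih i (by omega), Matrix.mulVec_smul, hv,
        Matrix.mulVec_smul, Matrix.natCast_mulVec]
      module

/-- The matrix congruence at level `n`: `R g + ε g • R g⁻¹` is, modulo `pⁿ`, a power sum of the
Hecke matrix at a prime outside `S`. -/
theorem exists_congr (p : ℕ) [Fact p.Prime] (N : ℕ) [NeZero N] (S : Finset ℕ)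
    (hpS : p ∈ S) (hNS : ∀ q : ℕ, q.Prime → q ∣ N → q ∈ S) (hcheb : WeakCheb)
    (ε : GQ →* ℤ_[p]ˣ)
    (hε_level : ∀ n : ℕ, ∃ L : IntermediateField ℚ Qb, FiniteDimensional ℚ L ∧
      ∀ σ : GQ, (∀ x ∈ L, σ x = x) →
        ∃ w : ℤ_[p], ((ε σ : ℤ_[p]ˣ) : ℤ_[p]) = 1 + (p : ℤ_[p]) ^ n * w)
    (hε_frob : ∀ ℓ : ℕ, ℓ.Prime → ℓ ≠ p → ∀ A : ValuationSubring Qb, A.LiesOverPrime ℓ →
      ∀ s : GQ, A.IsFrobeniusAt s ℓ → ((ε s : ℤ_[p]ˣ) : ℤ_[p]) = (ℓ : ℤ_[p]))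
    {r : ℕ} (R : GQ →* Matrix (Fin r) (Fin r) ℤ_[p])
    (Tm : Nat.Primes → Matrix (Fin r) (Fin r) ℤ_[p])
    (hcont : ∀ n : ℕ, ∃ L : IntermediateField ℚ Qb, FiniteDimensional ℚ L ∧
      ∀ σ : GQ, (∀ x ∈ L, σ x = x) →
        ∃ W : Matrix (Fin r) (Fin r) ℤ_[p], R σ = 1 + (p : ℤ_[p]) ^ n • W)
    (hfrob : ∀ (ℓ : ℕ) (hℓ : ℓ.Prime), ¬ ℓ ∣ N → ℓ ≠ p → ∀ A : ValuationSubring Qb,
      A.LiesOverPrime ℓ → ∀ σ : GQ, A.IsFrobeniusAt σ ℓ →
        R σ * R σ - Tm ⟨ℓ, hℓ⟩ * R σ + (ℓ : Matrix (Fin r) (Fin r) ℤ_[p]) = 0)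
    (g : GQ) (n : ℕ) :
    ∃ (ℓ : ℕ) (hℓ : ℓ.Prime) (hℓN : ¬ ℓ ∣ N) (hℓS : ℓ ∉ (↑S : Set ℕ)) (i : ℕ)
      (W : Matrix (Fin r) (Fin r) ℤ_[p]),
      R g + ((ε g : ℤ_[p]ˣ) : ℤ_[p]) • R g⁻¹ =
        PowerSum.psum (Tm ⟨ℓ, hℓ⟩) (ℓ : Matrix (Fin r) (Fin r) ℤ_[p]) i + (p : ℤ_[p]) ^ n • W := by
  obtain ⟨L₁, hL₁, hR⟩ := hcont n
  obtain ⟨L₂, hL₂, hE⟩ := hε_level n
  haveI := hL₁
  haveI := hL₂
  obtain ⟨ℓ, A, φ, i, hℓ, hℓS, hA, hφ, hag⟩ := hcheb (L₁ ⊔ L₂) S g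
  have hℓp : ℓ ≠ p := fun h => hℓS (h ▸ hpS)
  have hℓN : ¬ ℓ ∣ N := fun h => hℓS (hNS ℓ hℓ h)
  have hℓS' : ℓ ∉ (↑S : Set ℕ) := fun h => hℓS (Finset.mem_coe.mp h)
  set h : GQ := (φ ^ i)⁻¹ * g with hh
  have hfix : ∀ x ∈ L₁ ⊔ L₂, h x = x := by
    intro x hx
    rw [hh, AlgEquiv.mul_apply, hag x hx, ← AlgEquiv.mul_apply, inv_mul_cancel,
      AlgEquiv.one_apply]
  have hfix' : ∀ x ∈ L₁ ⊔ L₂, h⁻¹ x = x := by
    intro x hx
    conv_lhs => rw [← hfix x hx]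
    rw [← AlgEquiv.mul_apply, inv_mul_cancel, AlgEquiv.one_apply]
  have hle1 : L₁ ≤ L₁ ⊔ L₂ := le_sup_left
  have hle2 : L₂ ≤ L₁ ⊔ L₂ := le_sup_right
  obtain ⟨W, hW⟩ := hR h (fun x hx => hfix x (hle1 hx))
  obtain ⟨W', hW'⟩ := hR h⁻¹ (fun x hx => hfix' x (hle1 hx))
  obtain ⟨w, hw⟩ := hE h (fun x hx => hfix x (hle2 hx))
  have hg : g = φ ^ i * h := by rw [hh, mul_inv_cancel_left]
  have hginv : g⁻¹ = h⁻¹ * φ⁻¹ ^ i := by rw [hg, _root_.mul_inv_rev, inv_pow]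
  set F := R φ with hF
  set F' := R φ⁻¹ with hF'
  have h1 : F * F' = 1 := by rw [hF, hF', ← map_mul, mul_inv_cancel, map_one]
  have h2 : F' * F = 1 := by rw [hF, hF', ← map_mul, inv_mul_cancel, map_one]
  have hES : F * F - Tm ⟨ℓ, hℓ⟩ * F + (ℓ : Matrix (Fin r) (Fin r) ℤ_[p]) = 0 :=
    hfrob ℓ hℓ hℓN hℓp A hA φ hφ
  have ht : F + (ℓ : Matrix (Fin r) (Fin r) ℤ_[p]) * F' = Tm ⟨ℓ, hℓ⟩ := by
    have h3 := congrArg (· * F') hES
    simp only [add_mul, sub_mul, zero_mul, mul_assoc, h1, mul_one] at h3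
    rw [← sub_eq_zero, ← h3]
    abel
  have hps := PowerSum.pow_add_pow_eq_psum (Tm ⟨ℓ, hℓ⟩) (ℓ : Matrix (Fin r) (Fin r) ℤ_[p]) F F'
    h1 h2 (Nat.cast_commute ℓ F) (Nat.cast_commute ℓ F') ht i
  have hℓmat : (ℓ : Matrix (Fin r) (Fin r) ℤ_[p]) ^ i * F' ^ i = ((ℓ : ℤ_[p]) ^ i) • F' ^ i := by
    rw [← map_natCast (algebraMap ℤ_[p] (Matrix (Fin r) (Fin r) ℤ_[p])), ← map_pow,
      Algebra.algebraMap_eq_smul_one, smul_mul_assoc, one_mul]
  have hRg : R g = F ^ i * (1 + (p : ℤ_[p]) ^ n • W) := by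
    rw [hg, map_mul, map_pow, hW]
  have hRginv : R g⁻¹ = (1 + (p : ℤ_[p]) ^ n • W') * F' ^ i := by
    rw [hginv, map_mul, map_pow, hW']
  have hεg : ((ε g : ℤ_[p]ˣ) : ℤ_[p]) = (ℓ : ℤ_[p]) ^ i * (1 + (p : ℤ_[p]) ^ n * w) := by
    rw [hg, map_mul, map_pow, Units.val_mul, Units.val_pow_eq_pow_val, hw,
      hε_frob ℓ hℓ hℓp A hA φ hφ]
  refine ⟨ℓ, hℓ, hℓN, hℓS', i, F ^ i * W + ((ℓ : ℤ_[p]) ^ i * w) • F' ^ i +
    ((ℓ : ℤ_[p]) ^ i * (1 + (p : ℤ_[p]) ^ n * w)) • (W' * F' ^ i), ?_⟩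
  rw [← hps, hℓmat, hRg, hRginv, hεg]
  simp only [mul_add, add_mul, mul_one, one_mul, mul_smul_comm, smul_mul_assoc]
  module

/-- **QuadAll** (interface of phase B, verbatim). -/
theorem exists_scalar (p : ℕ) [Fact p.Prime] (N : ℕ) [NeZero N] (S : Finset ℕ)
    (hpS : p ∈ S) (hNS : ∀ q : ℕ, q.Prime → q ∣ N → q ∈ S) (hcheb : WeakCheb)
    (ε : GQ →* ℤ_[p]ˣ)
    (hε_level : ∀ n : ℕ, ∃ L : IntermediateField ℚ Qb, FiniteDimensional ℚ L ∧
      ∀ σ : GQ, (∀ x ∈ L, σ x = x) →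
        ∃ w : ℤ_[p], ((ε σ : ℤ_[p]ˣ) : ℤ_[p]) = 1 + (p : ℤ_[p]) ^ n * w)
    (hε_frob : ∀ ℓ : ℕ, ℓ.Prime → ℓ ≠ p → ∀ A : ValuationSubring Qb, A.LiesOverPrime ℓ →
      ∀ s : GQ, A.IsFrobeniusAt s ℓ → ((ε s : ℤ_[p]ˣ) : ℤ_[p]) = (ℓ : ℤ_[p]))
    {r : ℕ} (R : GQ →* Matrix (Fin r) (Fin r) ℤ_[p])
    (Tm : Nat.Primes → Matrix (Fin r) (Fin r) ℤ_[p])
    (hcomm : ∀ (ℓ : Nat.Primes) (σ : GQ), Tm ℓ * R σ = R σ * Tm ℓ)
    (hcont : ∀ n : ℕ, ∃ L : IntermediateField ℚ Qb, FiniteDimensional ℚ L ∧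
      ∀ σ : GQ, (∀ x ∈ L, σ x = x) →
        ∃ W : Matrix (Fin r) (Fin r) ℤ_[p], R σ = 1 + (p : ℤ_[p]) ^ n • W)
    (hfrob : ∀ (ℓ : ℕ) (hℓ : ℓ.Prime), ¬ ℓ ∣ N → ℓ ≠ p → ∀ A : ValuationSubring Qb,
      A.LiesOverPrime ℓ → ∀ σ : GQ, A.IsFrobeniusAt σ ℓ →
        R σ * R σ - Tm ⟨ℓ, hℓ⟩ * R σ + (ℓ : Matrix (Fin r) (Fin r) ℤ_[p]) = 0)
    {O : Type*} [CommRing O] [IsLocalRing O] [IsNoetherianRing O] (ι : ℤ_[p] →+* O)
    (hιp : ι (p : ℤ_[p]) ∈ IsLocalRing.maximalIdeal O)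
    {K : Type*} [Field K] [Algebra O K]
    (χ : CuspForm.heckeAlgebra N 2 (↑S : Set ℕ) →+* O) (g : GQ) :
    ∃ t : K, ∀ v : Fin r → K,
      (∀ (ℓ : ℕ) (hℓ : ℓ.Prime) (hℓN : ¬ ℓ ∣ N) (hℓS : ℓ ∉ (↑S : Set ℕ)),
        ((Tm ⟨ℓ, hℓ⟩).map ((algebraMap O K).comp ι)).mulVec v =
          algebraMap O K (χ (CuspForm.heckeAlgebra.T hℓ hℓN hℓS)) • v) →
      ((R g).map ((algebraMap O K).comp ι)).mulVec v +
          ((algebraMap O K).comp ι) ((ε g : ℤ_[p]ˣ) : ℤ_[p]) •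
            ((R g⁻¹).map ((algebraMap O K).comp ι)).mulVec v = t • v := by
  classical
  set f : ℤ_[p] →+* K := (algebraMap O K).comp ι with hf
  -- the `K`-linear map
  let B : (Fin r → K) →ₗ[K] (Fin r → K) :=
    Matrix.mulVecLin ((R g).map f) +
      f ((ε g : ℤ_[p]ˣ) : ℤ_[p]) • Matrix.mulVecLin ((R g⁻¹).map f)
  have hB : ∀ v, B v = ((R g).map f) *ᵥ v +
      f ((ε g : ℤ_[p]ˣ) : ℤ_[p]) • (((R g⁻¹).map f) *ᵥ v) := fun v => rfl
  -- the eigenspace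
  let E : (Fin r → K) → Prop := fun v =>
    ∀ (ℓ : ℕ) (hℓ : ℓ.Prime) (hℓN : ¬ ℓ ∣ N) (hℓS : ℓ ∉ (↑S : Set ℕ)),
      ((Tm ⟨ℓ, hℓ⟩).map f) *ᵥ v = algebraMap O K (χ (CuspForm.heckeAlgebra.T hℓ hℓN hℓS)) • v
  have hEadd : ∀ v w, E v → E w → E (v + w) := by
    intro v w hv hw ℓ hℓ hℓN hℓS
    rw [Matrix.mulVec_add, hv ℓ hℓ hℓN hℓS, hw ℓ hℓ hℓN hℓS, smul_add]
  have hsmulmap : ∀ (c : ℤ_[p]) (M : Matrix (Fin r) (Fin r) ℤ_[p]),
      (c • M).map f = f c • M.map f := by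
    intro c M
    ext a b
    simp [Matrix.map_apply, Matrix.smul_apply]
  have hstep : ∀ v, E v → ∃ c : K, B v = c • v := by
    intro v hv
    let P : Submodule O (Fin r → K) :=
      Submodule.span O (Set.range fun ab : Fin r × Fin r => (Pi.single ab.1 (v ab.2) : Fin r → K))
    have hP : P.FG := Submodule.fg_span (Set.finite_range _)
    refine Limit.exists_smul_eq_of_approx (ι (p : ℤ_[p])) hιp P hP (B v) v ?_
    intro n
    obtain ⟨ℓ, hℓ, hℓN, hℓS, i, W, hW⟩ :=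
      exists_congr p N S hpS hNS hcheb ε hε_level hε_frob R Tm hcont hfrob g n
    refine ⟨PowerSum.psum (χ (CuspForm.heckeAlgebra.T hℓ hℓN hℓS)) (ℓ : O) i,
      (W.map f) *ᵥ v, ?_, ?_⟩
    · -- membership in `P`
      have hy : (W.map f) *ᵥ v = ∑ a : Fin r, ∑ b : Fin r,
          ι (W a b) • (Pi.single a (v b) : Fin r → K) := by
        funext c
        have hR : (∑ a : Fin r, ∑ b : Fin r,
            ι (W a b) • (Pi.single a (v b) : Fin r → K)) c = ∑ b : Fin r, f (W c b) * v b := by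
          rw [Finset.sum_apply, Finset.sum_eq_single c]
          · rw [Finset.sum_apply]
            refine Finset.sum_congr rfl fun b _ => ?_
            rw [Pi.smul_apply, Pi.single_eq_same, Algebra.smul_def]
            rfl
          · intro a _ hac
            rw [Finset.sum_apply]
            refine Finset.sum_eq_zero fun b _ => ?_
            rw [Pi.smul_apply, Pi.single_eq_of_ne (Ne.symm hac), smul_zero]
          · intro hc
            exact absurd (Finset.mem_univ c) hc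
        rw [hR]
        rfl
      rw [hy]
      exact Submodule.sum_mem _ fun a _ => Submodule.sum_mem _ fun b _ =>
        Submodule.smul_mem _ _ (Submodule.subset_span ⟨(a, b), rfl⟩)
    · -- the approximation
      have hmap := congrArg (fun M : Matrix (Fin r) (Fin r) ℤ_[p] => (M.map f) *ᵥ v) hW
      have e1 : (R g + ((ε g : ℤ_[p]ˣ) : ℤ_[p]) • R g⁻¹).map f =
          (R g).map f + f ((ε g : ℤ_[p]ˣ) : ℤ_[p]) • (R g⁻¹).map f := by
        rw [← hsmulmap]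
        exact map_add f.mapMatrix _ _
      have e2 : (PowerSum.psum (Tm ⟨ℓ, hℓ⟩) (ℓ : Matrix (Fin r) (Fin r) ℤ_[p]) i +
          (p : ℤ_[p]) ^ n • W).map f =
          PowerSum.psum ((Tm ⟨ℓ, hℓ⟩).map f) (ℓ : Matrix (Fin r) (Fin r) K) i +
            f (p : ℤ_[p]) ^ n • W.map f := by
        have h3 := PowerSum.map_psum (Tm ⟨ℓ, hℓ⟩) (ℓ : Matrix (Fin r) (Fin r) ℤ_[p])
          f.mapMatrix i
        rw [map_natCast] at h3
        rw [← map_pow, ← hsmulmap]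
        exact (map_add f.mapMatrix _ _).trans (congrArg (· + _) h3)
      rw [e1, e2, Matrix.add_mulVec, Matrix.add_mulVec, Matrix.smul_mulVec, Matrix.smul_mulVec,
        psum_mulVec _ ℓ _ v (hv ℓ hℓ hℓN hℓS) i] at hmap
      have e3 : PowerSum.psum (algebraMap O K (χ (CuspForm.heckeAlgebra.T hℓ hℓN hℓS))) (ℓ : K) i
          = algebraMap O K (PowerSum.psum (χ (CuspForm.heckeAlgebra.T hℓ hℓN hℓS)) (ℓ : O) i) := by
        have h4 := PowerSum.map_psum (χ (CuspForm.heckeAlgebra.T hℓ hℓN hℓS)) (ℓ : O)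
          (algebraMap O K) i
        rw [map_natCast] at h4
        exact h4.symm
      rw [e3] at hmap
      rw [hB, hmap, ← algebraMap_smul K
        (PowerSum.psum (χ (CuspForm.heckeAlgebra.T hℓ hℓN hℓS)) (ℓ : O) i) v,
        add_sub_cancel_left, ← algebraMap_smul K (ι (p : ℤ_[p]) ^ n), map_pow]
      rfl
  obtain ⟨t, ht⟩ := exists_scalar_of_forall E hEadd B hstep
  exact ⟨t, fun v hv => ht v hv⟩

end QuadAll

end Fermat.Agent.S30
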