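import Mathlib
import Fermat.Agent.S30.S30Asm
import Fermat.Agent.S30.TateMat
import Fermat.Agent.S30.QuadAllB
import Fermat.Agent.S30.DVRExt

/-!
# S30 (phase B): the final assembly, hypothesis-free

`S30Asm.s30_of_tateInput` : the statement of S30 for a level `N ≠ 0` from the abstract Tate
module input (`TateInput`), the `p`-adic cyclotomic character and weak Chebotarev — the interface
statement of phase B verbatim.  It is `S30Asm.s30_of_matrix_data` with its three hypotheses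
discharged by `TateMat.exists_matrix_data`, `QuadAllB.exists_scalar` and
`DVRExt.exists_finite_dvr`.
-/

set_option autoImplicit false

namespace Fermat.Agent.S30.S30Asm

open Polynomial

/-- **S30 from the Tate module.** -/
theorem s30_of_tateInput (p : ℕ) [Fact p.Prime] (N : ℕ) [NeZero N] (S : Finset ℕ)
    (TI : TateInput p N S) (hcyc : CycPadic p) (hcheb : WeakCheb)
    (_hpS : p ∈ S) (_hNS : ∀ q : ℕ, q.Prime → q ∣ N → q ∈ S)
    (𝒪' : Type) [CommRing 𝒪'] [IsDomain 𝒪'] [IsDiscreteValuationRing 𝒪']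
    [IsAdicComplete (IsLocalRing.maximalIdeal 𝒪') 𝒪'] [Finite (IsLocalRing.ResidueField 𝒪')]
    [CharZero 𝒪'] (_hp𝒪' : (p : 𝒪') ∈ IsLocalRing.maximalIdeal 𝒪')
    (χ : CuspForm.heckeAlgebra N 2 (↑S : Set ℕ) →+* 𝒪') :
    ∃ (𝒪'' : Type) (_ : CommRing 𝒪'') (_ : IsDomain 𝒪'') (_ : IsDiscreteValuationRing 𝒪'')
      (_ : IsAdicComplete (IsLocalRing.maximalIdeal 𝒪'') 𝒪'')
      (_ : Finite (IsLocalRing.ResidueField 𝒪'')) (_ : CharZero 𝒪'')
      (_ : Algebra 𝒪' 𝒪'') (_ : Module.Finite 𝒪' 𝒪'') (_ : IsLocalHom (algebraMap 𝒪' 𝒪'')),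
    Function.Injective (algebraMap 𝒪' 𝒪'') ∧
    ∃ ρ : GaloisRepAdic 𝒪'',
      (∀ (ℓ : ℕ) (hℓ : ℓ.Prime) (hℓN : ¬ ℓ ∣ N) (hℓS : ℓ ∉ (↑S : Set ℕ)),
        ∀ A : ValuationSubring (AlgebraicClosure ℚ), A.LiesOverPrime ℓ →
          ∀ σ : AlgebraicClosure ℚ ≃ₐ[ℚ] AlgebraicClosure ℚ, A.IsFrobeniusAt σ ℓ →
            LinearMap.charpoly (ρ.ρ σ) =
              X ^ 2 - C (algebraMap 𝒪' 𝒪'' (χ (CuspForm.heckeAlgebra.T hℓ hℓN hℓS))) * X
                + C ((ℓ : 𝒪''))) ∧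
      (∀ q : ℕ, q.Prime → ¬ q ∣ N → q ≠ p → ρ.IsUnramifiedAt q) :=
  s30_of_matrix_data p N S (TateMat.exists_matrix_data p N S TI)
    (fun ε hε_level hε_frob _ R Tm hcomm hcont hfrob _ _ _ _ ι hιp _ _ _ χ g =>
      QuadAllB.exists_scalar p N S _hpS _hNS hcheb ε hε_level hε_frob R Tm hcomm hcont hfrob
        ι hιp χ g)
    (fun O _ _ _ _ _ _ K _ _ hinj halg s => DVRExt.exists_finite_dvr O K hinj halg s)
    hcyc _hpS 𝒪' _hp𝒪' χ

end Fermat.Agent.S30.S30Asm
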