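import Mathlib
import Fermat.Agent.S30.PerLat

/-!
# Phase B, package B3: uniform saturation

If a commutative ring `A` acts faithfully on a finite free `ℤ`-module `Λ`, there is a constant
`c` such that every `a ∈ A` mapping `Λ` into `p ^ (n + c) Λ` is divisible by `p ^ n` in `A`.
(Deduced from `PerLat.exists_saturation_bound` and Bézout.)
-/

set_option autoImplicit false

namespace Fermat.Agent.S30

theorem Sat.exists_bound {A : Type*} [CommRing A] {Λ : Type*} [AddCommGroup Λ]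
    [Module.Free ℤ Λ] [Module.Finite ℤ Λ] (h : A →+* Module.End ℤ Λ)
    (hinj : Function.Injective h) (p : ℕ) (hp : p.Prime) :
    ∃ c : ℕ, ∀ (a : A) (n : ℕ), (∀ v : Λ, ∃ w : Λ, h a v = p ^ (n + c) • w) →
      ∃ a' : A, a = p ^ n • a' := by
  classical
  let instMod : Module A Λ := Module.compHom Λ h
  have hsmul : ∀ (a : A) (v : Λ), a • v = h a v := fun _ _ => rfl
  have hfaith : ∀ t : A, (∀ x : Λ, t • x = 0) → t = 0 := fun t ht =>
    hinj (by rw [map_zero]; ext v; exact ht v)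
  -- `Λ` and `A` are torsion-free
  let b := Module.Free.chooseBasis ℤ Λ
  have hΛtf : ∀ k : ℕ, k ≠ 0 → ∀ v : Λ, k • v = 0 → v = 0 := by
    intro k hk v hv
    apply b.repr.injective
    ext i
    have h1 := congrArg (fun f => f i) (congrArg b.repr hv)
    simp only [map_nsmul, map_zero, Finsupp.smul_apply, Finsupp.zero_apply, nsmul_eq_mul] at h1
    rcases mul_eq_zero.mp h1 with h2 | h2
    · exact absurd (Nat.cast_eq_zero.mp h2) hk
    · simpa using h2
  have hAtf : ∀ k : ℕ, k ≠ 0 → ∀ x : A, k • x = 0 → x = 0 := by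
    intro k hk x hx
    apply hfaith
    intro v
    apply hΛtf k hk
    rw [hsmul, ← LinearMap.smul_apply, ← map_nsmul, hx, map_zero, LinearMap.zero_apply]
  obtain ⟨m, hm, H⟩ := PerLat.exists_saturation_bound (𝕋 := A) (L := Λ) hfaith
  obtain ⟨c, m', hm', hmeq⟩ := Nat.exists_eq_pow_mul_and_not_dvd hm p hp.ne_one
  refine ⟨c, fun a n ha => ?_⟩
  obtain ⟨a', ha'⟩ := H (p ^ (n + c)) a (fun x => by
    obtain ⟨w, hw⟩ := ha x
    exact ⟨w, by rw [hsmul, hw]⟩)
  have h1 : m' • a = p ^ n • a' := by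
    have h2 : p ^ c • (m' • a - p ^ n • a') = 0 := by
      rw [smul_sub, smul_smul, smul_smul, ← hmeq, ha', ← pow_add, add_comm c n, sub_self]
    exact sub_eq_zero.mp (hAtf _ (pow_ne_zero _ hp.ne_zero) _ h2)
  have hcop : IsCoprime (m' : ℤ) ((p : ℤ) ^ n) := by
    apply IsCoprime.pow_right
    rw [Int.isCoprime_iff_gcd_eq_one, Int.gcd_natCast_natCast]
    exact (Nat.Coprime.symm ((Nat.Prime.coprime_iff_not_dvd hp).mpr hm'))
  obtain ⟨u, w, huw⟩ := hcop
  refine ⟨u • a' + w • a, ?_⟩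
  calc a = (u * (m' : ℤ) + w * (p : ℤ) ^ n) • a := by rw [huw, one_smul]
    _ = u • ((m' : ℤ) • a) + w • (((p : ℤ) ^ n) • a) := by rw [add_smul, mul_smul, mul_smul]
    _ = u • (m' • a) + w • (p ^ n • a) := by rw [natCast_zsmul, ← Nat.cast_pow, natCast_zsmul]
    _ = u • (p ^ n • a') + w • (p ^ n • a) := by rw [h1]
    _ = p ^ n • (u • a' + w • a) := by rw [smul_add, smul_comm u, smul_comm w]

end Fermat.Agent.S30
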