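import Mathlib
import Fermat.Prelude.Def_GaloisRep_Adic
import Fermat.Agent.S29.QuadBurnside

/-!
# Trace rigidity for residually absolutely irreducible representations

Let `T` be a commutative local ring with residue field `κ`, `V` a finite free `T`-module and
`ρ : G →* End_T V` a representation of a monoid whose reduction is absolutely irreducible
(irreducible over the algebraic closure of `κ`).  Then

* `T[ρ(G)] = End_T V` (Burnside over the algebraic closure, descent to `κ`, Nakayama);
* if `tr ρ(g τ) = tr ρ(g)` for all `g` then `ρ τ = 1` (the trace pairing on `End_T V` is perfect).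

The statements are then specialised to the structure `GaloisRepAdic` used by the frozen
statements.
-/

set_option autoImplicit false

open scoped TensorProduct

namespace Fermat.Agent.S30.TraceRigid

/-! ### Burnside in span form -/

section Burnside

variable {K V G : Type*} [Field K] [AddCommGroup V] [Module K V] [Monoid G]

/-- An irreducible representation of a monoid on a finite-dimensional space over an algebraically
closed field spans the endomorphism algebra. -/
theorem span_range_eq_top_of_irreducible [IsAlgClosed K] [FiniteDimensional K V]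
    (ρ : G →* Module.End K V)
    (hirr : ∀ W : Submodule K V, (∀ g : G, ∀ x ∈ W, ρ g x ∈ W) → W = ⊥ ∨ W = ⊤) :
    Submodule.span K (Set.range ρ) = ⊤ := by
  have h := Fermat.Agent.S29.QuadBurnside.burnside (Algebra.adjoin K (Set.range ρ))
    (fun W hW => hirr W fun g x hx => hW (ρ g) (Algebra.subset_adjoin ⟨g, rfl⟩) x hx)
  have h2 := Algebra.adjoin_eq_span K (Set.range ρ)
  rw [h] at h2
  have h3 : (Submonoid.closure (Set.range ρ) : Set (Module.End K V)) = Set.range ρ := by
    rw [← MonoidHom.coe_mrange, Submonoid.closure_eq]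
  rw [h3] at h2
  rw [← h2]
  simp

end Burnside

/-! ### matrices: descent along a field extension, Nakayama, trace pairing -/

section Matrices

variable {n : Type*} [Fintype n] [DecidableEq n]

/-- A linear functional on matrices is determined by its values on the matrix units. -/
theorem functional_apply {k : Type*} [CommRing k] (f : Matrix n n k →ₗ[k] k) (A : Matrix n n k) :
    f A = ∑ i, ∑ j, A i j * f (Matrix.single i j 1) := by
  conv_lhs => rw [Matrix.matrix_eq_sum_single A]
  rw [map_sum]
  refine Finset.sum_congr rfl fun i _ => ?_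
  rw [map_sum]
  refine Finset.sum_congr rfl fun j _ => ?_
  have : Matrix.single i j (A i j) = A i j • Matrix.single i j (1 : k) := by
    rw [Matrix.smul_single, smul_eq_mul, mul_one]
  rw [this, map_smul, smul_eq_mul]

/-- If the images of a set of matrices span the matrix algebra over an extension field, the set
spans the matrix algebra. -/
theorem span_eq_top_of_map {k L : Type*} [Field k] [Field L] (ι : k →+* L)
    (S : Set (Matrix n n k))
    (h : Submodule.span L ((fun A : Matrix n n k => A.map ι) '' S) = ⊤) :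
    Submodule.span k S = ⊤ := by
  by_contra hne
  obtain ⟨f, hf0, hle⟩ := Submodule.exists_le_ker_of_lt_top _ (lt_top_iff_ne_top.mpr hne)
  -- the extended functional
  let Φ : Matrix n n L →ₗ[L] L :=
    ∑ i, ∑ j, ι (f (Matrix.single i j 1)) • Matrix.entryLinearMap L L i j
  have hΦ : ∀ M : Matrix n n L, Φ M = ∑ i, ∑ j, ι (f (Matrix.single i j 1)) * M i j := by
    intro M
    simp [Φ, LinearMap.sum_apply]
  have hker : Submodule.span L ((fun A : Matrix n n k => A.map ι) '' S) ≤ LinearMap.ker Φ := by
    rw [Submodule.span_le]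
    rintro _ ⟨A, hA, rfl⟩
    rw [SetLike.mem_coe, LinearMap.mem_ker, hΦ]
    have hfA : f A = 0 := LinearMap.mem_ker.mp (hle (Submodule.subset_span hA))
    rw [functional_apply f A] at hfA
    have := congrArg ι hfA
    rw [map_zero, map_sum] at this
    rw [← this]
    refine Finset.sum_congr rfl fun i _ => ?_
    rw [map_sum]
    refine Finset.sum_congr rfl fun j _ => ?_
    show ι (f (Matrix.single i j 1)) * ι (A i j) = ι (A i j * f (Matrix.single i j 1))
    rw [map_mul, mul_comm]
  rw [h, top_le_iff] at hker
  have hzero : ∀ i j, f (Matrix.single i j 1) = 0 := by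
    intro i j
    have h1 : Φ (Matrix.single i j 1) = 0 := by
      have : (Matrix.single i j (1 : L)) ∈ LinearMap.ker Φ := by rw [hker]; exact Submodule.mem_top
      exact LinearMap.mem_ker.mp this
    rw [hΦ] at h1
    have h2 : ∑ i', ∑ j', ι (f (Matrix.single i' j' 1)) * (Matrix.single i j (1 : L)) i' j'
        = ι (f (Matrix.single i j 1)) := by
      rw [Finset.sum_eq_single i, Finset.sum_eq_single j]
      · rw [Matrix.single_apply_same, mul_one]
      · intro j' _ hj'
        rw [Matrix.single_apply_of_ne, mul_zero]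
        exact fun h => hj' h.2.symm
      · intro h; exact absurd (Finset.mem_univ j) h
      · intro i' _ hi'
        refine Finset.sum_eq_zero fun j' _ => ?_
        rw [Matrix.single_apply_of_ne, mul_zero]
        exact fun h => hi' h.1.symm
      · intro h; exact absurd (Finset.mem_univ i) h
    rw [h2] at h1
    exact ι.injective (h1.trans (map_zero ι).symm)
  apply hf0
  ext A
  rw [functional_apply f A, LinearMap.zero_apply]
  exact Finset.sum_eq_zero fun i _ => Finset.sum_eq_zero fun j _ => by rw [hzero, mul_zero]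

/-- **Nakayama for matrix algebras**: if the reductions of a set of matrices over a local ring span
the matrix algebra over the residue field, the set spans the matrix algebra. -/
theorem span_eq_top_of_residue {T : Type*} [CommRing T] [IsLocalRing T]
    (S : Set (Matrix n n T))
    (h : Submodule.span (IsLocalRing.ResidueField T)
      ((fun A : Matrix n n T => A.map (IsLocalRing.residue T)) '' S) = ⊤) :
    Submodule.span T S = ⊤ := by
  rw [eq_top_iff]
  refine Submodule.le_of_le_smul_of_le_jacobson_bot (I := IsLocalRing.maximalIdeal T)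
    (Module.Finite.fg_top) (IsLocalRing.maximalIdeal_le_jacobson _) ?_
  intro A _
  -- approximate `A` modulo the maximal ideal by an element of the span
  have hA : A.map (IsLocalRing.residue T) ∈ Submodule.span (IsLocalRing.ResidueField T)
      ((fun A : Matrix n n T => A.map (IsLocalRing.residue T)) '' S) := by
    rw [h]; exact Submodule.mem_top
  have key : ∀ X ∈ Submodule.span (IsLocalRing.ResidueField T)
      ((fun A : Matrix n n T => A.map (IsLocalRing.residue T)) '' S),
      ∃ B ∈ Submodule.span T S, B.map (IsLocalRing.residue T) = X := by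
    intro X hX
    induction hX using Submodule.span_induction with
    | mem X hX =>
      obtain ⟨B, hB, rfl⟩ := hX
      exact ⟨B, Submodule.subset_span hB, rfl⟩
    | zero => exact ⟨0, Submodule.zero_mem _, by ext i j; simp⟩
    | add X Y _ _ hX hY =>
      obtain ⟨B, hB, rfl⟩ := hX
      obtain ⟨B', hB', rfl⟩ := hY
      exact ⟨B + B', Submodule.add_mem _ hB hB', by ext i j; simp⟩
    | smul c X _ hX =>
      obtain ⟨B, hB, rfl⟩ := hX
      obtain ⟨c, rfl⟩ := IsLocalRing.residue_surjective c
      exact ⟨c • B, Submodule.smul_mem _ c hB, by ext i j; simp⟩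
  obtain ⟨B, hB, hBA⟩ := key _ hA
  have hdiff : A - B ∈ IsLocalRing.maximalIdeal T • (⊤ : Submodule T (Matrix n n T)) := by
    have hentry : ∀ i j, (A - B) i j ∈ IsLocalRing.maximalIdeal T := by
      intro i j
      rw [← IsLocalRing.residue_eq_zero_iff, Matrix.sub_apply, map_sub, sub_eq_zero]
      have := congrFun (congrFun hBA i) j
      rw [Matrix.map_apply, Matrix.map_apply] at this
      exact this.symm
    rw [Matrix.matrix_eq_sum_single (A - B)]
    refine Submodule.sum_mem _ fun i _ => Submodule.sum_mem _ fun j _ => ?_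
    have : Matrix.single i j ((A - B) i j) = (A - B) i j • Matrix.single i j (1 : T) := by
      rw [Matrix.smul_single, smul_eq_mul, mul_one]
    rw [this]
    exact Submodule.smul_mem_smul (hentry i j) Submodule.mem_top
  have : A = B + (A - B) := by abel
  rw [this]
  exact Submodule.add_mem_sup hB hdiff

end Matrices

/-! ### the generic statements -/

section Generic

universe u v w

variable {T : Type u} [CommRing T] [IsLocalRing T] {V : Type v} [AddCommGroup V] [Module T V]
  [Module.Free T V] [Module.Finite T V] {G : Type w} [Monoid G]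

/-- **`T[ρ(G)] = End_T V`** for a representation on a finite free module over a local ring whose
reduction is absolutely irreducible. -/
theorem span_range_eq_top_of_absIrr (ρ : G →* Module.End T V)
    (hirr : ∀ W : Submodule (AlgebraicClosure (IsLocalRing.ResidueField T))
        (AlgebraicClosure (IsLocalRing.ResidueField T) ⊗[IsLocalRing.ResidueField T]
          (IsLocalRing.ResidueField T ⊗[T] V)),
      (∀ g : G, ∀ x ∈ W, ((ρ g).baseChange (IsLocalRing.ResidueField T)).baseChange
        (AlgebraicClosure (IsLocalRing.ResidueField T)) x ∈ W) → W = ⊥ ∨ W = ⊤) :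
    Submodule.span T (Set.range ρ) = ⊤ := by
  classical
  let b := Module.Free.chooseBasis T V
  let b₁ := Algebra.TensorProduct.basis (IsLocalRing.ResidueField T) b
  let b₂ := Algebra.TensorProduct.basis (AlgebraicClosure (IsLocalRing.ResidueField T)) b₁
  let ρ₂ : G →* Module.End (AlgebraicClosure (IsLocalRing.ResidueField T))
      (AlgebraicClosure (IsLocalRing.ResidueField T) ⊗[IsLocalRing.ResidueField T]
        (IsLocalRing.ResidueField T ⊗[T] V)) :=
    { toFun := fun g => ((ρ g).baseChange (IsLocalRing.ResidueField T)).baseChange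
        (AlgebraicClosure (IsLocalRing.ResidueField T))
      map_one' := by rw [map_one, LinearMap.baseChange_one, LinearMap.baseChange_one]
      map_mul' := fun g h => by rw [map_mul, LinearMap.baseChange_mul, LinearMap.baseChange_mul] }
  have hB : Submodule.span (AlgebraicClosure (IsLocalRing.ResidueField T)) (Set.range ρ₂) = ⊤ :=
    span_range_eq_top_of_irreducible ρ₂ hirr
  let S : Set (Matrix (Module.Free.ChooseBasisIndex T V) (Module.Free.ChooseBasisIndex T V) T) :=
    Set.range fun g => LinearMap.toMatrix b b (ρ g)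
  have hmat : ∀ g, LinearMap.toMatrix b₂ b₂ (ρ₂ g) =
      (((LinearMap.toMatrix b b (ρ g)).map (IsLocalRing.residue T)).map
        (algebraMap (IsLocalRing.ResidueField T)
          (AlgebraicClosure (IsLocalRing.ResidueField T)))) := by
    intro g
    show LinearMap.toMatrix b₂ b₂ (((ρ g).baseChange (IsLocalRing.ResidueField T)).baseChange
        (AlgebraicClosure (IsLocalRing.ResidueField T))) = _
    rw [LinearMap.toMatrix_baseChange, LinearMap.toMatrix_baseChange,
      IsLocalRing.ResidueField.algebraMap_eq]
  have h2 : Submodule.span (AlgebraicClosure (IsLocalRing.ResidueField T))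
      ((fun A : Matrix _ _ (IsLocalRing.ResidueField T) => A.map
          (algebraMap (IsLocalRing.ResidueField T)
            (AlgebraicClosure (IsLocalRing.ResidueField T)))) ''
        ((fun A : Matrix _ _ T => A.map (IsLocalRing.residue T)) '' S)) = ⊤ := by
    have himg : ((fun A : Matrix _ _ (IsLocalRing.ResidueField T) => A.map
          (algebraMap (IsLocalRing.ResidueField T)
            (AlgebraicClosure (IsLocalRing.ResidueField T)))) ''
        ((fun A : Matrix _ _ T => A.map (IsLocalRing.residue T)) '' S)) =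
        (LinearMap.toMatrix b₂ b₂).toLinearMap '' Set.range ρ₂ := by
      ext M
      constructor
      · rintro ⟨_, ⟨_, ⟨g, rfl⟩, rfl⟩, rfl⟩
        exact ⟨ρ₂ g, ⟨g, rfl⟩, hmat g⟩
      · rintro ⟨_, ⟨g, rfl⟩, rfl⟩
        exact ⟨_, ⟨_, ⟨g, rfl⟩, rfl⟩, (hmat g).symm⟩
    rw [himg, ← Submodule.map_span, hB, Submodule.map_top, LinearEquiv.range]
  have h1 := span_eq_top_of_map _ _ h2
  have h0 : Submodule.span T S = ⊤ := span_eq_top_of_residue S h1
  have h3 : Submodule.map (LinearMap.toMatrix b b).toLinearMap (Submodule.span T (Set.range ρ)) =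
      Submodule.map (LinearMap.toMatrix b b).toLinearMap ⊤ := by
    rw [Submodule.map_span, Submodule.map_top, LinearEquiv.range, ← Set.range_comp]
    exact h0
  exact Submodule.map_injective_of_injective (LinearMap.toMatrix b b).injective h3

/-- If `tr (ρ g * X)` lies in an ideal `J` for all `g`, then so does `tr (A * X)` for every
endomorphism `A`. -/
theorem trace_mul_mem_of_absIrr (ρ : G →* Module.End T V)
    (hirr : ∀ W : Submodule (AlgebraicClosure (IsLocalRing.ResidueField T))
        (AlgebraicClosure (IsLocalRing.ResidueField T) ⊗[IsLocalRing.ResidueField T]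
          (IsLocalRing.ResidueField T ⊗[T] V)),
      (∀ g : G, ∀ x ∈ W, ((ρ g).baseChange (IsLocalRing.ResidueField T)).baseChange
        (AlgebraicClosure (IsLocalRing.ResidueField T)) x ∈ W) → W = ⊥ ∨ W = ⊤)
    (J : Ideal T) (X : Module.End T V)
    (h : ∀ g : G, LinearMap.trace T V (ρ g * X) ∈ J) (A : Module.End T V) :
    LinearMap.trace T V (A * X) ∈ J := by
  have hA : A ∈ Submodule.span T (Set.range ρ) := by
    rw [span_range_eq_top_of_absIrr ρ hirr]; exact Submodule.mem_top
  induction hA using Submodule.span_induction with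
  | mem A hA =>
    obtain ⟨g, rfl⟩ := hA
    exact h g
  | zero => rw [zero_mul, map_zero]; exact J.zero_mem
  | add A B _ _ hA hB => rw [add_mul, map_add]; exact J.add_mem hA hB
  | smul c A _ hA => rw [smul_mul_assoc, map_smul]; exact J.mul_mem_left c hA

omit [IsLocalRing T] [Module.Free T V] [Module.Finite T V] in
/-- The trace pairing detects the matrix entries. -/
theorem toMatrix_apply_mem_of_trace {ι : Type*} [Fintype ι] [DecidableEq ι]
    (b : Module.Basis ι T V) (J : Ideal T) (X : Module.End T V)
    (h : ∀ A : Module.End T V, LinearMap.trace T V (A * X) ∈ J) (i j : ι) :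
    LinearMap.toMatrix b b X i j ∈ J := by
  have h1 := h (Matrix.toLin b b (Matrix.single j i 1))
  rw [LinearMap.trace_eq_matrix_trace T b, LinearMap.toMatrix_mul, LinearMap.toMatrix_toLin,
    Matrix.trace_single_mul, one_smul] at h1
  exact h1

/-- **Trace rigidity, ideal form**: if `tr ρ(g τ) - tr ρ(g) ∈ J` for all `g`, then all matrix
entries of `ρ τ - 1` lie in `J`. -/
theorem toMatrix_sub_one_mem (ρ : G →* Module.End T V)
    (hirr : ∀ W : Submodule (AlgebraicClosure (IsLocalRing.ResidueField T))
        (AlgebraicClosure (IsLocalRing.ResidueField T) ⊗[IsLocalRing.ResidueField T]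
          (IsLocalRing.ResidueField T ⊗[T] V)),
      (∀ g : G, ∀ x ∈ W, ((ρ g).baseChange (IsLocalRing.ResidueField T)).baseChange
        (AlgebraicClosure (IsLocalRing.ResidueField T)) x ∈ W) → W = ⊥ ∨ W = ⊤)
    (J : Ideal T) (τ : G)
    (h : ∀ g : G, LinearMap.trace T V (ρ (g * τ)) - LinearMap.trace T V (ρ g) ∈ J)
    {ι : Type*} [Fintype ι] [DecidableEq ι] (b : Module.Basis ι T V) (i j : ι) :
    LinearMap.toMatrix b b (ρ τ - 1) i j ∈ J := by
  refine toMatrix_apply_mem_of_trace b J _ (trace_mul_mem_of_absIrr ρ hirr J _ fun g => ?_) i j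
  rw [mul_sub, mul_one, ← map_mul, map_sub]
  exact h g

/-- **Trace rigidity**: if `tr ρ(g τ) = tr ρ(g)` for all `g`, then `ρ τ = 1`. -/
theorem eq_one_of_trace_eq_of_absIrr (ρ : G →* Module.End T V)
    (hirr : ∀ W : Submodule (AlgebraicClosure (IsLocalRing.ResidueField T))
        (AlgebraicClosure (IsLocalRing.ResidueField T) ⊗[IsLocalRing.ResidueField T]
          (IsLocalRing.ResidueField T ⊗[T] V)),
      (∀ g : G, ∀ x ∈ W, ((ρ g).baseChange (IsLocalRing.ResidueField T)).baseChange
        (AlgebraicClosure (IsLocalRing.ResidueField T)) x ∈ W) → W = ⊥ ∨ W = ⊤)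
    (τ : G) (h : ∀ g : G, LinearMap.trace T V (ρ (g * τ)) = LinearMap.trace T V (ρ g)) :
    ρ τ = 1 := by
  classical
  let b := Module.Free.chooseBasis T V
  have hX : LinearMap.toMatrix b b (ρ τ - 1) = 0 := by
    ext i j
    have := toMatrix_sub_one_mem ρ hirr ⊥ τ (fun g => by rw [h g, sub_self]; exact Ideal.zero_mem _)
      b i j
    exact (Submodule.mem_bot T).mp this
  have hX' : ρ τ - 1 = 0 := (LinearMap.toMatrix b b).injective (hX.trans (map_zero _).symm)
  exact sub_eq_zero.mp hX'

/-- **Trace rigidity, adic form**: if `T` is separated and `tr ρ(g τ) ≡ tr ρ(g)` modulo every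
power of the maximal ideal, then `ρ τ = 1`. -/
theorem eq_one_of_trace_sub_mem_of_absIrr [IsHausdorff (IsLocalRing.maximalIdeal T) T]
    (ρ : G →* Module.End T V)
    (hirr : ∀ W : Submodule (AlgebraicClosure (IsLocalRing.ResidueField T))
        (AlgebraicClosure (IsLocalRing.ResidueField T) ⊗[IsLocalRing.ResidueField T]
          (IsLocalRing.ResidueField T ⊗[T] V)),
      (∀ g : G, ∀ x ∈ W, ((ρ g).baseChange (IsLocalRing.ResidueField T)).baseChange
        (AlgebraicClosure (IsLocalRing.ResidueField T)) x ∈ W) → W = ⊥ ∨ W = ⊤)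
    (τ : G)
    (h : ∀ n : ℕ, ∀ g : G, LinearMap.trace T V (ρ (g * τ)) - LinearMap.trace T V (ρ g) ∈
      IsLocalRing.maximalIdeal T ^ n) :
    ρ τ = 1 := by
  classical
  let b := Module.Free.chooseBasis T V
  have hX : LinearMap.toMatrix b b (ρ τ - 1) = 0 := by
    ext i j
    refine IsHausdorff.haus' (I := IsLocalRing.maximalIdeal T) _ fun n => ?_
    rw [SModEq.zero, smul_eq_mul, Ideal.mul_top]
    exact toMatrix_sub_one_mem ρ hirr _ τ (h n) b i j
  have hX' : ρ τ - 1 = 0 := (LinearMap.toMatrix b b).injective (hX.trans (map_zero _).symm)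
  exact sub_eq_zero.mp hX'

end Generic

/-! ### the statements for `GaloisRepAdic` -/

section Adic

variable {T : Type} [CommRing T] [IsLocalRing T]

/-- (TR1) **`T[ρ(G_ℚ)] = End_T V`** for a residually absolutely irreducible `GaloisRepAdic`. -/
theorem span_range_eq_top (ρ : GaloisRepAdic T) (habs : ρ.residual.IsAbsolutelyIrreducible) :
    Submodule.span T (Set.range ρ.ρ) = (⊤ : Submodule T (Module.End T ρ.V)) :=
  span_range_eq_top_of_absIrr ρ.ρ habs

/-- (TR2) **Trace rigidity**: if `tr ρ(g τ) = tr ρ(g)` for all `g`, then `ρ τ = 1`. -/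
theorem eq_one_of_trace_eq (ρ : GaloisRepAdic T) (habs : ρ.residual.IsAbsolutelyIrreducible)
    (τ : AlgebraicClosure ℚ ≃ₐ[ℚ] AlgebraicClosure ℚ)
    (h : ∀ g : AlgebraicClosure ℚ ≃ₐ[ℚ] AlgebraicClosure ℚ,
      LinearMap.trace T ρ.V (ρ.ρ (g * τ)) = LinearMap.trace T ρ.V (ρ.ρ g)) :
    ρ.ρ τ = 1 :=
  eq_one_of_trace_eq_of_absIrr ρ.ρ habs τ h

/-- (TR3) **Trace rigidity, adic form**: if `T` is separated and `tr ρ(g τ) ≡ tr ρ(g)` modulo
every power of the maximal ideal, then `ρ τ = 1`. -/
theorem eq_one_of_trace_sub_mem [IsHausdorff (IsLocalRing.maximalIdeal T) T]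
    (ρ : GaloisRepAdic T) (habs : ρ.residual.IsAbsolutelyIrreducible)
    (τ : AlgebraicClosure ℚ ≃ₐ[ℚ] AlgebraicClosure ℚ)
    (h : ∀ n : ℕ, ∀ g : AlgebraicClosure ℚ ≃ₐ[ℚ] AlgebraicClosure ℚ,
      LinearMap.trace T ρ.V (ρ.ρ (g * τ)) - LinearMap.trace T ρ.V (ρ.ρ g) ∈
        IsLocalRing.maximalIdeal T ^ n) :
    ρ.ρ τ = 1 :=
  eq_one_of_trace_sub_mem_of_absIrr ρ.ρ habs τ h

/-- (TR3') the same with a shift: congruences modulo `𝔪 ^ (n - c)` for a fixed `c` suffice. -/
theorem eq_one_of_trace_sub_mem_shift [IsHausdorff (IsLocalRing.maximalIdeal T) T]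
    (ρ : GaloisRepAdic T) (habs : ρ.residual.IsAbsolutelyIrreducible)
    (τ : AlgebraicClosure ℚ ≃ₐ[ℚ] AlgebraicClosure ℚ) (c : ℕ)
    (h : ∀ n : ℕ, ∀ g : AlgebraicClosure ℚ ≃ₐ[ℚ] AlgebraicClosure ℚ,
      LinearMap.trace T ρ.V (ρ.ρ (g * τ)) - LinearMap.trace T ρ.V (ρ.ρ g) ∈
        IsLocalRing.maximalIdeal T ^ (n - c)) :
    ρ.ρ τ = 1 :=
  eq_one_of_trace_sub_mem ρ habs τ fun n g => by
    have := h (n + c) g
    rwa [Nat.add_sub_cancel] at this

/-- (TR4) **the end-game of unramifiedness**: a residually absolutely irreducible representation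
over a separated local ring is unramified at `q` as soon as multiplication by inertia elements at
`q` does not change traces modulo any power of the maximal ideal. -/
theorem isUnramifiedAt_of_trace [IsHausdorff (IsLocalRing.maximalIdeal T) T]
    (ρ : GaloisRepAdic T) (habs : ρ.residual.IsAbsolutelyIrreducible) (q : ℕ)
    (h : ∀ P : ValuationSubring (AlgebraicClosure ℚ), P.LiesOverPrime q →
      ∀ τ ∈ P.inertiaSubgroupIn ℚ, ∀ n : ℕ, ∀ g : AlgebraicClosure ℚ ≃ₐ[ℚ] AlgebraicClosure ℚ,
        LinearMap.trace T ρ.V (ρ.ρ (g * τ)) - LinearMap.trace T ρ.V (ρ.ρ g) ∈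
          IsLocalRing.maximalIdeal T ^ n) :
    ρ.IsUnramifiedAt q :=
  fun P hP τ hτ => eq_one_of_trace_sub_mem ρ habs τ (h P hP τ hτ)

end Adic

end Fermat.Agent.S30.TraceRigid
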