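import Mathlib
import Fermat.Agent.S30.Defs
import Fermat.Agent.S30.PowerSum
import Fermat.Agent.S30.AdicRed
import Fermat.Agent.S30.TraceRigid
import Fermat.Agent.S30.Sat

/-!
# S31 from the abstract geometric input

`s31_of_geomInput_of` : in a Hecke–Galois datum of level `N` away from `S`, the Galois
representation is unramified at every prime `q ∉ S`, given the abstract geometric input
`GeomInput p N S` (Galois module with Hecke operators, Eichler–Shimura and trivial inertia on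
`p`-power torsion, lattice with a faithful Hecke action and Kummer maps), the `p`-adic cyclotomic
character, weak Chebotarev and the uniform saturation of the Hecke algebra in the lattice.

Proof.  For `g`, `τ` in inertia at `q` and `n`, weak Chebotarev gives Frobenius lifts `φ`, `φ'`
with `g ≡ φ ^ i` and `g τ ≡ φ' ^ j` on a suitable finite level.  Eichler–Shimura on the
`p ^ (n + c)`-torsion shows that `a := D_i(T_ℓ, ℓ) - D_j(T_ℓ', ℓ')` maps the lattice into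
`p ^ (n + c)` times itself, so `a ∈ p ^ n 𝕋` by saturation, and the traces of `g` and `g τ` are
congruent modulo `𝔪 ^ n`.  Trace rigidity concludes.
-/

set_option autoImplicit false

open Polynomial

namespace Fermat.Agent.S30.S31Asm

open Fermat.Agent.S30.PowerSum Fermat.Agent.S30.AdicRed CuspForm

/-! ### finite levels fixing the image of a finitely generated group -/

section Level

variable {X : Type} [AddCommGroup X] [DistribMulAction GQ X]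

theorem exists_level_finset
    (hstab : ∀ x : X, ∃ L : IntermediateField ℚ Qb, FiniteDimensional ℚ L ∧
      ∀ σ : GQ, (∀ y ∈ L, σ y = y) → σ • x = x) (s : Finset X) :
    ∃ L : IntermediateField ℚ Qb, FiniteDimensional ℚ L ∧
      ∀ σ : GQ, (∀ y ∈ L, σ y = y) → ∀ x ∈ s, σ • x = x := by
  classical
  induction s using Finset.induction_on with
  | empty => exact ⟨⊥, inferInstance, fun σ _ x hx => absurd hx (Finset.notMem_empty x)⟩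
  | insert a s _ ih =>
    obtain ⟨L₁, hL₁, h₁⟩ := ih
    obtain ⟨L₂, hL₂, h₂⟩ := hstab a
    refine ⟨L₁ ⊔ L₂, IntermediateField.finiteDimensional_sup L₁ L₂, fun σ hσ x hx => ?_⟩
    rcases Finset.mem_insert.mp hx with rfl | hx
    · exact h₂ σ fun y hy => hσ y ((le_sup_right : L₂ ≤ L₁ ⊔ L₂) hy)
    · exact h₁ σ (fun y hy => hσ y ((le_sup_left : L₁ ≤ L₁ ⊔ L₂) hy)) x hx

theorem exists_level_hom {Λ : Type} [AddCommGroup Λ] [Module.Finite ℤ Λ]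
    (hstab : ∀ x : X, ∃ L : IntermediateField ℚ Qb, FiniteDimensional ℚ L ∧
      ∀ σ : GQ, (∀ y ∈ L, σ y = y) → σ • x = x) (f : Λ →+ X) :
    ∃ L : IntermediateField ℚ Qb, FiniteDimensional ℚ L ∧
      ∀ σ : GQ, (∀ y ∈ L, σ y = y) → ∀ v : Λ, σ • f v = f v := by
  classical
  obtain ⟨s, hs⟩ := (Module.Finite.fg_top : (⊤ : Submodule ℤ Λ).FG)
  obtain ⟨L, hL, h⟩ := exists_level_finset hstab (s.image f)
  refine ⟨L, hL, fun σ hσ v => ?_⟩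
  have hv : v ∈ Submodule.span ℤ (s : Set Λ) := by rw [hs]; exact Submodule.mem_top
  induction hv using Submodule.span_induction with
  | mem x hx => exact h σ hσ (f x) (Finset.mem_image_of_mem f hx)
  | zero => rw [map_zero, smul_zero]
  | add x y _ _ hx hy => rw [map_add, smul_add, hx, hy]
  | smul k x _ hx => rw [map_zsmul, smul_comm, hx]

end Level

/-! ### Eichler–Shimura on torsion and its powers -/

section ES

variable {p : ℕ} {N : ℕ} [NeZero N] {S : Finset ℕ}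

theorem hecke_eq_frob_add (I : GeomInput p N S) {ℓ : ℕ} (hℓ : ℓ.Prime) (hℓN : ¬ ℓ ∣ N)
    (hℓp : ℓ ≠ p) {A : ValuationSubring Qb} (hA : A.LiesOverPrime ℓ) {s : GQ}
    (hs : A.IsFrobeniusAt s ℓ) (m : ℕ) (x : I.X) (hx : p ^ m • x = 0) :
    I.T ⟨ℓ, hℓ⟩ x = s • x + ℓ • (s⁻¹ • x) := by
  have hx' : p ^ m • (s⁻¹ • x) = 0 := by rw [smul_comm, hx, smul_zero]
  have h := I.frob ℓ hℓ hℓN hℓp A hA s hs m (s⁻¹ • x) hx'
  rw [smul_inv_smul, sub_add_eq_add_sub, sub_eq_zero] at h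
  exact h.symm

theorem theta_hecke_psum (I : GeomInput p N S) {ℓ : ℕ} (hℓ : ℓ.Prime) (hℓN : ¬ ℓ ∣ N)
    (hℓS : ℓ ∉ (↑S : Set ℕ)) (hℓp : ℓ ≠ p) {A : ValuationSubring Qb} (hA : A.LiesOverPrime ℓ)
    {s : GQ} (hs : A.IsFrobeniusAt s ℓ) (m : ℕ) (v : I.Λ) (i : ℕ) :
    I.θ m (I.hecke (psum (heckeAlgebra.T hℓ hℓN hℓS)
        ((ℓ : ℕ) : heckeAlgebra N 2 (↑S : Set ℕ)) i) v) =
      s ^ i • I.θ m v + ℓ ^ i • ((s⁻¹) ^ i • I.θ m v) := by
  induction i using Nat.strong_induction_on with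
  | _ i ih =>
    match i, ih with
    | 0, _ =>
      rw [psum_zero, ← Nat.cast_ofNat (R := heckeAlgebra N 2 (↑S : Set ℕ)), map_natCast,
        Module.End.natCast_apply, map_nsmul, pow_zero, pow_zero, pow_zero, one_smul, one_smul,
        two_nsmul]
    | 1, _ =>
      rw [psum_one, I.θ_hecke m ℓ hℓ hℓN hℓS v,
        hecke_eq_frob_add I hℓ hℓN hℓp hA hs m _ (I.θ_tors m v), pow_one, pow_one, pow_one]
    | (i + 2), ih =>
      have h1 := ih (i + 1) (by omega)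
      have h0 := ih i (by omega)
      have hy := I.θ_tors m (I.hecke (psum (heckeAlgebra.T hℓ hℓN hℓS)
        ((ℓ : ℕ) : heckeAlgebra N 2 (↑S : Set ℕ)) (i + 1)) v)
      have hT := hecke_eq_frob_add I hℓ hℓN hℓp hA hs m _ hy
      rw [psum_add_two, map_sub, map_mul, map_mul, map_natCast, LinearMap.sub_apply,
        Module.End.mul_apply, Module.End.mul_apply, Module.End.natCast_apply, map_sub,
        map_nsmul, I.θ_hecke m ℓ hℓ hℓN hℓS, hT, h1, h0]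
      have e1 : s * s ^ (i + 1) = s ^ (i + 2) := by rw [← pow_succ']
      have e2 : s * s⁻¹ ^ (i + 1) = s⁻¹ ^ i := by rw [pow_succ', mul_inv_cancel_left]
      have e3 : s⁻¹ * s ^ (i + 1) = s ^ i := by rw [pow_succ', inv_mul_cancel_left]
      have e4 : s⁻¹ * s⁻¹ ^ (i + 1) = s⁻¹ ^ (i + 2) := by rw [← pow_succ']
      have e5 : ℓ * ℓ ^ (i + 1) = ℓ ^ (i + 2) := by rw [← pow_succ']
      have e6 : ℓ * ℓ ^ i = ℓ ^ (i + 1) := by rw [← pow_succ']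
      rw [smul_add, smul_add, smul_add, smul_add, smul_comm s (ℓ ^ (i + 1)),
        smul_comm s⁻¹ (ℓ ^ (i + 1)), ← mul_smul s, ← mul_smul s, ← mul_smul s⁻¹, ← mul_smul s⁻¹,
        e1, e2, e3, e4, smul_smul ℓ (ℓ ^ (i + 1)), smul_smul ℓ (ℓ ^ i), e5, e6]
      abel

end ES

/-! ### the assembly -/

section Main

variable {p : ℕ} {N : ℕ} [NeZero N] {S : Finset ℕ}
  {𝒪 : Type} [CommRing 𝒪] [IsDomain 𝒪] [IsDiscreteValuationRing 𝒪]
  [IsAdicComplete (IsLocalRing.maximalIdeal 𝒪) 𝒪]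
  {θ : CuspForm.heckeAlgebra N 2 (↑S : Set ℕ) →+* IsLocalRing.ResidueField 𝒪}
  {T : Type} [CommRing T] [IsLocalRing T] [IsNoetherianRing T]
  [IsAdicComplete (IsLocalRing.maximalIdeal T) T] [Algebra 𝒪 T] [IsLocalHom (algebraMap 𝒪 T)]
  [Module.Finite 𝒪 T] [Module.Free 𝒪 T]

/-- **S31 from the abstract geometric input**, with the uniform saturation of the Hecke algebra
in the lattice as an explicit hypothesis. -/
theorem s31_of_geomInput_of [Fact p.Prime] (I : GeomInput p N S) (hcyc : CycPadic p)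
    (hcheb : WeakCheb)
    (hsat : ∃ c : ℕ, ∀ (a : heckeAlgebra N 2 (↑S : Set ℕ)) (n : ℕ),
      (∀ v : I.Λ, ∃ w : I.Λ, I.hecke a v = p ^ (n + c) • w) →
        ∃ a' : heckeAlgebra N 2 (↑S : Set ℕ), a = p ^ n • a')
    (hp𝒪 : (p : 𝒪) ∈ IsLocalRing.maximalIdeal 𝒪) (hpS : p ∈ S)
    (hNS : ∀ q : ℕ, q.Prime → q ∣ N → q ∈ S)
    (H : CuspForm.HeckeGaloisRepDatum N (↑S : Set ℕ) 𝒪 θ T)
    (q : ℕ) (hq : q.Prime) (hqS : q ∉ S) :
    H.ρ.IsUnramifiedAt q := by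
  have hqN : ¬ q ∣ N := fun h => hqS (hNS q hq h)
  have hqp : q ≠ p := fun h => hqS (h ▸ hpS)
  have hpT : (p : T) ∈ IsLocalRing.maximalIdeal T := by
    have e : (p : T) = algebraMap 𝒪 T (p : 𝒪) := (map_natCast _ p).symm
    rw [e, IsLocalRing.mem_maximalIdeal, map_mem_nonunits_iff]
    exact (IsLocalRing.mem_maximalIdeal _).mp hp𝒪
  obtain ⟨ε, hεL, hε⟩ := hcyc
  obtain ⟨c, hc⟩ := hsat
  refine TraceRigid.isUnramifiedAt_of_trace H.ρ H.residual_absIrr q ?_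
  intro P hP τ hτ n g
  -- the finite level
  obtain ⟨L₁, hL₁, h₁⟩ := exists_level_hom I.stab (I.θ (n + c))
  obtain ⟨L₂, hL₂, h₂⟩ := exists_level_hom I.stab
    ((DistribSMul.toAddMonoidHom I.X g⁻¹).comp (I.θ (n + c)))
  obtain ⟨L₃, hL₃, h₃⟩ := hεL (n + c)
  obtain ⟨L₄, hL₄, h₄⟩ := redHom_factors H.ρ n
  have hL12 : FiniteDimensional ℚ (L₁ ⊔ L₂ : IntermediateField ℚ Qb) :=
    IntermediateField.finiteDimensional_sup L₁ L₂
  have hL123 : FiniteDimensional ℚ (L₁ ⊔ L₂ ⊔ L₃ : IntermediateField ℚ Qb) :=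
    IntermediateField.finiteDimensional_sup (L₁ ⊔ L₂) L₃
  have hL : FiniteDimensional ℚ (L₁ ⊔ L₂ ⊔ L₃ ⊔ L₄ : IntermediateField ℚ Qb) :=
    IntermediateField.finiteDimensional_sup (L₁ ⊔ L₂ ⊔ L₃) L₄
  have le₁ : L₁ ≤ L₁ ⊔ L₂ ⊔ L₃ ⊔ L₄ := le_sup_left.trans (le_sup_left.trans le_sup_left)
  have le₂ : L₂ ≤ L₁ ⊔ L₂ ⊔ L₃ ⊔ L₄ := le_sup_right.trans (le_sup_left.trans le_sup_left)
  have le₃ : L₃ ≤ L₁ ⊔ L₂ ⊔ L₃ ⊔ L₄ := le_sup_right.trans le_sup_left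
  have le₄ : L₄ ≤ L₁ ⊔ L₂ ⊔ L₃ ⊔ L₄ := le_sup_right
  -- inertia acts trivially on the torsion and on roots of unity
  have hτfix : ∀ x : I.X, p ^ (n + c) • x = 0 → τ • x = x :=
    fun x hx => I.inertia q hq hqN hqp P hP τ hτ (n + c) x hx
  have hτinv : ∀ x : I.X, p ^ (n + c) • x = 0 → τ⁻¹ • x = x :=
    fun x hx => I.inertia q hq hqN hqp P hP τ⁻¹ (inv_mem hτ) (n + c) x hx
  have hετ : ε τ = 1 := (hε q hq hqp P hP).1 τ hτ
  have htors : ∀ v : I.Λ, p ^ (n + c) • (g⁻¹ • I.θ (n + c) v) = 0 := fun v => by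
    rw [smul_comm, I.θ_tors, smul_zero]
  -- the Chebotarev step, for `h = g` and `h = g * τ`
  have key : ∀ h : GQ, (∀ v : I.Λ, h⁻¹ • I.θ (n + c) v = g⁻¹ • I.θ (n + c) v) → ε h = ε g →
      ∃ (ℓ : ℕ) (hℓ : ℓ.Prime) (hℓN : ¬ ℓ ∣ N) (hℓS : ℓ ∉ (↑S : Set ℕ)) (i : ℕ),
        (∀ v : I.Λ, I.θ (n + c) (I.hecke (psum (heckeAlgebra.T hℓ hℓN hℓS)
            ((ℓ : ℕ) : heckeAlgebra N 2 (↑S : Set ℕ)) i) v) =
          h • I.θ (n + c) v + ℓ ^ i • (g⁻¹ • I.θ (n + c) v)) ∧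
        (∃ w : ℤ_[p], ((ℓ : ℤ_[p]) ^ i) =
          ((ε g : ℤ_[p]ˣ) : ℤ_[p]) * (1 + (p : ℤ_[p]) ^ (n + c) * w)) ∧
        LinearMap.trace T H.ρ.V (H.ρ.ρ h) - H.π (psum (heckeAlgebra.T hℓ hℓN hℓS)
            ((ℓ : ℕ) : heckeAlgebra N 2 (↑S : Set ℕ)) i) ∈ IsLocalRing.maximalIdeal T ^ n := by
    intro h hh hεh
    obtain ⟨ℓ, A, φ, i, hℓ, hℓS, hA, hφ, hLφ⟩ := hcheb (L₁ ⊔ L₂ ⊔ L₃ ⊔ L₄) S h
    have hℓN : ¬ ℓ ∣ N := fun hd => hℓS (hNS ℓ hℓ hd)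
    have hℓp : ℓ ≠ p := fun hd => hℓS (hd ▸ hpS)
    have hℓS' : ℓ ∉ (↑S : Set ℕ) := fun hd => hℓS (Finset.mem_coe.mp hd)
    have hσ : ∀ x ∈ (L₁ ⊔ L₂ ⊔ L₃ ⊔ L₄ : IntermediateField ℚ Qb), (h⁻¹ * φ ^ i) x = x := by
      intro x hx
      rw [AlgEquiv.mul_apply, ← hLφ x hx]
      exact h.symm_apply_apply x
    have hmul : h * (h⁻¹ * φ ^ i) = φ ^ i := mul_inv_cancel_left h (φ ^ i)
    -- `φ ^ i` acts like `h` on the image of `θ`
    have a1 : ∀ v : I.Λ, φ ^ i • I.θ (n + c) v = h • I.θ (n + c) v := by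
      intro v
      have e := h₁ (h⁻¹ * φ ^ i) (fun x hx => hσ x (le₁ hx)) v
      rw [← hmul, mul_smul, e]
    -- `φ⁻¹ ^ i` acts like `h⁻¹` on the image of `θ`
    have a2 : ∀ v : I.Λ, φ⁻¹ ^ i • I.θ (n + c) v = h⁻¹ • I.θ (n + c) v := by
      intro v
      have e : (h⁻¹ * φ ^ i) • (g⁻¹ • I.θ (n + c) v) = g⁻¹ • I.θ (n + c) v :=
        h₂ (h⁻¹ * φ ^ i) (fun x hx => hσ x (le₂ hx)) v
      rw [← hh v] at e
      have e' : φ ^ i • (h⁻¹ • I.θ (n + c) v) = I.θ (n + c) v := by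
        rw [← hmul, mul_smul, e, smul_inv_smul]
      rw [inv_pow, inv_smul_eq_iff, e']
    refine ⟨ℓ, hℓ, hℓN, hℓS', i, fun v => ?_, ?_, ?_⟩
    · rw [theta_hecke_psum I hℓ hℓN hℓS' hℓp hA hφ (n + c) v i, a1 v, a2 v, hh v]
    · obtain ⟨w, hw⟩ := h₃ (h⁻¹ * φ ^ i) (fun x hx => hσ x (le₃ hx))
      refine ⟨w, ?_⟩
      have e1 : ((ε φ : ℤ_[p]ˣ) : ℤ_[p]) = (ℓ : ℤ_[p]) := (hε ℓ hℓ hℓp A hA).2 φ hφ
      have e2 : ε (φ ^ i) = ε h * ε (h⁻¹ * φ ^ i) := by rw [← map_mul, hmul]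
      have e3 := congrArg (fun u : ℤ_[p]ˣ => (u : ℤ_[p])) e2
      simp only [map_pow, Units.val_pow_eq_pow_val, Units.val_mul] at e3
      rw [e1] at e3
      rw [e3, ← hεh, ← hw]
    · have e1 : redHom H.ρ n h = redHom H.ρ n φ ^ i := by
        have e := h₄ (h⁻¹ * φ ^ i) (fun x hx => hσ x (le₄ hx))
        rw [← map_pow, ← hmul, map_mul, e, mul_one]
      have e2 := trace_sub_psum_mem H.ρ n (H.charpoly_frob ℓ hℓ hℓN hℓS' A hA φ hφ) e1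
      rw [map_psum, map_natCast]
      exact e2
  obtain ⟨ℓ, hℓ, hℓN, hℓS, i, e1, ⟨w, e2⟩, e3⟩ := key g (fun v => rfl) rfl
  obtain ⟨ℓ', hℓ', hℓ'N, hℓ'S, j, e1', ⟨w', e2'⟩, e3'⟩ := key (g * τ)
    (fun v => by rw [mul_inv_rev, mul_smul, hτinv _ (htors v)])
    (by rw [map_mul, hετ, mul_one])
  -- `ℓ ^ i ≡ ℓ' ^ j` modulo `p ^ (n + c)`
  have hdiv : ((p ^ (n + c) : ℕ) : ℤ) ∣ (ℓ : ℤ) ^ i - (ℓ' : ℤ) ^ j := by
    have h1 : ((p : ℤ_[p]) ^ (n + c)) ∣ (((ℓ : ℤ) ^ i - (ℓ' : ℤ) ^ j : ℤ) : ℤ_[p]) := by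
      refine ⟨((ε g : ℤ_[p]ˣ) : ℤ_[p]) * (w - w'), ?_⟩
      push_cast
      rw [e2, e2']
      ring
    have h2 := (PadicInt.pow_p_dvd_int_iff (n + c) ((ℓ : ℤ) ^ i - (ℓ' : ℤ) ^ j)).mp h1
    exact_mod_cast h2
  -- the Hecke element
  have ha : ∀ v : I.Λ, ∃ w : I.Λ,
      I.hecke (psum (heckeAlgebra.T hℓ hℓN hℓS) ((ℓ : ℕ) : heckeAlgebra N 2 (↑S : Set ℕ)) i -
        psum (heckeAlgebra.T hℓ' hℓ'N hℓ'S) ((ℓ' : ℕ) : heckeAlgebra N 2 (↑S : Set ℕ)) j) v =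
        p ^ (n + c) • w := by
    intro v
    apply I.θ_ker (n + c)
    rw [map_sub, LinearMap.sub_apply, map_sub, e1 v, e1' v, mul_smul,
      hτfix _ (I.θ_tors (n + c) v), add_sub_add_left_eq_sub]
    obtain ⟨k, hk⟩ := hdiv
    have e : (ℓ ^ i : ℕ) • (g⁻¹ • I.θ (n + c) v) - (ℓ' ^ j : ℕ) • (g⁻¹ • I.θ (n + c) v) =
        ((ℓ : ℤ) ^ i - (ℓ' : ℤ) ^ j) • (g⁻¹ • I.θ (n + c) v) := by
      rw [sub_smul, ← Nat.cast_pow, ← Nat.cast_pow, natCast_zsmul, natCast_zsmul]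
    rw [e, hk, mul_comm, mul_smul, natCast_zsmul, htors v, smul_zero]
  obtain ⟨a', ha'⟩ := hc _ n ha
  have hπ : H.π (psum (heckeAlgebra.T hℓ hℓN hℓS) ((ℓ : ℕ) : heckeAlgebra N 2 (↑S : Set ℕ)) i) -
      H.π (psum (heckeAlgebra.T hℓ' hℓ'N hℓ'S) ((ℓ' : ℕ) : heckeAlgebra N 2 (↑S : Set ℕ)) j) ∈
        IsLocalRing.maximalIdeal T ^ n := by
    rw [← map_sub, ha', map_nsmul, nsmul_eq_mul, Nat.cast_pow]
    exact Ideal.mul_mem_right _ _ (Ideal.pow_mem_pow hpT n)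
  have hfinal : LinearMap.trace T H.ρ.V (H.ρ.ρ (g * τ)) - LinearMap.trace T H.ρ.V (H.ρ.ρ g) =
      (LinearMap.trace T H.ρ.V (H.ρ.ρ (g * τ)) - H.π (psum (heckeAlgebra.T hℓ' hℓ'N hℓ'S)
          ((ℓ' : ℕ) : heckeAlgebra N 2 (↑S : Set ℕ)) j)) -
        (LinearMap.trace T H.ρ.V (H.ρ.ρ g) - H.π (psum (heckeAlgebra.T hℓ hℓN hℓS)
          ((ℓ : ℕ) : heckeAlgebra N 2 (↑S : Set ℕ)) i)) -
        (H.π (psum (heckeAlgebra.T hℓ hℓN hℓS) ((ℓ : ℕ) : heckeAlgebra N 2 (↑S : Set ℕ)) i) -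
          H.π (psum (heckeAlgebra.T hℓ' hℓ'N hℓ'S)
            ((ℓ' : ℕ) : heckeAlgebra N 2 (↑S : Set ℕ)) j)) := by
    ring
  rw [hfinal]
  exact Ideal.sub_mem _ (Ideal.sub_mem _ e3' e3) hπ

/-- **S31 from the abstract geometric input** (the statement `s31_of_geomInput` of the phase-B
interface). -/
theorem s31_of_geomInput [Fact p.Prime] (I : GeomInput p N S) (hcyc : CycPadic p)
    (hcheb : WeakCheb)
    (hp𝒪 : (p : 𝒪) ∈ IsLocalRing.maximalIdeal 𝒪) (hpS : p ∈ S)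
    (hNS : ∀ q : ℕ, q.Prime → q ∣ N → q ∈ S)
    (H : CuspForm.HeckeGaloisRepDatum N (↑S : Set ℕ) 𝒪 θ T)
    (q : ℕ) (hq : q.Prime) (hqS : q ∉ S) :
    H.ρ.IsUnramifiedAt q :=
  s31_of_geomInput_of I hcyc hcheb (Sat.exists_bound I.hecke I.hecke_injective p Fact.out)
    hp𝒪 hpS hNS H q hq hqS

end Main

end Fermat.Agent.S30.S31Asm
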