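import Mathlib
import Fermat.Agent.S30.Defs
import Fermat.Agent.S30.TraceRigid
import Fermat.Agent.S30.PowerSum
import Fermat.Agent.S30.AdicRed
import Fermat.Agent.S30.Sat

/-!
# S31 from the abstract geometric input (finite-level argument)

`s31_of_geomInput`: a `GeomInput p N S`, the `p`-adic cyclotomic character and weak Chebotarev
give the unramifiedness statement S31 for every `HeckeGaloisRepDatum`.

For `g ∈ G_ℚ`, `τ` in an inertia group at `q ∉ S` and a level `n' = n + c`, weak Chebotarev gives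
Frobenius lifts `φ` at `ℓ`, `φ'` at `ℓ'` with `g ≡ φ^i`, `g τ ≡ φ'^j` on a finite level.  On the
`p^n'`-torsion points `x = θ_{n'}(v)` the Eichler–Shimura relation gives
`D_i(T_ℓ, ℓ) x = g x + ℓ^i g⁻¹ x = D_j(T_ℓ', ℓ') x`, so `h := D_j(T_ℓ', ℓ') - D_i(T_ℓ, ℓ)` maps
the lattice into `p^n' Λ`; by uniform saturation `h ∈ p^n 𝕋`, hence
`tr ρ(g τ) - tr ρ(g) ≡ π(h) ≡ 0` modulo `𝔪^n`.  Trace rigidity concludes.
-/

set_option autoImplicit false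

open Polynomial

namespace Fermat.Agent.S30.S31Core

open Fermat.Agent.S30.PowerSum

section Torsion

variable {p N : ℕ} [NeZero N] {S : Finset ℕ} (I : GeomInput p N S)

theorem gal_nsmul (σ : GQ) (k : ℕ) (x : I.X) : σ • (k • x) = k • (σ • x) :=
  (DistribSMul.toAddMonoidHom I.X σ).map_nsmul k x

theorem tors_smul (σ : GQ) {n : ℕ} {x : I.X} (hx : p ^ n • x = 0) : p ^ n • (σ • x) = 0 := by
  rw [← gal_nsmul, hx, smul_zero]

/-- the Hecke operator on `p`-power torsion in terms of a Frobenius lift -/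
theorem T_eq {ℓ : ℕ} (hℓ : ℓ.Prime) (hℓN : ¬ ℓ ∣ N) (hℓp : ℓ ≠ p) (A : ValuationSubring Qb)
    (hA : A.LiesOverPrime ℓ) (φ : GQ) (hφ : A.IsFrobeniusAt φ ℓ) (n : ℕ) (x : I.X)
    (hx : p ^ n • x = 0) :
    I.T ⟨ℓ, hℓ⟩ x = φ • x + ℓ • (φ⁻¹ • x) := by
  have h := I.frob ℓ hℓ hℓN hℓp A hA φ hφ n (φ⁻¹ • x) (tors_smul I φ⁻¹ hx)
  rw [smul_inv_smul, sub_add_eq_add_sub, sub_eq_zero] at h
  exact h.symm

theorem end_sub_apply {X : Type*} [AddCommGroup X] (f g : AddMonoid.End X) (x : X) :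
    (f - g) x = f x - g x := rfl

theorem end_mul_apply {X : Type*} [AddCommGroup X] (f g : AddMonoid.End X) (x : X) :
    (f * g) x = f (g x) := rfl

/-- the Dickson recursion for an operator of the form `φ + ℓ φ⁻¹` -/
theorem psum_apply_aux {X : Type*} [AddCommGroup X] [DistribMulAction GQ X]
    (TT : AddMonoid.End X) (ℓ : ℕ) (φ : GQ) (P : X → Prop)
    (hP : ∀ (σ : GQ) (x : X), P x → P (σ • x))
    (hT : ∀ x : X, P x → TT x = φ • x + ℓ • (φ⁻¹ • x)) (i : ℕ) :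
    ∀ x : X, P x →
      (psum TT (ℓ : AddMonoid.End X) i) x = φ ^ i • x + ℓ ^ i • ((φ⁻¹) ^ i • x) := by
  induction i using Nat.twoStepInduction with
  | zero =>
    intro x _
    show ((2 : AddMonoid.End X)) x = _
    rw [pow_zero, pow_zero, pow_zero, one_smul, one_smul]
    have : (2 : AddMonoid.End X) = ((2 : ℕ) : AddMonoid.End X) := by norm_num
    rw [this, AddMonoid.End.natCast_apply, two_nsmul]
  | one =>
    intro x hx
    show TT x = _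
    rw [pow_one, pow_one, pow_one]
    exact hT x hx
  | more i ih0 ih1 =>
    intro x hx
    show (TT * psum TT (ℓ : AddMonoid.End X) (i + 1)
      - (ℓ : AddMonoid.End X) * psum TT (ℓ : AddMonoid.End X) i) x = _
    rw [end_sub_apply, end_mul_apply, end_mul_apply, ih1 x hx,
      ih0 x hx, AddMonoid.End.natCast_apply]
    have e1 := hT _ (hP (φ ^ (i + 1)) x hx)
    have e2 := hT _ (hP ((φ⁻¹) ^ (i + 1)) x hx)
    have e3 : TT (φ ^ (i + 1) • x + ℓ ^ (i + 1) • ((φ⁻¹) ^ (i + 1) • x)) =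
        TT (φ ^ (i + 1) • x) + ℓ ^ (i + 1) • TT ((φ⁻¹) ^ (i + 1) • x) := by
      rw [map_add, map_nsmul]
    rw [e3, e1, e2]
    have a1 : φ • φ ^ (i + 1) • x = φ ^ (i + 1 + 1) • x := by
      rw [← mul_smul, ← pow_succ']
    have a2 : φ⁻¹ • φ ^ (i + 1) • x = φ ^ i • x := by
      rw [pow_succ', mul_smul, inv_smul_smul]
    have a3 : φ • (φ⁻¹) ^ (i + 1) • x = (φ⁻¹) ^ i • x := by
      rw [pow_succ', mul_smul, smul_inv_smul]
    have a4 : φ⁻¹ • (φ⁻¹) ^ (i + 1) • x = (φ⁻¹) ^ (i + 1 + 1) • x := by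
      rw [← mul_smul, ← pow_succ']
    rw [a1, a2, a3, a4, smul_add, smul_add, smul_smul, smul_smul, ← pow_succ, ← pow_succ']
    abel

/-- the Dickson polynomial of the Hecke operator on `p`-power torsion -/
theorem psum_apply {ℓ : ℕ} (hℓ : ℓ.Prime) (hℓN : ¬ ℓ ∣ N) (hℓp : ℓ ≠ p)
    (A : ValuationSubring Qb) (hA : A.LiesOverPrime ℓ) (φ : GQ) (hφ : A.IsFrobeniusAt φ ℓ)
    (n : ℕ) (i : ℕ) (x : I.X) (hx : p ^ n • x = 0) :
    (psum (E := AddMonoid.End I.X) (I.T ⟨ℓ, hℓ⟩) (ℓ : AddMonoid.End I.X) i) x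
      = φ ^ i • x + ℓ ^ i • ((φ⁻¹) ^ i • x) :=
  psum_apply_aux (I.T ⟨ℓ, hℓ⟩) ℓ φ (fun x => p ^ n • x = 0)
    (fun σ _ hx => tors_smul I σ hx)
    (fun x hx => T_eq I hℓ hℓN hℓp A hA φ hφ n x hx) i x hx

/-- the Kummer maps intertwine the Dickson polynomials of the Hecke operators -/
theorem theta_psum (n : ℕ) {ℓ : ℕ} (hℓ : ℓ.Prime) (hℓN : ¬ ℓ ∣ N) (hℓS : ℓ ∉ (↑S : Set ℕ))
    (i : ℕ) :
    ∀ v : I.Λ, I.θ n (I.hecke (psum (CuspForm.heckeAlgebra.T hℓ hℓN hℓS)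
        (ℓ : CuspForm.heckeAlgebra N 2 (↑S : Set ℕ)) i) v)
      = (psum (E := AddMonoid.End I.X) (I.T ⟨ℓ, hℓ⟩) (ℓ : AddMonoid.End I.X) i) (I.θ n v) := by
  induction i using Nat.twoStepInduction with
  | zero =>
    intro v
    show I.θ n (I.hecke 2 v) = (2 : AddMonoid.End I.X) (I.θ n v)
    have h2 : (2 : AddMonoid.End I.X) = ((2 : ℕ) : AddMonoid.End I.X) := by norm_num
    have h3 : I.hecke 2 = ((2 : ℕ) : Module.End ℤ I.Λ) := by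
      rw [show (2 : CuspForm.heckeAlgebra N 2 (↑S : Set ℕ)) = ((2 : ℕ) : _) by norm_num,
        map_natCast]
    rw [h2, h3, AddMonoid.End.natCast_apply, Module.End.natCast_apply, map_nsmul]
  | one =>
    intro v
    exact I.θ_hecke n ℓ hℓ hℓN hℓS v
  | more i ih0 ih1 =>
    intro v
    show I.θ n (I.hecke (CuspForm.heckeAlgebra.T hℓ hℓN hℓS *
          psum (CuspForm.heckeAlgebra.T hℓ hℓN hℓS) (ℓ : CuspForm.heckeAlgebra N 2 (↑S : Set ℕ))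
            (i + 1)
        - (ℓ : CuspForm.heckeAlgebra N 2 (↑S : Set ℕ)) *
          psum (CuspForm.heckeAlgebra.T hℓ hℓN hℓS) (ℓ : CuspForm.heckeAlgebra N 2 (↑S : Set ℕ))
            i) v)
      = (HMul.hMul (α := AddMonoid.End I.X) (β := AddMonoid.End I.X) (I.T ⟨ℓ, hℓ⟩)
          (psum (E := AddMonoid.End I.X) (I.T ⟨ℓ, hℓ⟩) (ℓ : AddMonoid.End I.X) (i + 1))
        - (ℓ : AddMonoid.End I.X) *
          psum (E := AddMonoid.End I.X) (I.T ⟨ℓ, hℓ⟩) (ℓ : AddMonoid.End I.X) i) (I.θ n v)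
    rw [map_sub, map_mul, map_mul, map_natCast, LinearMap.sub_apply, Module.End.mul_apply,
      Module.End.mul_apply, Module.End.natCast_apply, map_sub, map_nsmul, ih0 v,
      I.θ_hecke n ℓ hℓ hℓN hℓS, ih1 v]
    rfl

/-- finitely many points are fixed by a common finite level -/
theorem exists_level_finset (s : Finset I.X) :
    ∃ L : IntermediateField ℚ Qb, FiniteDimensional ℚ L ∧
      ∀ σ : GQ, (∀ y ∈ L, σ y = y) → ∀ x ∈ s, σ • x = x := by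
  classical
  induction s using Finset.induction_on with
  | empty =>
    exact ⟨⊥, inferInstance, fun _ _ x hx => absurd hx (Finset.notMem_empty x)⟩
  | insert a s _ ih =>
    obtain ⟨L₁, hL₁, h₁⟩ := ih
    obtain ⟨L₂, hL₂, h₂⟩ := I.stab a
    have := hL₁
    have := hL₂
    refine ⟨L₁ ⊔ L₂, inferInstance, fun σ hσ x hx => ?_⟩
    rcases Finset.mem_insert.mp hx with rfl | hx
    · exact h₂ σ fun y hy => hσ y ((le_sup_right : L₂ ≤ L₁ ⊔ L₂) hy)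
    · exact h₁ σ (fun y hy => hσ y ((le_sup_left : L₁ ≤ L₁ ⊔ L₂) hy)) x hx

/-- congruent multipliers act equally on torsion -/
theorem nsmul_eq_of_modEq {X : Type*} [AddCommGroup X] {a b m : ℕ} (h : a ≡ b [MOD m]) {y : X}
    (hy : m • y = 0) : a • y = b • y := by
  have key : ∀ c : ℕ, c • y = (c % m) • y := by
    intro c
    conv_lhs => rw [← Nat.div_add_mod c m]
    rw [add_nsmul, mul_nsmul, hy, smul_zero, zero_add]
  rw [key a, key b, h]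

end Torsion

section Cyc

variable {p : ℕ} [Fact p.Prime]

theorem cyc_congr (ε : GQ →* ℤ_[p]ˣ) (m : ℕ) (g φ : GQ) (ℓ i : ℕ)
    (hφ : ((ε φ : ℤ_[p]ˣ) : ℤ_[p]) = (ℓ : ℤ_[p]))
    (hlev : ∃ w : ℤ_[p], ((ε (g⁻¹ * φ ^ i) : ℤ_[p]ˣ) : ℤ_[p]) = 1 + (p : ℤ_[p]) ^ m * w) :
    ∃ w : ℤ_[p], ((ℓ ^ i : ℕ) : ℤ_[p]) =
      ((ε g : ℤ_[p]ˣ) : ℤ_[p]) * (1 + (p : ℤ_[p]) ^ m * w) := by
  obtain ⟨w, hw⟩ := hlev
  refine ⟨w, ?_⟩
  rw [← hw, map_mul, map_inv, map_pow, Units.val_mul, Units.val_pow_eq_pow_val, hφ, ← mul_assoc,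
    Units.mul_inv, one_mul, Nat.cast_pow]

theorem modEq_of_padic {a b m : ℕ} {e w₁ w₂ : ℤ_[p]}
    (ha : (a : ℤ_[p]) = e * (1 + (p : ℤ_[p]) ^ m * w₁))
    (hb : (b : ℤ_[p]) = e * (1 + (p : ℤ_[p]) ^ m * w₂)) : a ≡ b [MOD p ^ m] := by
  have h : (a : ℤ_[p]) - b = (p : ℤ_[p]) ^ m * (e * (w₁ - w₂)) := by rw [ha, hb]; ring
  have h2 := congrArg (PadicInt.toZModPow m) h
  rw [map_sub, map_natCast, map_natCast, map_mul, map_pow, map_natCast] at h2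
  have h3 : ((p : ZMod (p ^ m)) ^ m) = 0 := by
    rw [← Nat.cast_pow]; exact ZMod.natCast_self (p ^ m)
  rw [h3, zero_mul, sub_eq_zero] at h2
  exact (ZMod.natCast_eq_natCast_iff a b (p ^ m)).mp h2

end Cyc

section Main

variable {p : ℕ} {N : ℕ} [NeZero N] {S : Finset ℕ}
  {𝒪 : Type} [CommRing 𝒪] [IsDomain 𝒪] [IsDiscreteValuationRing 𝒪]
  [IsAdicComplete (IsLocalRing.maximalIdeal 𝒪) 𝒪]
  {θ : CuspForm.heckeAlgebra N 2 (↑S : Set ℕ) →+* IsLocalRing.ResidueField 𝒪}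
  {T : Type} [CommRing T] [IsLocalRing T] [IsNoetherianRing T]
  [IsAdicComplete (IsLocalRing.maximalIdeal T) T] [Algebra 𝒪 T] [IsLocalHom (algebraMap 𝒪 T)]
  [Module.Finite 𝒪 T] [Module.Free 𝒪 T]

/-- traces are congruent modulo `𝔪 ^ n` for Galois elements agreeing on a finite level -/
theorem exists_trace_level {R : Type} [CommRing R] [IsLocalRing R] (ρ : GaloisRepAdic R) (n : ℕ) :
    ∃ L : IntermediateField ℚ Qb, FiniteDimensional ℚ L ∧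
      ∀ σ σ' : GQ, (∀ x ∈ L, σ x = σ' x) →
        LinearMap.trace R ρ.V (ρ.ρ σ) - LinearMap.trace R ρ.V (ρ.ρ σ') ∈
          IsLocalRing.maximalIdeal R ^ n := by
  obtain ⟨L, hL, h⟩ := AdicRed.redHom_factors ρ n
  refine ⟨L, hL, fun σ σ' hσ => AdicRed.trace_sub_mem_of_redHom_eq ρ n ?_⟩
  have h1 : AdicRed.redHom ρ n (σ⁻¹ * σ') = 1 := by
    apply h
    intro x hx
    rw [AlgEquiv.mul_apply, ← hσ x hx, ← AlgEquiv.mul_apply, inv_mul_cancel, AlgEquiv.one_apply]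
  have e : σ = σ' * (σ⁻¹ * σ')⁻¹ := by group
  calc AdicRed.redHom ρ n σ = AdicRed.redHom ρ n (σ' * (σ⁻¹ * σ')⁻¹) := by rw [← e]
    _ = AdicRed.redHom ρ n σ' * AdicRed.redHom ρ n ((σ⁻¹ * σ')⁻¹) := map_mul _ _ _
    _ = AdicRed.redHom ρ n σ' := by
        have h2 : AdicRed.redHom ρ n ((σ⁻¹ * σ')⁻¹) = 1 := by
          have h3 : AdicRed.redHom ρ n ((σ⁻¹ * σ')⁻¹) * AdicRed.redHom ρ n (σ⁻¹ * σ') = 1 := by
            rw [← map_mul, inv_mul_cancel, map_one]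
          rwa [h1, mul_one] at h3
        rw [h2, mul_one]

/-- the trace of a power of a Frobenius lift -/
theorem trace_frob_pow (H : CuspForm.HeckeGaloisRepDatum N (↑S : Set ℕ) 𝒪 θ T) {ℓ : ℕ}
    (hℓ : ℓ.Prime) (hℓN : ¬ ℓ ∣ N) (hℓS : ℓ ∉ (↑S : Set ℕ)) (A : ValuationSubring Qb)
    (hA : A.LiesOverPrime ℓ) (φ : GQ) (hφ : A.IsFrobeniusAt φ ℓ) (i : ℕ) :
    LinearMap.trace T H.ρ.V (H.ρ.ρ (φ ^ i)) =
      H.π (psum (CuspForm.heckeAlgebra.T hℓ hℓN hℓS)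
        (ℓ : CuspForm.heckeAlgebra N 2 (↑S : Set ℕ)) i) := by
  rw [map_psum, map_natCast, map_pow]
  exact trace_pow_eq_psum H.ρ.finrank_eq (H.ρ.ρ φ) _ _ (H.charpoly_frob ℓ hℓ hℓN hℓS A hA φ hφ) i

omit [IsDomain 𝒪] [IsDiscreteValuationRing 𝒪] [IsAdicComplete (IsLocalRing.maximalIdeal 𝒪) 𝒪]
  [IsNoetherianRing T] [IsAdicComplete (IsLocalRing.maximalIdeal T) T] [Module.Finite 𝒪 T]
  [Module.Free 𝒪 T] in
theorem natCast_mem_maximalIdeal [IsLocalRing 𝒪]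
    (hp𝒪 : (p : 𝒪) ∈ IsLocalRing.maximalIdeal 𝒪) :
    (p : T) ∈ IsLocalRing.maximalIdeal T := by
  have h : algebraMap 𝒪 T (p : 𝒪) ∈ IsLocalRing.maximalIdeal T := by
    rw [IsLocalRing.mem_maximalIdeal, mem_nonunits_iff]
    intro hu
    exact (IsLocalRing.mem_maximalIdeal _).mp hp𝒪 (isUnit_of_map_unit (algebraMap 𝒪 T) _ hu)
  rwa [map_natCast] at h

/-- **S31 from the abstract geometric input.** -/
theorem s31_of_geomInput [Fact p.Prime] (I : GeomInput p N S) (hcyc : CycPadic p)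
    (hcheb : WeakCheb)
    (hp𝒪 : (p : 𝒪) ∈ IsLocalRing.maximalIdeal 𝒪) (hpS : p ∈ S)
    (hNS : ∀ q : ℕ, q.Prime → q ∣ N → q ∈ S)
    (H : CuspForm.HeckeGaloisRepDatum N (↑S : Set ℕ) 𝒪 θ T)
    (q : ℕ) (hq : q.Prime) (hqS : q ∉ S) :
    H.ρ.IsUnramifiedAt q := by
  classical
  have hpT : (p : T) ∈ IsLocalRing.maximalIdeal T := natCast_mem_maximalIdeal hp𝒪
  have hqN : ¬ q ∣ N := fun h => hqS (hNS q hq h)
  have hqp : q ≠ p := fun h => hqS (h ▸ hpS)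
  obtain ⟨ε, hεlev, hεloc⟩ := hcyc
  obtain ⟨c, hc⟩ := Sat.exists_bound I.hecke I.hecke_injective p (Fact.out)
  apply TraceRigid.isUnramifiedAt_of_trace H.ρ H.residual_absIrr q
  intro P hP τ hτ n g
  -- the level
  obtain ⟨n', hn'⟩ : ∃ n' : ℕ, n' = n + c := ⟨_, rfl⟩
  let b := Module.Free.chooseBasis ℤ I.Λ
  let s : Finset I.X := (Finset.univ.image fun k => I.θ n' (b k)) ∪
    (Finset.univ.image fun k => g⁻¹ • I.θ n' (b k))
  have hs₁ : ∀ k, I.θ n' (b k) ∈ s := fun k =>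
    Finset.mem_union_left _ (Finset.mem_image_of_mem _ (Finset.mem_univ k))
  have hs₂ : ∀ k, g⁻¹ • I.θ n' (b k) ∈ s := fun k =>
    Finset.mem_union_right _ (Finset.mem_image_of_mem _ (Finset.mem_univ k))
  obtain ⟨L₁, hL₁, h₁⟩ := exists_trace_level H.ρ n
  obtain ⟨L₂, hL₂, h₂⟩ := hεlev n'
  obtain ⟨L₃, hL₃, h₃⟩ := exists_level_finset I s
  have := hL₁
  have := hL₂
  have := hL₃
  have hL₁L : L₁ ≤ L₁ ⊔ L₂ ⊔ L₃ := le_sup_left.trans le_sup_left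
  have hL₂L : L₂ ≤ L₁ ⊔ L₂ ⊔ L₃ := le_sup_right.trans le_sup_left
  have hL₃L : L₃ ≤ L₁ ⊔ L₂ ⊔ L₃ := le_sup_right
  obtain ⟨ℓ, A, φ, i, hℓ, hℓS, hA, hφ, hgφ⟩ := hcheb (L₁ ⊔ L₂ ⊔ L₃) S g
  obtain ⟨ℓ', A', φ', j, hℓ', hℓ'S, hA', hφ', hgφ'⟩ := hcheb (L₁ ⊔ L₂ ⊔ L₃) S (g * τ)
  have hℓN : ¬ ℓ ∣ N := fun h => hℓS (hNS ℓ hℓ h)
  have hℓp : ℓ ≠ p := fun h => hℓS (h ▸ hpS)
  have hℓ'N : ¬ ℓ' ∣ N := fun h => hℓ'S (hNS ℓ' hℓ' h)
  have hℓ'p : ℓ' ≠ p := fun h => hℓ'S (h ▸ hpS)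
  have hℓSc : ℓ ∉ (↑S : Set ℕ) := fun h => hℓS (Finset.mem_coe.mp h)
  have hℓ'Sc : ℓ' ∉ (↑S : Set ℕ) := fun h => hℓ'S (Finset.mem_coe.mp h)
  -- the two elements of the level group
  have hσ₁ : ∀ x ∈ L₁ ⊔ L₂ ⊔ L₃, (g⁻¹ * φ ^ i) x = x := by
    intro x hx
    rw [AlgEquiv.mul_apply, ← hgφ x hx, ← AlgEquiv.mul_apply, inv_mul_cancel, AlgEquiv.one_apply]
  have hσ₂ : ∀ x ∈ L₁ ⊔ L₂ ⊔ L₃, ((g * τ)⁻¹ * φ' ^ j) x = x := by
    intro x hx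
    rw [AlgEquiv.mul_apply, ← hgφ' x hx, ← AlgEquiv.mul_apply, inv_mul_cancel,
      AlgEquiv.one_apply]
  -- the trace side
  have ht₁ := h₁ g (φ ^ i) (fun x hx => hgφ x (hL₁L hx))
  have ht₂ := h₁ (g * τ) (φ' ^ j) (fun x hx => hgφ' x (hL₁L hx))
  rw [trace_frob_pow H hℓ hℓN hℓSc A hA φ hφ i] at ht₁
  rw [trace_frob_pow H hℓ' hℓ'N hℓ'Sc A' hA' φ' hφ' j] at ht₂
  -- the congruence of the cyclotomic values
  have hcong : ℓ ^ i ≡ ℓ' ^ j [MOD p ^ n'] := by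
    obtain ⟨w₁, hw₁⟩ := cyc_congr ε n' g φ ℓ i ((hεloc ℓ hℓ hℓp A hA).2 φ hφ)
      (h₂ (g⁻¹ * φ ^ i) (fun x hx => hσ₁ x (hL₂L hx)))
    obtain ⟨w₂, hw₂⟩ := cyc_congr ε n' (g * τ) φ' ℓ' j ((hεloc ℓ' hℓ' hℓ'p A' hA').2 φ' hφ')
      (h₂ ((g * τ)⁻¹ * φ' ^ j) (fun x hx => hσ₂ x (hL₂L hx)))
    rw [map_mul, (hεloc q hq hqp P hP).1 τ hτ, mul_one] at hw₂
    exact modEq_of_padic hw₁ hw₂
  -- the Hecke side
  have hτx : ∀ y : I.X, p ^ n' • y = 0 → τ • y = y :=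
    fun y hy => I.inertia q hq hqN hqp P hP τ hτ n' y hy
  have hkill : ∀ k, I.θ n' (I.hecke
      (psum (CuspForm.heckeAlgebra.T hℓ' hℓ'N hℓ'Sc)
          (ℓ' : CuspForm.heckeAlgebra N 2 (↑S : Set ℕ)) j
        - psum (CuspForm.heckeAlgebra.T hℓ hℓN hℓSc)
          (ℓ : CuspForm.heckeAlgebra N 2 (↑S : Set ℕ)) i) (b k)) = 0 := by
    intro k
    have hx : p ^ n' • I.θ n' (b k) = 0 := I.θ_tors n' (b k)
    have hgx : p ^ n' • (g⁻¹ • I.θ n' (b k)) = 0 := tors_smul I g⁻¹ hx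
    rw [map_sub, LinearMap.sub_apply, map_sub, theta_psum I n' hℓ' hℓ'N hℓ'Sc j (b k),
      theta_psum I n' hℓ hℓN hℓSc i (b k),
      psum_apply I hℓ' hℓ'N hℓ'p A' hA' φ' hφ' n' j _ hx,
      psum_apply I hℓ hℓN hℓp A hA φ hφ n' i _ hx]
    have e1 : φ ^ i • I.θ n' (b k) = g • I.θ n' (b k) := by
      have h := h₃ (g⁻¹ * φ ^ i) (fun x hx => hσ₁ x (hL₃L hx)) _ (hs₁ k)
      rw [mul_smul, inv_smul_eq_iff] at h
      exact h
    have e2 : (φ⁻¹) ^ i • I.θ n' (b k) = g⁻¹ • I.θ n' (b k) := by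
      have h := h₃ (g⁻¹ * φ ^ i) (fun x hx => hσ₁ x (hL₃L hx)) _ (hs₂ k)
      rw [mul_smul, inv_smul_eq_iff, smul_inv_smul] at h
      rw [inv_pow, inv_smul_eq_iff]
      exact h.symm
    have e3 : φ' ^ j • I.θ n' (b k) = g • I.θ n' (b k) := by
      have h := h₃ ((g * τ)⁻¹ * φ' ^ j) (fun x hx => hσ₂ x (hL₃L hx)) _ (hs₁ k)
      rw [mul_smul, inv_smul_eq_iff, mul_smul, hτx _ hx] at h
      exact h
    have e4 : (φ'⁻¹) ^ j • I.θ n' (b k) = g⁻¹ • I.θ n' (b k) := by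
      have h := h₃ ((g * τ)⁻¹ * φ' ^ j) (fun x hx => hσ₂ x (hL₃L hx)) _ (hs₂ k)
      rw [mul_smul, inv_smul_eq_iff, mul_smul, hτx _ hgx, smul_inv_smul] at h
      rw [inv_pow, inv_smul_eq_iff]
      exact h.symm
    rw [e1, e2, e3, e4, nsmul_eq_of_modEq hcong hgx, sub_self]
  -- saturation
  have hdiv : ∀ v : I.Λ, ∃ w : I.Λ, I.hecke
      (psum (CuspForm.heckeAlgebra.T hℓ' hℓ'N hℓ'Sc)
          (ℓ' : CuspForm.heckeAlgebra N 2 (↑S : Set ℕ)) j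
        - psum (CuspForm.heckeAlgebra.T hℓ hℓN hℓSc)
          (ℓ : CuspForm.heckeAlgebra N 2 (↑S : Set ℕ)) i) v = p ^ (n + c) • w := by
    choose w hw using fun k => I.θ_ker n' _ (hkill k)
    intro v
    refine ⟨∑ k, b.repr v k • w k, ?_⟩
    conv_lhs => rw [← b.sum_repr v]
    rw [map_sum, Finset.smul_sum]
    refine Finset.sum_congr rfl fun k _ => ?_
    rw [map_zsmul, hw k, hn', smul_comm]
  obtain ⟨a', ha'⟩ := hc _ n hdiv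
  have hπ : H.π (psum (CuspForm.heckeAlgebra.T hℓ' hℓ'N hℓ'Sc)
          (ℓ' : CuspForm.heckeAlgebra N 2 (↑S : Set ℕ)) j)
        - H.π (psum (CuspForm.heckeAlgebra.T hℓ hℓN hℓSc)
          (ℓ : CuspForm.heckeAlgebra N 2 (↑S : Set ℕ)) i) ∈ IsLocalRing.maximalIdeal T ^ n := by
    rw [← map_sub, ha', map_nsmul, nsmul_eq_mul, Nat.cast_pow]
    exact Ideal.mul_mem_right _ _ (Ideal.pow_mem_pow hpT n)
  have hfin : LinearMap.trace T H.ρ.V (H.ρ.ρ (g * τ)) - LinearMap.trace T H.ρ.V (H.ρ.ρ g) =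
      (LinearMap.trace T H.ρ.V (H.ρ.ρ (g * τ))
          - H.π (psum (CuspForm.heckeAlgebra.T hℓ' hℓ'N hℓ'Sc)
            (ℓ' : CuspForm.heckeAlgebra N 2 (↑S : Set ℕ)) j))
        - (LinearMap.trace T H.ρ.V (H.ρ.ρ g)
          - H.π (psum (CuspForm.heckeAlgebra.T hℓ hℓN hℓSc)
            (ℓ : CuspForm.heckeAlgebra N 2 (↑S : Set ℕ)) i))
        + (H.π (psum (CuspForm.heckeAlgebra.T hℓ' hℓ'N hℓ'Sc)
            (ℓ' : CuspForm.heckeAlgebra N 2 (↑S : Set ℕ)) j)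
          - H.π (psum (CuspForm.heckeAlgebra.T hℓ hℓN hℓSc)
            (ℓ : CuspForm.heckeAlgebra N 2 (↑S : Set ℕ)) i)) := by ring
  rw [hfin]
  exact Ideal.add_mem _ (Ideal.sub_mem _ ht₂ ht₁) hπ

end Main

end Fermat.Agent.S30.S31Core
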