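import Mathlib
import Fermat.Agent.S30.Defs
import Fermat.Agent.S30.AdicRed
import Fermat.Agent.S30.TraceRigid

/-!
# Trace congruences and trace rigidity in the phase-B interface shapes

* `TraceCongr.exists_level`: two elements of `G_ℚ` agreeing on a suitable finite level have
  traces congruent modulo `𝔪 ^ n`;
* `Span.eq_one_of_trace`: for a residually absolutely irreducible representation, an element
  `τ` with `tr ρ(g τ) = tr ρ(g)` for all `g` acts trivially.

Thin wrappers of `Fermat.Agent.S30.AdicRed` and `Fermat.Agent.S30.TraceRigid`.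
-/

set_option autoImplicit false

namespace Fermat.Agent.S30

/-- (B9) residually absolutely irreducible: traces detect the identity -/
theorem Span.eq_one_of_trace {R : Type} [CommRing R] [IsLocalRing R] (ρ : GaloisRepAdic R)
    (habs : ρ.residual.IsAbsolutelyIrreducible) (τ : GQ)
    (h : ∀ g : GQ, ρ.trace (g * τ) = ρ.trace g) : ρ.ρ τ = 1 :=
  TraceRigid.eq_one_of_trace_eq ρ habs τ h

/-- (B10) trace congruences -/
theorem TraceCongr.exists_level {R : Type} [CommRing R] [IsLocalRing R] (ρ : GaloisRepAdic R)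
    (n : ℕ) : ∃ L : IntermediateField ℚ Qb, FiniteDimensional ℚ L ∧
      ∀ σ σ' : GQ, (∀ x ∈ L, σ x = σ' x) →
        ρ.trace σ - ρ.trace σ' ∈ IsLocalRing.maximalIdeal R ^ n := by
  obtain ⟨L, hL, h⟩ := AdicRed.redHom_factors ρ n
  refine ⟨L, hL, fun σ σ' hσ => ?_⟩
  have h1 : AdicRed.redHom ρ n (σ'⁻¹ * σ) = 1 := by
    refine h _ fun x hx => ?_
    rw [AlgEquiv.mul_apply, hσ x hx, AlgEquiv.aut_inv, AlgEquiv.symm_apply_apply]
  have h2 : AdicRed.redHom ρ n σ = AdicRed.redHom ρ n σ' := by
    have e : σ = σ' * (σ'⁻¹ * σ) := by rw [mul_inv_cancel_left]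
    calc AdicRed.redHom ρ n σ = AdicRed.redHom ρ n (σ' * (σ'⁻¹ * σ)) := congrArg _ e
      _ = AdicRed.redHom ρ n σ' := by rw [map_mul, h1, mul_one]
  exact AdicRed.trace_sub_mem_of_redHom_eq ρ n h2

end Fermat.Agent.S30
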